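/-
S37 (SpecializationExists for `JZero N`): the FORMAL top reduction.

`SpecializationExists N p (JZero N)` follows from the existence, for every prime `ℓ ∤ N p` and
every valuation subring `A` of `ℚ̄` over `ℓ`, of ONE additive map `sp₀ : JZero N →+ X` into an
arbitrary additive group `X` such that
  (I)   `sp₀ (σ • x) = sp₀ x` for `σ` in the inertia group of `A`,
  (II)  for ONE Frobenius element `φ` at `A`:
        `sp₀ (φ • φ • x - T_ℓ (φ • x) + ℓ • x) = 0` for all `x` (Eichler–Shimura),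
  (III) `sp₀` is injective on `p`-power torsion.
No Hecke-equivariance of `sp₀` and no target Hecke module are needed: the target `J'` is the
quotient of `JZero N` by the largest Hecke- and decomposition-group-stable subgroup of `ker sp₀`.
Owner: helper33.
-/
import Fermat.Statements.S37

set_option autoImplicit false

open ModularCurve

namespace Fermat.Agent.S37Top

section Abstract

variable {K L : Type*} [Field K] [Field L] [Algebra K L]

theorem conj_mem_inertiaSubgroup (A : ValuationSubring L) {g : L ≃ₐ[K] L}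
    (hg : g ∈ A.decompositionSubgroup K) (τ : A.decompositionSubgroup K)
    (hτ : τ ∈ A.inertiaSubgroup K) :
    (⟨g, hg⟩ * τ * ⟨g, hg⟩⁻¹ : A.decompositionSubgroup K) ∈ A.inertiaSubgroup K := by
  have hn : (A.inertiaSubgroup K).Normal := by
    unfold ValuationSubring.inertiaSubgroup
    exact MonoidHom.normal_ker _
  exact hn.conj_mem τ hτ ⟨g, hg⟩

/-- Conjugates of inertia elements by decomposition-group elements are inertia elements. -/
theorem conj_mem_inertiaSubgroupIn (A : ValuationSubring L) {g σ : L ≃ₐ[K] L}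
    (hg : g ∈ A.decompositionSubgroup K) (hσ : σ ∈ A.inertiaSubgroupIn K) :
    g * σ * g⁻¹ ∈ A.inertiaSubgroupIn K := by
  unfold ValuationSubring.inertiaSubgroupIn at hσ ⊢
  rw [Subgroup.mem_map] at hσ ⊢
  obtain ⟨τ, hτ, rfl⟩ := hσ
  exact ⟨_, conj_mem_inertiaSubgroup A hg τ hτ, by simp⟩

/-- An element of the decomposition group acting trivially on the residue field is an inertia
element. -/
theorem mem_inertiaSubgroupIn_of_forall (A : ValuationSubring L) {τ : L ≃ₐ[K] L}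
    (hτ : τ ∈ A.decompositionSubgroup K)
    (h : ∀ x : IsLocalRing.ResidueField A, (⟨τ, hτ⟩ : A.decompositionSubgroup K) • x = x) :
    τ ∈ A.inertiaSubgroupIn K := by
  unfold ValuationSubring.inertiaSubgroupIn
  rw [Subgroup.mem_map]
  refine ⟨⟨τ, hτ⟩, ?_, rfl⟩
  rw [ValuationSubring.inertiaSubgroup, MonoidHom.mem_ker]
  ext x
  exact h x

/-- The commutator of a decomposition-group element with a Frobenius element is an inertia
element (Frobenius `x ↦ x ^ ℓ` commutes with every ring automorphism of the residue field). -/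
theorem comm_frob_mem_inertiaSubgroupIn (A : ValuationSubring L) {ℓ : ℕ} {g φ : L ≃ₐ[K] L}
    (hg : g ∈ A.decompositionSubgroup K) (hφ : A.IsFrobeniusAt φ ℓ) :
    g * φ * g⁻¹ * φ⁻¹ ∈ A.inertiaSubgroupIn K := by
  have hφD := hφ.mem_decompositionSubgroup
  have hmem : g * φ * g⁻¹ * φ⁻¹ ∈ A.decompositionSubgroup K :=
    mul_mem (mul_mem (mul_mem hg hφD) (inv_mem hg)) (inv_mem hφD)
  refine mem_inertiaSubgroupIn_of_forall A hmem fun x => ?_
  set G : A.decompositionSubgroup K := ⟨g, hg⟩ with hG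
  set Φ : A.decompositionSubgroup K := ⟨φ, hφD⟩ with hΦ
  have e : (⟨g * φ * g⁻¹ * φ⁻¹, hmem⟩ : A.decompositionSubgroup K) = G * Φ * G⁻¹ * Φ⁻¹ := rfl
  have hF : ∀ y : IsLocalRing.ResidueField A, Φ • y = y ^ ℓ := hφ.smul_residue_eq
  -- it suffices to check after applying `Φ • ·` on the right argument
  obtain ⟨y, rfl⟩ : ∃ y, Φ • y = x := ⟨Φ⁻¹ • x, smul_inv_smul Φ x⟩
  rw [e, mul_smul, inv_smul_smul, mul_smul, mul_smul, hF, hF, smul_pow', smul_inv_smul]

/-- Two Frobenius elements at `A` differ by an inertia element. -/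
theorem inv_mul_mem_inertiaSubgroupIn (A : ValuationSubring L) {ℓ : ℕ} {φ ψ : L ≃ₐ[K] L}
    (hφ : A.IsFrobeniusAt φ ℓ) (hψ : A.IsFrobeniusAt ψ ℓ) :
    φ⁻¹ * ψ ∈ A.inertiaSubgroupIn K := by
  have hφD := hφ.mem_decompositionSubgroup
  have hψD := hψ.mem_decompositionSubgroup
  have hmem : φ⁻¹ * ψ ∈ A.decompositionSubgroup K := mul_mem (inv_mem hφD) hψD
  refine mem_inertiaSubgroupIn_of_forall A hmem fun x => ?_
  set Φ : A.decompositionSubgroup K := ⟨φ, hφD⟩ with hΦ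
  set Ψ : A.decompositionSubgroup K := ⟨ψ, hψD⟩ with hΨ
  have e : (⟨φ⁻¹ * ψ, hmem⟩ : A.decompositionSubgroup K) = Φ⁻¹ * Ψ := rfl
  rw [e, mul_smul, inv_smul_eq_iff, hφ.smul_residue_eq, hψ.smul_residue_eq]

variable (p : ℕ) (J : Type) [AddCommGroup J] [Module HeckeAlg J]
  [DistribMulAction (L ≃ₐ[K] L) J] [SMulCommClass (L ≃ₐ[K] L) HeckeAlg J]

/-- The abstract form of the reduction: a single additive map `sp₀` with (I), (II), (III)
produces the specialisation datum. -/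
theorem exists_specialization_of_hom (A : ValuationSubring L) (ℓ : ℕ) (hℓ : ℓ.Prime)
    {X : Type*} [AddCommGroup X] (sp₀ : J →+ X)
    (hI : ∀ σ ∈ A.inertiaSubgroupIn K, ∀ x : J, sp₀ (σ • x) = sp₀ x)
    (φ : L ≃ₐ[K] L) (hφ : A.IsFrobeniusAt φ ℓ)
    (hES : ∀ x : J, sp₀ (φ • φ • x - heckeGen ⟨ℓ, hℓ⟩ • (φ • x) + ℓ • x) = 0)
    (hinj : ∀ x : J, (∃ n : ℕ, p ^ n • x = 0) → sp₀ x = 0 → x = 0) :
    ∃ (J' : Type) (_ : AddCommGroup J') (_ : Module HeckeAlg J') (sp : J →+ J')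
      (F : J' →+ J'),
      IsSpecialization (K := K) p J J' A ℓ sp F ∧ SpecialFibreRelation J' ℓ hℓ F := by
  classical
  have : SMulCommClass HeckeAlg (L ≃ₐ[K] L) J := SMulCommClass.symm _ _ _
  have hφD := hφ.mem_decompositionSubgroup
  -- `K₁`: the largest Hecke-stable subgroup of `ker sp₀`
  let K₁ : Submodule HeckeAlg J :=
    { carrier := {x | ∀ T : HeckeAlg, sp₀ (T • x) = 0}
      zero_mem' := fun T => by rw [smul_zero, map_zero]
      add_mem' := fun {x y} hx hy T => by rw [smul_add, map_add, hx T, hy T, add_zero]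
      smul_mem' := fun T' x hx T => by rw [← mul_smul]; exact hx _ }
  have hK₁ : ∀ x : J, x ∈ K₁ ↔ ∀ T : HeckeAlg, sp₀ (T • x) = 0 := fun _ => Iff.rfl
  -- (i) inertia differences lie in `K₁`
  have h1 : ∀ τ ∈ A.inertiaSubgroupIn K, ∀ y : J, τ • y - y ∈ K₁ := by
    intro τ hτ y T
    rw [smul_sub, map_sub, smul_comm T τ y, hI τ hτ, sub_self]
  -- (ii) the Eichler–Shimura elements lie in `K₁`
  have h2 : ∀ y : J, φ • φ • y - heckeGen ⟨ℓ, hℓ⟩ • (φ • y) + ℓ • y ∈ K₁ := by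
    intro y T
    have e : T • (φ • φ • y - heckeGen ⟨ℓ, hℓ⟩ • (φ • y) + ℓ • y)
        = φ • φ • (T • y) - heckeGen ⟨ℓ, hℓ⟩ • (φ • (T • y)) + ℓ • (T • y) := by
      rw [smul_add, smul_sub, smul_comm T φ, smul_comm T φ, smul_comm T (heckeGen ⟨ℓ, hℓ⟩),
        smul_comm T φ, smul_comm T ℓ]
    rw [e]
    exact hES _
  -- `K₂`: the largest decomposition-group-stable subgroup of `K₁`
  let K₂ : Submodule HeckeAlg J :=
    { carrier := {x | ∀ g ∈ A.decompositionSubgroup K, g • x ∈ K₁}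
      zero_mem' := fun g _ => by rw [smul_zero]; exact K₁.zero_mem
      add_mem' := fun {x y} hx hy g hg => by rw [smul_add]; exact K₁.add_mem (hx g hg) (hy g hg)
      smul_mem' := fun T x hx g hg => by
        rw [smul_comm g T x]; exact K₁.smul_mem T (hx g hg) }
  have hK₂ : ∀ x : J, x ∈ K₂ ↔ ∀ g ∈ A.decompositionSubgroup K, g • x ∈ K₁ := fun _ => Iff.rfl
  have hK₂le : ∀ x : J, x ∈ K₂ → sp₀ x = 0 := by
    intro x hx
    have := hx 1 (one_mem _) 1
    rwa [one_smul, one_smul] at this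
  have hK₂stab : ∀ g ∈ A.decompositionSubgroup K, ∀ x ∈ K₂, g • x ∈ K₂ := by
    intro g hg x hx g' hg'
    rw [← mul_smul]
    exact hx _ (mul_mem hg' hg)
  -- inertia differences lie in `K₂`
  have h1' : ∀ τ ∈ A.inertiaSubgroupIn K, ∀ y : J, τ • y - y ∈ K₂ := by
    intro τ hτ y g hg
    have hc := conj_mem_inertiaSubgroupIn A hg hτ
    have e : g • (τ • y - y) = (g * τ * g⁻¹) • (g • y) - g • y := by
      rw [smul_sub, ← mul_smul, ← mul_smul, inv_mul_cancel_right]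
    rw [e]
    exact h1 _ hc _
  -- moving a decomposition-group element past `φ` modulo `K₁`
  have h3 : ∀ g ∈ A.decompositionSubgroup K, ∀ y : J, g • φ • y - φ • g • y ∈ K₁ := by
    intro g hg y
    have hc := comm_frob_mem_inertiaSubgroupIn A hg hφ
    have e : g • φ • y - φ • g • y = (g * φ * g⁻¹ * φ⁻¹) • (φ • g • y) - φ • g • y := by
      simp only [← mul_smul]
      congr 2
      group
    rw [e]
    exact h1 _ hc _
  -- `φ` maps `K₁`-congruent elements ... only needed through `K₂`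
  -- the Eichler–Shimura elements lie in `K₂`
  have h2' : ∀ y : J, φ • φ • y - heckeGen ⟨ℓ, hℓ⟩ • (φ • y) + ℓ • y ∈ K₂ := by
    intro y g hg
    set w := g • y with hw
    -- g φ φ y ≡ φ φ w,  g T φ y ≡ T φ w  (mod K₁)
    have a1 : g • φ • y - φ • w ∈ K₁ := h3 g hg y
    have a2 : g • φ • φ • y - φ • g • φ • y ∈ K₁ := h3 g hg (φ • y)
    -- φ (g φ y - φ w) ∈ K₁ : write as an inertia difference
    have a3 : φ • g • φ • y - φ • φ • w ∈ K₁ := by
      have hc := comm_frob_mem_inertiaSubgroupIn A hg hφ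
      have hc' := conj_mem_inertiaSubgroupIn A hφD hc
      have e : φ • g • φ • y - φ • φ • w
          = (φ * (g * φ * g⁻¹ * φ⁻¹) * φ⁻¹) • (φ • φ • w) - φ • φ • w := by
        rw [hw]
        simp only [← mul_smul]
        congr 2
        group
      rw [e]
      exact h1 _ hc' _
    have a4 : heckeGen ⟨ℓ, hℓ⟩ • (g • φ • y - φ • w) ∈ K₁ := K₁.smul_mem _ a1
    have e : g • (φ • φ • y - heckeGen ⟨ℓ, hℓ⟩ • (φ • y) + ℓ • y)
        = (g • φ • φ • y - φ • g • φ • y) + (φ • g • φ • y - φ • φ • w)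
          - heckeGen ⟨ℓ, hℓ⟩ • (g • φ • y - φ • w)
          + (φ • φ • w - heckeGen ⟨ℓ, hℓ⟩ • (φ • w) + ℓ • w) := by
      rw [smul_add, smul_sub, smul_comm g (heckeGen ⟨ℓ, hℓ⟩), smul_comm g ℓ, smul_sub, ← hw]
      abel
    rw [e]
    exact K₁.add_mem (K₁.sub_mem (K₁.add_mem a2 a3) a4) (h2 w)
  -- the Frobenius endomorphism of the quotient
  let φJ : J →+ J := DistribSMul.toAddMonoidHom J φ
  have hφJ : ∀ x, φJ x = φ • x := fun _ => rfl
  let F : (J ⧸ K₂) →+ (J ⧸ K₂) :=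
    QuotientAddGroup.map K₂.toAddSubgroup K₂.toAddSubgroup φJ
      (fun x hx => hK₂stab φ hφD x hx)
  have hF : ∀ x : J, F (Submodule.Quotient.mk x) = Submodule.Quotient.mk (φ • x) := fun _ => rfl
  refine ⟨J ⧸ K₂, inferInstance, inferInstance, K₂.mkQ.toAddMonoidHom, F, ⟨?_, ?_, ?_, ?_⟩, ?_⟩
  · intro T x
    rfl
  · intro σ hσ x
    show (Submodule.Quotient.mk (σ • x) : J ⧸ K₂) = Submodule.Quotient.mk x
    rw [Submodule.Quotient.eq]
    exact h1' σ hσ x
  · intro ψ hψ x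
    show (Submodule.Quotient.mk (ψ • x) : J ⧸ K₂) = F (Submodule.Quotient.mk x)
    rw [hF, Submodule.Quotient.eq]
    have hτ := inv_mul_mem_inertiaSubgroupIn A hφ hψ
    have e : ψ • x - φ • x = φ • ((φ⁻¹ * ψ) • x - x) := by
      rw [smul_sub, ← mul_smul, mul_inv_cancel_left]
    rw [e]
    exact hK₂stab φ hφD _ (h1' _ hτ x)
  · intro x hx h0
    have : x ∈ K₂ := (Submodule.Quotient.mk_eq_zero K₂).mp h0
    exact hinj x hx (hK₂le x this)
  · intro y
    obtain ⟨x, rfl⟩ := Submodule.Quotient.mk_surjective K₂ y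
    rw [hF, hF]
    show (Submodule.Quotient.mk (φ • φ • x) : J ⧸ K₂)
        - heckeGen ⟨ℓ, hℓ⟩ • Submodule.Quotient.mk (φ • x) + ℓ • Submodule.Quotient.mk x = 0
    rw [← Submodule.Quotient.mk_smul, ← Submodule.Quotient.mk_sub, ← Submodule.Quotient.mk_smul,
      ← Submodule.Quotient.mk_add, Submodule.Quotient.mk_eq_zero]
    exact h2' x

end Abstract

/-- The core datum for `S37` at `(ℓ, A)`: one additive map out of `JZero N` with (I), (II), (III).
`T_ℓ` is the frozen `heckeOperatorBar N ℓ`. -/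
def SpecCore (N p : ℕ) [NeZero N] (ℓ : ℕ) (hℓ : ℓ.Prime)
    (A : ValuationSubring (AlgebraicClosure ℚ)) : Prop :=
  ∃ (X : Type) (_ : AddCommGroup X) (sp₀ : JZero N →+ X),
    (∀ σ ∈ A.inertiaSubgroupIn ℚ, ∀ x : JZero N, sp₀ (σ • x) = sp₀ x) ∧
    (∃ φ : AlgebraicClosure ℚ ≃ₐ[ℚ] AlgebraicClosure ℚ, A.IsFrobeniusAt φ ℓ ∧
      ∀ x : JZero N, sp₀ (φ • φ • x - heckeOperatorBar N ⟨ℓ, hℓ⟩ (φ • x) + ℓ • x) = 0) ∧
    (∀ x : JZero N, (∃ n : ℕ, p ^ n • x = 0) → sp₀ x = 0 → x = 0)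

/-- **Top reduction of S37**: the frozen statement follows from `SpecCore` at every `(ℓ, A)`. -/
theorem specializationExists_of_specCore (N p : ℕ) [NeZero N]
    (hcomm : HeckeOperatorsCommuteBar N)
    (hcore : ∀ ℓ : ℕ, (hℓ : ℓ.Prime) → ¬ ℓ ∣ N * p →
      ∀ A : ValuationSubring (AlgebraicClosure ℚ), A.LiesOverPrime ℓ → SpecCore N p ℓ hℓ A) :
    letI := heckeModuleBar N
    ∀ (_ : SMulCommClass (AlgebraicClosure ℚ ≃ₐ[ℚ] AlgebraicClosure ℚ) HeckeAlg (JZero N)),
      SpecializationExists (K := ℚ) (L := AlgebraicClosure ℚ) N p (JZero N) := by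
  let _inst : Module HeckeAlg (JZero N) := heckeModuleBar N
  intro hsc ℓ hℓ hℓNp A hA
  obtain ⟨X, hX, sp₀, hI, ⟨φ, hφ, hES⟩, hinj⟩ := hcore ℓ hℓ hℓNp A hA
  refine exists_specialization_of_hom (K := ℚ) p (JZero N) A ℓ hℓ sp₀ hI φ hφ ?_ hinj
  intro x
  have e : (heckeGen (⟨ℓ, hℓ⟩ : Nat.Primes) • (φ • x) : JZero N)
      = heckeOperatorBar N ⟨ℓ, hℓ⟩ (φ • x) :=
    heckeModuleBar_heckeGen_smul hcomm ⟨ℓ, hℓ⟩ (φ • x)
  have h := hES x
  rw [← e] at h
  exact h

end Fermat.Agent.S37Top
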