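/-
S37 block [KC] (helper129): Kronecker congruence on q-expansions — pure Laurent-series algebra.

* `twist ζ : LaurentSeries R →+* LaurentSeries R` (`ζ : Rˣ`): `aₙ ↦ ζⁿ aₙ`  ("`y(ζ q)`").
* `qContract n : LaurentSeries R →+ LaurentSeries R`: `k`-th coefficient := `(n k)`-th coefficient
  (left inverse of the frozen `qExpand R n`; "`y(q^{1/n})`" on series in `q^n`).
* (a) `coeffMap_prod_twist`: if `f ζ = 1` then `coeffMap f (∏_{i<ℓ} twist (ζ^i) y) = (coeffMap f y)^ℓ`.
* (b) `pow_char_eq_qExpand_frobenius`: in characteristic `ℓ`,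
      `x ^ ℓ = qExpand k ℓ (coeffMap (frobenius k ℓ) x)`.
* `kronecker`: `coeffMap f (qExpand R ℓ y * qContract ℓ (∏_{i<ℓ} twist (ζ^i) y))
      = qExpand k ℓ (coeffMap f y) * coeffMap (frobenius k ℓ) (coeffMap f y)`.
-/
import Mathlib
import Fermat.Prelude.Def_ModularCurve_X0ModL
import Fermat.Prelude.Def_ModularCurve_ReductionModL
import Fermat.Prelude.Def_EllipticCurve_FrobeniusTrace
import Fermat.Prelude.Def_FLTPrelim_Ramification
import Fermat.Agent.S24.Rot
import Fermat.Agent.S18.BaseRes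

set_option autoImplicit false

open HahnSeries ModularCurve

namespace Fermat.Agent.S37.KC

noncomputable section

/-! ### The twist `q ↦ ζ q` -/

section Twist

variable {R S : Type*} [CommRing R] [CommRing S]

/-- Underlying function of `twist`. -/
def twistFun (ζ : Rˣ) (x : LaurentSeries R) : LaurentSeries R where
  coeff n := ((ζ ^ n : Rˣ) : R) * x.coeff n
  isPWO_support' := x.isPWO_support.mono fun n hn => by
    simp only [Function.mem_support, ne_eq] at hn
    exact fun h => hn (by rw [h, mul_zero])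

@[simp]
theorem twistFun_coeff (ζ : Rˣ) (x : LaurentSeries R) (n : ℤ) :
    (twistFun ζ x).coeff n = ((ζ ^ n : Rˣ) : R) * x.coeff n :=
  rfl

theorem twistFun_support (ζ : Rˣ) (x : LaurentSeries R) :
    (twistFun ζ x).support = x.support := by
  ext n
  simp only [HahnSeries.mem_support, twistFun_coeff, ne_eq, Units.mul_right_eq_zero]

theorem antidiagonal_congr {s s' t t' : Set ℤ} (hs : s.IsPWO) (hs' : s'.IsPWO)
    (ht : t.IsPWO) (ht' : t'.IsPWO) (h1 : s = s') (h2 : t = t') (n : ℤ) :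
    Finset.antidiagonal hs ht n = Finset.antidiagonal hs' ht' n := by
  subst h1; subst h2; rfl

theorem twistFun_mul (ζ : Rˣ) (x y : LaurentSeries R) :
    twistFun ζ (x * y) = twistFun ζ x * twistFun ζ y := by
  ext n
  rw [twistFun_coeff, HahnSeries.coeff_mul, HahnSeries.coeff_mul, Finset.mul_sum,
    antidiagonal_congr (twistFun ζ x).isPWO_support x.isPWO_support
      (twistFun ζ y).isPWO_support y.isPWO_support (twistFun_support ζ x) (twistFun_support ζ y)]
  refine Finset.sum_congr rfl fun ij hij => ?_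
  have h3 := (Finset.mem_antidiagonal.mp hij).2.2
  rw [twistFun_coeff, twistFun_coeff, ← h3, zpow_add, Units.val_mul]
  ring

/-- The coefficientwise twist `∑ aₙ qⁿ ↦ ∑ ζⁿ aₙ qⁿ` ("`q ↦ ζ q`") of Laurent series over a
commutative ring, for a unit `ζ`. -/
def twist (ζ : Rˣ) : LaurentSeries R →+* LaurentSeries R where
  toFun := twistFun ζ
  map_zero' := by ext n; simp
  map_one' := by
    ext n
    by_cases h : n = 0
    · subst h; simp
    · simp [HahnSeries.coeff_one, h]
  map_add' x y := by ext n; simp [mul_add]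
  map_mul' x y := twistFun_mul ζ x y

@[simp]
theorem twist_coeff (ζ : Rˣ) (x : LaurentSeries R) (n : ℤ) :
    (twist ζ x).coeff n = ((ζ ^ n : Rˣ) : R) * x.coeff n :=
  rfl

@[simp]
theorem twist_one (x : LaurentSeries R) : twist (1 : Rˣ) x = x := by
  ext n; simp

theorem twist_twist (ζ ξ : Rˣ) (x : LaurentSeries R) :
    twist ζ (twist ξ x) = twist (ζ * ξ) x := by
  ext n
  simp only [twist_coeff, mul_zpow, Units.val_mul]
  ring

theorem twist_support (ζ : Rˣ) (x : LaurentSeries R) : (twist ζ x).support = x.support :=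
  twistFun_support ζ x

theorem twist_injective (ζ : Rˣ) : Function.Injective (twist (R := R) ζ) := by
  intro x y h
  have := congrArg (twist ζ⁻¹) h
  simpa [twist_twist] using this

/-- The twist commutes with coefficient maps. -/
theorem coeffMap_twist (f : R →+* S) (ζ : Rˣ) (x : LaurentSeries R) :
    coeffMap f (twist ζ x) = twist (Units.map (f : R →* S) ζ) (coeffMap f x) := by
  ext n
  simp only [coeffMap_coeff, twist_coeff, map_mul, ← map_zpow]
  rfl

/-- A coefficient map killing `ζ - 1` does not see the twist. -/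
theorem coeffMap_twist_of_map_eq_one (f : R →+* S) {ζ : Rˣ} (hζ : f (ζ : R) = 1)
    (x : LaurentSeries R) : coeffMap f (twist ζ x) = coeffMap f x := by
  have h1 : Units.map (f : R →* S) ζ = 1 := Units.ext hζ
  rw [coeffMap_twist, h1, twist_one]

/-- `y(ζ q)` for `y(q) = x(q^n)`: `twist ζ (x(q^n)) = (twist (ζ^n) x)(q^n)`. -/
theorem twist_qExpand (ζ : Rˣ) (n : ℕ) [NeZero n] (x : LaurentSeries R) :
    twist ζ (qExpand R n x) = qExpand R n (twist (ζ ^ n) x) := by
  ext k
  by_cases hk : (n : ℤ) ∣ k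
  · obtain ⟨m, rfl⟩ := hk
    rw [twist_coeff, qExpand_coeff_mul, qExpand_coeff_mul, twist_coeff, zpow_mul, zpow_natCast]
  · rw [twist_coeff, qExpand_coeff_of_not_dvd n _ hk, qExpand_coeff_of_not_dvd n _ hk, mul_zero]

/-- (a) **Kronecker, multiplicative part**: if `f ζ = 1`, the product of the `ℓ` twists
`y(ζ^i q)` reduces to the `ℓ`-th power of the reduction of `y`. -/
theorem coeffMap_prod_twist (f : R →+* S) {ζ : Rˣ} (hζ : f (ζ : R) = 1) (ℓ : ℕ)
    (y : LaurentSeries R) :
    coeffMap f (∏ i ∈ Finset.range ℓ, twist (ζ ^ i) y) = coeffMap f y ^ ℓ := by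
  rw [map_prod]
  have h : ∀ i ∈ Finset.range ℓ, coeffMap f (twist (ζ ^ i) y) = coeffMap f y := by
    intro i _
    refine coeffMap_twist_of_map_eq_one f ?_ y
    rw [Units.val_pow_eq_pow_val, map_pow, hζ, one_pow]
  rw [Finset.prod_congr rfl h, Finset.prod_const, Finset.card_range]

end Twist

/-! ### Contraction `q^n ↦ q` -/

section Contract

variable {R S : Type*} [CommRing R] [CommRing S]

/-- `qContract n x` has `k`-th coefficient `x.coeff (n * k)`: the inverse of `q ↦ q^n` on series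
in `q^n` (left inverse of the frozen `qExpand R n`). -/
def qContractFun (n : ℕ) [NeZero n] (x : LaurentSeries R) : LaurentSeries R where
  coeff k := x.coeff ((n : ℤ) * k)
  isPWO_support' := by
    refine (BddBelow.isWF ⟨min x.order 0, ?_⟩).isPWO
    intro k hk
    simp only [Function.mem_support, ne_eq] at hk
    by_contra hlt
    rw [not_le] at hlt
    apply hk
    have hn : (1 : ℤ) ≤ (n : ℤ) := by exact_mod_cast Nat.one_le_iff_ne_zero.mpr (NeZero.ne n)
    have hk0 : k < 0 := lt_of_lt_of_le hlt (min_le_right _ _)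
    have hko : k < x.order := lt_of_lt_of_le hlt (min_le_left _ _)
    refine HahnSeries.coeff_eq_zero_of_lt_order ?_
    nlinarith

/-- `qContract n`, as an additive map. -/
def qContract (n : ℕ) [NeZero n] : LaurentSeries R →+ LaurentSeries R where
  toFun := qContractFun n
  map_zero' := by ext k; rfl
  map_add' x y := by ext k; rfl

@[simp]
theorem qContract_coeff (n : ℕ) [NeZero n] (x : LaurentSeries R) (k : ℤ) :
    (qContract n x).coeff k = x.coeff ((n : ℤ) * k) :=
  rfl

@[simp]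
theorem qContract_qExpand (n : ℕ) [NeZero n] (x : LaurentSeries R) :
    qContract n (qExpand R n x) = x := by
  ext k
  rw [qContract_coeff, qExpand_coeff_mul]

/-- A series supported in degrees divisible by `n` is `qExpand` of its contraction. -/
theorem qExpand_qContract (n : ℕ) [NeZero n] {x : LaurentSeries R}
    (hx : ∀ k : ℤ, ¬ (n : ℤ) ∣ k → x.coeff k = 0) :
    qExpand R n (qContract n x) = x := by
  ext k
  by_cases hk : (n : ℤ) ∣ k
  · obtain ⟨m, rfl⟩ := hk
    rw [qExpand_coeff_mul, qContract_coeff]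
  · rw [qExpand_coeff_of_not_dvd n _ hk, hx k hk]

theorem coeffMap_qContract (f : R →+* S) (n : ℕ) [NeZero n] (x : LaurentSeries R) :
    coeffMap f (qContract n x) = qContract n (coeffMap f x) := by
  ext k
  rfl

/-- On the image of `qExpand`, contraction is multiplicative. -/
theorem qContract_qExpand_mul (n : ℕ) [NeZero n] (x y : LaurentSeries R) :
    qContract n (qExpand R n x * qExpand R n y) = x * y := by
  rw [← map_mul, qContract_qExpand]

end Contract

/-! ### Frobenius: `x ^ ℓ = (Frob x)(q^ℓ)` in characteristic `ℓ` -/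

section Frobenius

variable {R : Type*} [CommRing R]

theorem qExpand_ofPowerSeries (n : ℕ) [NeZero n] (P : PowerSeries R) :
    qExpand R n (HahnSeries.ofPowerSeries ℤ R P)
      = HahnSeries.ofPowerSeries ℤ R (PowerSeries.expand n (NeZero.ne n) P) := by
  ext k
  have hn : (0 : ℤ) < (n : ℤ) := by exact_mod_cast Nat.pos_of_ne_zero (NeZero.ne n)
  by_cases hk : (n : ℤ) ∣ k
  · obtain ⟨m, rfl⟩ := hk
    rw [qExpand_coeff_mul]
    rcases le_or_gt 0 m with hm | hm
    · lift m to ℕ using hm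
      rw [HahnSeries.ofPowerSeries_apply_coeff,
        show (n : ℤ) * (m : ℤ) = ((n * m : ℕ) : ℤ) by push_cast; ring,
        HahnSeries.ofPowerSeries_apply_coeff, PowerSeries.coeff_expand_mul]
    · rw [ofPowerSeries_coeff_of_neg _ hm, ofPowerSeries_coeff_of_neg _ (by nlinarith)]
  · rw [qExpand_coeff_of_not_dvd n _ hk]
    rcases le_or_gt 0 k with hk0 | hk0
    · lift k to ℕ using hk0
      rw [HahnSeries.ofPowerSeries_apply_coeff, PowerSeries.coeff_expand_of_not_dvd]
      exact fun h => hk (by exact_mod_cast h)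
    · rw [ofPowerSeries_coeff_of_neg _ hk0]

theorem powerSeries_map_frobenius_expand (ℓ : ℕ) [Fact ℓ.Prime] [CharP R ℓ] (P : PowerSeries R) :
    (PowerSeries.expand ℓ (NeZero.ne ℓ) P).map (frobenius R ℓ) = P ^ ℓ :=
  MvPowerSeries.map_frobenius_expand (σ := Unit) ℓ (NeZero.ne ℓ) (f := P)

/-- (b) **Frobenius on Laurent series**: in characteristic `ℓ`,
`x ^ ℓ = (coefficientwise Frobenius of x)(q^ℓ)`. -/
theorem pow_char_eq_qExpand_frobenius (ℓ : ℕ) [Fact ℓ.Prime] [CharP R ℓ] (x : LaurentSeries R) :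
    x ^ ℓ = qExpand R ℓ (coeffMap (frobenius R ℓ) x) := by
  obtain ⟨o, P, rfl⟩ : ∃ (o : ℤ) (P : PowerSeries R),
      x = HahnSeries.single o (1 : R) * HahnSeries.ofPowerSeries ℤ R P :=
    ⟨x.order, x.powerSeriesPart, (LaurentSeries.single_order_mul_powerSeriesPart x).symm⟩
  have h1 : (HahnSeries.single o (1 : R)) ^ ℓ = HahnSeries.single ((ℓ : ℤ) * o) 1 := by
    rw [HahnSeries.single_pow, one_pow, nsmul_eq_mul]
  have h2 : (frobenius R ℓ) (1 : R) = 1 := map_one _
  rw [mul_pow, map_mul, map_mul, coeffMap_single, qExpand_single, h1, h2, coeffMap_ofPowerSeries,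
    qExpand_ofPowerSeries, ← map_pow, ← PowerSeries.map_expand, powerSeries_map_frobenius_expand]

end Frobenius

/-! ### The Kronecker congruence -/

section Kronecker

variable {R k : Type*} [CommRing R] [CommRing k]

/-- **Kronecker congruence on q-expansions.**  Let `f : R →+* k` with `k` of characteristic `ℓ`
and `ζ` a unit of `R` with `f ζ = 1` (e.g. `R = A` a valuation ring over `ℓ`, `f` the residue map,
`ζ` an `ℓ`-th root of unity).  For a Laurent series `y` over `R`,

  `T' y := y(q^ℓ) · (∏_{i<ℓ} y(ζ^i q))(q^{1/ℓ})`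

reduces to `ȳ(q^ℓ) · ȳ^{Frob}`. -/
theorem kronecker (ℓ : ℕ) [Fact ℓ.Prime] [CharP k ℓ] (f : R →+* k) {ζ : Rˣ}
    (hζ : f (ζ : R) = 1) (y : LaurentSeries R) :
    coeffMap f (qExpand R ℓ y * qContract ℓ (∏ i ∈ Finset.range ℓ, twist (ζ ^ i) y))
      = qExpand k ℓ (coeffMap f y) * coeffMap (frobenius k ℓ) (coeffMap f y) := by
  rw [map_mul, coeffMap_qExpand, coeffMap_qContract, coeffMap_prod_twist f hζ,
    pow_char_eq_qExpand_frobenius, qContract_qExpand]

/-- The second factor alone. -/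
theorem coeffMap_qContract_prod_twist (ℓ : ℕ) [Fact ℓ.Prime] [CharP k ℓ] (f : R →+* k) {ζ : Rˣ}
    (hζ : f (ζ : R) = 1) (y : LaurentSeries R) :
    coeffMap f (qContract ℓ (∏ i ∈ Finset.range ℓ, twist (ζ ^ i) y))
      = coeffMap (frobenius k ℓ) (coeffMap f y) := by
  rw [coeffMap_qContract, coeffMap_prod_twist f hζ, pow_char_eq_qExpand_frobenius,
    qContract_qExpand]

end Kronecker

/-! ### Twist-invariance of the product: it is a series in `q^ℓ` -/

section Invariance

variable {R : Type*} [CommRing R]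

/-- The product `∏_{i<ℓ} y(ζ^i q)` is invariant under `q ↦ ζ q` when `ζ^ℓ = 1`. -/
theorem twist_prod_twist {ζ : Rˣ} {ℓ : ℕ} (hζ : ζ ^ ℓ = 1) (y : LaurentSeries R) :
    twist ζ (∏ i ∈ Finset.range ℓ, twist (ζ ^ i) y) = ∏ i ∈ Finset.range ℓ, twist (ζ ^ i) y := by
  rw [map_prod]
  have h1 : ∀ i ∈ Finset.range ℓ, twist ζ (twist (ζ ^ i) y) = twist (ζ ^ (i + 1)) y := by
    intro i _
    rw [twist_twist, pow_succ']
  rw [Finset.prod_congr rfl h1]
  rcases ℓ with _ | n
  · simp
  · rw [Finset.prod_range_succ, Finset.prod_range_succ' (fun i => twist (ζ ^ i) y) n, hζ, pow_zero]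

/-- A series invariant under `q ↦ ζ q`, `ζ` a primitive `n`-th root of unity in a domain, is
supported in degrees divisible by `n`. -/
theorem coeff_eq_zero_of_twist_eq_self [IsDomain R] {ζ : Rˣ} {n : ℕ}
    (hζ : IsPrimitiveRoot (ζ : R) n) {x : LaurentSeries R} (hx : twist ζ x = x) {k : ℤ}
    (hk : ¬ (n : ℤ) ∣ k) : x.coeff k = 0 := by
  have h := congrArg (fun g => g.coeff k) hx
  simp only [twist_coeff] at h
  have h2 : (((ζ ^ k : Rˣ) : R) - 1) * x.coeff k = 0 := by rw [sub_mul, h, one_mul, sub_self]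
  rcases mul_eq_zero.mp h2 with h3 | h3
  · exfalso
    apply hk
    have hu : IsPrimitiveRoot ζ n := IsPrimitiveRoot.coe_units_iff.mp hζ
    refine (hu.zpow_eq_one_iff_dvd k).mp ?_
    exact Units.ext (sub_eq_zero.mp h3)
  · exact h3

/-- For `ζ` a primitive `ℓ`-th root of unity in a domain, the product `∏_{i<ℓ} y(ζ^i q)` is a
series in `q^ℓ`: it is `qExpand` of its contraction. -/
theorem qExpand_qContract_prod_twist [IsDomain R] {ζ : Rˣ} {ℓ : ℕ} [NeZero ℓ]
    (hζ : IsPrimitiveRoot (ζ : R) ℓ) (y : LaurentSeries R) :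
    qExpand R ℓ (qContract ℓ (∏ i ∈ Finset.range ℓ, twist (ζ ^ i) y))
      = ∏ i ∈ Finset.range ℓ, twist (ζ ^ i) y := by
  refine qExpand_qContract ℓ fun k hk => ?_
  refine coeff_eq_zero_of_twist_eq_self hζ (twist_prod_twist ?_ y) hk
  exact Units.ext (by simpa using hζ.pow_eq_one)

end Invariance

/-! ### The operator `T'` and its instantiation over a valuation subring -/

section KronT

variable {R S : Type*} [CommRing R] [CommRing S]

/-- `T' y := y(q^ℓ) · (∏_{i<ℓ} y(ζ^i q))(q^{1/ℓ})`. -/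
def kronT (ζ : Rˣ) (ℓ : ℕ) [NeZero ℓ] (y : LaurentSeries R) : LaurentSeries R :=
  qExpand R ℓ y * qContract ℓ (∏ i ∈ Finset.range ℓ, twist (ζ ^ i) y)

theorem coeffMap_kronT (f : R →+* S) (ζ : Rˣ) (ℓ : ℕ) [NeZero ℓ] (y : LaurentSeries R) :
    coeffMap f (kronT ζ ℓ y) = kronT (Units.map (f : R →* S) ζ) ℓ (coeffMap f y) := by
  rw [kronT, kronT, map_mul, coeffMap_qExpand, coeffMap_qContract, map_prod]
  congr 2
  refine Finset.prod_congr rfl fun i _ => ?_
  rw [coeffMap_twist, map_pow]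

/-- `β(T' y) = y(q^{ℓ²}) · ∏_{i<ℓ} y(ζ^i q)` for a primitive `ℓ`-th root of unity `ζ`. -/
theorem qExpand_kronT [IsDomain R] {ζ : Rˣ} {ℓ : ℕ} [NeZero ℓ]
    (hζ : IsPrimitiveRoot (ζ : R) ℓ) (y : LaurentSeries R) :
    qExpand R ℓ (kronT ζ ℓ y)
      = qExpand R ℓ (qExpand R ℓ y) * ∏ i ∈ Finset.range ℓ, twist (ζ ^ i) y := by
  rw [kronT, map_mul, qExpand_qContract_prod_twist hζ]

/-- **Kronecker congruence**, in terms of `kronT`. -/
theorem coeffMap_kronT_of_map_eq_one {k : Type*} [CommRing k] (ℓ : ℕ) [Fact ℓ.Prime] [CharP k ℓ]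
    (f : R →+* k) {ζ : Rˣ} (hζ : f (ζ : R) = 1) (y : LaurentSeries R) :
    coeffMap f (kronT ζ ℓ y)
      = qExpand k ℓ (coeffMap f y) * coeffMap (frobenius k ℓ) (coeffMap f y) :=
  kronecker ℓ f hζ y

end KronT

section ValRing

open Fermat.Agent.S24 Fermat.Agent.S18.BaseRes

variable {L : Type*} [Field L]

/-- Over a field, `twist` is S24's `rotHom`. -/
theorem twist_eq_rotHom (v : Lˣ) (z : LaurentSeries L) :
    twist v z = rotHom (v : L) v.ne_zero z := by
  ext n
  rw [twist_coeff, rotHom_coeff, Units.val_zpow_eq_zpow_val]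

/-- An `n`-th root of unity of `L`, as a unit of the valuation subring `A`. -/
def rootUnit (A : ValuationSubring L) {n : ℕ} (hn : n ≠ 0) {ζ : L} (hζ : ζ ^ n = 1) : Aˣ where
  val := ⟨ζ, rootOfUnity_mem A hn hζ⟩
  inv := ⟨ζ ^ (n - 1), rootOfUnity_mem A hn (by rw [← pow_mul, mul_comm, pow_mul, hζ, one_pow])⟩
  val_inv := Subtype.ext (by
    show ζ * ζ ^ (n - 1) = 1
    rw [← pow_succ', Nat.sub_add_cancel (Nat.one_le_iff_ne_zero.mpr hn), hζ])
  inv_val := Subtype.ext (by
    show ζ ^ (n - 1) * ζ = 1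
    rw [← pow_succ, Nat.sub_add_cancel (Nat.one_le_iff_ne_zero.mpr hn), hζ])

@[simp]
theorem coe_rootUnit (A : ValuationSubring L) {n : ℕ} (hn : n ≠ 0) {ζ : L} (hζ : ζ ^ n = 1) :
    (((rootUnit A hn hζ : Aˣ) : A) : L) = ζ :=
  rfl

/-- `ζ ≡ 1 mod 𝔪_A` for an `ℓ`-th root of unity `ζ` when `A` lies over `ℓ`. -/
theorem residue_rootUnit (ℓ : ℕ) [Fact ℓ.Prime] (A : ValuationSubring L) (hA : A.LiesOverPrime ℓ)
    {ζ : L} (hζ : ζ ^ ℓ = 1) :
    IsLocalRing.residue A ((rootUnit A (NeZero.ne ℓ) hζ : Aˣ) : A) = 1 := by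
  have := charP_residueField ℓ A hA
  have h0 : ((rootUnit A (NeZero.ne ℓ) hζ : Aˣ) : A) ^ ℓ = 1 := Subtype.ext (by simpa using hζ)
  have h1 : (IsLocalRing.residue A ((rootUnit A (NeZero.ne ℓ) hζ : Aˣ) : A)) ^ ℓ = 1 := by
    rw [← map_pow, h0, map_one]
  have h2 : (IsLocalRing.residue A ((rootUnit A (NeZero.ne ℓ) hζ : Aˣ) : A) - 1) ^ ℓ = 0 := by
    rw [sub_pow_char, h1, one_pow, sub_self]
  exact sub_eq_zero.mp ((pow_eq_zero_iff (NeZero.ne ℓ)).mp h2)

/-- The generic fibre of the twist by a unit of `A` is S24's rotation. -/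
theorem coeffMap_subtype_twist (A : ValuationSubring L) (u : Aˣ) (y : LaurentSeries A) :
    coeffMap A.subtype (twist u y)
      = rotHom (((u : A) : L)) (by
          have h := (Units.map (A.subtype : A →* L) u).ne_zero
          exact h) (coeffMap A.subtype y) := by
  rw [coeffMap_twist, twist_eq_rotHom]
  rfl

/-- **[KC], valuation-subring form.**  `A` a valuation subring of `L` over `ℓ`, `ζ ∈ L` with
`ζ^ℓ = 1`, `y` a Laurent series with coefficients in `A`.  Then
`T'y = y(q^ℓ)·(∏_{i<ℓ} y(ζ^i q))(q^{1/ℓ})` (computed in `L((q))` with S24's `rotHom`) has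
coefficients in `A`, and its reduction is `ȳ(q^ℓ) · Frob(ȳ)`. -/
theorem kronecker_valuationSubring (ℓ : ℕ) [Fact ℓ.Prime] (A : ValuationSubring L)
    (hA : A.LiesOverPrime ℓ) [CharP (IsLocalRing.ResidueField A) ℓ] {ζ : L} (hζ : ζ ^ ℓ = 1)
    (hζ0 : ζ ≠ 0) (y : LaurentSeries A) :
    ∃ y' : LaurentSeries A,
      coeffMap A.subtype y' = qExpand L ℓ (coeffMap A.subtype y) *
          qContract ℓ (∏ i ∈ Finset.range ℓ,
            rotHom (ζ ^ i) (pow_ne_zero i hζ0) (coeffMap A.subtype y)) ∧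
      coeffMap (IsLocalRing.residue A) y' =
        qExpand (IsLocalRing.ResidueField A) ℓ (coeffMap (IsLocalRing.residue A) y) *
          coeffMap (frobenius (IsLocalRing.ResidueField A) ℓ)
            (coeffMap (IsLocalRing.residue A) y) := by
  refine ⟨kronT (rootUnit A (NeZero.ne ℓ) hζ) ℓ y, ?_, ?_⟩
  · rw [kronT, map_mul, coeffMap_qExpand, coeffMap_qContract, map_prod]
    congr 2
    refine Finset.prod_congr rfl fun i _ => ?_
    rw [coeffMap_subtype_twist]
    congr 1
  · exact coeffMap_kronT_of_map_eq_one ℓ (IsLocalRing.residue A) (residue_rootUnit ℓ A hA hζ) y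

/-- **[KC], norm form.**  If `T ∈ L((q))` satisfies
`T(q^ℓ) = y(q^{ℓ²}) · ∏_{i<ℓ} y(ζ^i q)` for a primitive `ℓ`-th root of unity `ζ` (this is what the
norm computation (D1) gives for `T = β⁻¹ N_β(α y)`), and `y` has coefficients in `A`, then `T` has
coefficients in `A` and reduces to `ȳ(q^ℓ) · Frob(ȳ)`. -/
theorem kronecker_of_qExpand_eq (ℓ : ℕ) [Fact ℓ.Prime] (A : ValuationSubring L)
    (hA : A.LiesOverPrime ℓ) [CharP (IsLocalRing.ResidueField A) ℓ] {ζ : L}
    (hζ : IsPrimitiveRoot ζ ℓ) (y : LaurentSeries A) (T : LaurentSeries L)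
    (hT : qExpand L ℓ T = qExpand L ℓ (qExpand L ℓ (coeffMap A.subtype y)) *
      ∏ i ∈ Finset.range ℓ,
        rotHom (ζ ^ i) (pow_ne_zero i (hζ.ne_zero (NeZero.ne ℓ))) (coeffMap A.subtype y)) :
    ∃ t : LaurentSeries A, coeffMap A.subtype t = T ∧
      coeffMap (IsLocalRing.residue A) t =
        qExpand (IsLocalRing.ResidueField A) ℓ (coeffMap (IsLocalRing.residue A) y) *
          coeffMap (frobenius (IsLocalRing.ResidueField A) ℓ)
            (coeffMap (IsLocalRing.residue A) y) := by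
  have hζ1 : ζ ^ ℓ = 1 := hζ.pow_eq_one
  refine ⟨kronT (rootUnit A (NeZero.ne ℓ) hζ1) ℓ y, ?_,
    coeffMap_kronT_of_map_eq_one ℓ (IsLocalRing.residue A) (residue_rootUnit ℓ A hA hζ1) y⟩
  apply qExpand_injective (R := L) ℓ
  rw [hT, coeffMap_kronT]
  have hprim : IsPrimitiveRoot
      ((Units.map (A.subtype : A →* L) (rootUnit A (NeZero.ne ℓ) hζ1) : Lˣ) : L) ℓ := hζ
  rw [qExpand_kronT hprim]
  congr 1
  refine Finset.prod_congr rfl fun i _ => ?_
  rw [twist_eq_rotHom]
  congr 1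

/-- **[KC], norm form**, with an arbitrary family of nonvanishing proofs for `rotHom`
(so that rewriting never depends on a particular proof term). -/
theorem kronecker_of_qExpand_eq' (ℓ : ℕ) [Fact ℓ.Prime] (A : ValuationSubring L)
    (hA : A.LiesOverPrime ℓ) [CharP (IsLocalRing.ResidueField A) ℓ] {ζ : L}
    (hζ : IsPrimitiveRoot ζ ℓ) (h0 : ∀ i : ℕ, ζ ^ i ≠ 0) (y : LaurentSeries A)
    (T : LaurentSeries L)
    (hT : qExpand L ℓ T = qExpand L ℓ (qExpand L ℓ (coeffMap A.subtype y)) *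
      ∏ i ∈ Finset.range ℓ, rotHom (ζ ^ i) (h0 i) (coeffMap A.subtype y)) :
    ∃ t : LaurentSeries A, coeffMap A.subtype t = T ∧
      coeffMap (IsLocalRing.residue A) t =
        qExpand (IsLocalRing.ResidueField A) ℓ (coeffMap (IsLocalRing.residue A) y) *
          coeffMap (frobenius (IsLocalRing.ResidueField A) ℓ)
            (coeffMap (IsLocalRing.residue A) y) :=
  kronecker_of_qExpand_eq ℓ A hA hζ y T hT

/-- **[KC], norm form**, with `y(q^{ℓ²})` written as `qExpand L (ℓ * ℓ)`: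
if `T(q^ℓ) = y(q^{ℓ·ℓ}) · ∏_{i<ℓ} y(ζ^i q)` then `T` is `A`-integral and
`red T = ȳ(q^ℓ) · Frob(ȳ)`. -/
theorem kronecker_of_qExpand_mul_self_eq (ℓ : ℕ) [Fact ℓ.Prime] [NeZero (ℓ * ℓ)]
    (A : ValuationSubring L) (hA : A.LiesOverPrime ℓ) [CharP (IsLocalRing.ResidueField A) ℓ]
    {ζ : L} (hζ : IsPrimitiveRoot ζ ℓ) (h0 : ∀ i : ℕ, ζ ^ i ≠ 0) (y : LaurentSeries A)
    (T : LaurentSeries L)
    (hT : qExpand L ℓ T = qExpand L (ℓ * ℓ) (coeffMap A.subtype y) *
      ∏ i ∈ Finset.range ℓ, rotHom (ζ ^ i) (h0 i) (coeffMap A.subtype y)) :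
    ∃ t : LaurentSeries A, coeffMap A.subtype t = T ∧
      coeffMap (IsLocalRing.residue A) t =
        qExpand (IsLocalRing.ResidueField A) ℓ (coeffMap (IsLocalRing.residue A) y) *
          coeffMap (frobenius (IsLocalRing.ResidueField A) ℓ)
            (coeffMap (IsLocalRing.residue A) y) := by
  refine kronecker_of_qExpand_eq ℓ A hA hζ y T ?_
  rw [hT, qExpand_qExpand]

/-- The integral model `kronT` of `T'`: generic fibre, in S24 vocabulary, for an arbitrary family
of nonvanishing proofs. -/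
theorem coeffMap_subtype_kronT (A : ValuationSubring L) {ℓ : ℕ} [NeZero ℓ] {ζ : L}
    (hζ : ζ ^ ℓ = 1) (h0 : ∀ i : ℕ, ζ ^ i ≠ 0) (y : LaurentSeries A) :
    coeffMap A.subtype (kronT (rootUnit A (NeZero.ne ℓ) hζ) ℓ y)
      = qExpand L ℓ (coeffMap A.subtype y) *
          qContract ℓ (∏ i ∈ Finset.range ℓ, rotHom (ζ ^ i) (h0 i) (coeffMap A.subtype y)) := by
  rw [kronT, map_mul, coeffMap_qExpand, coeffMap_qContract, map_prod]
  congr 2
  refine Finset.prod_congr rfl fun i _ => ?_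
  rw [coeffMap_subtype_twist]
  congr 1

end ValRing

/-! ### Perfect residue fields: the `φ⁻¹` form -/

section Perfect

variable {k : Type*} [CommRing k]

/-- `x(q^ℓ) = (φ⁻¹ x)^ℓ` over a perfect ring of characteristic `ℓ` (`φ` = coefficientwise
Frobenius). -/
theorem qExpand_eq_pow_frobeniusEquiv_symm (ℓ : ℕ) [Fact ℓ.Prime] [CharP k ℓ] [PerfectRing k ℓ]
    (x : LaurentSeries k) :
    qExpand k ℓ x = coeffMap ((frobeniusEquiv k ℓ).symm : k →+* k) x ^ ℓ := by
  rw [pow_char_eq_qExpand_frobenius, coeffMap_coeffMap]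
  congr 1
  conv_lhs => rw [← coeffMap_id x]
  refine coeffMap_congr (RingHom.ext fun a => ?_) x
  simp

end Perfect


/-! ### The captain's binding statements (board #1515) -/

section Binding

open Fermat.Agent.S24 Fermat.Agent.S18.BaseRes

/-- Freshman's dream on Laurent series in characteristic `ℓ`. -/
theorem pow_eq_qExpand_coeffMap {k : Type*} [Field k] (ℓ : ℕ) [Fact ℓ.Prime] [CharP k ℓ]
    (σ : k →+* k) (hσ : ∀ x, σ x = x ^ ℓ) (f : LaurentSeries k) :
    haveI : NeZero ℓ := ⟨(Fact.out : ℓ.Prime).ne_zero⟩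
    f ^ ℓ = qExpand k ℓ (coeffMap σ f) := by
  have h : σ = frobenius k ℓ := RingHom.ext fun x => by rw [hσ, frobenius_def]
  rw [h]
  exact pow_char_eq_qExpand_frobenius ℓ f

/-- **Kronecker congruence.** -/
theorem kronecker_congruence (ℓ : ℕ) [Fact ℓ.Prime] (A : ValuationSubring (AlgebraicClosure ℚ))
    (hA : A.LiesOverPrime ℓ)
    (σ : IsLocalRing.ResidueField A ≃+* IsLocalRing.ResidueField A) (hσ : ∀ x, σ x = x ^ ℓ)
    (ζ : AlgebraicClosure ℚ) (hζ : ζ ^ ℓ = 1) (hζ0 : ζ ≠ 0)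
    (y : LaurentSeries A) (G : LaurentSeries (AlgebraicClosure ℚ))
    (hG : haveI : NeZero ℓ := ⟨(Fact.out : ℓ.Prime).ne_zero⟩
      haveI : NeZero (ℓ * ℓ) := ⟨mul_ne_zero (Fact.out : ℓ.Prime).ne_zero (Fact.out : ℓ.Prime).ne_zero⟩
      qExpand (AlgebraicClosure ℚ) ℓ G =
        qExpand (AlgebraicClosure ℚ) (ℓ * ℓ) (coeffMap A.subtype y) *
          ∏ i ∈ Finset.range ℓ,
            Fermat.Agent.S24.rotHom (ζ ^ i) (pow_ne_zero i hζ0) (coeffMap A.subtype y)) :
    ∃ g : LaurentSeries A, coeffMap A.subtype g = G ∧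
      coeffMap (IsLocalRing.residue A) g =
        coeffMap (σ : IsLocalRing.ResidueField A →+* IsLocalRing.ResidueField A)
            (coeffMap (IsLocalRing.residue A) y) *
          (coeffMap (σ.symm : IsLocalRing.ResidueField A →+* IsLocalRing.ResidueField A)
            (coeffMap (IsLocalRing.residue A) y)) ^ ℓ := by
  have hne : NeZero ℓ := ⟨(Fact.out : ℓ.Prime).ne_zero⟩
  have hne2 : NeZero (ℓ * ℓ) :=
    ⟨mul_ne_zero (Fact.out : ℓ.Prime).ne_zero (Fact.out : ℓ.Prime).ne_zero⟩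
  have hchar : CharP (IsLocalRing.ResidueField A) ℓ := charP_residueField ℓ A hA
  refine ⟨qContract ℓ (qExpand A (ℓ * ℓ) y *
    ∏ i ∈ Finset.range ℓ, twist (rootUnit A (NeZero.ne ℓ) hζ ^ i) y), ?_, ?_⟩
  · -- generic fibre: no primitivity of `ζ` is needed
    have hprod : ∏ i ∈ Finset.range ℓ,
          coeffMap A.subtype (twist (rootUnit A (NeZero.ne ℓ) hζ ^ i) y)
        = ∏ i ∈ Finset.range ℓ,
            rotHom (ζ ^ i) (pow_ne_zero i hζ0) (coeffMap A.subtype y) :=
      Finset.prod_congr rfl fun i _ => by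
        rw [coeffMap_subtype_twist]
        congr 1
    rw [coeffMap_qContract, map_mul, coeffMap_qExpand, map_prod, hprod]
    have hG' : qExpand (AlgebraicClosure ℚ) ℓ G =
        qExpand (AlgebraicClosure ℚ) (ℓ * ℓ) (coeffMap A.subtype y) *
          ∏ i ∈ Finset.range ℓ,
            rotHom (ζ ^ i) (pow_ne_zero i hζ0) (coeffMap A.subtype y) := hG
    rw [← hG', qContract_qExpand]
  · -- reduction
    have hσf : (σ : IsLocalRing.ResidueField A →+* IsLocalRing.ResidueField A)
        = frobenius (IsLocalRing.ResidueField A) ℓ :=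
      RingHom.ext fun x => by
        rw [frobenius_def]
        exact hσ x
    have h2 : (coeffMap (σ.symm : IsLocalRing.ResidueField A →+* IsLocalRing.ResidueField A)
          (coeffMap (IsLocalRing.residue A) y)) ^ ℓ
        = qExpand (IsLocalRing.ResidueField A) ℓ (coeffMap (IsLocalRing.residue A) y) := by
      rw [pow_char_eq_qExpand_frobenius, ← hσf, coeffMap_coeffMap]
      congr 1
      conv_rhs => rw [← coeffMap_id (coeffMap (IsLocalRing.residue A) y)]
      exact coeffMap_congr (RingHom.ext fun a => σ.apply_symm_apply a) _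
    rw [h2, hσf, coeffMap_qContract, map_mul, coeffMap_qExpand,
      coeffMap_prod_twist _ (residue_rootUnit ℓ A hA hζ), pow_char_eq_qExpand_frobenius,
      ← qExpand_qExpand, ← map_mul, qContract_qExpand, mul_comm]

end Binding

end

end Fermat.Agent.S37.KC
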