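/-
S37 block [H] (owner: helper53; this leaf: helper17): generic facts on function fields in one
variable (`Fermat.Agent.S24.IsFF1`) over an algebraically closed field of characteristic zero:
finiteness of extensions, existence of principal divisors, inertia degrees are one.
-/
import Mathlib
import Fermat.Prelude.Def_AlgebraicCurve_DivisorPushPull
import Fermat.Agent.S24.Defs
import Fermat.Agent.S24.Residue
import Fermat.Agent.S24.Principal

set_option autoImplicit false

open AlgebraicCurve

namespace Fermat.Agent.S37.HI

open Fermat.Agent.S24

variable {K F F' : Type*} [Field K] [Field F] [Field F'] [Algebra K F] [Algebra K F']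
  [IsAlgClosed K] [CharZero K]

/-- A function field in one variable has principal divisors (of degree zero). -/
theorem hasPrincipalDivisors_of_isFF1 (hF : IsFF1 K F) : HasPrincipalDivisors K F := by
  refine ⟨fun f hf => ?_⟩
  have hfin : (Function.support fun v : Place K F => v.ord f).Finite := finite_ord_ne_zero hF hf
  refine ⟨Finsupp.ofSupportFinite (fun v : Place K F => v.ord f) hfin, fun v => rfl, ?_⟩
  exact degree_eq_zero_of_principal hF hf _ fun v => rfl

variable [Algebra F F'] [IsScalarTower K F F']

open IntermediateField in
/-- An extension of function fields in one variable over `K` is finite. -/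
theorem finite_of_isFF1 (hF : IsFF1 K F) (hF' : IsFF1 K F') : Module.Finite F F' := by
  obtain ⟨x, hx, -⟩ := hF
  have ht : Transcendental K (algebraMap F F' x) :=
    (transcendental_algebraMap_iff (algebraMap F F').injective).mpr hx
  have hfin : FiniteDimensional K⟮algebraMap F F' x⟯ F' := finiteDimensional_adjoin_simple hF' ht
  have hle : K⟮algebraMap F F' x⟯ ≤ (IsScalarTower.toAlgHom K F F').fieldRange := by
    rw [IntermediateField.adjoin_simple_le_iff]
    exact ⟨x, rfl⟩
  obtain ⟨s, hs⟩ := Module.finite_def.mp hfin
  have key : ∀ y : F', y ∈ Submodule.span K⟮algebraMap F F' x⟯ (s : Set F') →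
      y ∈ Submodule.span F (s : Set F') := by
    intro y hy
    induction hy using Submodule.span_induction with
    | mem z hz => exact Submodule.subset_span hz
    | zero => exact zero_mem _
    | add a b _ _ ha hb => exact add_mem ha hb
    | smul c z _ hz =>
      obtain ⟨c', hc'⟩ := hle c.2
      have e : algebraMap F F' c' = (c : F') := hc'
      have hcz : c • z = c' • z := by
        rw [Algebra.smul_def c' z, e]
        rfl
      rw [hcz]
      exact Submodule.smul_mem _ _ hz
  refine ⟨⟨s, ?_⟩⟩
  rw [eq_top_iff]
  intro y _
  exact key y (by rw [hs]; trivial)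

/-- All inertia degrees are one. -/
theorem inertiaDeg_eq_one_of_isFF1 [Algebra.IsIntegral F F'] (hF : IsFF1 K F)
    (hF' : IsFF1 K F') (w : Place K F') : w.inertiaDeg F = 1 := by
  have h := w.deg_restrict_mul_inertiaDeg (F := F)
  rw [place_deg_eq_one hF (w.restrict F), place_deg_eq_one hF' w, one_mul] at h
  exact h

end Fermat.Agent.S37.HI
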