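/-
S37 block [H] (integrator: helper53; written by helper13): Dedekind-domain side of the norm
formula.  Mathlib-only.  For a finite extension `S / R` of Dedekind domains and a height-one
prime `P` of `R`:  `ord_P (N_{S/R} x) = ∑_{Q ∣ P} f(Q ∣ P) · ord_Q x`.
-/
import Mathlib

set_option autoImplicit false

open IsDedekindDomain

namespace Fermat.Agent.S37.HI

section Ideal

variable {R S : Type*} [CommRing R] [IsDedekindDomain R] [CommRing S] [IsDedekindDomain S]
  [Algebra R S] [Module.Finite R S] [Module.IsTorsionFree R S]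

/-- The primes of `S` above a height-one prime of `R` are finitely many. -/
theorem finite_setOf_under_eq (P : HeightOneSpectrum R) :
    {Q : HeightOneSpectrum S | Q.asIdeal.under R = P.asIdeal}.Finite := by
  have hfin := IsDedekindDomain.primesOver_finite P.asIdeal S
  refine Set.Finite.of_finite_image (f := fun Q : HeightOneSpectrum S => Q.asIdeal)
    (hfin.subset ?_) ?_
  · rintro _ ⟨Q, hQ, rfl⟩
    exact ⟨Q.isPrime, ⟨hQ.symm⟩⟩
  · intro Q _ Q' _ h
    exact HeightOneSpectrum.ext h

/-- **Ideal-norm formula**: multiplicity of `P` in the relative norm of a nonzero ideal. -/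
theorem multiplicity_relNorm [PerfectField (FractionRing R)] (P : HeightOneSpectrum R)
    (I : Ideal S) (hI : I ≠ ⊥) :
    multiplicity P.asIdeal (Ideal.relNorm R I) =
      ∑ᶠ (Q : HeightOneSpectrum S) (_ : Q.asIdeal.under R = P.asIdeal),
        Q.asIdeal.inertiaDeg R * multiplicity Q.asIdeal I := by
  classical
  have hfin := finite_setOf_under_eq (S := S) P
  have hmem : ∀ Q : HeightOneSpectrum S, Q ∈ hfin.toFinset ↔ Q.asIdeal.under R = P.asIdeal := by
    intro Q
    exact Set.Finite.mem_toFinset hfin
  have key : ∀ J : Ideal S, J ≠ ⊥ → multiplicity P.asIdeal (Ideal.relNorm R J)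
      = ∑ Q ∈ hfin.toFinset, Q.asIdeal.inertiaDeg R * multiplicity Q.asIdeal J := by
    intro J
    induction J using UniqueFactorizationMonoid.induction_on_prime with
    | h₁ => intro h; exact absurd rfl h
    | h₂ J hJ =>
      intro _
      have hJtop : J = ⊤ := Ideal.isUnit_iff.mp hJ
      subst hJtop
      have h1 : multiplicity P.asIdeal (Ideal.relNorm R (⊤ : Ideal S)) = 0 := by
        rw [Ideal.relNorm_top]
        rw [multiplicity_eq_zero]
        rw [Ideal.dvd_iff_le, top_le_iff]
        exact P.isPrime.ne_top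
      rw [h1]
      symm
      apply Finset.sum_eq_zero
      intro Q _
      have h2 : multiplicity Q.asIdeal (⊤ : Ideal S) = 0 := by
        rw [multiplicity_eq_zero]
        rw [Ideal.dvd_iff_le, top_le_iff]
        exact Q.isPrime.ne_top
      rw [h2, mul_zero]
    | h₃ J Q0 hJ0 hQ0 ih =>
      intro _
      have hQ0ne : Q0 ≠ ⊥ := hQ0.ne_zero
      have hQ0prime : Q0.IsPrime := Ideal.isPrime_of_prime hQ0
      have hQ0max : Q0.IsMaximal := hQ0prime.isMaximal hQ0ne
      have hp0ne : Q0.under R ≠ ⊥ := Ideal.under_ne_bot R hQ0ne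
      have hp0max : (Q0.under R).IsMaximal := inferInstance
      have hrel : Ideal.relNorm R Q0 = (Q0.under R) ^ Q0.inertiaDeg R :=
        Ideal.relNorm_eq_pow_of_isMaximal Q0 (Q0.under R)
      have hJne : Ideal.relNorm R J ≠ ⊥ := by
        rw [ne_eq, Ideal.relNorm_eq_bot_iff]; exact hJ0
      have hQ0rel : Ideal.relNorm R Q0 ≠ ⊥ := by
        rw [ne_eq, Ideal.relNorm_eq_bot_iff]; exact hQ0ne
      have hprodne : Ideal.relNorm R Q0 * Ideal.relNorm R J ≠ 0 := mul_ne_zero hQ0rel hJne
      -- left side
      have hL : multiplicity P.asIdeal (Ideal.relNorm R (Q0 * J))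
          = (if Q0.under R = P.asIdeal then Q0.inertiaDeg R else 0)
            + multiplicity P.asIdeal (Ideal.relNorm R J) := by
        rw [map_mul, multiplicity_mul P.prime (FiniteMultiplicity.of_prime_left P.prime hprodne),
          hrel]
        congr 1
        split_ifs with h
        · rw [h]
          exact multiplicity_pow_self_of_prime P.prime _
        · rw [multiplicity_eq_zero]
          intro hdvd
          have h1 : P.asIdeal ∣ Q0.under R := P.prime.dvd_of_dvd_pow hdvd
          rw [Ideal.dvd_iff_le] at h1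
          exact h (hp0max.eq_of_le P.isPrime.ne_top h1)
      -- right side
      have hR : ∀ Q : HeightOneSpectrum S, multiplicity Q.asIdeal (Q0 * J)
          = (if Q.asIdeal = Q0 then 1 else 0) + multiplicity Q.asIdeal J := by
        intro Q
        rw [multiplicity_mul Q.prime (FiniteMultiplicity.of_prime_left Q.prime
          (mul_ne_zero hQ0ne hJ0))]
        congr 1
        split_ifs with h
        · rw [h]
          exact multiplicity_self
        · rw [multiplicity_eq_zero]
          intro hdvd
          rw [Ideal.dvd_iff_le] at hdvd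
          exact h (hQ0max.eq_of_le Q.isPrime.ne_top hdvd).symm
      rw [hL, ih hJ0]
      simp only [hR, mul_add, Finset.sum_add_distrib]
      congr 1
      split_ifs with h
      · have hQ0mem : (⟨Q0, hQ0prime, hQ0ne⟩ : HeightOneSpectrum S) ∈ hfin.toFinset := by
          rw [hmem]; exact h
        rw [Finset.sum_eq_single_of_mem _ hQ0mem]
        · simp
        · intro Q _ hQ
          have : Q.asIdeal ≠ Q0 := fun h' => hQ (HeightOneSpectrum.ext h')
          rw [if_neg this, mul_zero]
      · symm
        apply Finset.sum_eq_zero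
        intro Q hQ
        rw [hmem] at hQ
        have : Q.asIdeal ≠ Q0 := by
          intro h'
          apply h
          rw [← h', hQ]
        rw [if_neg this, mul_zero]
  rw [key I hI]
  exact (finsum_mem_eq_finite_toFinset_sum _ hfin).symm

/-- Element form, in terms of the integer valuations. -/
theorem log_intValuation_intNorm [PerfectField (FractionRing R)] (P : HeightOneSpectrum R)
    (x : S) (hx : x ≠ 0) :
    -(WithZero.log (P.intValuation (Algebra.intNorm R S x))) =
      ∑ᶠ (Q : HeightOneSpectrum S) (_ : Q.asIdeal.under R = P.asIdeal),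
        (Q.asIdeal.inertiaDeg R : ℤ) * -(WithZero.log (Q.intValuation x)) := by
  have hN : Algebra.intNorm R S x ≠ 0 := by
    rwa [ne_eq, Algebra.intNorm_eq_zero]
  have hspan : Ideal.span ({x} : Set S) ≠ ⊥ := by
    rwa [ne_eq, Ideal.span_singleton_eq_bot]
  have hlog : ∀ (Q : HeightOneSpectrum S),
      -(WithZero.log (Q.intValuation x)) = (multiplicity Q.asIdeal (Ideal.span {x}) : ℤ) := by
    intro Q
    rw [Q.intValuation_eq_exp_neg_multiplicity hx, WithZero.log_exp, neg_neg]
  rw [P.intValuation_eq_exp_neg_multiplicity hN, WithZero.log_exp, neg_neg,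
    ← Ideal.relNorm_singleton, multiplicity_relNorm P _ hspan]
  have hfin := finite_setOf_under_eq (S := S) P
  have e1 : (∑ᶠ (Q : HeightOneSpectrum S) (_ : Q.asIdeal.under R = P.asIdeal),
        Q.asIdeal.inertiaDeg R * multiplicity Q.asIdeal (Ideal.span {x}))
      = ∑ Q ∈ hfin.toFinset, Q.asIdeal.inertiaDeg R * multiplicity Q.asIdeal (Ideal.span {x}) :=
    finsum_mem_eq_finite_toFinset_sum _ hfin
  have e2 : (∑ᶠ (Q : HeightOneSpectrum S) (_ : Q.asIdeal.under R = P.asIdeal),
        (Q.asIdeal.inertiaDeg R : ℤ) * -(WithZero.log (Q.intValuation x)))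
      = ∑ Q ∈ hfin.toFinset, (Q.asIdeal.inertiaDeg R : ℤ) * -(WithZero.log (Q.intValuation x)) :=
    finsum_mem_eq_finite_toFinset_sum _ hfin
  rw [e1, e2, Nat.cast_sum]
  refine Finset.sum_congr rfl fun Q _ => ?_
  rw [Nat.cast_mul, hlog]

end Ideal

end Fermat.Agent.S37.HI
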