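/-
S37 block [H] (owner: helper53): inertia degrees (Mathlib `Ideal.inertiaDeg`) are one when the
residue field upstairs is the base field `K`.  Mathlib-only.
-/
import Mathlib

set_option autoImplicit false

open IsDedekindDomain

namespace Fermat.Agent.S37.HI

section InertiaAux

variable {K R S : Type*} [Field K] [CommRing R] [CommRing S]
  [Algebra R S] [Algebra K R] [Algebra K S] [IsScalarTower K R S]

/-- Auxiliary: for an ideal `q` of `S` lying over `p`, if the structure map `K → S ⧸ q` is
surjective then so is `R ⧸ p → S ⧸ q`. -/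
theorem HIInertia_surjective_algebraMap_quotient (p : Ideal R) (q : Ideal S) [q.LiesOver p]
    (hQ : Function.Surjective (algebraMap K (S ⧸ q))) :
    Function.Surjective (algebraMap (R ⧸ p) (S ⧸ q)) := by
  intro y
  obtain ⟨c, rfl⟩ := hQ y
  refine ⟨Ideal.Quotient.mk p (algebraMap K R c), ?_⟩
  rw [Ideal.Quotient.algebraMap_mk_of_liesOver, ← IsScalarTower.algebraMap_apply K R S]
  rfl

omit [Field K] [Algebra K R] [Algebra K S] [IsScalarTower K R S] in
/-- Auxiliary: a surjective (hence bijective) structure map `R ⧸ p → S ⧸ q` gives rank one. -/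
theorem HIInertia_finrank_eq_one_of_surjective (p : Ideal R) (q : Ideal S) [q.LiesOver p]
    [p.IsPrime]
    (hsurj : Function.Surjective (algebraMap (R ⧸ p) (S ⧸ q))) :
    Module.finrank (R ⧸ p) (S ⧸ q) = 1 := by
  have hinj : Function.Injective (algebraMap (R ⧸ p) (S ⧸ q)) :=
    FaithfulSMul.algebraMap_injective (R ⧸ p) (S ⧸ q)
  let e : (R ⧸ p) ≃ₗ[R ⧸ p] (S ⧸ q) :=
    LinearEquiv.ofBijective (Algebra.linearMap (R ⧸ p) (S ⧸ q)) ⟨hinj, hsurj⟩
  rw [← e.finrank_eq]
  exact Module.finrank_self (R ⧸ p)

end InertiaAux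

section Inertia

variable {K R S : Type*} [Field K] [CommRing R] [IsDedekindDomain R] [CommRing S]
  [IsDedekindDomain S] [Algebra R S] [Algebra K R] [Algebra K S] [IsScalarTower K R S]

/-- If the residue field of `Q` is `K`, the inertia degree of `Q` over `R` is one. -/
theorem inertiaDeg_eq_one_of_surjective (Q : HeightOneSpectrum S)
    (hP : Q.asIdeal.under R ≠ ⊥)
    (hQ : Function.Surjective (algebraMap K (S ⧸ Q.asIdeal))) :
    Q.asIdeal.inertiaDeg R = 1 := by
  have hpprime : (Q.asIdeal.under R).IsPrime := inferInstance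
  have hpmax : (Q.asIdeal.under R).IsMaximal := hpprime.isMaximal hP
  have hqmax : Q.asIdeal.IsMaximal := Q.isMaximal
  rw [Ideal.inertiaDeg_eq_of_isMaximal (Q.asIdeal.under R) Q.asIdeal]
  exact HIInertia_finrank_eq_one_of_surjective (Q.asIdeal.under R) Q.asIdeal
    (HIInertia_surjective_algebraMap_quotient (Q.asIdeal.under R) Q.asIdeal hQ)

end Inertia

end Fermat.Agent.S37.HI
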