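/-
S37 block [H] (owner: helper53; leaf P proved by helper124): places of `F'` above a place of `F`
coming from a height-one prime `P` of a Dedekind domain `R ⊆ F`, in terms of the height-one primes
of a Dedekind domain `S ⊆ F'` integral over `R`.
-/
import Mathlib
import Fermat.Prelude.Def_AlgebraicCurve_DivisorPushPull
import Fermat.Agent.S24.Defs
import Fermat.Agent.S24.Residue
import Fermat.Agent.S24.PlacesDedekind

set_option autoImplicit false

open AlgebraicCurve IsDedekindDomain

namespace Fermat.Agent.S37.HI

section Residue

variable {K F' : Type*} [Field K] [Field F'] [Algebra K F'] [IsAlgClosed K] [CharZero K]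
variable {S : Type*} [CommRing S] [IsDedekindDomain S] [Algebra K S] [Algebra S F']
  [IsScalarTower K S F'] [IsFractionRing S F']

omit [IsAlgClosed K] [CharZero K] in
/-- Elements of `S` lie in the valuation ring of the place attached to `Q`. -/
theorem HIPlaces_algebraMap_mem (Q : HeightOneSpectrum S) (s : S) :
    algebraMap S F' s ∈ (Place.ofHeightOneSpectrum (K := K) (F := F') Q).toValuationSubring := by
  show algebraMap S F' s ∈ (Q.valuation F').valuationSubring
  rw [Valuation.mem_valuationSubring_iff]
  exact Q.valuation_le_one s

omit [IsAlgClosed K] [CharZero K] in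
/-- An element of `S` of positive order at the place attached to `Q` lies in `Q`. -/
theorem HIPlaces_mem_of_ord_pos (Q : HeightOneSpectrum S) (x : S)
    (hx : 0 < (Place.ofHeightOneSpectrum (K := K) (F := F') Q).ord (algebraMap S F' x)) :
    x ∈ Q.asIdeal := by
  rw [Fermat.Agent.S24.ord_ofHeightOneSpectrum] at hx
  have hval0 : Q.valuation F' (algebraMap S F' x) ≠ 0 := by
    intro h0
    rw [h0] at hx
    simp at hx
  have hlt : Q.valuation F' (algebraMap S F' x) < 1 := by
    rw [← WithZero.log_lt_log hval0 one_ne_zero, WithZero.log_one]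
    omega
  exact (Q.valuation_lt_one_iff_mem x).mp hlt

/-- The residue field of a height-one prime of `S` is `K`. -/
theorem surjective_algebraMap_quotient (hF' : Fermat.Agent.S24.IsFF1 K F')
    (Q : HeightOneSpectrum S) : Function.Surjective (algebraMap K (S ⧸ Q.asIdeal)) := by
  intro y
  obtain ⟨s, rfl⟩ := Ideal.Quotient.mk_surjective y
  have hmem := HIPlaces_algebraMap_mem (K := K) (F' := F') Q s
  have hord : 0 ≤ (Place.ofHeightOneSpectrum (K := K) (F := F') Q).ord (algebraMap S F' s) := by
    by_cases hs0 : algebraMap S F' s = 0
    · rw [hs0]; simp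
    · exact Fermat.Agent.S24.residue_ord_nonneg_of_mem _ hs0 hmem
  obtain ⟨a, ha | ha⟩ := Fermat.Agent.S24.exists_residue hF' _ hord
  · refine ⟨a, ?_⟩
    have hs : s = algebraMap K S a := by
      apply IsFractionRing.injective S F'
      rw [ha, ← IsScalarTower.algebraMap_apply]
    rw [hs]
    rfl
  · refine ⟨a, ?_⟩
    have hx : algebraMap S F' (s - algebraMap K S a)
        = algebraMap S F' s - algebraMap K F' a := by
      rw [map_sub, ← IsScalarTower.algebraMap_apply]
    rw [← hx] at ha
    have hmemQ : s - algebraMap K S a ∈ Q.asIdeal := HIPlaces_mem_of_ord_pos (K := K) Q _ ha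
    have hmk : Ideal.Quotient.mk Q.asIdeal s = Ideal.Quotient.mk Q.asIdeal (algebraMap K S a) :=
      Ideal.Quotient.eq.mpr hmemQ
    rw [hmk]
    rfl

end Residue

section Restrict

variable {K F F' : Type*} [Field K] [Field F] [Field F'] [Algebra K F] [Algebra K F']
  [Algebra F F'] [IsScalarTower K F F'] [Algebra.IsIntegral F F']
variable {R S : Type*} [CommRing R] [IsDedekindDomain R] [CommRing S] [IsDedekindDomain S]
  [Algebra K R] [Algebra R F] [IsScalarTower K R F] [IsFractionRing R F]
  [Algebra K S] [Algebra S F'] [IsScalarTower K S F'] [IsFractionRing S F']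
  [Algebra R S] [Algebra R F'] [IsScalarTower R F F'] [IsScalarTower R S F']
  [Algebra.IsIntegral R S]

omit [Algebra.IsIntegral F F'] [IsDedekindDomain R] [IsDedekindDomain S] [IsFractionRing R F]
  [IsFractionRing S F'] [Algebra.IsIntegral R S] in
/-- The two ways of mapping `R` into `F'` agree. -/
theorem HIPlaces_algebraMap_comp (r : R) :
    algebraMap F F' (algebraMap R F r) = algebraMap S F' (algebraMap R S r) := by
  rw [← IsScalarTower.algebraMap_apply R F F', ← IsScalarTower.algebraMap_apply R S F']

-- (`[Algebra.IsIntegral R S]` is not needed for this direction; it stays in the signature because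
-- the skeleton's binders are binding, hence the linter option.)
set_option linter.unusedSectionVars false in
/-- The place of `F'` attached to `Q` restricts to the place of `F` attached to `Q ∩ R`. -/
theorem restrict_ofHeightOneSpectrum (Q : HeightOneSpectrum S) (P : HeightOneSpectrum R)
    (h : Q.asIdeal.under R = P.asIdeal) :
    (Place.ofHeightOneSpectrum (K := K) (F := F') Q).restrict F
      = Place.ofHeightOneSpectrum (K := K) (F := F) P := by
  symm
  apply Place.ext
  show (P.valuation F).valuationSubring
      = ((Q.valuation F').valuationSubring).comap (algebraMap F F')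
  have hle : (P.valuation F).valuationSubring
      ≤ ((Q.valuation F').valuationSubring).comap (algebraMap F F') := by
    intro x hx
    rw [ValuationSubring.mem_comap, Valuation.mem_valuationSubring_iff]
    obtain ⟨n, d, hnd⟩ := P.exists_primeCompl_mul_eq_of_integer x
      ((Valuation.mem_valuationSubring_iff _ _).mp hx)
    have hdQ : algebraMap R S (d : R) ∉ Q.asIdeal := by
      intro hd
      have hdu : (d : R) ∈ Q.asIdeal.under R := Ideal.mem_comap.mpr hd
      rw [h] at hdu
      exact d.2 hdu
    have hd1 : Q.valuation F' (algebraMap S F' (algebraMap R S (d : R))) = 1 :=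
      (HeightOneSpectrum.valuation_eq_one_iff_notMem (v := Q)).mpr hdQ
    have hn1 : Q.valuation F' (algebraMap S F' (algebraMap R S n)) ≤ 1 :=
      Q.valuation_le_one _
    have hmul : algebraMap F F' x * algebraMap S F' (algebraMap R S (d : R))
        = algebraMap S F' (algebraMap R S n) := by
      rw [← HIPlaces_algebraMap_comp (F := F) (S := S) (d : R),
        ← HIPlaces_algebraMap_comp (F := F) (S := S) n, ← map_mul, hnd]
    have hval := congrArg (Q.valuation F') hmul
    rw [map_mul, hd1, mul_one] at hval
    rw [hval]
    exact hn1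
  rw [← HeightOneSpectrum.valuationSubringAtPrime_eq_valuationSubring (K := F) P] at hle ⊢
  exact ValuationSubring.eq_of_le_of_ne_top _ hle
    ((Place.ofHeightOneSpectrum (K := K) (F := F') Q).restrict F).ne_top'

/-- A place of `F'` above the place attached to `P` comes from a height-one prime `Q` of `S`
above `P`. -/
theorem exists_of_restrict_eq (w : Place K F') (P : HeightOneSpectrum R)
    (h : w.restrict F = Place.ofHeightOneSpectrum (K := K) (F := F) P) :
    ∃ Q : HeightOneSpectrum S, Q.asIdeal.under R = P.asIdeal ∧
      Place.ofHeightOneSpectrum (K := K) (F := F') Q = w := by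
  -- the valuation ring of `w` contains `R`
  have hR : ∀ r : R, algebraMap R F' r ∈ w.toValuationSubring := by
    intro r
    have h1 : algebraMap R F r ∈ (w.restrict F).toValuationSubring := by
      rw [h]
      show algebraMap R F r ∈ (P.valuation F).valuationSubring
      rw [Valuation.mem_valuationSubring_iff]
      exact P.valuation_le_one r
    have h2 := (Place.mem_restrict_iff w).mp h1
    rwa [← IsScalarTower.algebraMap_apply] at h2
  -- hence it contains `S`, by integrality
  have hS : ∀ s : S, algebraMap S F' s ∈ w.toValuationSubring := by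
    intro s
    have hint : IsIntegral R (algebraMap S F' s) :=
      (Algebra.IsIntegral.isIntegral (R := R) s).map (IsScalarTower.toAlgHom R S F')
    let _ : Algebra R w.toValuationSubring :=
      ((algebraMap R F').codRestrict w.toValuationSubring.toSubring hR).toAlgebra
    have _ : IsScalarTower R w.toValuationSubring F' :=
      IsScalarTower.of_algebraMap_eq fun r => rfl
    have hx : IsIntegral w.toValuationSubring (algebraMap S F' s) := hint.tower_top
    obtain ⟨y, hy⟩ := IsIntegrallyClosed.isIntegral_iff.mp hx
    exact hy ▸ y.2
  obtain ⟨Q, hQ⟩ := Fermat.Agent.S24.exists_ofHeightOneSpectrum_eq (R := S) w hS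
  refine ⟨Q, ?_, hQ⟩
  have hne : Q.asIdeal.under R ≠ ⊥ := Ideal.under_ne_bot R Q.ne_bot
  have hprime : (Q.asIdeal.under R).IsPrime := inferInstance
  let P₀ : HeightOneSpectrum R := ⟨Q.asIdeal.under R, hprime, hne⟩
  have h2 : (Place.ofHeightOneSpectrum (K := K) (F := F') Q).restrict F
      = Place.ofHeightOneSpectrum (K := K) (F := F) P₀ :=
    restrict_ofHeightOneSpectrum (K := K) (F := F) (F' := F') Q P₀ rfl
  rw [hQ, h] at h2
  have hPP : P = P₀ := Fermat.Agent.S24.ofHeightOneSpectrum_injective (K := K) (F := F) h2
  rw [hPP]

/-- The fibre of `restrict` over the place attached to `P`, as an image. -/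
theorem setOf_restrict_eq (P : HeightOneSpectrum R) :
    {w : Place K F' | w.restrict F = Place.ofHeightOneSpectrum (K := K) (F := F) P}
      = (fun Q : HeightOneSpectrum S => Place.ofHeightOneSpectrum (K := K) (F := F') Q) ''
          {Q : HeightOneSpectrum S | Q.asIdeal.under R = P.asIdeal} := by
  ext w
  constructor
  · intro hw
    obtain ⟨Q, hQ, rfl⟩ := exists_of_restrict_eq (S := S) w P hw
    exact ⟨Q, hQ, rfl⟩
  · rintro ⟨Q, hQ, rfl⟩
    exact restrict_ofHeightOneSpectrum Q P hQ

end Restrict

end Fermat.Agent.S37.HI
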