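/-
S37 block [H] (owner: helper53): the norm formula for a finite extension `F' / F` of function
fields in one variable over an algebraically closed field `K` of characteristic zero.
-/
import Mathlib
import Fermat.Prelude.Def_AlgebraicCurve_DivisorPushPull
import Fermat.Agent.S24.Defs
import Fermat.Agent.S24.Residue
import Fermat.Agent.S24.RamSum
import Fermat.Agent.S24.PlacesSum
import Fermat.Agent.S24.PlacesDedekind
import Fermat.Agent.S24.Principal
import Fermat.Agent.S37.HIDed
import Fermat.Agent.S37.HIInertia
import Fermat.Agent.S37.HIPlaces
import Fermat.Agent.S37.HINormDed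

set_option autoImplicit false
set_option linter.style.haveILetI false

open AlgebraicCurve IsDedekindDomain

namespace Fermat.Agent.S37.HI

open Fermat.Agent.S24 IntermediateField

variable {K F F' : Type*} [Field K] [Field F] [Field F'] [Algebra K F] [Algebra K F']
  [IsAlgClosed K] [CharZero K] [Algebra F F'] [IsScalarTower K F F']

/-- Norm formula at the place attached to a height-one prime of a Dedekind domain `R ⊆ F`
with fraction field `F`. -/
theorem finsum_ord_eq_ord_norm_of_dedekind [FiniteDimensional F F'] (hF' : IsFF1 K F')
    {R : Type*} [CommRing R] [IsDedekindDomain R] [Algebra K R] [Algebra R F]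
    [IsScalarTower K R F] [IsFractionRing R F]
    (P : HeightOneSpectrum R) (f : F') (hf : f ≠ 0) :
    ∑ᶠ (w : Place K F') (_ : w.restrict F = Place.ofHeightOneSpectrum (K := K) (F := F) P),
        w.ord f
      = (Place.ofHeightOneSpectrum (K := K) (F := F) P).ord (Algebra.norm F f) := by
  letI : Algebra R F' := ((algebraMap F F').comp (algebraMap R F)).toAlgebra
  haveI : IsScalarTower R F F' := IsScalarTower.of_algebraMap_eq (fun _ => rfl)
  haveI : IsScalarTower K R F' := IsScalarTower.of_algebraMap_eq (fun a => by
    rw [IsScalarTower.algebraMap_apply K F F', IsScalarTower.algebraMap_apply K R F]; rfl)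
  haveI : CharZero F := charZero_of_injective_algebraMap (algebraMap K F).injective
  haveI : Algebra.IsSeparable F F' := inferInstance
  haveI : IsDedekindDomain (integralClosure R F') := integralClosure.isDedekindDomain R F F'
  haveI : IsFractionRing (integralClosure R F') F' :=
    integralClosure.isFractionRing_of_finite_extension F F'
  haveI : Module.Finite R (integralClosure R F') := IsIntegralClosure.finite R F F' _
  haveI : Module.IsTorsionFree R F' := Module.isTorsionFree_iff_algebraMap_injective.mpr
    ((algebraMap F F').injective.comp (IsFractionRing.injective R F))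
  haveI : Module.IsTorsionFree R (integralClosure R F') := inferInstance
  haveI : CharZero R := charZero_of_injective_algebraMap (FaithfulSMul.algebraMap_injective K R)
  haveI : CharZero (FractionRing R) :=
    charZero_of_injective_algebraMap (IsFractionRing.injective R (FractionRing R))
  haveI : PerfectField (FractionRing R) := inferInstance
  haveI : IsScalarTower K (integralClosure R F') F' := inferInstance
  haveI : IsScalarTower K R (integralClosure R F') := inferInstance
  exact finsum_ord_eq_ord_norm (R := R) (S := integralClosure R F')
    (fun Q => surjective_algebraMap_quotient hF' Q) P f hf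

/-- Every place contains a transcendental element in its valuation ring. -/
theorem HINorm_exists_transcendental_mem (v : Place K F) :
    ∃ t : F, t ∈ v.toValuationSubring ∧ Transcendental K t := by
  obtain ⟨π, hπ⟩ := IsDiscreteValuationRing.exists_irreducible v.toValuationSubring
  have hord : v.ord (π : F) = 1 := v.ord_coe_irreducible hπ
  refine ⟨(π : F), π.2, ?_⟩
  apply transcendental_of_notMem_range
  rintro ⟨a, ha⟩
  have h0 := principal_ord_algebraMap v a
  rw [ha, hord] at h0
  exact one_ne_zero h0

/-- **Norm formula**, place form: `∑_{w ∣ v} ord_w f = ord_v (N_{F'/F} f)`. -/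
theorem finsum_ord_eq_ord_norm_of_isFF1 [FiniteDimensional F F'] (hF : IsFF1 K F)
    (hF' : IsFF1 K F') (v : Place K F) (f : F') (hf : f ≠ 0) :
    ∑ᶠ (w : Place K F') (_ : w.restrict F = v), w.ord f = v.ord (Algebra.norm F f) := by
  obtain ⟨t, hmem, ht⟩ := HINorm_exists_transcendental_mem v
  haveI : FiniteDimensional K⟮t⟯ F := finiteDimensional_adjoin_simple hF ht
  haveI := RamSum.isDedekindDomain t ht
  haveI := RamSum.isFractionRing t ht
  obtain ⟨P, hP⟩ := exists_ofHeightOneSpectrum_eq (R := RamSum.B K t) v
    (placesSum_integralClosure_le v hmem)
  rw [← hP]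
  exact finsum_ord_eq_ord_norm_of_dedekind hF' P f hf

end Fermat.Agent.S37.HI
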