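/-
S37 block [H] (owner: helper53; this file written by helper125): push-forward norm formula and fundamental identity for a finite
extension `F' / F` of function fields in one variable over an algebraically closed field `K` of
characteristic zero, in the form of the frozen definitions.
-/
import Mathlib
import Fermat.Prelude.Def_AlgebraicCurve_DivisorPushPull
import Fermat.Agent.S24.Defs
import Fermat.Agent.S24.Residue
import Fermat.Agent.S37.HIFinite
import Fermat.Agent.S37.HINorm

set_option autoImplicit false

open AlgebraicCurve

namespace Fermat.Agent.S37.HI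

open Fermat.Agent.S24

variable {K F F' : Type*} [Field K] [Field F] [Field F'] [Algebra K F] [Algebra K F']
  [IsAlgClosed K] [CharZero K] [Algebra F F'] [IsScalarTower K F F']

omit [IsAlgClosed K] [CharZero K] in
/-- A finite sum over a finset containing the support of the summand on the fibre of `restrict`
over `v` computes the `finsum` over that fibre. -/
theorem HIFund_finsum_restrict_eq_sum [Algebra.IsIntegral F F'] (v : Place K F)
    (g : Place K F' → ℤ) (s : Finset (Place K F'))
    (hs : ∀ w : Place K F', w.restrict F = v → g w ≠ 0 → w ∈ s) [DecidableEq (Place K F)] :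
    ∑ᶠ (w : Place K F') (_ : w.restrict F = v), g w
      = ∑ w ∈ s, if w.restrict F = v then g w else 0 := by
  have h1 : (fun w : Place K F' => ∑ᶠ (_ : w.restrict F = v), g w)
      = fun w : Place K F' => if w.restrict F = v then g w else 0 := by
    funext w
    exact finsum_eq_if
  rw [h1]
  refine finsum_eq_sum_of_support_subset _ ?_
  intro w hw
  rw [Function.mem_support] at hw
  by_cases hwv : w.restrict F = v
  · rw [if_pos hwv] at hw
    exact Finset.mem_coe.mpr (hs w hwv hw)
  · rw [if_neg hwv] at hw
    exact absurd rfl hw

/-- **Push-forward norm formula** (frozen form). -/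
theorem pushforwardNormFormula_of_isFF1 [Module.Finite F F'] (hF : IsFF1 K F)
    (hF' : IsFF1 K F') : Divisor.PushforwardNormFormula K F F' := by
  classical
  intro f hf D hD v
  rw [Divisor.pushforward_apply, ← finsum_ord_eq_ord_norm_of_isFF1 hF hF' v f hf,
    HIFund_finsum_restrict_eq_sum v (fun w => w.ord f) D.support ?_]
  · refine Finset.sum_congr rfl fun w _ => ?_
    by_cases hwv : w.restrict F = v
    · rw [if_pos hwv, if_pos hwv, inertiaDeg_eq_one_of_isFF1 hF hF' w, hD w]
      simp
    · rw [if_neg hwv, if_neg hwv]
  · intro w _ hw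
    rw [Finsupp.mem_support_iff, hD w]
    exact hw

/-- **Fundamental identity** `∑_{w ∣ v} e(w ∣ v) deg w = [F' : F] deg v` (frozen form). -/
theorem fundamentalIdentity_of_isFF1 [Module.Finite F F'] [HasPrincipalDivisors K F']
    (hF : IsFF1 K F) (hF' : IsFF1 K F') : FundamentalIdentity K F F' := by
  classical
  refine ⟨fun v => ?_⟩
  -- a uniformiser of `v`
  obtain ⟨π, hπ⟩ := IsDiscreteValuationRing.exists_irreducible v.toValuationSubring
  have hπ1 : v.ord (π : F) = 1 := v.ord_coe_irreducible hπ
  have hπ0 : (π : F) ≠ 0 := by
    intro h0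
    rw [h0, Place.ord_zero] at hπ1
    exact zero_ne_one hπ1
  have hπ0' : algebraMap F F' (π : F) ≠ 0 := by
    simpa using hπ0
  -- the norm formula for the uniformiser
  have hnorm := finsum_ord_eq_ord_norm_of_isFF1 hF hF' v (algebraMap F F' (π : F)) hπ0'
  rw [Algebra.norm_algebraMap, ← zpow_natCast, v.ord_zpow, hπ1, mul_one,
    HIFund_finsum_restrict_eq_sum v (fun w => w.ord (algebraMap F F' (π : F))) (v.fiber F')
      (fun w hwv _ => Place.mem_fiber.mpr hwv)] at hnorm
  rw [place_deg_eq_one hF v, Nat.cast_one, mul_one, ← hnorm]
  refine Finset.sum_congr rfl fun w hw => ?_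
  have hwv : w.restrict F = v := Place.mem_fiber.mp hw
  rw [if_pos hwv, place_deg_eq_one hF' w, Nat.cast_one, mul_one, w.ord_restrict (π : F), hwv,
    hπ1, mul_one]

end Fermat.Agent.S37.HI
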