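/-
S37 block [H] (owner: helper53): the Hecke inputs for the degeneracy maps
`α, β : F̄_N → F̄_{Nℓ}` over `ℚ̄`:  both maps are finite (integral), `F̄_{Nℓ}` has principal
divisors, `β` satisfies the fundamental identity and `α` the push-forward norm formula.

All of this is generic for `K`-algebra maps between function fields in one variable over an
algebraically closed field of characteristic zero (`HIFinite`, `HINorm`, `HIFund`); the modular
input is only `IsFF1 ℚ̄ F̄_N` (S24: `j` is transcendental and `[F̄_N : ℚ̄(j)] < ∞`).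
-/
import Mathlib
import Fermat.Prelude.Def_ModularCurve_HeckeOperatorTotal
import Fermat.Agent.S24.Defs
import Fermat.Agent.S24.AnDefs
import Fermat.Agent.S24.TranscJ
import Fermat.Agent.S24.AnDegree
import Fermat.Agent.S37.HIFinite
import Fermat.Agent.S37.HIFund

set_option autoImplicit false
set_option linter.style.haveILetI false

open AlgebraicCurve ModularCurve

namespace Fermat.Agent.S37.HI

open Fermat.Agent.S24

section Along

variable {K F F' : Type*} [Field K] [Field F] [Field F'] [Algebra K F] [Algebra K F']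
  [IsAlgClosed K] [CharZero K]

/-- A `K`-algebra map between function fields in one variable is finite. -/
theorem finiteAlong_of_isFF1 (hF : IsFF1 K F) (hF' : IsFF1 K F') (φ : F →ₐ[K] F') :
    FiniteAlong K φ := by
  letI := algebraAlong φ
  haveI := isScalarTower_along φ
  exact finite_of_isFF1 hF hF'

/-- A `K`-algebra map between function fields in one variable is integral. -/
theorem isIntegral_of_isFF1 (hF : IsFF1 K F) (hF' : IsFF1 K F') (φ : F →ₐ[K] F') :
    φ.toRingHom.IsIntegral := by
  letI := algebraAlong φ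
  haveI := isScalarTower_along φ
  haveI : Module.Finite F F' := finite_of_isFF1 hF hF'
  intro x
  exact Algebra.IsIntegral.isIntegral (R := F) x

/-- The push-forward norm formula along a `K`-algebra map of function fields in one variable. -/
theorem normFormulaAlong_of_isFF1 (hF : IsFF1 K F) (hF' : IsFF1 K F') (φ : F →ₐ[K] F')
    (hfin : FiniteAlong K φ) : NormFormulaAlong K φ hfin := by
  letI := algebraAlong φ
  haveI := isScalarTower_along φ
  haveI : Module.Finite F F' := hfin
  exact pushforwardNormFormula_of_isFF1 hF hF'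

/-- The fundamental identity along a `K`-algebra map of function fields in one variable. -/
theorem fundamentalIdentityAlong_of_isFF1 [HasPrincipalDivisors K F'] (hF : IsFF1 K F)
    (hF' : IsFF1 K F') (φ : F →ₐ[K] F') (hφ : φ.toRingHom.IsIntegral) :
    FundamentalIdentityAlong K φ hφ := by
  letI := algebraAlong φ
  haveI := isScalarTower_along φ
  haveI : Module.Finite F F' := finite_of_isFF1 hF hF'
  exact fundamentalIdentity_of_isFF1 hF hF'

end Along

/-- The function field of `X₀(N)` over `ℚ̄` is a function field in one variable. -/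
theorem isFF1_modular (N : ℕ) [NeZero N] : IsFF1 Kb (FN N) :=
  ⟨jF N, transcendental_jF N, finiteDimensional_jF N⟩

/-- **Block [H]**: the Hecke inputs hold over `ℚ̄` for every level `N` and every `ℓ ≠ 0`. -/
theorem heckeInputsAlong_of_neZero (N ℓ : ℕ) [NeZero N] [NeZero ℓ] :
    HeckeInputsAlong (AlgebraicClosure ℚ) N ℓ := by
  haveI : NeZero (N * ℓ) := ⟨mul_ne_zero (NeZero.ne N) (NeZero.ne ℓ)⟩
  have hF : IsFF1 Kb (FN N) := isFF1_modular N
  have hF' : IsFF1 Kb (FN (N * ℓ)) := isFF1_modular (N * ℓ)
  haveI : HasPrincipalDivisors (AlgebraicClosure ℚ)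
      (laurentBaseChange (AlgebraicClosure ℚ) (modularFunctionFieldFull (N * ℓ))) :=
    hasPrincipalDivisors_of_isFF1 hF'
  exact heckeInputsAlong_intro
    (isIntegral_of_isFF1 hF hF' (heckeAlphaBar (AlgebraicClosure ℚ) N ℓ))
    (isIntegral_of_isFF1 hF hF' (heckeBetaBar (AlgebraicClosure ℚ) N ℓ))
    (fundamentalIdentityAlong_of_isFF1 hF hF' _ _)
    (finiteAlong_of_isFF1 hF hF' _)
    (normFormulaAlong_of_isFF1 hF hF' _ _)

/-- **Block [H]**, consumer form. -/
theorem heckeInputsAlong (N ℓ : ℕ) [NeZero N] (hℓ : ℓ.Prime) (_hℓN : ¬ ℓ ∣ N) :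
    haveI : NeZero ℓ := ⟨hℓ.ne_zero⟩; HeckeInputsAlong (AlgebraicClosure ℚ) N ℓ := by
  haveI : NeZero ℓ := ⟨hℓ.ne_zero⟩
  exact heckeInputsAlong_of_neZero N ℓ

end Fermat.Agent.S37.HI
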