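/-
S37: the formal core.  `SpecCore` (see `S37/Top.lean`) follows from
  * the frozen S18 statement (`S18Statement`),
  * `HeckeInputsAlong ℚ̄ N ℓ` (so that the frozen `T_ℓ` is the genuine correspondence),
  * a Frobenius element at `A`,
  * a REDUCTION DATUM (`RedDatum`): ONE place map `r` with the frozen `IsPlaceReductionModL`
    property, equivariant for the decomposition group of `A`, and satisfying the
    Eichler–Shimura congruence AT THE LEVEL OF DIVISORS:
      `r_* (T_ℓ u) = Fr (r u) + ℓ · Fr⁻¹ (r u)`   for every place `u`.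
Everything here is formal.  Owner: helper33.
-/
import Fermat.Statements.S37
import Fermat.Statements.S18
import Fermat.Agent.S37.Top

set_option autoImplicit false

open ModularCurve AlgebraicCurve HahnSeries

namespace Fermat.Agent.S37Core

noncomputable section

/-! ### Coefficientwise semilinear automorphisms of the char-`ℓ` function field -/

section CoeffSL

variable (k : Type*) [Field k] (N : ℕ)

theorem coeffMap_mem_fullC (τ : k ≃+* k) {x : LaurentSeries k}
    (hx : x ∈ modularFunctionFieldFullC k N) :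
    coeffMap (τ : k →+* k) x ∈ modularFunctionFieldFullC k N := by
  change x ∈ Subfield.closure
      (Set.range (algebraMap k (LaurentSeries k)) ∪ divisorExpansionsC k N) at hx
  induction hx using Subfield.closure_induction with
  | mem y hy =>
      rcases hy with ⟨a, rfl⟩ | ⟨d, hd, hdN, rfl⟩
      · rw [coeffMap_algebraMap]
        exact (modularFunctionFieldFullC k N).algebraMap_mem _
      · rw [coeffMap_qExpand, coeffMap_jqModC]
        exact jqModCd_mem_full k N hdN
  | one => simp
  | add x y _ _ hx hy => simpa using add_mem hx hy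
  | neg x _ hx => simpa using neg_mem hx
  | inv x _ hx => simpa using inv_mem hx
  | mul x y _ _ hx hy => simpa using mul_mem hx hy

/-- The ring automorphism of `F_k = k(j(q^d) : d ∣ N) ⊂ k((q))` acting on coefficients by `τ`. -/
def coeffRingAut (τ : k ≃+* k) :
    (modularFunctionFieldFullC k N) ≃+* (modularFunctionFieldFullC k N) where
  toFun x := ⟨coeffMap (τ : k →+* k) (x : LaurentSeries k), coeffMap_mem_fullC k N τ x.2⟩
  invFun x := ⟨coeffMap (τ.symm : k →+* k) (x : LaurentSeries k),
    coeffMap_mem_fullC k N τ.symm x.2⟩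
  left_inv x := Subtype.ext <| by
    show coeffMap (τ.symm : k →+* k) (coeffMap (τ : k →+* k) (x : LaurentSeries k)) = x
    rw [coeffMap_coeffMap,
      coeffMap_congr (g := RingHom.id k) (RingHom.ext fun a => τ.symm_apply_apply a), coeffMap_id]
  right_inv x := Subtype.ext <| by
    show coeffMap (τ : k →+* k) (coeffMap (τ.symm : k →+* k) (x : LaurentSeries k)) = x
    rw [coeffMap_coeffMap,
      coeffMap_congr (g := RingHom.id k) (RingHom.ext fun a => τ.apply_symm_apply a), coeffMap_id]
  map_mul' x y := Subtype.ext (map_mul (coeffMap (τ : k →+* k)) (x : LaurentSeries k) y)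
  map_add' x y := Subtype.ext (map_add (coeffMap (τ : k →+* k)) (x : LaurentSeries k) y)

@[simp]
theorem coe_coeffRingAut_apply (τ : k ≃+* k) (x : modularFunctionFieldFullC k N) :
    (coeffRingAut k N τ x : LaurentSeries k) = coeffMap (τ : k →+* k) (x : LaurentSeries k) :=
  rfl

/-- The coefficientwise action as a semilinear automorphism of `F_k / k`. -/
def coeffSL (τ : k ≃+* k) : SemilinearAut k (modularFunctionFieldFullC k N) :=
  ⟨(coeffRingAut k N τ, τ), fun a => Subtype.ext (coeffMap_algebraMap (τ : k →+* k) a)⟩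

theorem coeffSL_one : coeffSL k N (RingEquiv.refl k) = 1 := by
  refine Subtype.ext (Prod.ext (RingEquiv.ext fun x => Subtype.ext ?_) rfl)
  show coeffMap ((RingEquiv.refl k : k ≃+* k) : k →+* k) (x : LaurentSeries k) = x
  rw [show ((RingEquiv.refl k : k ≃+* k) : k →+* k) = RingHom.id k from rfl, coeffMap_id]

end CoeffSL

/-! ### The reduction datum -/

section Datum

set_option synthInstance.maxHeartbeats 400000

/-- `ℚ̄`. -/
abbrev Qb : Type := AlgebraicClosure ℚ

/-- `Gal(ℚ̄/ℚ)`. -/
abbrev GQ : Type := Qb ≃ₐ[ℚ] Qb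

variable (A : ValuationSubring Qb) (N : ℕ)

/-- The automorphism of the residue field of `A` induced by an element of the decomposition
group. -/
def resAut (g : A.decompositionSubgroup ℚ) :
    IsLocalRing.ResidueField A ≃+* IsLocalRing.ResidueField A :=
  MulSemiringAction.toRingAut (A.decompositionSubgroup ℚ) (IsLocalRing.ResidueField A) g

theorem resAut_apply (g : A.decompositionSubgroup ℚ) (x : IsLocalRing.ResidueField A) :
    resAut A g x = g • x := rfl

/-- The semilinear automorphism of `F_k = k(j(q^d) : d ∣ N)`, `k` the residue field of `A`,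
induced by an element of the decomposition group of `A` (acting on coefficients). -/
def decompSL (g : A.decompositionSubgroup ℚ) :
    SemilinearAut (IsLocalRing.ResidueField A)
      (modularFunctionFieldFullC (IsLocalRing.ResidueField A) N) :=
  coeffSL (IsLocalRing.ResidueField A) N (resAut A g)

theorem decompSL_eq_one_of_mem_inertia {g : A.decompositionSubgroup ℚ}
    (hg : g ∈ A.inertiaSubgroup ℚ) : decompSL A N g = 1 := by
  have h1 : resAut A g = RingEquiv.refl _ := by
    have : MulSemiringAction.toRingAut (A.decompositionSubgroup ℚ)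
        (IsLocalRing.ResidueField A) g = 1 := by
      rw [ValuationSubring.inertiaSubgroup, MonoidHom.mem_ker] at hg
      exact hg
    exact this
  rw [decompSL, h1, coeffSL_one]

variable [NeZero N]

/-- **The reduction datum at `(ℓ, A)`**: a place map `r` from the places of
`ℚ̄(j(q^d) : d ∣ N)` to the places of `k(j(q^d) : d ∣ N)` such that
* `r` has the frozen place-reduction property (degrees, divisors of integral functions) and
  principal divisors are generated by integral ones (frozen `ReductionInputsModL` data),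
* `r` is equivariant for the decomposition group of `A`,
* (Eichler–Shimura, divisor level) for a Frobenius element `φ` at `A`, with `Fr` the induced
  coefficientwise automorphism in characteristic `ℓ`:  `r_*(T_ℓ u) = Fr (r u) + ℓ · Fr⁻¹ (r u)`.
-/
def RedDatum (ℓ : ℕ) [NeZero ℓ] : Prop :=
  ∃ r : Place Qb (modularFunctionFieldBar N) →
      Place (IsLocalRing.ResidueField A) (modularFunctionFieldFullC (IsLocalRing.ResidueField A) N),
    IsPlaceReductionModL A N r ∧
    PrincipalGeneratedByIntegral A (IsLocalRing.residue A) N ∧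
    (∀ (g : A.decompositionSubgroup ℚ) (u : Place Qb (modularFunctionFieldBar N)),
      r (arithmeticGalois (modularFunctionFieldFull N) (g : GQ) • u) = decompSL A N g • r u) ∧
    (∀ (φ : GQ) (hφ : A.IsFrobeniusAt φ ℓ) (hα : HeckeAlphaBarIntegral Qb N ℓ)
      (hβ : HeckeBetaBarIntegral Qb N ℓ)
      [HasPrincipalDivisors Qb (laurentBaseChange Qb (modularFunctionFieldFull (N * ℓ)))]
      (u : Place Qb (modularFunctionFieldBar N)),
      Finsupp.mapDomain r (heckeDivBar hα hβ (Finsupp.single u 1)) =
        Finsupp.single (decompSL A N ⟨φ, hφ.mem_decompositionSubgroup⟩ • r u) 1 +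
          Finsupp.single ((decompSL A N ⟨φ, hφ.mem_decompositionSubgroup⟩)⁻¹ • r u) (ℓ : ℤ))

/-- The frozen statement S18 (injectivity of reduction on prime-to-`ℓ` torsion), as a `Prop`. -/
def S18Statement : Prop :=
  ∀ {ℓ : ℕ} [Fact ℓ.Prime] (_ : ¬ ℓ ∣ N) (A : ValuationSubring Qb) (_ : A.LiesOverPrime ℓ)
    (_ : ReductionInputsModL A N) (m : ℕ) (_ : ¬ ℓ ∣ m) (z : JZero N)
    (_ : m • z = 0) (_ : reductionModL A N z = 0), z = 0

end Datum

/-! ### Independence of the place map on torsion classes -/

section Torsion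

set_option synthInstance.maxHeartbeats 400000

variable {A : ValuationSubring Qb} {N : ℕ} [NeZero N]

omit [NeZero N] in
/-- Two place reductions agree on principal divisors. -/
theorem mapDomain_eq_of_principal
    {r₁ r₂ : Place Qb (modularFunctionFieldBar N) →
      Place (IsLocalRing.ResidueField A) (modularFunctionFieldFullC (IsLocalRing.ResidueField A) N)}
    (h₁ : IsPlaceReductionModL A N r₁) (h₂ : IsPlaceReductionModL A N r₂)
    (hgen : PrincipalGeneratedByIntegral A (IsLocalRing.residue A) N)
    {E : Divisor Qb (modularFunctionFieldBar N)}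
    (hE : E ∈ Divisor.principal (K := Qb) (F := modularFunctionFieldBar N)) :
    Finsupp.mapDomain r₁ E = Finsupp.mapDomain r₂ E := by
  have hE' := hgen hE
  clear hE
  induction hE' using AddSubgroup.closure_induction with
  | mem D hD =>
    obtain ⟨y, hy, hyk, hne, hDy⟩ := hD
    ext Q
    rw [h₁.2 y hy hyk hne D hDy Q, h₂.2 y hy hyk hne D hDy Q]
  | zero => rw [Finsupp.mapDomain_zero, Finsupp.mapDomain_zero]
  | add D D' _ _ hD hD' => rw [Finsupp.mapDomain_add, Finsupp.mapDomain_add, hD, hD']
  | neg D _ hD =>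
    rw [← Finsupp.mapDomain.addMonoidHom_apply, map_neg, Finsupp.mapDomain.addMonoidHom_apply, hD,
      ← Finsupp.mapDomain.addMonoidHom_apply r₂ (-D), map_neg, Finsupp.mapDomain.addMonoidHom_apply]

omit [NeZero N] in
/-- Two place reductions agree on divisors with a principal nonzero multiple. -/
theorem mapDomain_eq_of_nsmul_principal
    {r₁ r₂ : Place Qb (modularFunctionFieldBar N) →
      Place (IsLocalRing.ResidueField A) (modularFunctionFieldFullC (IsLocalRing.ResidueField A) N)}
    (h₁ : IsPlaceReductionModL A N r₁) (h₂ : IsPlaceReductionModL A N r₂)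
    (hgen : PrincipalGeneratedByIntegral A (IsLocalRing.residue A) N)
    {m : ℕ} (hm : m ≠ 0) {D : Divisor Qb (modularFunctionFieldBar N)}
    (hD : m • D ∈ Divisor.principal (K := Qb) (F := modularFunctionFieldBar N)) :
    Finsupp.mapDomain r₁ D = Finsupp.mapDomain r₂ D := by
  have h := mapDomain_eq_of_principal h₁ h₂ hgen hD
  rw [← Finsupp.mapDomain.addMonoidHom_apply, map_nsmul, ← Finsupp.mapDomain.addMonoidHom_apply r₂,
    map_nsmul, Finsupp.mapDomain.addMonoidHom_apply, Finsupp.mapDomain.addMonoidHom_apply] at h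
  ext Q
  have hQ := DFunLike.congr_fun h Q
  rw [Finsupp.smul_apply, Finsupp.smul_apply, nsmul_eq_mul, nsmul_eq_mul] at hQ
  exact mul_left_cancel₀ (Nat.cast_ne_zero.mpr hm) hQ

omit [NeZero N] in
/-- On classes killed by a nonzero integer, the reduction along ANY place reduction `r` agrees
with the frozen `reductionModL A N` (which is defined through an arbitrary choice of `r`). -/
theorem reductionPic0Along_eq_reductionModL_of_nsmul_eq_zero
    {r : Place Qb (modularFunctionFieldBar N) →
      Place (IsLocalRing.ResidueField A) (modularFunctionFieldFullC (IsLocalRing.ResidueField A) N)}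
    (hr : IsPlaceReductionModL A N r)
    (hgen : PrincipalGeneratedByIntegral A (IsLocalRing.residue A) N)
    {m : ℕ} (hm : m ≠ 0) (z : JZero N) (hz : m • z = 0) :
    reductionPic0Along r hr hgen z = reductionModL A N z := by
  have h : ReductionInputsModL A N := ⟨r, hr, hgen⟩
  obtain ⟨D, rfl⟩ := Pic0.mk_surjective z
  rw [reductionModL_mk h D, reductionPic0Along_mk]
  have hD : m • (D : Divisor Qb (modularFunctionFieldBar N)) ∈
      Divisor.principal (K := Qb) (F := modularFunctionFieldBar N) := by
    have h0 : ((m • D : Divisor.degZero (K := Qb) (F := modularFunctionFieldBar N)) :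
        Divisor.degZero (K := Qb) (F := modularFunctionFieldBar N)) ∈
        (Divisor.principal (K := Qb) (F := modularFunctionFieldBar N)).addSubgroupOf
          (Divisor.degZero (K := Qb) (F := modularFunctionFieldBar N)) := by
      rw [← QuotientAddGroup.eq_zero_iff]
      exact hz
    rw [AddSubgroup.mem_addSubgroupOf, AddSubgroupClass.coe_nsmul] at h0
    exact h0
  refine congrArg Pic0.mk (Subtype.ext ?_)
  rw [coe_reductionDegZeroAlong, coe_reductionDegZeroAlong]
  exact mapDomain_eq_of_nsmul_principal hr (isPlaceReductionModL_placeReductionModL h) hgen hm hD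

end Torsion

/-! ### Equivariance on `Pic⁰` and the Hecke operator on divisors -/

section Equivariance

set_option synthInstance.maxHeartbeats 400000

variable {A : ValuationSubring Qb} {N : ℕ} [NeZero N]
variable {r : Place Qb (modularFunctionFieldBar N) →
  Place (IsLocalRing.ResidueField A) (modularFunctionFieldFullC (IsLocalRing.ResidueField A) N)}

omit [NeZero N] in
/-- Divisor-level equivariance. -/
theorem mapDomain_smul_of_equivariant
    (S : SemilinearAut Qb (modularFunctionFieldBar N))
    (T : SemilinearAut (IsLocalRing.ResidueField A)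
      (modularFunctionFieldFullC (IsLocalRing.ResidueField A) N))
    (h : ∀ u, r (S • u) = T • r u) (D : Divisor Qb (modularFunctionFieldBar N)) :
    Finsupp.mapDomain r (S • D) = T • Finsupp.mapDomain r D := by
  rw [SemilinearAut.divisor_smul_def, SemilinearAut.divisor_smul_def, ← Finsupp.mapDomain_comp,
    ← Finsupp.mapDomain_comp]
  congr 1
  funext u
  exact h u

omit [NeZero N] in
set_option maxHeartbeats 1600000 in
/-- `Pic⁰`-level equivariance. -/
theorem reductionPic0Along_smul_of_equivariant (hr : IsPlaceReductionModL A N r)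
    (hgen : PrincipalGeneratedByIntegral A (IsLocalRing.residue A) N)
    (S : SemilinearAut Qb (modularFunctionFieldBar N))
    (T : SemilinearAut (IsLocalRing.ResidueField A)
      (modularFunctionFieldFullC (IsLocalRing.ResidueField A) N))
    (h : ∀ u, r (S • u) = T • r u) (x : JZero N) :
    reductionPic0Along r hr hgen (S • x) = T • reductionPic0Along r hr hgen x := by
  obtain ⟨D, rfl⟩ := Pic0.mk_surjective x
  rw [SemilinearAut.pic0_smul_mk, reductionPic0Along_mk, reductionPic0Along_mk,
    SemilinearAut.pic0_smul_mk]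
  refine congrArg Pic0.mk (Subtype.ext ?_)
  rw [coe_reductionDegZeroAlong, SemilinearAut.coe_degZeroSMulHom, SemilinearAut.coe_degZeroSMulHom,
    coe_reductionDegZeroAlong]
  exact mapDomain_smul_of_equivariant S T h _

end Equivariance

/-! ### The Hecke operator after reduction -/

section Main

set_option synthInstance.maxHeartbeats 400000

variable {A : ValuationSubring Qb} {N : ℕ} [NeZero N]
variable {r : Place Qb (modularFunctionFieldBar N) →
  Place (IsLocalRing.ResidueField A) (modularFunctionFieldFullC (IsLocalRing.ResidueField A) N)}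

set_option maxHeartbeats 3200000 in
/-- The divisor-level Eichler–Shimura identity extends from single places to all divisors. -/
theorem mapDomain_heckeDivBar {ℓ : ℕ} [NeZero ℓ]
    (Fr : SemilinearAut (IsLocalRing.ResidueField A)
      (modularFunctionFieldFullC (IsLocalRing.ResidueField A) N))
    (hα : HeckeAlphaBarIntegral Qb N ℓ) (hβ : HeckeBetaBarIntegral Qb N ℓ)
    [HasPrincipalDivisors Qb (laurentBaseChange Qb (modularFunctionFieldFull (N * ℓ)))]
    (hes : ∀ u : Place Qb (modularFunctionFieldBar N),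
      Finsupp.mapDomain r (heckeDivBar hα hβ (Finsupp.single u 1)) =
        Finsupp.single (Fr • r u) 1 + Finsupp.single (Fr⁻¹ • r u) (ℓ : ℤ))
    (D : Divisor Qb (modularFunctionFieldBar N)) :
    Finsupp.mapDomain r (heckeDivBar hα hβ D) =
      Fr • Finsupp.mapDomain r D + (ℓ : ℤ) • (Fr⁻¹ • Finsupp.mapDomain r D) := by
  induction D using Finsupp.induction_linear with
  | zero =>
    rw [map_zero, Finsupp.mapDomain_zero, smul_zero, smul_zero, smul_zero, add_zero]
  | add D E hD hE =>
    rw [map_add, Finsupp.mapDomain_add, hD, hE, Finsupp.mapDomain_add, smul_add, smul_add, smul_add]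
    abel
  | single u n =>
    have h1 : (Finsupp.single u n : Divisor Qb (modularFunctionFieldBar N))
        = n • Finsupp.single u 1 := by
      rw [Finsupp.smul_single, smul_eq_mul, mul_one]
    have h2 : n • (Finsupp.single (r u) (1 : ℤ)) = Finsupp.single (r u) n := by
      rw [Finsupp.smul_single, smul_eq_mul, mul_one]
    rw [h1, map_zsmul, Finsupp.mapDomain_smul, hes, Finsupp.mapDomain_smul,
      Finsupp.mapDomain_single, h2, SemilinearAut.smul_single, SemilinearAut.smul_single,
      smul_add, Finsupp.smul_single, Finsupp.smul_single, Finsupp.smul_single,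
      smul_eq_mul, smul_eq_mul, smul_eq_mul, mul_one, mul_comm]

omit [NeZero N] in
theorem pic0_mk_zsmul (n : ℤ)
    (D : Divisor.degZero (K := IsLocalRing.ResidueField A)
      (F := modularFunctionFieldFullC (IsLocalRing.ResidueField A) N)) :
    n • Pic0.mk D = Pic0.mk (n • D) :=
  (QuotientAddGroup.mk_zsmul _ D n).symm

set_option maxHeartbeats 3200000 in
/-- The frozen Hecke operator `T_ℓ` after reduction: `sp₀ ∘ T_ℓ = (Fr + ℓ·Fr⁻¹) ∘ sp₀`. -/
theorem reductionPic0Along_heckeOperatorBar {ℓ : ℕ} (hℓ : ℓ.Prime)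
    (hr : IsPlaceReductionModL A N r)
    (hgen : PrincipalGeneratedByIntegral A (IsLocalRing.residue A) N)
    (Fr : SemilinearAut (IsLocalRing.ResidueField A)
      (modularFunctionFieldFullC (IsLocalRing.ResidueField A) N))
    (hH : haveI : NeZero ℓ := ⟨hℓ.ne_zero⟩; HeckeInputsAlong Qb N ℓ)
    (hes : haveI : NeZero ℓ := ⟨hℓ.ne_zero⟩;
      ∀ (hα : HeckeAlphaBarIntegral Qb N ℓ) (hβ : HeckeBetaBarIntegral Qb N ℓ)
      [HasPrincipalDivisors Qb (laurentBaseChange Qb (modularFunctionFieldFull (N * ℓ)))]
      (u : Place Qb (modularFunctionFieldBar N)),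
      Finsupp.mapDomain r (heckeDivBar hα hβ (Finsupp.single u 1)) =
        Finsupp.single (Fr • r u) 1 + Finsupp.single (Fr⁻¹ • r u) (ℓ : ℤ))
    (y : JZero N) :
    reductionPic0Along r hr hgen (heckeOperatorBar N (⟨ℓ, hℓ⟩ : Nat.Primes) y) =
      Fr • reductionPic0Along r hr hgen y + (ℓ : ℤ) • (Fr⁻¹ • reductionPic0Along r hr hgen y) := by
  have : NeZero ℓ := ⟨hℓ.ne_zero⟩
  obtain ⟨hα, hβ, hP, hfin, hFI, hN⟩ := hH
  have e1 : heckeOperatorBar N (⟨ℓ, hℓ⟩ : Nat.Primes) y = heckePic0Bar hα hβ hFI hfin hN y :=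
    (heckeOperatorBar_apply N (⟨ℓ, hℓ⟩ : Nat.Primes) y).trans
      (DFunLike.congr_fun (heckeOperatorAlong_eq hα hβ hFI hfin hN) y)
  rw [e1]
  obtain ⟨D, rfl⟩ := Pic0.mk_surjective y
  have e2 : heckePic0Bar hα hβ hFI hfin hN (Pic0.mk D)
      = Pic0.mk (Pic0.degZeroCorrespondence (heckeBetaBar Qb N ℓ) (heckeAlphaBar Qb N ℓ) hβ hα hFI D) :=
    rfl
  rw [e2, reductionPic0Along_mk, reductionPic0Along_mk, SemilinearAut.pic0_smul_mk,
    SemilinearAut.pic0_smul_mk, pic0_mk_zsmul, ← Pic0.mk_add]
  refine congrArg Pic0.mk (Subtype.ext ?_)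
  show Finsupp.mapDomain r (heckeDivBar hα hβ (D : Divisor Qb (modularFunctionFieldBar N))) =
      Fr • Finsupp.mapDomain r (D : Divisor Qb (modularFunctionFieldBar N)) +
        (ℓ : ℤ) • (Fr⁻¹ • Finsupp.mapDomain r (D : Divisor Qb (modularFunctionFieldBar N)))
  exact mapDomain_heckeDivBar Fr hα hβ (hes hα hβ) _

end Main

/-! ### The formal core -/

section Final

set_option synthInstance.maxHeartbeats 400000

set_option maxHeartbeats 3200000 in
/-- **The formal core of S37.**  `SpecCore` at `(ℓ, A)` follows from the frozen S18 statement,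
the Hecke inputs at `ℓ`, the existence of a Frobenius element at `A`, and a reduction datum. -/
theorem specCore_of_redDatum (N p : ℕ) [NeZero N] (ℓ : ℕ) (hℓ : ℓ.Prime) (hℓNp : ¬ ℓ ∣ N * p)
    (A : ValuationSubring Qb) (hA : A.LiesOverPrime ℓ)
    (hS18 : S18Statement N)
    (hH : haveI : NeZero ℓ := ⟨hℓ.ne_zero⟩; HeckeInputsAlong Qb N ℓ)
    (hF : ∃ φ : GQ, A.IsFrobeniusAt φ ℓ)
    (hR : haveI : NeZero ℓ := ⟨hℓ.ne_zero⟩; RedDatum A N ℓ) :
    Fermat.Agent.S37Top.SpecCore N p ℓ hℓ A := by
  have hne : NeZero ℓ := ⟨hℓ.ne_zero⟩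
  have hfact : Fact ℓ.Prime := ⟨hℓ⟩
  obtain ⟨r, hr, hgen, hequiv, hes⟩ := hR
  obtain ⟨φ, hφ⟩ := hF
  have hℓN : ¬ ℓ ∣ N := fun h => hℓNp (Dvd.dvd.mul_right h p)
  have hℓp : ¬ ℓ ∣ p := fun h => hℓNp (Dvd.dvd.mul_left h N)
  refine ⟨JZeroC (IsLocalRing.ResidueField A) N, inferInstance, reductionPic0Along r hr hgen,
    ?_, ⟨φ, hφ, ?_⟩, ?_⟩
  · -- inertia invariance
    intro σ hσ x
    unfold ValuationSubring.inertiaSubgroupIn at hσ
    rw [Subgroup.mem_map] at hσ
    obtain ⟨g, hg, rfl⟩ := hσ
    have h1 := reductionPic0Along_smul_of_equivariant hr hgen _ (decompSL A N g) (hequiv g) x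
    rw [decompSL_eq_one_of_mem_inertia A N hg, one_smul] at h1
    exact h1
  · -- Eichler–Shimura
    intro x
    have hφx : ∀ y : JZero N, reductionPic0Along r hr hgen (φ • y)
        = decompSL A N ⟨φ, hφ.mem_decompositionSubgroup⟩ • reductionPic0Along r hr hgen y := by
      intro y
      rw [galois_smul_pic0_def]
      exact reductionPic0Along_smul_of_equivariant hr hgen _
        (decompSL A N ⟨φ, hφ.mem_decompositionSubgroup⟩)
        (hequiv ⟨φ, hφ.mem_decompositionSubgroup⟩) y
    have hT := reductionPic0Along_heckeOperatorBar hℓ hr hgen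
      (decompSL A N ⟨φ, hφ.mem_decompositionSubgroup⟩) hH
      (fun hα hβ _ u => hes φ hφ hα hβ u) (φ • x)
    rw [map_add, map_sub, hT, hφx, hφx, inv_smul_smul, map_nsmul, ← natCast_zsmul]
    abel
  · -- injectivity on `p`-power torsion
    rintro x ⟨n, hn⟩ hx
    have hℓpn : ¬ ℓ ∣ p ^ n := fun h => hℓp (hℓ.dvd_of_dvd_pow h)
    have hm : p ^ n ≠ 0 := fun h0 => hℓpn (h0 ▸ dvd_zero ℓ)
    have hx' : reductionModL A N x = 0 := by
      rw [← reductionPic0Along_eq_reductionModL_of_nsmul_eq_zero hr hgen hm x hn]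
      exact hx
    exact hS18 hℓN A hA ⟨r, hr, hgen⟩ (p ^ n) hℓpn x hn hx'

/-- **S37 from its leaves**: the frozen S18 statement, the Hecke inputs, existence of Frobenius
elements, and a reduction datum at every `(ℓ, A)` with `ℓ ∤ N p`. -/
theorem specializationExists_of_leaves (N p : ℕ) [NeZero N]
    (hcomm : HeckeOperatorsCommuteBar N)
    (hS18 : S18Statement N)
    (hH : ∀ ℓ : ℕ, (hℓ : ℓ.Prime) → ¬ ℓ ∣ N * p →
      haveI : NeZero ℓ := ⟨hℓ.ne_zero⟩; HeckeInputsAlong Qb N ℓ)
    (hF : ∀ ℓ : ℕ, ℓ.Prime → ∀ A : ValuationSubring Qb, A.LiesOverPrime ℓ →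
      ∃ φ : GQ, A.IsFrobeniusAt φ ℓ)
    (hR : ∀ ℓ : ℕ, (hℓ : ℓ.Prime) → ¬ ℓ ∣ N * p → ∀ A : ValuationSubring Qb,
      A.LiesOverPrime ℓ → haveI : NeZero ℓ := ⟨hℓ.ne_zero⟩; RedDatum A N ℓ) :
    letI := heckeModuleBar N
    ∀ (_ : SMulCommClass (AlgebraicClosure ℚ ≃ₐ[ℚ] AlgebraicClosure ℚ) HeckeAlg (JZero N)),
      SpecializationExists (K := ℚ) (L := AlgebraicClosure ℚ) N p (JZero N) :=
  Fermat.Agent.S37Top.specializationExists_of_specCore N p hcomm fun ℓ hℓ hℓNp A hA =>
    specCore_of_redDatum N p ℓ hℓ hℓNp A hA hS18 (hH ℓ hℓ hℓNp) (hF ℓ hℓ A hA)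
      (hR ℓ hℓ hℓNp A hA)

end Final

end

end Fermat.Agent.S37Core
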