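/-
S37 block [KC], Core vocabulary (helper129).  The Kronecker congruence of `S37/KC.lean` for a
valuation subring `A` of `ℚ̄` over `ℓ` and a Frobenius element `φ` at `A`, with the coefficientwise
Frobenius written as the semilinear automorphism `Fr := S37Core.decompSL A N ⟨φ, _⟩` of
`F_k = k(j(q^d) : d ∣ N)`:

  `red (T' y) = (Fr • ȳ) * (Fr⁻¹ • ȳ) ^ ℓ`   in `modularFunctionFieldFullC k N`.
-/
import Fermat.Agent.S37.Core
import Fermat.Agent.S37.KC

set_option autoImplicit false

open HahnSeries ModularCurve AlgebraicCurve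

namespace Fermat.Agent.S37.KCCore

open Fermat.Agent.S37Core Fermat.Agent.S37.KC

noncomputable section

set_option synthInstance.maxHeartbeats 400000

variable (A : ValuationSubring Qb) (N : ℕ)

/-! ### Underlying series of the `decompSL`-action -/

/-- The underlying Laurent series of `decompSL A N g • x`. -/
theorem coe_decompSL_smul (g : A.decompositionSubgroup ℚ)
    (x : modularFunctionFieldFullC (IsLocalRing.ResidueField A) N) :
    ((decompSL A N g • x : modularFunctionFieldFullC (IsLocalRing.ResidueField A) N) :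
        LaurentSeries (IsLocalRing.ResidueField A))
      = coeffMap ((resAut A g : IsLocalRing.ResidueField A ≃+* IsLocalRing.ResidueField A) :
          IsLocalRing.ResidueField A →+* IsLocalRing.ResidueField A)
          (x : LaurentSeries (IsLocalRing.ResidueField A)) :=
  rfl

/-- The underlying Laurent series of `(decompSL A N g)⁻¹ • x`. -/
theorem coe_decompSL_inv_smul (g : A.decompositionSubgroup ℚ)
    (x : modularFunctionFieldFullC (IsLocalRing.ResidueField A) N) :
    (((decompSL A N g)⁻¹ • x : modularFunctionFieldFullC (IsLocalRing.ResidueField A) N) :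
        LaurentSeries (IsLocalRing.ResidueField A))
      = coeffMap (((resAut A g).symm : IsLocalRing.ResidueField A ≃+* IsLocalRing.ResidueField A) :
          IsLocalRing.ResidueField A →+* IsLocalRing.ResidueField A)
          (x : LaurentSeries (IsLocalRing.ResidueField A)) :=
  rfl

/-! ### Frobenius elements act by the coefficientwise Frobenius -/

variable {A}

/-- For a Frobenius element `φ` at `A`, `resAut` is the `ℓ`-power Frobenius of the residue
field. -/
theorem resAut_apply_of_isFrobeniusAt {ℓ : ℕ} {φ : GQ} (hφ : A.IsFrobeniusAt φ ℓ)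
    (a : IsLocalRing.ResidueField A) :
    resAut A ⟨φ, hφ.mem_decompositionSubgroup⟩ a = a ^ ℓ :=
  hφ.smul_residue_eq a

/-- `coeffMap Frob = coeffMap (resAut φ)`. -/
theorem coeffMap_frobenius_eq_resAut {ℓ : ℕ} [Fact ℓ.Prime]
    [CharP (IsLocalRing.ResidueField A) ℓ] {φ : GQ} (hφ : A.IsFrobeniusAt φ ℓ)
    (x : LaurentSeries (IsLocalRing.ResidueField A)) :
    coeffMap (frobenius (IsLocalRing.ResidueField A) ℓ) x
      = coeffMap ((resAut A ⟨φ, hφ.mem_decompositionSubgroup⟩ :
          IsLocalRing.ResidueField A ≃+* IsLocalRing.ResidueField A) :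
          IsLocalRing.ResidueField A →+* IsLocalRing.ResidueField A) x :=
  coeffMap_congr (RingHom.ext fun a => by
    rw [frobenius_def]
    exact (resAut_apply_of_isFrobeniusAt hφ a).symm) x

/-- `x(q^ℓ) = (Fr⁻¹ x)^ℓ`, `Fr⁻¹` the coefficientwise inverse Frobenius `(resAut φ).symm`. -/
theorem qExpand_eq_resAut_symm_pow {ℓ : ℕ} [Fact ℓ.Prime]
    [CharP (IsLocalRing.ResidueField A) ℓ] {φ : GQ} (hφ : A.IsFrobeniusAt φ ℓ)
    (x : LaurentSeries (IsLocalRing.ResidueField A)) :
    qExpand (IsLocalRing.ResidueField A) ℓ x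
      = coeffMap (((resAut A ⟨φ, hφ.mem_decompositionSubgroup⟩).symm :
          IsLocalRing.ResidueField A ≃+* IsLocalRing.ResidueField A) :
          IsLocalRing.ResidueField A →+* IsLocalRing.ResidueField A) x ^ ℓ := by
  rw [pow_char_eq_qExpand_frobenius, coeffMap_frobenius_eq_resAut hφ, coeffMap_coeffMap]
  congr 1
  conv_lhs => rw [← coeffMap_id x]
  refine coeffMap_congr (RingHom.ext fun a => ?_) x
  exact ((resAut A ⟨φ, hφ.mem_decompositionSubgroup⟩).apply_symm_apply a).symm

/-! ### The congruence inside `modularFunctionFieldFullC k N` -/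

/-- If `z̄ = ȳ(q^ℓ) · Frob(ȳ)` as Laurent series and `ȳ ∈ F_k`, then `z̄ ∈ F_k` and
`z̄ = (Fr • ȳ) * (Fr⁻¹ • ȳ)^ℓ` in `F_k`, `Fr = decompSL A N ⟨φ, _⟩`. -/
theorem eq_smul_mul_inv_smul_pow {ℓ : ℕ} [Fact ℓ.Prime] [CharP (IsLocalRing.ResidueField A) ℓ]
    {φ : GQ} (hφ : A.IsFrobeniusAt φ ℓ)
    {ybar zbar : LaurentSeries (IsLocalRing.ResidueField A)}
    (hy : ybar ∈ modularFunctionFieldFullC (IsLocalRing.ResidueField A) N)
    (hz : zbar = qExpand (IsLocalRing.ResidueField A) ℓ ybar *
      coeffMap (frobenius (IsLocalRing.ResidueField A) ℓ) ybar) :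
    ∃ hzk : zbar ∈ modularFunctionFieldFullC (IsLocalRing.ResidueField A) N,
      (⟨zbar, hzk⟩ : modularFunctionFieldFullC (IsLocalRing.ResidueField A) N)
        = (decompSL A N ⟨φ, hφ.mem_decompositionSubgroup⟩ •
            (⟨ybar, hy⟩ : modularFunctionFieldFullC (IsLocalRing.ResidueField A) N)) *
          ((decompSL A N ⟨φ, hφ.mem_decompositionSubgroup⟩)⁻¹ •
            (⟨ybar, hy⟩ : modularFunctionFieldFullC (IsLocalRing.ResidueField A) N)) ^ ℓ := by
  have hval : zbar =
      (((decompSL A N ⟨φ, hφ.mem_decompositionSubgroup⟩ •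
            (⟨ybar, hy⟩ : modularFunctionFieldFullC (IsLocalRing.ResidueField A) N)) *
          ((decompSL A N ⟨φ, hφ.mem_decompositionSubgroup⟩)⁻¹ •
            (⟨ybar, hy⟩ : modularFunctionFieldFullC (IsLocalRing.ResidueField A) N)) ^ ℓ :
          modularFunctionFieldFullC (IsLocalRing.ResidueField A) N) :
        LaurentSeries (IsLocalRing.ResidueField A)) := by
    rw [hz, MulMemClass.coe_mul, SubmonoidClass.coe_pow, coe_decompSL_smul, coe_decompSL_inv_smul,
      ← qExpand_eq_resAut_symm_pow hφ, ← coeffMap_frobenius_eq_resAut hφ, mul_comm]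
  refine ⟨hval ▸ Subtype.property _, Subtype.ext ?_⟩
  exact hval

/-- **[KC] in Core vocabulary (norm form).**  `A ⊂ ℚ̄` over `ℓ`, `φ` a Frobenius element at `A`,
`ζ` a primitive `ℓ`-th root of unity, `y` a Laurent series over `A` with `ȳ ∈ F_k`.  If
`T ∈ ℚ̄((q))` satisfies `T(q^ℓ) = y(q^{ℓ·ℓ}) · ∏_{i<ℓ} y(ζ^i q)`, then `T` has an `A`-integral
model `t` whose reduction lies in `F_k` and equals `(Fr • ȳ) * (Fr⁻¹ • ȳ)^ℓ`. -/
theorem kronecker_core {ℓ : ℕ} [Fact ℓ.Prime] [NeZero (ℓ * ℓ)] (hA : A.LiesOverPrime ℓ)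
    {φ : GQ} (hφ : A.IsFrobeniusAt φ ℓ) {ζ : Qb} (hζ : IsPrimitiveRoot ζ ℓ)
    (h0 : ∀ i : ℕ, ζ ^ i ≠ 0) (y : LaurentSeries A) (T : LaurentSeries Qb)
    (hT : qExpand Qb ℓ T = qExpand Qb (ℓ * ℓ) (coeffMap A.subtype y) *
      ∏ i ∈ Finset.range ℓ, Fermat.Agent.S24.rotHom (ζ ^ i) (h0 i) (coeffMap A.subtype y))
    (hy : coeffMap (IsLocalRing.residue A) y ∈
      modularFunctionFieldFullC (IsLocalRing.ResidueField A) N) :
    ∃ (t : LaurentSeries A) (_ : coeffMap A.subtype t = T)
      (htk : coeffMap (IsLocalRing.residue A) t ∈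
        modularFunctionFieldFullC (IsLocalRing.ResidueField A) N),
      (⟨coeffMap (IsLocalRing.residue A) t, htk⟩ :
          modularFunctionFieldFullC (IsLocalRing.ResidueField A) N)
        = (decompSL A N ⟨φ, hφ.mem_decompositionSubgroup⟩ •
            (⟨coeffMap (IsLocalRing.residue A) y, hy⟩ :
              modularFunctionFieldFullC (IsLocalRing.ResidueField A) N)) *
          ((decompSL A N ⟨φ, hφ.mem_decompositionSubgroup⟩)⁻¹ •
            (⟨coeffMap (IsLocalRing.residue A) y, hy⟩ :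
              modularFunctionFieldFullC (IsLocalRing.ResidueField A) N)) ^ ℓ := by
  have hchar : CharP (IsLocalRing.ResidueField A) ℓ :=
    Fermat.Agent.S18.BaseRes.charP_residueField ℓ A hA
  obtain ⟨t, ht, htred⟩ := kronecker_of_qExpand_mul_self_eq ℓ A hA hζ h0 y T hT
  obtain ⟨htk, heq⟩ := eq_smul_mul_inv_smul_pow (N := N) hφ hy htred
  exact ⟨t, ht, htk, heq⟩

end

end Fermat.Agent.S37.KCCore
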