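/-
S37 block [R0], row R3b "special fibre" — SpFibCore.lean (helper9).  Mathlib-only.

Abstract core: let `B ⊆ F` be a noetherian `k`-subalgebra of a field `F` which is integrally
closed in `F`, has fraction field `F` and is integral over `k[t]` for some `t ∈ B`
(so `B` is a Dedekind domain).  Let `V ≠ ⊤` be a valuation subring of `F` containing `B`.
Then `V` is the localisation of `B` at the prime `𝔪_V ∩ B`: every `d ∈ V` is `a / s` with
`a, s ∈ B` and `s` a unit of `V`.

Also: `B ⊆ V` as soon as `V` contains the constants and `t` (valuation rings are integrally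
closed).
-/
import Mathlib

set_option autoImplicit false

namespace Fermat.Agent.S37.SpFibCore

open Polynomial

variable {k F : Type*} [Field k] [Field F] [Algebra k F]

/-- Products with elements of `V` stay in the non-units. -/
theorem mul_mem_nonunits (V : ValuationSubring F) {d x : F} (hd : d ∈ V)
    (hx : x ∈ V.nonunits) : d * x ∈ V.nonunits := by
  rw [ValuationSubring.mem_nonunits_iff_exists_mem_maximalIdeal] at hx ⊢
  obtain ⟨hx', hxm⟩ := hx
  exact ⟨V.mul_mem _ _ hd hx', Ideal.mul_mem_left _ ⟨d, hd⟩ hxm⟩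

/-- `k[t] ⊆ V` if `V` contains the constants and `t`. -/
theorem adjoin_le_valuationSubring (t : F) (V : ValuationSubring F)
    (hk : ∀ c : k, algebraMap k F c ∈ V) (htV : t ∈ V) :
    ∀ y ∈ Algebra.adjoin k {t}, y ∈ V := by
  intro y hy
  induction hy using Algebra.adjoin_induction with
  | mem z hz =>
    rw [Set.mem_singleton_iff] at hz
    rw [hz]
    exact htV
  | algebraMap c => exact hk c
  | add a b _ _ ha hb => exact V.add_mem _ _ ha hb
  | mul a b _ _ ha hb => exact V.mul_mem _ _ ha hb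

/-- An element integral over `k[t]` lies in every valuation subring containing the constants
and `t`. -/
theorem mem_valuationSubring_of_isIntegral (t : F) (V : ValuationSubring F)
    (hk : ∀ c : k, algebraMap k F c ∈ V) (htV : t ∈ V) {x : F}
    (hx : IsIntegral (Algebra.adjoin k {t}) x) : x ∈ V := by
  have hle := adjoin_le_valuationSubring t V hk htV
  obtain ⟨p, hp, hpx⟩ := hx
  let ι : Algebra.adjoin k {t} →+* V :=
    { toFun := fun y => ⟨(y : F), hle y y.2⟩
      map_one' := rfl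
      map_mul' := fun _ _ => rfl
      map_zero' := rfl
      map_add' := fun _ _ => rfl }
  have h1 : IsIntegral V x := by
    refine ⟨p.map ι, hp.map _, ?_⟩
    rw [Polynomial.eval₂_map]
    exact hpx
  obtain ⟨y, hy⟩ := (IsIntegrallyClosed.isIntegral_iff (R := V)).mp h1
  rw [← hy]
  exact y.2

/-- `B ⊆ V` as soon as `V` contains the constants and `t`. -/
theorem le_valuationSubring (B : Subalgebra k F) (t : F)
    (hint : ∀ x ∈ B, IsIntegral (Algebra.adjoin k {t}) x)
    (V : ValuationSubring F) (hk : ∀ c : k, algebraMap k F c ∈ V) (htV : t ∈ V) :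
    ∀ x ∈ B, x ∈ V :=
  fun x hx => mem_valuationSubring_of_isIntegral t V hk htV (hint x hx)

/-- A `k`-subalgebra of a field which is integral over `k[t]`, `t ∈ B`, has dimension `≤ 1`. -/
theorem dimensionLEOne_of_isIntegral (B : Subalgebra k F) (t : F) (ht : t ∈ B)
    (hint : ∀ x ∈ B, IsIntegral (Algebra.adjoin k {t}) x) : Ring.DimensionLEOne B := by
  let _ : Algebra k[X] B := (Polynomial.aeval (⟨t, ht⟩ : B)).toRingHom.toAlgebra
  have halg : ∀ p : k[X], algebraMap k[X] B p = Polynomial.aeval (⟨t, ht⟩ : B) p := fun _ => rfl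
  let φ : k[X] →+* Algebra.adjoin k {t} :=
    (Polynomial.aeval (⟨t, Algebra.self_mem_adjoin_singleton k t⟩ : Algebra.adjoin k {t})).toRingHom
  have hφ : Function.Surjective φ := by
    rintro ⟨y, hy⟩
    rw [Algebra.adjoin_singleton_eq_range_aeval] at hy
    obtain ⟨p, hp⟩ := hy
    refine ⟨p, Subtype.ext ?_⟩
    change ((Polynomial.aeval (⟨t, Algebra.self_mem_adjoin_singleton k t⟩ :
      Algebra.adjoin k {t}) p : Algebra.adjoin k {t}) : F) = y
    rw [Polynomial.aeval_subalgebra_coe]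
    exact hp
  have hcomp : (B.val.toRingHom).comp (algebraMap k[X] B) =
      (algebraMap (Algebra.adjoin k {t}) F).comp φ := by
    apply Polynomial.ringHom_ext
    · intro c
      change ((Polynomial.aeval (⟨t, ht⟩ : B) (C c) : B) : F) =
        ((Polynomial.aeval (⟨t, Algebra.self_mem_adjoin_singleton k t⟩ :
          Algebra.adjoin k {t}) (C c) : Algebra.adjoin k {t}) : F)
      rw [Polynomial.aeval_subalgebra_coe, Polynomial.aeval_subalgebra_coe]
    · change ((Polynomial.aeval (⟨t, ht⟩ : B) X : B) : F) =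
        ((Polynomial.aeval (⟨t, Algebra.self_mem_adjoin_singleton k t⟩ :
          Algebra.adjoin k {t}) X : Algebra.adjoin k {t}) : F)
      rw [Polynomial.aeval_subalgebra_coe, Polynomial.aeval_subalgebra_coe]
  have : Algebra.IsIntegral k[X] B := by
    refine ⟨fun x => ?_⟩
    obtain ⟨p, hp, hpx⟩ := hint x x.2
    obtain ⟨q, hq, -, hqm⟩ :=
      Polynomial.lifts_and_degree_eq_and_monic
        ((Polynomial.mem_lifts p).mpr (Polynomial.map_surjective φ hφ p)) hp
    refine ⟨q, hqm, ?_⟩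
    apply Subtype.ext
    have h1 : ((Polynomial.eval₂ (algebraMap k[X] B) x q : B) : F) =
        Polynomial.eval₂ ((B.val.toRingHom).comp (algebraMap k[X] B)) (x : F) q :=
      Polynomial.hom_eval₂ q (algebraMap k[X] B) B.val.toRingHom x
    rw [h1, hcomp, ← Polynomial.eval₂_map, hq]
    exact hpx
  exact Ring.DimensionLEOne.of_isIntegral k[X] B

/-- **Abstract R3b**: a valuation subring `V ≠ ⊤` containing the Dedekind ring `B` is the
localisation of `B` at `𝔪_V ∩ B`. -/
theorem exists_frac_of_mem_valuationSubring (B : Subalgebra k F) [IsNoetherianRing B] (t : F)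
    (ht : t ∈ B) (hint : ∀ x ∈ B, IsIntegral (Algebra.adjoin k {t}) x)
    (hcl : ∀ y : F, IsIntegral B y → y ∈ B)
    (hfrac : ∀ y : F, ∃ a ∈ B, ∃ b ∈ B, b ≠ 0 ∧ y * b = a)
    (V : ValuationSubring F) (hV : V ≠ ⊤) (hBV : ∀ x ∈ B, x ∈ V) :
    ∀ d ∈ V, ∃ a ∈ B, ∃ s ∈ B, s ∉ V.nonunits ∧ d * s = a := by
  classical
  -- `F = Frac B`
  have hFR : IsFractionRing B F := by
    refine IsFractionRing.of_field (R := B) (K := F) fun z => ?_
    obtain ⟨a, ha, b, hb, hb0, hab⟩ := hfrac z
    refine ⟨⟨a, ha⟩, ⟨b, hb⟩, ?_⟩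
    change z = a / b
    rw [eq_div_iff hb0]
    exact hab
  -- `B` is a Dedekind domain
  have hdim : Ring.DimensionLEOne B := dimensionLEOne_of_isIntegral B t ht hint
  have : IsDedekindDomain B :=
    (isDedekindDomain_iff (A := B) F).mpr
      ⟨inferInstance, inferInstance, hdim, fun {x} hx => ⟨⟨x, hcl x hx⟩, rfl⟩⟩
  -- the centre of `V` on `B`
  let ι : B →+* V :=
    { toFun := fun y => ⟨(y : F), hBV y y.2⟩
      map_one' := rfl
      map_mul' := fun _ _ => rfl
      map_zero' := rfl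
      map_add' := fun _ _ => rfl }
  let 𝔭 : Ideal B := (IsLocalRing.maximalIdeal V).comap ι
  have h𝔭 : 𝔭.IsPrime := Ideal.comap_isPrime ι _
  have hmem𝔭 : ∀ y : B, y ∈ 𝔭 ↔ (y : F) ∈ V.nonunits := by
    intro y
    rw [ValuationSubring.mem_nonunits_iff_exists_mem_maximalIdeal]
    constructor
    · intro h
      exact ⟨hBV y y.2, h⟩
    · rintro ⟨_, h⟩
      exact h
  have h𝔭0 : 𝔭 ≠ ⊥ := by
    obtain ⟨f, hf⟩ : ∃ f : F, f ∉ V := by
      by_contra hcon
      push Not at hcon
      exact hV (eq_top_iff.mpr fun x _ => hcon x)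
    have hf0 : f ≠ 0 := fun h => hf (h ▸ V.zero_mem)
    have hfi : f⁻¹ ∈ V.nonunits := by
      rw [ValuationSubring.mem_nonunits_iff]
      have h1 : 1 < V.valuation f := by
        by_contra hle
        exact hf ((V.valuation_le_one_iff f).mp (not_lt.mp hle))
      rw [map_inv₀]
      exact inv_lt_one_of_one_lt₀ h1
    obtain ⟨a, ha, b, hb, hb0, hab⟩ := hfrac f⁻¹
    have ha0 : a ≠ 0 := by
      rw [← hab]
      exact mul_ne_zero (inv_ne_zero hf0) hb0
    have ha𝔭 : (⟨a, ha⟩ : B) ∈ 𝔭 := by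
      rw [hmem𝔭]
      change a ∈ V.nonunits
      rw [← hab, mul_comm]
      exact mul_mem_nonunits V (hBV b hb) hfi
    intro hbot
    rw [hbot, Ideal.mem_bot] at ha𝔭
    exact ha0 (congrArg Subtype.val ha𝔭)
  have : IsDiscreteValuationRing (Localization.AtPrime 𝔭) :=
    IsLocalization.AtPrime.isDiscreteValuationRing_of_dedekind_domain B h𝔭0 _
  have hinj : Function.Injective (algebraMap B (Localization.AtPrime 𝔭)) :=
    IsLocalization.injective _ 𝔭.primeCompl_le_nonZeroDivisors
  -- the valuation ring property of `B_𝔭`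
  intro d hd
  obtain ⟨a, ha, b, hb, hb0, hab⟩ := hfrac d
  obtain ⟨c, hc⟩ := ValuationRing.cond (algebraMap B (Localization.AtPrime 𝔭) ⟨a, ha⟩)
    (algebraMap B (Localization.AtPrime 𝔭) ⟨b, hb⟩)
  obtain ⟨⟨c₁, c₂⟩, hc12⟩ := IsLocalization.surj 𝔭.primeCompl c
  have hc₂ : (c₂ : B) ∉ 𝔭 := c₂.2
  have hc₂' : ((c₂ : B) : F) ∉ V.nonunits := fun h => hc₂ ((hmem𝔭 _).mpr h)
  rcases hc with hc | hc
  · -- `a * c = b` in `B_𝔭`, hence `a * c₁ = b * c₂` in `B`
    have h1 : (⟨a, ha⟩ : B) * c₁ = ⟨b, hb⟩ * (c₂ : B) := by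
      apply hinj
      rw [map_mul, map_mul, ← hc12, ← hc]
      ring
    have h2 : a * (c₁ : F) = b * ((c₂ : B) : F) := congrArg Subtype.val h1
    have h3 : d * (c₁ : F) = ((c₂ : B) : F) := by
      have : b * (d * (c₁ : F)) = b * ((c₂ : B) : F) := by
        rw [← h2, ← hab]
        ring
      exact mul_left_cancel₀ hb0 this
    refine ⟨(c₂ : B), (c₂ : B).2, (c₁ : F), c₁.2, ?_, h3⟩
    intro hc₁
    exact hc₂' (h3 ▸ mul_mem_nonunits V hd hc₁)
  · -- `b * c = a` in `B_𝔭`, hence `b * c₁ = a * c₂` in `B`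
    have h1 : (⟨b, hb⟩ : B) * c₁ = ⟨a, ha⟩ * (c₂ : B) := by
      apply hinj
      rw [map_mul, map_mul, ← hc12, ← hc]
      ring
    have h2 : b * (c₁ : F) = a * ((c₂ : B) : F) := congrArg Subtype.val h1
    have h3 : d * ((c₂ : B) : F) = (c₁ : F) := by
      have : b * (d * ((c₂ : B) : F)) = b * (c₁ : F) := by
        rw [h2, ← hab]
        ring
      exact mul_left_cancel₀ hb0 this
    exact ⟨(c₁ : F), c₁.2, ((c₂ : B) : F), (c₂ : B).2, hc₂', h3⟩

end Fermat.Agent.S37.SpFibCore
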