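/-
S37 — PMDefs.lean (captain: helper33).  BINDING vocabulary for the reduction datum `RedDatum`
of `S37/Core.lean`: the interface between
  * block [PM]  (construction of the place map `r` from the T4 / S18 model: proves
                 `PlaceMapAPI N A r` for some `r`),
  * block [EQ]  (decomposition-group equivariance of `r`, from `PlaceMapAPI`),
  * block [ES]  (the Eichler–Shimura congruence on divisors, from `PlaceMapAPI`).
Definitions and `Prop`s only; no proof obligations.

Notation: `F̄ = modularFunctionFieldBar N ⊂ ℚ̄((q))`, `A ⊂ ℚ̄` a valuation subring, `k` its residue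
field, `F_k = modularFunctionFieldFullC k N ⊂ k((q))`.
-/
import Mathlib
import Fermat.Prelude.Def_ModularCurve_ReductionModL

set_option autoImplicit false

noncomputable section

namespace Fermat.Agent.S37.PM

open ModularCurve AlgebraicCurve HahnSeries

/-- `ℚ̄`. -/
abbrev Qb : Type := AlgebraicClosure ℚ

section Generic

variable {K F : Type*} [Field K] [Field F] [Algebra K F]

/-- `f` is regular at the place `v` and takes the value `c ∈ K` there:
`f - c` lies in the maximal ideal of the valuation ring of `v`. -/
def ValAt (v : Place K F) (f : F) (c : K) : Prop :=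
  f - algebraMap K F c ∈ v.toValuationSubring.nonunits

end Generic

section Charts

set_option synthInstance.maxHeartbeats 400000

variable (N : ℕ) (A : ValuationSubring Qb)

/-- `j = j(q) ∈ F̄`. -/
def jbar : modularFunctionFieldBar N :=
  ⟨coeffEmb Qb jq, coeffEmb_mem_laurentBaseChange Qb (by
    have h := jqd_mem_full N (one_dvd N)
    rwa [qExpand_one_apply] at h)⟩

/-- The constants `A → F̄`. -/
def constA : A →+* modularFunctionFieldBar N :=
  (algebraMap Qb (modularFunctionFieldBar N)).comp A.subtype

/-- The subring `A[t] ⊆ F̄`. -/
def AT (t : modularFunctionFieldBar N) : Subring (modularFunctionFieldBar N) :=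
  Subring.closure (Set.range (constA N A) ∪ {t})

/-- The chart ring with coordinate `t`: the integral closure of `A[t]` in `F̄`. -/
def chartA (t : modularFunctionFieldBar N) : Subring (modularFunctionFieldBar N) :=
  (integralClosure (AT N A t) (modularFunctionFieldBar N)).toSubring

/-- The chart `j ≠ ∞` over `A`: the integral closure of `A[j]` in `F̄`. -/
def RA0 : Subring (modularFunctionFieldBar N) := chartA N A (jbar N)

/-- The chart `j ≠ 0` over `A`: the integral closure of `A[j⁻¹]` in `F̄`. -/
def RAinf : Subring (modularFunctionFieldBar N) := chartA N A (jbar N)⁻¹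

/-- Places of `F̄` in the chart `j ≠ ∞` of the model over `A`: `j` is regular with value in `A`. -/
def InChart0 (P : Place Qb (modularFunctionFieldBar N)) : Prop :=
  ∃ c : A, ValAt P (jbar N) (c : Qb)

/-- Places of `F̄` reducing to the cusps: `j⁻¹` is regular with value in the maximal ideal
of `A`. -/
def InCusp (P : Place Qb (modularFunctionFieldBar N)) : Prop :=
  ∃ c : A, c ∈ IsLocalRing.maximalIdeal A ∧ ValAt P (jbar N)⁻¹ (c : Qb)

/-- Compatibility of a place map `r` with evaluation on a subring `R ⊆ F̄` at the place `P`:
every `x ∈ R` has an `A`-integral `q`-expansion `X` whose reduction lies in `F_k`, `x` is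
regular at `P` with a value `c ∈ A`, and the reduction of `X` is regular at `r P` with value
the residue class of `c`. -/
def EvalRed (r : Place Qb (modularFunctionFieldBar N) →
      Place (IsLocalRing.ResidueField A) (modularFunctionFieldFullC (IsLocalRing.ResidueField A) N))
    (R : Subring (modularFunctionFieldBar N)) (P : Place Qb (modularFunctionFieldBar N)) : Prop :=
  ∀ x ∈ R, ∃ (c : A) (X : LaurentSeries A)
      (hk : coeffMap (IsLocalRing.residue A) X ∈
        modularFunctionFieldFullC (IsLocalRing.ResidueField A) N),
    coeffMap A.subtype X = (x : LaurentSeries Qb) ∧ ValAt P x (c : Qb) ∧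
      ValAt (r P) (⟨coeffMap (IsLocalRing.residue A) X, hk⟩ :
        modularFunctionFieldFullC (IsLocalRing.ResidueField A) N) (IsLocalRing.residue A c)

/-- Two places of `F_k` at which (the reductions of) all elements of `R` are regular with equal
values coincide. -/
def SeparatesPlaces (R : Subring (modularFunctionFieldBar N)) : Prop :=
  ∀ Q₁ Q₂ : Place (IsLocalRing.ResidueField A)
      (modularFunctionFieldFullC (IsLocalRing.ResidueField A) N),
    (∀ x ∈ R, ∀ (X : LaurentSeries A)
        (hk : coeffMap (IsLocalRing.residue A) X ∈
          modularFunctionFieldFullC (IsLocalRing.ResidueField A) N),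
      coeffMap A.subtype X = (x : LaurentSeries Qb) →
      ∃ c : IsLocalRing.ResidueField A,
        ValAt Q₁ (⟨coeffMap (IsLocalRing.residue A) X, hk⟩ :
          modularFunctionFieldFullC (IsLocalRing.ResidueField A) N) c ∧
        ValAt Q₂ (⟨coeffMap (IsLocalRing.residue A) X, hk⟩ :
          modularFunctionFieldFullC (IsLocalRing.ResidueField A) N) c) →
    Q₁ = Q₂

/-- **The API of the place map** delivered by block [PM] and consumed by blocks [EQ], [ES]. -/
structure PlaceMapAPI
    (r : Place Qb (modularFunctionFieldBar N) →
      Place (IsLocalRing.ResidueField A) (modularFunctionFieldFullC (IsLocalRing.ResidueField A) N)) :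
    Prop where
  /-- conservation of number (frozen form) -/
  isRed : IsPlaceReductionModL A N r
  /-- principal divisors are generated by divisors of `A`-integral functions (frozen form) -/
  gen : PrincipalGeneratedByIntegral A (IsLocalRing.residue A) N
  /-- every place is in the chart `j ≠ ∞` or reduces to a cusp -/
  cover : ∀ P, InChart0 N A P ∨ InCusp N A P
  /-- evaluation commutes with reduction on the chart `j ≠ ∞` -/
  red0 : ∀ P, InChart0 N A P → EvalRed N A r (RA0 N A) P
  /-- evaluation commutes with reduction at the places reducing to cusps -/
  redInf : ∀ P, InCusp N A P → EvalRed N A r (RAinf N A) P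
  /-- a place of `F_k` is determined by the values of the reduced chart functions -/
  sep0 : SeparatesPlaces N A (RA0 N A)
  sepInf : SeparatesPlaces N A (RAinf N A)

end Charts

end Fermat.Agent.S37.PM
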