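/-
S37, block [R0] — PMPlacesK2.lean (helper61; split of the "places of `F_k` ↔ `k`-points" leaf
with helper22, who owns `PMPlacesK.lean`).

* Part G (generic): "every regular function has a value" ⟺ "the residue field is the constant
  field" ⟹ `deg = 1`.
* Part (i): `k`-points of a Dedekind model.  `R` a Dedekind domain with fraction field `F`,
  `k ⊆ R`, `χ : R →ₐ[k] k` with kernel the height-one prime `w`.  Then the place of `F / k`
  at `w` has degree one, every function regular at it has a value in `k`, and the value of
  `x ∈ R` is `χ x`.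
* Part (i'): conversely, for `k` algebraically closed every height-one prime `w` with
  `R ⧸ w` algebraic over `k` (e.g. `R` integral over `k[t]`) is the kernel of a unique
  `k`-point.
* Part (iii): characteristic-free port of `S24/Residue.lean` (the S24 versions carry an
  unused `[CharZero K]`): for `K` algebraically closed and `F / K` a function field in one
  variable, every place has residue field `K`, degree one, and every regular function has a
  value.
* Part M (modular): `F_k = modularFunctionFieldFullC k N` is a function field in one variable over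
  an algebraically closed `k` of ANY characteristic; all its places have degree one; hence the
  degree clause of the frozen `IsPlaceReductionModL` holds for EVERY place map `r`.
-/
import Mathlib
import Fermat.Prelude.Def_AlgebraicCurve_DivisorClassGroup
import Fermat.Agent.S24.Defs
import Fermat.Agent.S24.Residue
import Fermat.Agent.S24.PlacesDedekind
import Fermat.Agent.S18.SepDeg
import Fermat.Agent.S18.ConstK
import Fermat.Agent.S18.RedDiv
import Fermat.Agent.S18.BaseRes
import Fermat.Agent.S37.PMDefs

set_option autoImplicit false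

namespace Fermat.Agent.S37.PMPlacesK2

open AlgebraicCurve IsDedekindDomain IntermediateField Fermat.Agent.S37.PM
open scoped IntermediateField.algebraAdjoinAdjoin

/-! ### Part G: values and the residue field -/

section Generic

variable {K F : Type*} [Field K] [Field F] [Algebra K F]

/-- An element of the valuation ring of a place lies in `nonunits` iff it lies in the maximal
ideal. -/
theorem coe_mem_nonunits_iff (v : Place K F) (a : v.toValuationSubring) :
    (a : F) ∈ v.toValuationSubring.nonunits ↔ a ∈ IsLocalRing.maximalIdeal v.toValuationSubring := by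
  rw [ValuationSubring.mem_nonunits_iff_exists_mem_maximalIdeal]
  constructor
  · rintro ⟨_, h⟩
    exact h
  · intro h
    exact ⟨a.2, h⟩

/-- `ValAt` in terms of the residue map. -/
theorem valAt_iff_residue_eq (v : Place K F) (a : v.toValuationSubring) (c : K) :
    ValAt v (a : F) c ↔
      IsLocalRing.residue v.toValuationSubring a = algebraMap K v.ResidueField c := by
  have h1 : (a : F) - algebraMap K F c =
      ((a - algebraMap K v.toValuationSubring c : v.toValuationSubring) : F) := rfl
  have h2 : algebraMap K v.ResidueField c =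
      IsLocalRing.residue v.toValuationSubring (algebraMap K v.toValuationSubring c) := rfl
  unfold ValAt
  rw [h1, coe_mem_nonunits_iff, ← IsLocalRing.residue_eq_zero_iff, map_sub, sub_eq_zero, h2]

/-- If every regular function has a value, the residue field is the constant field. -/
theorem residue_surjective_of_forall_valAt (v : Place K F)
    (h : ∀ a ∈ v.toValuationSubring, ∃ c : K, ValAt v a c) :
    Function.Surjective (algebraMap K v.ResidueField) := by
  intro β
  obtain ⟨b, rfl⟩ := IsLocalRing.residue_surjective β
  obtain ⟨c, hc⟩ := h b b.2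
  exact ⟨c, ((valAt_iff_residue_eq v b c).mp hc).symm⟩

/-- If the residue field is the constant field, every regular function has a value. -/
theorem exists_valAt_of_residue_surjective (v : Place K F)
    (h : Function.Surjective (algebraMap K v.ResidueField)) :
    ∀ a ∈ v.toValuationSubring, ∃ c : K, ValAt v a c := by
  intro a ha
  obtain ⟨c, hc⟩ := h (IsLocalRing.residue v.toValuationSubring ⟨a, ha⟩)
  exact ⟨c, (valAt_iff_residue_eq v ⟨a, ha⟩ c).mpr hc.symm⟩

/-- If the residue field is the constant field, the place has degree one. -/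
theorem deg_eq_one_of_residue_surjective (v : Place K F)
    (h : Function.Surjective (algebraMap K v.ResidueField)) : v.deg = 1 := by
  have hinj : Function.Injective (algebraMap K v.ResidueField) :=
    (algebraMap K v.ResidueField).injective
  let e : K ≃ₗ[K] v.ResidueField :=
    LinearEquiv.ofBijective (Algebra.linearMap K v.ResidueField) ⟨hinj, h⟩
  show Module.finrank K v.ResidueField = 1
  rw [← e.finrank_eq, Module.finrank_self]

/-- If every regular function has a value, the place has degree one. -/
theorem deg_eq_one_of_forall_valAt (v : Place K F)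
    (h : ∀ a ∈ v.toValuationSubring, ∃ c : K, ValAt v a c) : v.deg = 1 :=
  deg_eq_one_of_residue_surjective v (residue_surjective_of_forall_valAt v h)

end Generic

/-! ### Part (i): `k`-points of a Dedekind model -/

section KPoint

variable {k F : Type*} [Field k] [Field F] [Algebra k F]
variable {R : Type*} [CommRing R] [IsDedekindDomain R] [Algebra k R] [Algebra R F]
  [IsScalarTower k R F] [IsFractionRing R F]

/-- Membership in the valuation ring of the place at `w`. -/
theorem mem_ofHeightOneSpectrum_iff (w : HeightOneSpectrum R) (f : F) :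
    f ∈ (Place.ofHeightOneSpectrum (K := k) (F := F) w).toValuationSubring ↔
      w.valuation F f ≤ 1 :=
  Valuation.mem_valuationSubring_iff _ _

/-- Membership in the maximal ideal of the place at `w`. -/
theorem mem_nonunits_ofHeightOneSpectrum_iff (w : HeightOneSpectrum R) (f : F) :
    f ∈ (Place.ofHeightOneSpectrum (K := k) (F := F) w).toValuationSubring.nonunits ↔
      w.valuation F f < 1 := by
  show f ∈ ((w.valuation F).valuationSubring).nonunits ↔ _
  rw [ValuationSubring.mem_nonunits_iff]
  exact ((Valuation.isEquiv_valuation_valuationSubring (w.valuation F)).lt_one_iff_lt_one).symm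

/-- Elements of `R` are regular at the place at `w`. -/
theorem algebraMap_mem_ofHeightOneSpectrum (w : HeightOneSpectrum R) (x : R) :
    algebraMap R F x ∈ (Place.ofHeightOneSpectrum (K := k) (F := F) w).toValuationSubring :=
  (mem_ofHeightOneSpectrum_iff w _).mpr (w.valuation_le_one x)

/-- An element of `R` vanishes at the place at `w` iff it lies in `w`. -/
theorem algebraMap_mem_nonunits_iff (w : HeightOneSpectrum R) (x : R) :
    algebraMap R F x ∈ (Place.ofHeightOneSpectrum (K := k) (F := F) w).toValuationSubring.nonunits ↔
      x ∈ w.asIdeal := by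
  rw [mem_nonunits_ofHeightOneSpectrum_iff]
  exact w.valuation_lt_one_iff_mem x

/-- The height-one prime `ker χ` of a `k`-point `χ` of `R` (nonzero kernel). -/
def kerPrime (χ : R →ₐ[k] k) (hne : RingHom.ker χ.toRingHom ≠ ⊥) : HeightOneSpectrum R :=
  ⟨RingHom.ker χ.toRingHom, RingHom.ker_isPrime _, hne⟩

omit [IsDedekindDomain R] in
@[simp]
theorem kerPrime_asIdeal (χ : R →ₐ[k] k) (hne : RingHom.ker χ.toRingHom ≠ ⊥) :
    (kerPrime χ hne).asIdeal = RingHom.ker χ.toRingHom := rfl

/-- **(i), value clause.** If `w = ker χ`, the value of `x ∈ R` at the place at `w` is `χ x`. -/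
theorem valAt_of_ker_eq (w : HeightOneSpectrum R) (χ : R →ₐ[k] k)
    (hχ : RingHom.ker χ.toRingHom = w.asIdeal) (x : R) :
    ValAt (Place.ofHeightOneSpectrum (K := k) (F := F) w) (algebraMap R F x) (χ x) := by
  unfold ValAt
  have h1 : algebraMap R F x - algebraMap k F (χ x) =
      algebraMap R F (x - algebraMap k R (χ x)) := by
    rw [map_sub, ← IsScalarTower.algebraMap_apply]
  rw [h1, algebraMap_mem_nonunits_iff, ← hχ, RingHom.mem_ker]
  show χ (x - algebraMap k R (χ x)) = 0
  rw [map_sub, AlgHom.commutes, Algebra.algebraMap_self_apply, sub_self]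

/-- **(i), all values.** If `w = ker χ`, every function regular at the place at `w` has a value
in `k`. -/
theorem exists_valAt_of_ker_eq (w : HeightOneSpectrum R) (χ : R →ₐ[k] k)
    (hχ : RingHom.ker χ.toRingHom = w.asIdeal) :
    ∀ a ∈ (Place.ofHeightOneSpectrum (K := k) (F := F) w).toValuationSubring,
      ∃ c : k, ValAt (Place.ofHeightOneSpectrum (K := k) (F := F) w) a c := by
  intro a ha
  have hker : ∀ x : R, x ∈ w.asIdeal ↔ χ x = 0 := by
    intro x
    rw [← hχ]
    rfl
  obtain ⟨n, d, hnd⟩ := w.exists_primeCompl_mul_eq_of_integer a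
    ((mem_ofHeightOneSpectrum_iff (k := k) w a).mp ha)
  have hd : (d : R) ∉ w.asIdeal := d.2
  have hχd : χ (d : R) ≠ 0 := fun h0 => hd ((hker _).mpr h0)
  refine ⟨χ n / χ (d : R), ?_⟩
  unfold ValAt
  rw [mem_nonunits_ofHeightOneSpectrum_iff]
  -- `a - c = (n - c d) / d`
  have hd0 : algebraMap R F (d : R) ≠ 0 := by
    intro h0
    apply hd
    have : (d : R) = 0 := IsFractionRing.injective R F (by rw [h0, map_zero])
    rw [this]
    exact w.asIdeal.zero_mem
  have hnum : n - algebraMap k R (χ n / χ (d : R)) * (d : R) ∈ w.asIdeal := by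
    rw [hker, map_sub, map_mul, AlgHom.commutes, Algebra.algebraMap_self_apply]
    field_simp
    ring
  have hEq : (a - algebraMap k F (χ n / χ (d : R))) * algebraMap R F (d : R) =
      algebraMap R F (n - algebraMap k R (χ n / χ (d : R)) * (d : R)) := by
    rw [sub_mul, hnd, map_sub, map_mul, ← IsScalarTower.algebraMap_apply]
  have hval : w.valuation F (a - algebraMap k F (χ n / χ (d : R))) =
      w.valuation F (algebraMap R F (n - algebraMap k R (χ n / χ (d : R)) * (d : R))) := by
    rw [← hEq, map_mul, (w.valuation_eq_one_iff_notMem (K := F)).mpr hd, mul_one]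
  rw [hval]
  exact (w.valuation_lt_one_iff_mem _).mpr hnum

/-- **(i), degree clause.** If `w = ker χ`, the place at `w` has degree one. -/
theorem deg_eq_one_of_ker_eq (w : HeightOneSpectrum R) (χ : R →ₐ[k] k)
    (hχ : RingHom.ker χ.toRingHom = w.asIdeal) :
    (Place.ofHeightOneSpectrum (K := k) (F := F) w).deg = 1 :=
  deg_eq_one_of_forall_valAt _ (exists_valAt_of_ker_eq w χ hχ)

/-- **(i)** in the `kerPrime` form. -/
theorem kpoint_place (χ : R →ₐ[k] k) (hne : RingHom.ker χ.toRingHom ≠ ⊥) :
    (Place.ofHeightOneSpectrum (K := k) (F := F) (kerPrime χ hne)).deg = 1 ∧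
    (∀ x : R, ValAt (Place.ofHeightOneSpectrum (K := k) (F := F) (kerPrime χ hne))
      (algebraMap R F x) (χ x)) ∧
    ∀ a ∈ (Place.ofHeightOneSpectrum (K := k) (F := F) (kerPrime χ hne)).toValuationSubring,
      ∃ c : k, ValAt (Place.ofHeightOneSpectrum (K := k) (F := F) (kerPrime χ hne)) a c :=
  ⟨deg_eq_one_of_ker_eq _ χ rfl, valAt_of_ker_eq _ χ rfl, exists_valAt_of_ker_eq _ χ rfl⟩

omit [IsDedekindDomain R] in
/-- A `k`-point with kernel `w` is determined by `w`. -/
theorem kpoint_ext {I : Ideal R} {χ χ' : R →ₐ[k] k}
    (hχ : RingHom.ker χ.toRingHom = I) (hχ' : RingHom.ker χ'.toRingHom = I) : χ = χ' := by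
  ext x
  have h : x - algebraMap k R (χ' x) ∈ RingHom.ker χ.toRingHom := by
    rw [hχ, ← hχ', RingHom.mem_ker]
    show χ' (x - algebraMap k R (χ' x)) = 0
    rw [map_sub, AlgHom.commutes, Algebra.algebraMap_self_apply, sub_self]
  rw [RingHom.mem_ker] at h
  have h' : χ (x - algebraMap k R (χ' x)) = 0 := h
  rw [map_sub, AlgHom.commutes, Algebra.algebraMap_self_apply, sub_eq_zero] at h'
  exact h'

/-- **(i')** For `k` algebraically closed, a height-one prime `w` with `R ⧸ w` algebraic over `k`
is the kernel of a unique `k`-point. -/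
theorem exists_unique_kpoint_of_isAlgebraic [IsAlgClosed k] (w : HeightOneSpectrum R)
    (halg : Algebra.IsAlgebraic k (R ⧸ w.asIdeal)) :
    ∃! χ : R →ₐ[k] k, RingHom.ker χ.toRingHom = w.asIdeal := by
  have : w.asIdeal.IsMaximal := w.isMaximal
  let _ : Field (R ⧸ w.asIdeal) := Ideal.Quotient.field w.asIdeal
  have : Algebra.IsIntegral k (R ⧸ w.asIdeal) := Algebra.IsAlgebraic.isIntegral
  have hbij : Function.Bijective (algebraMap k (R ⧸ w.asIdeal)) :=
    IsAlgClosed.algebraMap_bijective_of_isIntegral
  let e : k ≃ₐ[k] (R ⧸ w.asIdeal) := AlgEquiv.ofBijective (Algebra.ofId k (R ⧸ w.asIdeal)) hbij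
  let χ : R →ₐ[k] k := (e.symm : (R ⧸ w.asIdeal) →ₐ[k] k).comp (Ideal.Quotient.mkₐ k w.asIdeal)
  have hχ : RingHom.ker χ.toRingHom = w.asIdeal := by
    ext x
    rw [RingHom.mem_ker]
    show e.symm (Ideal.Quotient.mk w.asIdeal x) = 0 ↔ _
    rw [map_eq_zero_iff _ e.symm.injective, Ideal.Quotient.eq_zero_iff_mem]
  exact ⟨χ, hχ, fun χ' hχ' => kpoint_ext hχ' hχ⟩

omit [IsDedekindDomain R] [IsFractionRing R F] [Algebra R F] [IsScalarTower k R F] in
/-- If `R` is integral over `k[t]`, the residue field of `R` at a maximal ideal is algebraic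
over `k`. -/
theorem isAlgebraic_quotient_of_isIntegral (t : R)
    (hint : ∀ x : R, IsIntegral (Algebra.adjoin k {t}) x) (I : Ideal R) [I.IsMaximal] :
    Algebra.IsAlgebraic k (R ⧸ I) := by
  classical
  let _ : Field (R ⧸ I) := Ideal.Quotient.field I
  set tb : R ⧸ I := Ideal.Quotient.mk I t with htb
  -- every element of the quotient is integral over `k[t̄]`
  have hmem : ∀ z ∈ Algebra.adjoin k {t}, Ideal.Quotient.mk I z ∈ Algebra.adjoin k {tb} := by
    intro z hz
    have h1 : (Ideal.Quotient.mkₐ k I) z ∈ (Algebra.adjoin k {t}).map (Ideal.Quotient.mkₐ k I) :=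
      ⟨z, hz, rfl⟩
    rw [AlgHom.map_adjoin_singleton] at h1
    exact h1
  let φ : Algebra.adjoin k {t} →+* Algebra.adjoin k {tb} :=
    ((Ideal.Quotient.mk I).comp (Algebra.adjoin k {t}).val.toRingHom).codRestrict
      (Algebra.adjoin k {tb}).toSubring (fun z => hmem z z.2)
  have hS : ∀ y : R ⧸ I, IsIntegral (Algebra.adjoin k {tb}) y := by
    intro y
    obtain ⟨x, rfl⟩ := Ideal.Quotient.mk_surjective y
    exact IsIntegral.map_of_comp_eq φ (Ideal.Quotient.mk I) (by ext z; rfl) (hint x)
  have : Algebra.IsIntegral (Algebra.adjoin k {tb}) (R ⧸ I) := ⟨hS⟩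
  -- hence `k[t̄]` is a field
  have hSf : IsField (Algebra.adjoin k {tb}) :=
    isField_of_isIntegral_of_isField (S := R ⧸ I) Subtype.val_injective (Field.toIsField _)
  -- hence `t̄` is algebraic over `k`
  have htalg : IsAlgebraic k tb := by
    by_cases h0 : tb = 0
    · rw [h0]
      exact isAlgebraic_zero
    · have htS : tb ∈ Algebra.adjoin k {tb} := Algebra.self_mem_adjoin_singleton k tb
      have hne : (⟨tb, htS⟩ : Algebra.adjoin k {tb}) ≠ 0 := fun h => h0 (congrArg Subtype.val h)
      obtain ⟨u, hu⟩ := hSf.mul_inv_cancel hne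
      have huS : (u : R ⧸ I) ∈ (Polynomial.aeval (R := k) tb).range := by
        rw [← Algebra.adjoin_singleton_eq_range_aeval]
        exact u.2
      obtain ⟨p, hp⟩ := huS
      have hu' : tb * (u : R ⧸ I) = 1 := congrArg Subtype.val hu
      refine ⟨Polynomial.X * p - 1, ?_, ?_⟩
      · intro h
        have := congrArg (fun q => Polynomial.coeff q 0) h
        simp at this
      · have hp' : Polynomial.aeval tb p = (u : R ⧸ I) := hp
        rw [map_sub, map_mul, Polynomial.aeval_X, map_one, hp', hu', sub_self]
  have : Algebra.IsIntegral k (Algebra.adjoin k {tb}) :=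
    Algebra.IsIntegral.adjoin (fun x hx => by
      rw [Set.mem_singleton_iff] at hx
      rw [hx]
      exact htalg.isIntegral)
  exact ⟨fun y => (isIntegral_trans (R := k) (A := Algebra.adjoin k {tb}) y (hS y)).isAlgebraic⟩

/-- **(i')**, integral form: if `k` is algebraically closed and `R` is integral over `k[t]`, every
height-one prime of `R` is the kernel of a unique `k`-point. -/
theorem exists_unique_kpoint_of_isIntegral [IsAlgClosed k] (t : R)
    (hint : ∀ x : R, IsIntegral (Algebra.adjoin k {t}) x) (w : HeightOneSpectrum R) :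
    ∃! χ : R →ₐ[k] k, RingHom.ker χ.toRingHom = w.asIdeal :=
  haveI : w.asIdeal.IsMaximal := w.isMaximal
  exists_unique_kpoint_of_isAlgebraic w (isAlgebraic_quotient_of_isIntegral t hint w.asIdeal)

end KPoint

/-! ### Part (iii): characteristic-free port of `S24/Residue.lean` -/

section CharFree

open Fermat.Agent.S24

variable {K F : Type*} [Field K] [Field F] [Algebra K F] [IsAlgClosed K]

/-- An element of `F` outside the algebraically closed constant field is transcendental. -/
theorem transcendental_of_notMem_range {t : F} (ht : t ∉ Set.range (algebraMap K F)) :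
    Transcendental K t := by
  intro halg
  apply ht
  have hint : IsIntegral K t := halg.isIntegral
  exact hint.mem_range_algebraMap_of_minpoly_splits (K := K) (L := F) (IsAlgClosed.splits _)

omit [IsAlgClosed K] in
/-- A function field in one variable is finite over `K(t)` for every transcendental `t`. -/
theorem finiteDimensional_adjoin_simple (hF : IsFF1 K F) {t : F} (ht : Transcendental K t) :
    FiniteDimensional K⟮t⟯ F := by
  obtain ⟨x, hx, hfin⟩ := hF
  have : Algebra.EssFiniteType K K⟮x⟯ :=
    IntermediateField.essFiniteType_iff.mpr ⟨{x}, by simp⟩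
  have : Algebra.EssFiniteType K F := Algebra.EssFiniteType.comp K K⟮x⟯ F
  have : Algebra.EssFiniteType K⟮t⟯ F := Algebra.EssFiniteType.of_comp K K⟮t⟯ F
  have : Algebra.IsAlgebraic K⟮x⟯ F := Algebra.IsAlgebraic.of_finite _ _
  have : Algebra.IsAlgebraic K⟮t⟯ F := residue_isAlgebraic_adjoin_simple (x := x) ht
  exact Algebra.finite_of_essFiniteType_of_isAlgebraic

omit [IsAlgClosed K] in
open Polynomial in
/-- Key algebraic step: if `t` is a nonzero element of the maximal ideal of the valuation ring of
`v`, then the residue class of any element of the valuation ring which is algebraic over `K(t)`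
is algebraic over `K`. -/
theorem residue_isAlgebraic_residue (v : Place K F) (t b : v.toValuationSubring)
    (ht0 : t ≠ 0) (htm : IsLocalRing.residue v.toValuationSubring t = 0)
    (hb : IsAlgebraic K⟮(t : F)⟯ (b : F)) :
    IsAlgebraic K (IsLocalRing.residue v.toValuationSubring b) := by
  classical
  have hb' : IsAlgebraic (Algebra.adjoin K {(t : F)}) (b : F) :=
    (IsFractionRing.isAlgebraic_iff (Algebra.adjoin K {(t : F)}) K⟮(t : F)⟯ F).mpr hb
  obtain ⟨p, hp0, hp⟩ := hb'
  -- the evaluation `K[X] → K[t]`
  let τ : Algebra.adjoin K {(t : F)} := ⟨(t : F), Algebra.self_mem_adjoin_singleton K _⟩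
  let f : K[X] →+* Algebra.adjoin K {(t : F)} := (Polynomial.aeval τ).toRingHom
  have hf : Function.Surjective f := by
    rintro ⟨s, hs⟩
    rw [Algebra.adjoin_singleton_eq_range_aeval] at hs
    obtain ⟨q, hq⟩ := hs
    refine ⟨q, Subtype.ext ?_⟩
    show ((Polynomial.aeval τ q : Algebra.adjoin K {(t : F)}) : F) = s
    rw [Polynomial.aeval_subalgebra_coe]
    exact hq
  obtain ⟨P, hP⟩ := Polynomial.map_surjective f hf p
  have hP0 : P ≠ 0 := by
    rintro rfl
    exact hp0 (by rw [← hP, Polynomial.map_zero])
  -- the evaluation `K[X] → O_v`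
  let φ : K[X] →+* v.toValuationSubring := (Polynomial.aeval t).toRingHom
  have hφ : (algebraMap (Algebra.adjoin K {(t : F)}) F).comp f
      = v.toValuationSubring.subtype.comp φ := by
    refine Polynomial.ringHom_ext (fun a => ?_) ?_
    · simp [f, φ]
    · simp [f, φ, τ]
  have hPev : P.eval₂ φ b = 0 := by
    apply Subtype.val_injective
    have h1 : v.toValuationSubring.subtype (P.eval₂ φ b)
        = P.eval₂ (v.toValuationSubring.subtype.comp φ) (b : F) :=
      Polynomial.hom_eval₂ P φ v.toValuationSubring.subtype b
    have h2 : Polynomial.aeval (b : F) p = P.eval₂ (v.toValuationSubring.subtype.comp φ) (b : F) := by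
      rw [← hP, Polynomial.aeval_def, Polynomial.eval₂_map, hφ]
    show v.toValuationSubring.subtype (P.eval₂ φ b) = 0
    rw [h1, ← h2, hp]
  -- divide by the largest power of `X`
  have hirr : Irreducible (Polynomial.C (Polynomial.X : K[X])) :=
    (Polynomial.prime_C_iff.mpr Polynomial.prime_X).irreducible
  obtain ⟨n, P', hndvd, hPP'⟩ := WfDvdMonoid.max_power_factor hP0 hirr
  have hP'ev : P'.eval₂ φ b = 0 := by
    rw [hPP', Polynomial.eval₂_mul, Polynomial.eval₂_pow, Polynomial.eval₂_C] at hPev
    have hφX : φ Polynomial.X = t := by simp [φ]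
    rw [hφX] at hPev
    exact (mul_eq_zero.mp hPev).resolve_left (pow_ne_zero n ht0)
  -- reduce modulo the maximal ideal
  let ρ : v.toValuationSubring →+* v.ResidueField := IsLocalRing.residue v.toValuationSubring
  have hρφ : ρ.comp φ = (algebraMap K v.ResidueField).comp Polynomial.constantCoeff := by
    refine Polynomial.ringHom_ext (fun a => ?_) ?_
    · simp [φ, ρ]
      rfl
    · simp [φ, ρ, htm]
  refine ⟨P'.map Polynomial.constantCoeff, ?_, ?_⟩
  · intro h0
    apply hndvd
    rw [Polynomial.C_dvd_iff_dvd_coeff]
    intro i
    rw [Polynomial.X_dvd_iff]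
    have := congrArg (fun q => Polynomial.coeff q i) h0
    simpa using this
  · rw [Polynomial.aeval_def, Polynomial.eval₂_map, ← hρφ]
    have h1 : ρ (P'.eval₂ φ b) = P'.eval₂ (ρ.comp φ) (ρ b) := Polynomial.hom_eval₂ P' φ ρ b
    rw [← h1, hP'ev, map_zero]

/-- **(iii)** The residue field of every place of a function field in one variable over an
algebraically closed field (of any characteristic) is the constant field. -/
theorem residue_surjective (hF : IsFF1 K F) (v : Place K F) :
    Function.Surjective (algebraMap K v.ResidueField) := by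
  intro β
  obtain ⟨b, rfl⟩ := IsLocalRing.residue_surjective β
  obtain ⟨π, hπ⟩ := IsDiscreteValuationRing.exists_irreducible v.toValuationSubring
  have hπ0 : π ≠ 0 := hπ.ne_zero
  have hπm : IsLocalRing.residue v.toValuationSubring π = 0 := by
    rw [IsLocalRing.residue_eq_zero_iff, IsLocalRing.mem_maximalIdeal, mem_nonunits_iff]
    exact hπ.not_isUnit
  have hπK : (π : F) ∉ Set.range (algebraMap K F) := by
    rintro ⟨a, ha⟩
    have ha0 : a ≠ 0 := by
      rintro rfl
      apply hπ0
      apply Subtype.val_injective
      rw [← ha]; simp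
    have hu : IsUnit (algebraMap K v.toValuationSubring a) := (IsUnit.mk0 a ha0).map _
    have hEq : algebraMap K v.toValuationSubring a = π := Subtype.val_injective (by
      rw [Place.coe_algebraMap]; exact ha)
    exact hπ.not_isUnit (hEq ▸ hu)
  have httr : Transcendental K (π : F) := transcendental_of_notMem_range hπK
  have hfd : FiniteDimensional K⟮(π : F)⟯ F := finiteDimensional_adjoin_simple hF httr
  have hb : IsAlgebraic K⟮(π : F)⟯ (b : F) := IsAlgebraic.of_finite _ _
  have halg := residue_isAlgebraic_residue v π b hπ0 hπm hb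
  exact halg.isIntegral.mem_range_algebraMap_of_minpoly_splits (K := K) (IsAlgClosed.splits _)

/-- **(iii)** Every place of a function field in one variable over an algebraically closed field
(of any characteristic) has degree one. -/
theorem place_deg_eq_one (hF : IsFF1 K F) (v : Place K F) : v.deg = 1 :=
  deg_eq_one_of_residue_surjective v (residue_surjective hF v)

/-- **(iii)** Every function regular at a place of a function field in one variable over an
algebraically closed field (of any characteristic) has a value there. -/
theorem exists_valAt (hF : IsFF1 K F) (v : Place K F) :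
    ∀ a ∈ v.toValuationSubring, ∃ c : K, ValAt v a c :=
  exists_valAt_of_residue_surjective v (residue_surjective hF v)

end CharFree

/-! ### Part M: the reduced modular function field -/

section Modular

open ModularCurve Fermat.Agent.S24

set_option synthInstance.maxHeartbeats 400000

/-- `F_k = k(j̄(q^d) : d ∣ N)` is a function field in one variable over an algebraically closed
field `k` of any characteristic. -/
theorem isFF1_fullC (k : Type*) [Field k] [IsAlgClosed k] (N : ℕ) [NeZero N] :
    IsFF1 k ↥(modularFunctionFieldFullC k N) :=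
  ⟨Fermat.Agent.S18.SepDeg.jb k N, Fermat.Agent.S18.ConstK.transcendental_jb k N,
    Fermat.Agent.S18.SepDeg.finiteDimensional_full k N⟩

/-- Every place of `F_k` has degree one (`k` algebraically closed, any characteristic). -/
theorem deg_eq_one_fullC (k : Type*) [Field k] [IsAlgClosed k] (N : ℕ) [NeZero N]
    (Q : Place k ↥(modularFunctionFieldFullC k N)) : Q.deg = 1 :=
  place_deg_eq_one (isFF1_fullC k N) Q

/-- Every function regular at a place of `F_k` has a value in `k`. -/
theorem exists_valAt_fullC (k : Type*) [Field k] [IsAlgClosed k] (N : ℕ) [NeZero N]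
    (Q : Place k ↥(modularFunctionFieldFullC k N)) :
    ∀ a ∈ Q.toValuationSubring, ∃ c : k, ValAt Q a c :=
  exists_valAt (isFF1_fullC k N) Q

variable (N : ℕ) [NeZero N] (A : ValuationSubring (AlgebraicClosure ℚ))

/-- Every place of `F_k`, `k` the residue field of a valuation subring of `ℚ̄`, has degree one. -/
theorem deg_eq_one_modL
    (Q : Place (IsLocalRing.ResidueField A)
      (modularFunctionFieldFullC (IsLocalRing.ResidueField A) N)) : Q.deg = 1 := by
  have := Fermat.Agent.S18.BaseRes.isAlgClosed_residueField A
  exact deg_eq_one_fullC _ N Q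

/-- Every function regular at a place of `F_k` has a value in `k = ResidueField A`. -/
theorem exists_valAt_modL
    (Q : Place (IsLocalRing.ResidueField A)
      (modularFunctionFieldFullC (IsLocalRing.ResidueField A) N)) :
    ∀ a ∈ Q.toValuationSubring, ∃ c : IsLocalRing.ResidueField A, ValAt Q a c := by
  have := Fermat.Agent.S18.BaseRes.isAlgClosed_residueField A
  exact exists_valAt_fullC _ N Q

/-- **The degree clause of the frozen `IsPlaceReductionModL` holds for EVERY place map**: all
places on both sides have degree one. -/
theorem deg_clause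
    (r : Place (AlgebraicClosure ℚ) (modularFunctionFieldBar N) →
      Place (IsLocalRing.ResidueField A)
        (modularFunctionFieldFullC (IsLocalRing.ResidueField A) N))
    (P : Place (AlgebraicClosure ℚ) (modularFunctionFieldBar N)) : (r P).deg = P.deg := by
  rw [deg_eq_one_modL N A (r P),
    Fermat.Agent.S24.place_deg_eq_one (Fermat.Agent.S18.Red.isFF1_bar N) P]

end Modular

end Fermat.Agent.S37.PMPlacesK2
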