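/-
S37 block [R0], row R2+R3b "special fibre" (A-owner: helper9; B: helper55, helper71) —
SpFibDefs.lean: BINDING definition of the special-fibre ring of a chart.

`k = ResidueField A`, `F_k = modularFunctionFieldFullC k N ⊂ k((q))`, `t̄ ∈ {j̄, j̄⁻¹}`
(`j̄ = jqModC k`).  `B_t̄` := the integral closure of `k[t̄]` in `F_k`, as a predicate on
`k((q))` (so that it can be compared with Gauss reductions `Arith.GRel A x b` directly).
Definitions only; no proof obligations.
-/
import Mathlib
import Fermat.Prelude.Def_ModularCurve_ReductionModL

set_option autoImplicit false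

noncomputable section

namespace Fermat.Agent.S37.SpFib

open ModularCurve HahnSeries

/-- `b ∈ B_t̄`: `b` lies in `F_k` and is integral over `k[t̄]`. -/
def IsSpFib (N : ℕ) (A : ValuationSubring (AlgebraicClosure ℚ))
    (tb b : LaurentSeries (IsLocalRing.ResidueField A)) : Prop :=
  b ∈ modularFunctionFieldFullC (IsLocalRing.ResidueField A) N ∧
    IsIntegral (Algebra.adjoin (IsLocalRing.ResidueField A) {tb}) b

end Fermat.Agent.S37.SpFib
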