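/-
S37 block [R0], row R3b "special fibre" — SpFib.lean (helper9).

`k` an algebraically closed field of characteristic `ℓ`, `F_k = modularFunctionFieldFullC k N`,
`t ∈ {j̄, j̄⁻¹}` (more generally a *chart coordinate*: `t` transcendental over `k` and `F_k`
finite separable over `k(t)`).  `spFibAlg k N t` := the integral closure of `k[t]` in `F_k`
(as a `Subalgebra k F_k`).  Results (pure field theory, independent of the charts of the
arithmetic model):

* `spFibAlg k N t` is a Dedekind domain with fraction field `F_k`;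
* for a place `Q` of `F_k / k` at which `t` is regular: `spFibAlg ⊆ O_Q`, and `O_Q` is the
  localisation of `spFibAlg` at `𝔪_Q ∩ spFibAlg`; there is `T ∈ spFibAlg` with `ord_Q T = 1`.

Also the bridge between `x ∈ spFibAlg k N t` and the predicate `SpFib.IsSpFib` on `k((q))`.
-/
import Mathlib
import Fermat.Prelude.Def_ModularCurve_ReductionModL
import Fermat.Agent.S18.SepDegSep
import Fermat.Agent.S18.ConstK
import Fermat.Agent.S18.ModelFin
import Fermat.Agent.S18.Nor
import Fermat.Agent.S18.BaseRes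
import Fermat.Agent.S24.PlaceBasic
import Fermat.Agent.S37.SpFibDefs
import Fermat.Agent.S37.SpFibCore

set_option autoImplicit false

noncomputable section

namespace Fermat.Agent.S37.SpFib

open ModularCurve AlgebraicCurve HahnSeries Polynomial Fermat.Agent.S18
open scoped IntermediateField.algebraAdjoinAdjoin

section Generic

variable {k E : Type*} [Field k] [CommRing E] [Nontrivial E] [Algebra k E]

/-- Integrality over `k[s]` in terms of polynomials over `k[X]`. -/
theorem isIntegral_adjoin_singleton_iff (s y : E) :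
    IsIntegral (Algebra.adjoin k {s}) y ↔
      ∃ q : Polynomial (Polynomial k), q.Monic ∧
        Polynomial.eval₂ ((Polynomial.aeval s : k[X] →ₐ[k] E) : k[X] →+* E) y q = 0 := by
  let φ : k[X] →+* Algebra.adjoin k {s} :=
    (Polynomial.aeval (⟨s, Algebra.self_mem_adjoin_singleton k s⟩ : Algebra.adjoin k {s})).toRingHom
  have hφ : Function.Surjective φ := by
    rintro ⟨y, hy⟩
    rw [Algebra.adjoin_singleton_eq_range_aeval] at hy
    obtain ⟨p, hp⟩ := hy
    refine ⟨p, Subtype.ext ?_⟩
    change ((Polynomial.aeval (⟨s, Algebra.self_mem_adjoin_singleton k s⟩ :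
      Algebra.adjoin k {s}) p : Algebra.adjoin k {s}) : E) = y
    rw [Polynomial.aeval_subalgebra_coe]
    exact hp
  have hcomp : (algebraMap (Algebra.adjoin k {s}) E).comp φ =
      ((Polynomial.aeval s : k[X] →ₐ[k] E) : k[X] →+* E) := by
    apply Polynomial.ringHom_ext
    · intro c
      change ((Polynomial.aeval (⟨s, Algebra.self_mem_adjoin_singleton k s⟩ :
        Algebra.adjoin k {s}) (C c) : Algebra.adjoin k {s}) : E) = Polynomial.aeval s (C c)
      rw [Polynomial.aeval_subalgebra_coe]
    · change ((Polynomial.aeval (⟨s, Algebra.self_mem_adjoin_singleton k s⟩ :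
        Algebra.adjoin k {s}) X : Algebra.adjoin k {s}) : E) = Polynomial.aeval s X
      rw [Polynomial.aeval_subalgebra_coe]
  constructor
  · rintro ⟨p, hp, hpx⟩
    obtain ⟨q, hq, -, hqm⟩ :=
      Polynomial.lifts_and_degree_eq_and_monic
        ((Polynomial.mem_lifts p).mpr (Polynomial.map_surjective φ hφ p)) hp
    refine ⟨q, hqm, ?_⟩
    rw [← hcomp, ← Polynomial.eval₂_map, hq]
    exact hpx
  · rintro ⟨q, hqm, hq⟩
    refine ⟨q.map φ, hqm.map φ, ?_⟩
    rw [Polynomial.eval₂_map, hcomp]
    exact hq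

/-- Integrality over `k[s]` is invariant under injective `k`-algebra homs. -/
theorem isIntegral_adjoin_singleton_map {E' : Type*} [CommRing E'] [Nontrivial E'] [Algebra k E']
    (f : E →ₐ[k] E') (hf : Function.Injective f) (s y : E) :
    IsIntegral (Algebra.adjoin k {f s}) (f y) ↔ IsIntegral (Algebra.adjoin k {s}) y := by
  rw [isIntegral_adjoin_singleton_iff, isIntegral_adjoin_singleton_iff]
  have hc : ((Polynomial.aeval (f s) : k[X] →ₐ[k] E') : k[X] →+* E') =
      (f : E →+* E').comp ((Polynomial.aeval s : k[X] →ₐ[k] E) : k[X] →+* E) := by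
    apply Polynomial.ringHom_ext
    · intro c
      simp
    · simp
  have h : ∀ q : Polynomial (Polynomial k),
      Polynomial.eval₂ ((Polynomial.aeval (f s) : k[X] →ₐ[k] E') : k[X] →+* E') (f y) q =
        f (Polynomial.eval₂ ((Polynomial.aeval s : k[X] →ₐ[k] E) : k[X] →+* E) y q) := by
    intro q
    rw [hc]
    exact (Polynomial.hom_eval₂ q _ (f : E →+* E') y).symm
  constructor
  · rintro ⟨q, hqm, hq⟩
    refine ⟨q, hqm, hf ?_⟩
    rw [← h, hq, map_zero]
  · rintro ⟨q, hqm, hq⟩
    exact ⟨q, hqm, by rw [h, hq, map_zero]⟩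

end Generic

section Special

variable (k : Type*) [Field k] (N : ℕ)

/-- A *chart coordinate* of `F_k`: transcendental over `k`, with `F_k` finite separable over
`k(t)`. -/
structure IsCoord (t : modularFunctionFieldFullC k N) : Prop where
  transc : Transcendental k t
  fin : FiniteDimensional (IntermediateField.adjoin k {t}) (modularFunctionFieldFullC k N)
  sep : Algebra.IsSeparable (IntermediateField.adjoin k {t}) (modularFunctionFieldFullC k N)

/-- The special-fibre ring of the chart with coordinate `t`: the integral closure of `k[t]` in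
`F_k`. -/
def spFibAlg (t : modularFunctionFieldFullC k N) : Subalgebra k (modularFunctionFieldFullC k N) :=
  (integralClosure (Algebra.adjoin k {t}) (modularFunctionFieldFullC k N)).restrictScalars k

variable {k N}

theorem mem_spFibAlg_iff {t x : modularFunctionFieldFullC k N} :
    x ∈ spFibAlg k N t ↔ IsIntegral (Algebra.adjoin k {t}) x := Iff.rfl

theorem self_mem_spFibAlg (t : modularFunctionFieldFullC k N) : t ∈ spFibAlg k N t := by
  rw [mem_spFibAlg_iff]
  exact isIntegral_algebraMap (R := Algebra.adjoin k {t})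
    (x := (⟨t, Algebra.self_mem_adjoin_singleton k t⟩ : Algebra.adjoin k {t}))

/-- Membership in `spFibAlg` in terms of `q`-expansions. -/
theorem mem_spFibAlg_iff_coe {t x : modularFunctionFieldFullC k N} :
    x ∈ spFibAlg k N t ↔
      IsIntegral (Algebra.adjoin k {(t : LaurentSeries k)}) (x : LaurentSeries k) := by
  rw [mem_spFibAlg_iff]
  exact (isIntegral_adjoin_singleton_map (modularFunctionFieldFullC k N).val
    Subtype.val_injective t x).symm

theorem isNoetherianRing_spFibAlg {t : modularFunctionFieldFullC k N} (ht : IsCoord k N t) :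
    IsNoetherianRing (spFibAlg k N t) := by
  have := ht.fin
  have := ht.sep
  have : IsIntegrallyClosed (Algebra.adjoin k {t}) :=
    ModelFin.isIntegrallyClosed_adjoin_of_transcendental t ht.transc
  have : IsNoetherianRing (Algebra.adjoin k {t}) := Nor.isNoetherianRing_adjoin_singleton t
  have h : IsNoetherianRing
      (integralClosure (Algebra.adjoin k {t}) (modularFunctionFieldFullC k N)) :=
    integralClosure.isNoetherianRing (A := Algebra.adjoin k {t})
      (K := IntermediateField.adjoin k {t}) (L := modularFunctionFieldFullC k N)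
  exact h

theorem isFractionRing_spFibAlg {t : modularFunctionFieldFullC k N} (ht : IsCoord k N t) :
    IsFractionRing (spFibAlg k N t) (modularFunctionFieldFullC k N) := by
  have := ht.fin
  have h : IsFractionRing
      (integralClosure (Algebra.adjoin k {t}) (modularFunctionFieldFullC k N))
      (modularFunctionFieldFullC k N) :=
    integralClosure.isFractionRing_of_finite_extension (A := Algebra.adjoin k {t})
      (IntermediateField.adjoin k {t}) (modularFunctionFieldFullC k N)
  exact h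

/-- `spFibAlg` is integrally closed in `F_k`. -/
theorem mem_spFibAlg_of_isIntegral {t : modularFunctionFieldFullC k N}
    {y : modularFunctionFieldFullC k N} (hy : IsIntegral (spFibAlg k N t) y) :
    y ∈ spFibAlg k N t := by
  have h : IsIntegral (integralClosure (Algebra.adjoin k {t}) (modularFunctionFieldFullC k N))
      y := hy
  have h2 : y ∈ integralClosure
      (integralClosure (Algebra.adjoin k {t}) (modularFunctionFieldFullC k N))
      (modularFunctionFieldFullC k N) := h
  rw [integralClosure_idem, Algebra.mem_bot] at h2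
  obtain ⟨z, rfl⟩ := h2
  exact z.2

theorem exists_frac_spFibAlg {t : modularFunctionFieldFullC k N} (ht : IsCoord k N t)
    (y : modularFunctionFieldFullC k N) :
    ∃ a ∈ spFibAlg k N t, ∃ b ∈ spFibAlg k N t, b ≠ 0 ∧ y * b = a := by
  have := isFractionRing_spFibAlg ht
  obtain ⟨⟨a, s⟩, h⟩ := IsLocalization.surj (nonZeroDivisors (spFibAlg k N t)) y
  refine ⟨a, a.2, (s : spFibAlg k N t), (s : spFibAlg k N t).2, ?_, h⟩
  intro h0
  have : (s : spFibAlg k N t) = 0 := Subtype.ext h0
  exact nonZeroDivisors.ne_zero s.2 this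

theorem isDedekindDomain_spFibAlg {t : modularFunctionFieldFullC k N} (ht : IsCoord k N t) :
    IsDedekindDomain (spFibAlg k N t) := by
  have := isNoetherianRing_spFibAlg ht
  have := isFractionRing_spFibAlg ht
  have hdim : Ring.DimensionLEOne (spFibAlg k N t) :=
    SpFibCore.dimensionLEOne_of_isIntegral (spFibAlg k N t) t (self_mem_spFibAlg t)
      (fun x hx => hx)
  exact (isDedekindDomain_iff (A := spFibAlg k N t) (modularFunctionFieldFullC k N)).mpr
    ⟨inferInstance, inferInstance, hdim,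
      fun {x} hx => ⟨⟨x, mem_spFibAlg_of_isIntegral hx⟩, rfl⟩⟩

/-- `spFibAlg ⊆ O_Q` when `t` is regular at `Q`. -/
theorem spFibAlg_le {t : modularFunctionFieldFullC k N}
    (Q : Place k (modularFunctionFieldFullC k N)) (htQ : t ∈ Q.toValuationSubring) :
    ∀ x ∈ spFibAlg k N t, x ∈ Q.toValuationSubring :=
  SpFibCore.le_valuationSubring (spFibAlg k N t) t (fun _ hx => hx) Q.toValuationSubring
    Q.algebraMap_mem' htQ

/-- **R3b**: `O_Q` is the localisation of `spFibAlg` at `𝔪_Q ∩ spFibAlg`. -/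
theorem exists_frac_of_mem {t : modularFunctionFieldFullC k N} (ht : IsCoord k N t)
    (Q : Place k (modularFunctionFieldFullC k N)) (htQ : t ∈ Q.toValuationSubring) :
    ∀ d ∈ Q.toValuationSubring, ∃ a ∈ spFibAlg k N t, ∃ s ∈ spFibAlg k N t,
      s ∉ Q.toValuationSubring.nonunits ∧ d * s = a := by
  have := isNoetherianRing_spFibAlg ht
  exact SpFibCore.exists_frac_of_mem_valuationSubring (spFibAlg k N t) t (self_mem_spFibAlg t)
    (fun x hx => hx) (fun y hy => mem_spFibAlg_of_isIntegral hy) (exists_frac_spFibAlg ht)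
    Q.toValuationSubring Q.ne_top' (spFibAlg_le Q htQ)

/-- A unit of `O_Q` has order `0`. -/
theorem ord_eq_zero_of_not_mem_nonunits (Q : Place k (modularFunctionFieldFullC k N))
    {s : modularFunctionFieldFullC k N} (hs : s ∈ Q.toValuationSubring)
    (hs' : s ∉ Q.toValuationSubring.nonunits) : Q.ord s = 0 := by
  have h0 : (⟨s, hs⟩ : Q.toValuationSubring) ≠ 0 := by
    intro h
    apply hs'
    rw [ValuationSubring.mem_nonunits_iff_exists_mem_maximalIdeal]
    exact ⟨hs, h ▸ Ideal.zero_mem _⟩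
  have h1 := S24.ord_nonneg_of_mem Q hs
  rcases h1.lt_or_eq with h | h
  · exfalso
    apply hs'
    rw [ValuationSubring.mem_nonunits_iff_exists_mem_maximalIdeal]
    exact ⟨hs, (S24.ord_pos_iff_mem_maximalIdeal Q ⟨s, hs⟩ h0).mp h⟩
  · exact h.symm

/-- **R3b (uniformizer)**: there is `T ∈ spFibAlg` with `ord_Q T = 1`. -/
theorem exists_mem_spFibAlg_ord_eq_one {t : modularFunctionFieldFullC k N} (ht : IsCoord k N t)
    (Q : Place k (modularFunctionFieldFullC k N)) (htQ : t ∈ Q.toValuationSubring) :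
    ∃ T ∈ spFibAlg k N t, Q.ord T = 1 := by
  obtain ⟨π, hπ⟩ := S24.exists_ord_eq_one Q
  have hπmem : π ∈ Q.toValuationSubring := S24.mem_of_ord_nonneg Q (by omega)
  obtain ⟨a, ha, s, hs, hsu, hπs⟩ := exists_frac_of_mem ht Q htQ π hπmem
  have hsQ : s ∈ Q.toValuationSubring := spFibAlg_le Q htQ s hs
  have hs0 : s ≠ 0 := by
    rintro rfl
    apply hsu
    rw [ValuationSubring.mem_nonunits_iff_exists_mem_maximalIdeal]
    exact ⟨Q.toValuationSubring.zero_mem, Ideal.zero_mem _⟩
  have hπ0 : π ≠ 0 := by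
    rintro rfl
    simp at hπ
  refine ⟨a, ha, ?_⟩
  rw [← hπs, Q.ord_mul hπ0 hs0, hπ, ord_eq_zero_of_not_mem_nonunits Q hsQ hsu, add_zero]

end Special

section Coord

variable (k : Type*) [Field k] [IsAlgClosed k] (N : ℕ) [NeZero N]

/-- `j̄` is a chart coordinate. -/
theorem isCoord_jb (ℓ : ℕ) [Fact ℓ.Prime] [CharP k ℓ] : IsCoord k N (SepDeg.jb k N) :=
  ⟨ConstK.transcendental_jb k N, SepDeg.finiteDimensional_full k N, SepDeg.isSeparable_full k ℓ N⟩

omit [IsAlgClosed k] [NeZero N] in
theorem adjoin_inv_eq (t : modularFunctionFieldFullC k N) :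
    IntermediateField.adjoin k {t⁻¹} = IntermediateField.adjoin k {t} := by
  apply le_antisymm
  · rw [IntermediateField.adjoin_le_iff]
    intro x hx
    rw [Set.mem_singleton_iff] at hx
    rw [hx]
    exact (IntermediateField.adjoin k {t}).inv_mem (IntermediateField.mem_adjoin_simple_self k t)
  · rw [IntermediateField.adjoin_le_iff]
    intro x hx
    rw [Set.mem_singleton_iff] at hx
    rw [hx]
    have h := (IntermediateField.adjoin k {t⁻¹}).inv_mem
      (IntermediateField.mem_adjoin_simple_self k t⁻¹)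
    rwa [inv_inv] at h

/-- `j̄⁻¹` is a chart coordinate. -/
theorem isCoord_jb_inv (ℓ : ℕ) [Fact ℓ.Prime] [CharP k ℓ] : IsCoord k N (SepDeg.jb k N)⁻¹ := by
  have h := isCoord_jb k N ℓ
  have keyF : ∀ E1 E2 : IntermediateField k (modularFunctionFieldFullC k N), E1 = E2 →
      FiniteDimensional E1 (modularFunctionFieldFullC k N) →
      FiniteDimensional E2 (modularFunctionFieldFullC k N) := by
    rintro _ _ rfl h
    exact h
  have keyS : ∀ E1 E2 : IntermediateField k (modularFunctionFieldFullC k N), E1 = E2 →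
      Algebra.IsSeparable E1 (modularFunctionFieldFullC k N) →
      Algebra.IsSeparable E2 (modularFunctionFieldFullC k N) := by
    rintro _ _ rfl h
    exact h
  refine ⟨fun halg => h.transc ?_, keyF _ _ (adjoin_inv_eq k N _).symm h.fin,
    keyS _ _ (adjoin_inv_eq k N _).symm h.sep⟩
  have := halg.inv
  rwa [inv_inv] at this

end Coord

section Model

open Fermat.Agent.S18.Arith

variable (N : ℕ) [NeZero N] (A : ValuationSubring Qb)

omit [NeZero N] in
/-- `IsSpFib` in terms of `spFibAlg`. -/
theorem isSpFib_iff (t : modularFunctionFieldFullC (IsLocalRing.ResidueField A) N)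
    (b : LaurentSeries (IsLocalRing.ResidueField A)) :
    IsSpFib N A (t : LaurentSeries (IsLocalRing.ResidueField A)) b ↔
      ∃ hb : b ∈ modularFunctionFieldFullC (IsLocalRing.ResidueField A) N,
        (⟨b, hb⟩ : modularFunctionFieldFullC (IsLocalRing.ResidueField A) N) ∈
          spFibAlg (IsLocalRing.ResidueField A) N t := by
  constructor
  · rintro ⟨hb, hint⟩
    exact ⟨hb, mem_spFibAlg_iff_coe.mpr hint⟩
  · rintro ⟨hb, hmem⟩
    exact ⟨hb, mem_spFibAlg_iff_coe.mp hmem⟩

/-- The two chart coordinates `j̄`, `j̄⁻¹` of `F_k`, `k = ResidueField A`, `A` over `ℓ`. -/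
theorem exists_coord (ℓ : ℕ) [Fact ℓ.Prime] (hA : A.LiesOverPrime ℓ)
    (tb : LaurentSeries (IsLocalRing.ResidueField A))
    (ht : tb = jqModC (IsLocalRing.ResidueField A) ∨
      tb = (jqModC (IsLocalRing.ResidueField A))⁻¹) :
    ∃ t : modularFunctionFieldFullC (IsLocalRing.ResidueField A) N,
      (t : LaurentSeries (IsLocalRing.ResidueField A)) = tb ∧
        IsCoord (IsLocalRing.ResidueField A) N t := by
  have : IsAlgClosed (IsLocalRing.ResidueField A) := BaseRes.isAlgClosed_residueField_Qb A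
  have : CharP (IsLocalRing.ResidueField A) ℓ := BaseRes.charP_residueField ℓ A hA
  rcases ht with rfl | rfl
  · exact ⟨SepDeg.jb _ N, rfl, isCoord_jb _ N ℓ⟩
  · exact ⟨(SepDeg.jb _ N)⁻¹, rfl, isCoord_jb_inv _ N ℓ⟩

/-- **R3b** (`IsSpFib` form): for a place `Q` of `F_k` at which `t̄` is regular, `B_t̄ ⊆ O_Q`
and `O_Q` is the localisation of `B_t̄` at `𝔪_Q ∩ B_t̄`. -/
theorem spFib_localization (ℓ : ℕ) [Fact ℓ.Prime] (hA : A.LiesOverPrime ℓ)
    (tb : LaurentSeries (IsLocalRing.ResidueField A))
    (ht : tb = jqModC (IsLocalRing.ResidueField A) ∨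
      tb = (jqModC (IsLocalRing.ResidueField A))⁻¹)
    (Q : Place (IsLocalRing.ResidueField A)
      (modularFunctionFieldFullC (IsLocalRing.ResidueField A) N))
    (htQ : ∃ h : tb ∈ modularFunctionFieldFullC (IsLocalRing.ResidueField A) N,
      (⟨tb, h⟩ : modularFunctionFieldFullC (IsLocalRing.ResidueField A) N) ∈
        Q.toValuationSubring) :
    (∀ b (hb : IsSpFib N A tb b),
      (⟨b, hb.1⟩ : modularFunctionFieldFullC (IsLocalRing.ResidueField A) N) ∈
        Q.toValuationSubring) ∧
    ∀ d ∈ Q.toValuationSubring, ∃ (a s : LaurentSeries (IsLocalRing.ResidueField A))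
      (ha : IsSpFib N A tb a) (hs : IsSpFib N A tb s),
      (⟨s, hs.1⟩ : modularFunctionFieldFullC (IsLocalRing.ResidueField A) N) ∉
        Q.toValuationSubring.nonunits ∧
      d * ⟨s, hs.1⟩ = ⟨a, ha.1⟩ := by
  obtain ⟨t, rfl, htc⟩ := exists_coord N A ℓ hA tb ht
  obtain ⟨h, htQ'⟩ := htQ
  have htQ'' : t ∈ Q.toValuationSubring := htQ'
  refine ⟨fun b hb => ?_, fun d hd => ?_⟩
  · obtain ⟨hb', hmem⟩ := (isSpFib_iff N A t b).mp hb
    exact spFibAlg_le Q htQ'' _ hmem
  · obtain ⟨a, ha, s, hs, hsu, hds⟩ := exists_frac_of_mem htc Q htQ'' d hd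
    exact ⟨(a : LaurentSeries (IsLocalRing.ResidueField A)),
      (s : LaurentSeries (IsLocalRing.ResidueField A)),
      (isSpFib_iff N A t _).mpr ⟨a.2, ha⟩, (isSpFib_iff N A t _).mpr ⟨s.2, hs⟩, hsu, hds⟩

/-- **R3b (uniformizer)**, `IsSpFib` form. -/
theorem exists_spFib_ord_eq_one (ℓ : ℕ) [Fact ℓ.Prime] (hA : A.LiesOverPrime ℓ)
    (tb : LaurentSeries (IsLocalRing.ResidueField A))
    (ht : tb = jqModC (IsLocalRing.ResidueField A) ∨
      tb = (jqModC (IsLocalRing.ResidueField A))⁻¹)
    (Q : Place (IsLocalRing.ResidueField A)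
      (modularFunctionFieldFullC (IsLocalRing.ResidueField A) N))
    (htQ : ∃ h : tb ∈ modularFunctionFieldFullC (IsLocalRing.ResidueField A) N,
      (⟨tb, h⟩ : modularFunctionFieldFullC (IsLocalRing.ResidueField A) N) ∈
        Q.toValuationSubring) :
    ∃ (T : LaurentSeries (IsLocalRing.ResidueField A)) (hT : IsSpFib N A tb T),
      Q.ord (⟨T, hT.1⟩ : modularFunctionFieldFullC (IsLocalRing.ResidueField A) N) = 1 := by
  obtain ⟨t, rfl, htc⟩ := exists_coord N A ℓ hA tb ht
  obtain ⟨h, htQ'⟩ := htQ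
  have htQ'' : t ∈ Q.toValuationSubring := htQ'
  obtain ⟨T, hT, hord⟩ := exists_mem_spFibAlg_ord_eq_one htc Q htQ''
  exact ⟨(T : LaurentSeries (IsLocalRing.ResidueField A)), (isSpFib_iff N A t _).mpr ⟨T.2, hT⟩,
    hord⟩

/-- The statement of row R2 (owners: helper55 `SpFibB`, helper71 `SpFibB2`): for every good `K`,
the Gauss reductions of the level-`K` chart are exactly `B_t̄`. -/
def R2Statement (ℓ : ℕ) [Fact ℓ.Prime] : Prop :=
  ¬ ℓ ∣ N → ∀ A : ValuationSubring Qb, A.LiesOverPrime ℓ → ∀ K : IntermediateField ℚ Qb,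
    BaseFacts ℓ A K → ∀ (t : FK N K) (tb : LaurentSeries (IsLocalRing.ResidueField A)),
      ((t = jK N K ∧ tb = jqModC (IsLocalRing.ResidueField A)) ∨
        (t = (jK N K)⁻¹ ∧ tb = (jqModC (IsLocalRing.ResidueField A))⁻¹)) →
      ∀ b : LaurentSeries (IsLocalRing.ResidueField A),
        (∃ x : FK N K, x ∈ chart N A K t ∧ GRel A (x : LaurentSeries Qb) b) ↔ IsSpFib N A tb b

/-- **R3b (chart form)**, from R2: every `d ∈ O_Q` is `ρ(x) / ρ(y)` with `x, y` in the
level-`K` chart and `ρ(y)` a unit at `Q` — for every good `K`. -/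
theorem exists_chart_frac_of (ℓ : ℕ) [Fact ℓ.Prime] (hR2 : R2Statement N ℓ) (hℓN : ¬ ℓ ∣ N)
    (hA : A.LiesOverPrime ℓ) (K : IntermediateField ℚ Qb)
    (hB : BaseFacts ℓ A K) (t : FK N K) (tb : LaurentSeries (IsLocalRing.ResidueField A))
    (ht : (t = jK N K ∧ tb = jqModC (IsLocalRing.ResidueField A)) ∨
      (t = (jK N K)⁻¹ ∧ tb = (jqModC (IsLocalRing.ResidueField A))⁻¹))
    (Q : Place (IsLocalRing.ResidueField A)
      (modularFunctionFieldFullC (IsLocalRing.ResidueField A) N))
    (htQ : ∃ h : tb ∈ modularFunctionFieldFullC (IsLocalRing.ResidueField A) N,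
      (⟨tb, h⟩ : modularFunctionFieldFullC (IsLocalRing.ResidueField A) N) ∈
        Q.toValuationSubring) :
    (∀ x : FK N K, x ∈ chart N A K t → ∀ b, GRel A (x : LaurentSeries Qb) b →
      ∃ hb : b ∈ modularFunctionFieldFullC (IsLocalRing.ResidueField A) N,
        (⟨b, hb⟩ : modularFunctionFieldFullC (IsLocalRing.ResidueField A) N) ∈
          Q.toValuationSubring) ∧
    ∀ d ∈ Q.toValuationSubring, ∃ (x y : FK N K)
      (a s : modularFunctionFieldFullC (IsLocalRing.ResidueField A) N),
      x ∈ chart N A K t ∧ y ∈ chart N A K t ∧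
      GRel A (x : LaurentSeries Qb) (a : LaurentSeries (IsLocalRing.ResidueField A)) ∧
      GRel A (y : LaurentSeries Qb) (s : LaurentSeries (IsLocalRing.ResidueField A)) ∧
      s ∈ Q.toValuationSubring ∧ s ∉ Q.toValuationSubring.nonunits ∧ d * s = a := by
  have ht' : tb = jqModC (IsLocalRing.ResidueField A) ∨
      tb = (jqModC (IsLocalRing.ResidueField A))⁻¹ := by
    rcases ht with ⟨-, h⟩ | ⟨-, h⟩
    · exact Or.inl h
    · exact Or.inr h
  obtain ⟨h1, h2⟩ := spFib_localization N A ℓ hA tb ht' Q htQ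
  have hiff := hR2 hℓN A hA K hB t tb ht
  refine ⟨fun x hx b hb => ?_, fun d hd => ?_⟩
  · have hsp : IsSpFib N A tb b := (hiff b).mp ⟨x, hx, hb⟩
    exact ⟨hsp.1, h1 b hsp⟩
  · obtain ⟨a, s, ha, hs, hsu, hds⟩ := h2 d hd
    obtain ⟨x, hx, hxa⟩ := (hiff a).mpr ha
    obtain ⟨y, hy, hys⟩ := (hiff s).mpr hs
    exact ⟨x, y, ⟨a, ha.1⟩, ⟨s, hs.1⟩, hx, hy, hxa, hys, h1 s hs, hsu, hds⟩

end Model

end Fermat.Agent.S37.SpFib
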