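/-
S37 — NormValCore.lean (helper3): the Mathlib-only core of the value–norm lemma [NV].

Setting: a local ring `O ⊇ K` all of whose elements have a value in the field `K`
(`O = K + 𝔪`), and a finite free `O`-algebra `B` which is a Dedekind domain.  If the ideal `𝔪 B`
is the product of a multiset `t` of nonzero ideals, each the kernel of a `K`-point `χ` of `B`,
then for every `u : B`
  `Algebra.norm O u ≡ ∏_{Q ∈ t} χ_Q(u)   (mod 𝔪)`.

* `det_mulLeft_quotient_mul` : the step `B ⧸ I ↝ B ⧸ (ker χ * I)` multiplies the `K`-determinant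
  of multiplication by `u` by `χ u` (filtration argument; `I / (ker χ * I)` is a line).
* `det_mulLeft_quotient_prod` : induction over the multiset.
* `norm_sub_det_mem` : the norm reduces to the `K`-determinant on `B ⧸ 𝔪 B`.
* `norm_sub_prod_mem` : the combination.
-/
import Mathlib

set_option autoImplicit false

namespace Fermat.Agent.S37.NormValCore

open Module

section Det

variable {K B : Type*} [Field K] [CommRing B] [Algebra K B]

theorem apply_algebraMap_eq (χ : B →ₐ[K] K) (c : K) : χ (algebraMap K B c) = c := by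
  rw [AlgHom.commutes]; rfl

theorem ker_isMaximal (χ : B →ₐ[K] K) : (RingHom.ker χ).IsMaximal :=
  RingHom.ker_isMaximal_of_surjective χ (fun c => ⟨algebraMap K B c, apply_algebraMap_eq χ c⟩)

theorem sub_algebraMap_mem_ker (χ : B →ₐ[K] K) (b : B) :
    b - algebraMap K B (χ b) ∈ RingHom.ker χ := by
  rw [RingHom.mem_ker, map_sub, apply_algebraMap_eq, sub_self]

variable [IsDedekindDomain B]

set_option maxHeartbeats 800000 in
/-- One step of the filtration: passing from `B ⧸ I` to `B ⧸ (ker χ * I)` multiplies the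
determinant of multiplication by `u` by `χ u`. -/
theorem det_mulLeft_quotient_mul (I : Ideal B) (hI : I ≠ ⊥) (χ : B →ₐ[K] K)
    [Module.Finite K (B ⧸ I)] (u : B) :
    Module.Finite K (B ⧸ (RingHom.ker χ * I)) ∧
      LinearMap.det (LinearMap.mulLeft K (Ideal.Quotient.mk (RingHom.ker χ * I) u)) =
        χ u * LinearMap.det (LinearMap.mulLeft K (Ideal.Quotient.mk I u)) := by
  classical
  set P := RingHom.ker χ with hP
  have hPmax : P.IsMaximal := ker_isMaximal χ
  set J := P * I with hJ
  have hJI : J ≤ I := Ideal.mul_le_right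
  have hJne : J ≠ I := by
    intro h
    have h1 : P * I = ⊤ * I := by rw [Ideal.top_mul]; exact h
    exact hPmax.ne_top (mul_right_cancel₀ hI h1)
  obtain ⟨x₀, hx₀I, hx₀J⟩ : ∃ x₀ ∈ I, x₀ ∉ J := SetLike.exists_of_lt (lt_of_le_of_ne hJI hJne)
  -- `I = (x₀) + J`
  have hsup : Ideal.span {x₀} ⊔ J = I := by
    have h1 : Ideal.span {x₀} ≤ I := (Ideal.span_singleton_le_iff_mem I).mpr hx₀I
    obtain ⟨J', hJ'⟩ := Ideal.dvd_iff_le.mpr h1
    have hJ'P : ¬ J' ≤ P := by
      intro hle
      apply hx₀J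
      have h2 : Ideal.span {x₀} ≤ P * I := by
        rw [hJ', mul_comm]
        exact Ideal.mul_mono_left hle
      exact h2 (Ideal.mem_span_singleton_self x₀)
    have hJ'top : J' ⊔ P = ⊤ := hPmax.1.2 _ (right_lt_sup.mpr hJ'P)
    rw [hJ', hJ, mul_comm P I, ← Ideal.mul_sup, hJ'top, Ideal.mul_top]
  -- elements of `P * I`
  have hPI : ∀ (a : B) (x : B), a ∈ P → x ∈ I → a * x ∈ J := fun a x ha hx =>
    Ideal.mul_mem_mul ha hx
  -- the `K`-linear picture
  let q : B →ₗ[K] (B ⧸ J) := (Ideal.Quotient.mkₐ K J).toLinearMap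
  have hq : ∀ x : B, q x = Ideal.Quotient.mk J x := fun x => rfl
  have hq0 : ∀ x : B, x ∈ J → q x = 0 := fun x hx => by
    rw [hq]; exact Ideal.Quotient.eq_zero_iff_mem.mpr hx
  let W : Submodule K (B ⧸ J) := (I.restrictScalars K).map q
  have hWmem : ∀ x ∈ I, q x ∈ W := fun x hx => Submodule.mem_map_of_mem hx
  have hWex : ∀ y ∈ W, ∃ x ∈ I, q x = y := fun y hy => by
    obtain ⟨x, hx, rfl⟩ := Submodule.mem_map.mp hy
    exact ⟨x, hx, rfl⟩
  -- `W` is spanned by the image of `x₀`
  have hWspan : W = Submodule.span K {q x₀} := by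
    apply le_antisymm
    · intro y hy
      obtain ⟨x, hx, rfl⟩ := hWex y hy
      rw [← hsup] at hx
      obtain ⟨z, hz, w, hw, rfl⟩ := Submodule.mem_sup.mp hx
      obtain ⟨b, rfl⟩ := Ideal.mem_span_singleton'.mp hz
      have e1 : b * x₀ + w = χ b • x₀ + ((b - algebraMap K B (χ b)) * x₀ + w) := by
        rw [Algebra.smul_def]; ring
      rw [e1, map_add, map_smul, hq0 _ (J.add_mem (hPI _ _ (sub_algebraMap_mem_ker χ b) hx₀I) hw),
        add_zero]
      exact Submodule.smul_mem _ _ (Submodule.mem_span_singleton_self _)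
    · rw [Submodule.span_singleton_le_iff_mem]
      exact hWmem x₀ hx₀I
  have hqx₀ : q x₀ ≠ 0 := by
    rw [hq, Ne, Ideal.Quotient.eq_zero_iff_mem]
    exact hx₀J
  have hfinrankW : Module.finrank K W = 1 := by
    rw [hWspan]
    exact finrank_span_singleton hqx₀
  have : Module.Finite K W := Module.finite_of_finrank_pos (by rw [hfinrankW]; exact one_pos)
  -- the quotient `(B ⧸ J) ⧸ W` is `B ⧸ I`
  let f : (B ⧸ J) →ₗ[K] (B ⧸ I) := (Ideal.Quotient.factorₐ K hJI).toLinearMap
  have hf : ∀ x : B, f (q x) = Ideal.Quotient.mk I x := fun x => rfl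
  have hfsurj : Function.Surjective f := by
    intro y
    obtain ⟨x, rfl⟩ := Ideal.Quotient.mk_surjective y
    exact ⟨q x, hf x⟩
  have hker : W = LinearMap.ker f := by
    ext y
    obtain ⟨x, rfl⟩ := Ideal.Quotient.mk_surjective y
    rw [LinearMap.mem_ker, ← hq, hf, Ideal.Quotient.eq_zero_iff_mem]
    constructor
    · intro hy
      obtain ⟨x', hx', hxx'⟩ := hWex _ hy
      rw [hq, hq, Ideal.Quotient.eq] at hxx'
      have : x = x' - (x' - x) := by ring
      rw [this]
      exact I.sub_mem hx' (hJI hxx')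
    · intro hx
      exact hWmem x hx
  let ψ : ((B ⧸ J) ⧸ W) ≃ₗ[K] (B ⧸ I) :=
    (Submodule.quotEquivOfEq W (LinearMap.ker f) hker).trans (f.quotKerEquivOfSurjective hfsurj)
  have hψ : ∀ y : B ⧸ J, ψ (Submodule.Quotient.mk y) = f y := fun y => rfl
  have : Module.Finite K ((B ⧸ J) ⧸ W) := Module.Finite.equiv ψ.symm
  have : Module.Finite K (B ⧸ J) := Module.Finite.of_submodule_quotient W
  refine ⟨inferInstance, ?_⟩
  -- the endomorphism
  set e : (B ⧸ J) →ₗ[K] (B ⧸ J) := LinearMap.mulLeft K (Ideal.Quotient.mk J u) with he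
  have heq : ∀ x : B, e (q x) = q (u * x) := fun x => by
    rw [he, LinearMap.mulLeft_apply, hq, hq, map_mul]
  have heW : W ≤ W.comap e := by
    intro y hy
    obtain ⟨x, hx, rfl⟩ := hWex y hy
    rw [Submodule.mem_comap, heq]
    exact hWmem _ (I.mul_mem_left u hx)
  -- on `W` it is the scalar `χ u`
  have hrestr : e.restrict (p := W) (q := W) heW = χ u • LinearMap.id := by
    ext ⟨y, hy⟩
    obtain ⟨x, hx, rfl⟩ := hWex y hy
    simp only [LinearMap.coe_restrict_apply, LinearMap.smul_apply, LinearMap.id_coe, id_eq,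
      Submodule.coe_smul]
    rw [heq]
    have e1 : u * x = χ u • x + (u - algebraMap K B (χ u)) * x := by
      rw [Algebra.smul_def]; ring
    rw [e1, map_add, map_smul, hq0 _ (hPI _ _ (sub_algebraMap_mem_ker χ u) hx), add_zero]
  have hdetW : LinearMap.det (e.restrict (p := W) (q := W) heW) = χ u := by
    rw [hrestr, LinearMap.det_smul, LinearMap.det_id, hfinrankW, pow_one, mul_one]
  -- on the quotient it is multiplication by `u` on `B ⧸ I`
  have hconj : LinearMap.mulLeft K (Ideal.Quotient.mk I u)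
      = (ψ : ((B ⧸ J) ⧸ W) →ₗ[K] (B ⧸ I)) ∘ₗ (W.mapQ W e heW) ∘ₗ
          (ψ.symm : (B ⧸ I) →ₗ[K] ((B ⧸ J) ⧸ W)) := by
    ext y
    obtain ⟨x, rfl⟩ := Ideal.Quotient.mk_surjective y
    have h1 : ψ.symm (Ideal.Quotient.mk I x) = Submodule.Quotient.mk (q x) := by
      rw [LinearEquiv.symm_apply_eq, hψ, hf]
    simp only [LinearMap.coe_comp, LinearEquiv.coe_coe, Function.comp_apply]
    rw [h1, Submodule.mapQ_apply, hψ, heq, hf, LinearMap.mulLeft_apply, map_mul]
  have hdetQ : LinearMap.det (W.mapQ W e heW)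
      = LinearMap.det (LinearMap.mulLeft K (Ideal.Quotient.mk I u)) := by
    rw [hconj, LinearMap.det_conj]
  rw [LinearMap.det_eq_det_mul_det W e heW, hdetW, hdetQ]


/-- The determinant of multiplication by `u` on the quotient of `B` by a product of kernels of
`K`-points is the product of the values of `u`. -/
theorem det_mulLeft_quotient_prod (t : Multiset (Ideal B)) (u : B) (c : Ideal B → K)
    (ht : ∀ Q ∈ t, Q ≠ ⊥ ∧ ∃ χ : B →ₐ[K] K, RingHom.ker χ = Q ∧ χ u = c Q) :
    ∀ J : Ideal B, J = t.prod →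
      Module.Finite K (B ⧸ J) ∧
        LinearMap.det (LinearMap.mulLeft K (Ideal.Quotient.mk J u)) = (t.map c).prod := by
  induction t using Multiset.induction_on with
  | empty =>
    intro J hJ
    rw [Multiset.prod_zero] at hJ
    subst hJ
    have hsub : Subsingleton (B ⧸ (1 : Ideal B)) :=
      Ideal.Quotient.subsingleton_iff.mpr Ideal.one_eq_top
    refine ⟨inferInstance, ?_⟩
    rw [Multiset.map_zero, Multiset.prod_zero]
    exact LinearMap.det_eq_one_of_subsingleton _
  | cons Q t ih =>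
    intro J hJ
    rw [Multiset.prod_cons] at hJ
    subst hJ
    have ht' : ∀ Q' ∈ t, Q' ≠ ⊥ ∧ ∃ χ : B →ₐ[K] K, RingHom.ker χ = Q' ∧ χ u = c Q' :=
      fun Q' h => ht Q' (Multiset.mem_cons_of_mem h)
    obtain ⟨hfin, hdet⟩ := ih ht' _ rfl
    have hI : t.prod ≠ ⊥ := by
      rw [← Ideal.zero_eq_bot, Ne, Multiset.prod_eq_zero_iff]
      intro h0
      exact (ht' _ h0).1 rfl
    obtain ⟨-, χ, rfl, hχu⟩ := ht Q (Multiset.mem_cons_self Q t)
    obtain ⟨hfin', hdet'⟩ := det_mulLeft_quotient_mul t.prod hI χ u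
    refine ⟨hfin', ?_⟩
    rw [hdet', hdet, Multiset.map_cons, Multiset.prod_cons, hχu]

end Det

section Reduction

variable {K O B : Type*} [Field K] [CommRing O] [IsLocalRing O] [Algebra K O]
  [CommRing B] [Algebra O B] [Algebra K B] [IsScalarTower K O B]
  [Module.Free O B] [Module.Finite O B]

/-- If every element of the local ring `O ⊇ K` has a value in `K`, the norm of `u : B` is
congruent modulo the maximal ideal to the `K`-determinant of multiplication by `u` on
`B ⧸ 𝔪 B`. -/
theorem norm_sub_det_mem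
    (hO : ∀ a : O, ∃ c : K, a - algebraMap K O c ∈ IsLocalRing.maximalIdeal O) (u : B) :
    Algebra.norm O u - algebraMap K O
      (LinearMap.det (LinearMap.mulLeft K
        (Ideal.Quotient.mk ((IsLocalRing.maximalIdeal O).map (algebraMap O B)) u)))
      ∈ IsLocalRing.maximalIdeal O := by
  classical
  set p := IsLocalRing.maximalIdeal O with hp
  set pS := p.map (algebraMap O B) with hpS
  -- `K ≃ O ⧸ p`
  let φ : K →+* O ⧸ p := (Ideal.Quotient.mk p).comp (algebraMap K O)
  have hφsurj : Function.Surjective φ := by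
    intro y
    obtain ⟨a, rfl⟩ := Ideal.Quotient.mk_surjective y
    obtain ⟨c, hc⟩ := hO a
    refine ⟨c, ?_⟩
    show Ideal.Quotient.mk p (algebraMap K O c) = Ideal.Quotient.mk p a
    rw [eq_comm, Ideal.Quotient.eq]
    exact hc
  have : Nontrivial (O ⧸ p) := Ideal.Quotient.nontrivial_iff.mpr (IsLocalRing.maximalIdeal.isMaximal O).ne_top
  let e : K ≃+* O ⧸ p := RingEquiv.ofBijective φ ⟨φ.injective, hφsurj⟩
  have he : ∀ c : K, e c = Ideal.Quotient.mk p (algebraMap K O c) := fun c => rfl
  -- bases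
  let ι := Module.Free.ChooseBasisIndex O B
  let b : Basis ι O B := Module.Free.chooseBasis O B
  let bq : Basis ι (O ⧸ p) (B ⧸ pS) := IsLocalRing.basisQuotient b
  have hcompat : ∀ (c : O ⧸ p) (x : B ⧸ pS), e.symm c • x = c • x := by
    intro c x
    obtain ⟨k, rfl⟩ := e.surjective c
    obtain ⟨y, rfl⟩ := Ideal.Quotient.mk_surjective x
    rw [RingEquiv.symm_apply_apply, he, Ideal.Quotient.mk_smul_mk_quotient_map_quotient,
      ← IsScalarTower.algebraMap_apply K O B, ← Algebra.smul_def]
    rfl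
  let bK : Basis ι K (B ⧸ pS) := bq.mapCoeffs e.symm hcompat
  have hmat : LinearMap.toMatrix bK bK (LinearMap.mulLeft K (Ideal.Quotient.mk pS u))
      = (Algebra.leftMulMatrix b u).map ((e.symm : (O ⧸ p) →+* K).comp (Ideal.Quotient.mk p)) := by
    ext i j
    rw [LinearMap.toMatrix_apply, Matrix.map_apply, Algebra.leftMulMatrix_eq_repr_mul]
    show bK.repr (Ideal.Quotient.mk pS u * bK j) i = e.symm (Ideal.Quotient.mk p (b.repr (u * b j) i))
    have h1 : bK j = Ideal.Quotient.mk pS (b j) := by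
      show (bq.mapCoeffs e.symm hcompat) j = _
      rw [Basis.mapCoeffs_apply]
      exact IsLocalRing.basisQuotient_apply b j
    rw [h1, ← map_mul]
    show (bq.mapCoeffs e.symm hcompat).repr (Ideal.Quotient.mk pS (u * b j)) i = _
    rw [Basis.mapCoeffs_repr]
    have h2 := IsLocalRing.basisQuotient_repr b (u * b j) i
    simp only [LinearEquiv.trans_apply, LinearEquiv.restrictScalars_apply,
      Finsupp.mapRange.linearEquiv_apply, Finsupp.mapRange_apply]
    rw [h2]
    rfl
  have hdet : LinearMap.det (LinearMap.mulLeft K (Ideal.Quotient.mk pS u))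
      = e.symm (Ideal.Quotient.mk p (Algebra.norm O u)) := by
    rw [← LinearMap.det_toMatrix bK, hmat, Algebra.norm_eq_matrix_det b u,
      ← RingHom.mapMatrix_apply, ← RingHom.map_det]
    rfl
  rw [hdet, ← Ideal.Quotient.eq, ← he, RingEquiv.apply_symm_apply]

end Reduction


section Combined

variable {K O B : Type*} [Field K] [CommRing O] [IsLocalRing O] [Algebra K O]
  [CommRing B] [IsDedekindDomain B] [Algebra O B] [Algebra K B] [IsScalarTower K O B]
  [Module.Free O B] [Module.Finite O B]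

/-- **Value–norm lemma, abstract form.** -/
theorem norm_sub_prod_mem
    (hO : ∀ a : O, ∃ c : K, a - algebraMap K O c ∈ IsLocalRing.maximalIdeal O)
    (t : Multiset (Ideal B)) (u : B) (c : Ideal B → K)
    (ht : ∀ Q ∈ t, Q ≠ ⊥ ∧ ∃ χ : B →ₐ[K] K, RingHom.ker χ = Q ∧ χ u = c Q)
    (hfac : (IsLocalRing.maximalIdeal O).map (algebraMap O B) = t.prod) :
    Algebra.norm O u - algebraMap K O ((t.map c).prod) ∈ IsLocalRing.maximalIdeal O := by
  have h1 := norm_sub_det_mem (K := K) (B := B) hO u
  rw [(det_mulLeft_quotient_prod t u c ht _ hfac).2] at h1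
  exact h1

end Combined

end Fermat.Agent.S37.NormValCore
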