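/-
S37 — NormVal.lean (helper3): the VALUE–NORM LEMMA [NV] in the prelude's `Place` vocabulary.

`F'/F` a finite separable extension of function fields over `K`, `v` a place of `F` all of whose
integral elements have a value in `K` (residue field `K`), and the same for every place `w` of `F'`
above `v`.  If `u : F'` has the value `c w` at every `w | v` (i.e. `u - c w` lies in the maximal
ideal of `w`; in particular `u` is integral at `w`, zeros allowed), then `N_{F'/F}(u)` has the
value `∏_{w | v} (c w)^{e(w|v)}` at `v`:

  `norm_sub_mem_nonunits :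
      Algebra.norm F u - algebraMap K F (∏ w ∈ v.fiber F', c w ^ w.ramificationIndex F)
        ∈ v.toValuationSubring.nonunits`.

Proof: `B :=` integral closure of `O_v` in `F'` is a Dedekind domain, finite free over `O_v`; the
places above `v` are the height-one primes of `B` (S24 `PlacesDedekind`), the exponent of `P` in
`𝔪_v B` is the prelude ramification index, and `NormValCore.norm_sub_prod_mem` computes the norm
modulo `𝔪_v`.
-/
import Mathlib
import Fermat.Prelude.Def_AlgebraicCurve_DivisorPushPull
import Fermat.Agent.S24.PlacesDedekind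
import Fermat.Agent.S37.NormValCore

set_option autoImplicit false

namespace Fermat.Agent.S37.NormVal

open AlgebraicCurve IsDedekindDomain UniqueFactorizationMonoid

/-! ### A `K`-point attached to an ideal with residue field `K` -/

section Point

variable {K R : Type*} [Field K] [CommRing R] [Algebra K R]

/-- If every element of `R` is congruent to a constant modulo the proper ideal `M`, then `M` is the
kernel of a `K`-point of `R`. -/
theorem exists_point (M : Ideal R) (hM : M ≠ ⊤)
    (h : ∀ b : R, ∃ c : K, b - algebraMap K R c ∈ M) :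
    ∃ χ : R →ₐ[K] K, RingHom.ker χ = M ∧ ∀ b : R, b - algebraMap K R (χ b) ∈ M := by
  have hnt : Nontrivial (R ⧸ M) := Ideal.Quotient.nontrivial_iff.mpr hM
  have hbij : Function.Bijective (algebraMap K (R ⧸ M)) := by
    refine ⟨(algebraMap K (R ⧸ M)).injective, fun y => ?_⟩
    obtain ⟨b, rfl⟩ := Ideal.Quotient.mk_surjective y
    obtain ⟨c, hc⟩ := h b
    refine ⟨c, ?_⟩
    show Ideal.Quotient.mk M (algebraMap K R c) = Ideal.Quotient.mk M b
    rw [eq_comm, Ideal.Quotient.eq]
    exact hc
  let e : K ≃ₐ[K] (R ⧸ M) := AlgEquiv.ofBijective (Algebra.ofId K (R ⧸ M)) hbij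
  have he : ∀ c : K, e c = Ideal.Quotient.mk M (algebraMap K R c) := fun c => rfl
  let χ : R →ₐ[K] K := (e.symm : (R ⧸ M) →ₐ[K] K).comp (Ideal.Quotient.mkₐ K M)
  have hχ : ∀ b : R, χ b = e.symm (Ideal.Quotient.mk M b) := fun b => rfl
  have hval : ∀ b : R, b - algebraMap K R (χ b) ∈ M := by
    intro b
    rw [← Ideal.Quotient.eq, ← he, hχ, AlgEquiv.apply_symm_apply]
  refine ⟨χ, ?_, hval⟩
  ext b
  rw [RingHom.mem_ker]
  constructor
  · intro hb
    have := hval b
    rw [show χ b = 0 from hb, map_zero, sub_zero] at this
    exact this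
  · intro hb
    show χ b = 0
    rw [hχ, Ideal.Quotient.eq_zero_iff_mem.mpr hb, map_zero]

end Point

variable {K F F' : Type*} [Field K] [Field F] [Field F'] [Algebra K F] [Algebra K F']
  [Algebra F F'] [IsScalarTower K F F']

/-- `F'` as an algebra over the valuation ring of a place of `F`. -/
@[reducible] def algO (v : Place K F) : Algebra v.toValuationSubring F' :=
  ((algebraMap F F').comp v.toValuationSubring.subtype).toAlgebra

attribute [local instance 10] algO

omit [Algebra K F'] [IsScalarTower K F F'] in
theorem algebraMap_O_apply (v : Place K F) (a : v.toValuationSubring) :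
    algebraMap v.toValuationSubring F' a = algebraMap F F' (a : F) := rfl

omit [Algebra K F'] [IsScalarTower K F F'] in
theorem towerOFF (v : Place K F) : IsScalarTower v.toValuationSubring F F' :=
  IsScalarTower.of_algebraMap_eq fun _ => rfl

theorem towerKOF (v : Place K F) : IsScalarTower K v.toValuationSubring F' :=
  IsScalarTower.of_algebraMap_eq fun c => by
    rw [algebraMap_O_apply, Place.coe_algebraMap, ← IsScalarTower.algebraMap_apply]

attribute [local instance] towerOFF towerKOF

section Dict

variable [FiniteDimensional F F'] [Algebra.IsSeparable F F']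

omit [Algebra K F'] [IsScalarTower K F F'] in
theorem isDedekindDomain_B (v : Place K F) :
    IsDedekindDomain (integralClosure v.toValuationSubring F') :=
  IsIntegralClosure.isDedekindDomain v.toValuationSubring F F' _

omit [Algebra K F'] [IsScalarTower K F F'] [Algebra.IsSeparable F F'] in
theorem isFractionRing_B (v : Place K F) :
    IsFractionRing (integralClosure v.toValuationSubring F') F' :=
  integralClosure.isFractionRing_of_finite_extension F F'

omit [Algebra K F'] [IsScalarTower K F F'] in
theorem finite_B (v : Place K F) :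
    Module.Finite v.toValuationSubring (integralClosure v.toValuationSubring F') :=
  IsIntegralClosure.finite v.toValuationSubring F F' _

omit [Algebra K F'] [IsScalarTower K F F'] in
theorem free_B (v : Place K F) :
    Module.Free v.toValuationSubring (integralClosure v.toValuationSubring F') :=
  IsIntegralClosure.module_free v.toValuationSubring F F' _

omit [Algebra K F'] [IsScalarTower K F F'] [FiniteDimensional F F'] in
theorem isLocalization_B (v : Place K F) :
    IsLocalization (Algebra.algebraMapSubmonoid (integralClosure v.toValuationSubring F')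
      (nonZeroDivisors v.toValuationSubring)) F' :=
  IsIntegralClosure.isLocalization v.toValuationSubring F F' _

attribute [local instance] isDedekindDomain_B isFractionRing_B finite_B free_B isLocalization_B

variable (v : Place K F)

local notation "Ov" => v.toValuationSubring
local notation "Bv" => integralClosure v.toValuationSubring F'

/-- The place of `F'` attached to a height-one prime of `B`. -/
noncomputable abbrev placeOf (P : HeightOneSpectrum Bv) : Place K F' :=
  Place.ofHeightOneSpectrum (K := K) (F := F') P

omit [FiniteDimensional F F'] in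
/-- elements of `B` are integral at every place above `v`. -/
theorem mem_of_restrict_eq {w : Place K F'} (hw : w.restrict F = v) (b : Bv) :
    (b : F') ∈ w.toValuationSubring := by
  have hO : ∀ a : Ov, algebraMap Ov F' a ∈ w.toValuationSubring := by
    intro a
    have h1 : (a : F) ∈ (w.restrict F).toValuationSubring := by rw [hw]; exact a.2
    exact (Place.mem_restrict_iff w).mp h1
  let _ : Algebra Ov w.toValuationSubring :=
    ((algebraMap Ov F').codRestrict w.toValuationSubring.toSubring hO).toAlgebra
  have : IsScalarTower Ov w.toValuationSubring F' :=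
    IsScalarTower.of_algebraMap_eq fun _ => rfl
  have hb : IsIntegral w.toValuationSubring (b : F') := b.2.tower_top
  obtain ⟨y, hy⟩ := IsIntegrallyClosed.isIntegral_iff.mp hb
  exact hy ▸ y.2

/-- the place attached to a height-one prime of `B` lies above `v`. -/
theorem restrict_placeOf (P : HeightOneSpectrum Bv) : (placeOf v P).restrict F = v := by
  apply Place.ext
  symm
  refine ValuationSubring.eq_of_le_of_ne_top (A := v.toValuationSubring) ?_
    ((placeOf v P).restrict F).ne_top'
  intro x hx
  show algebraMap F F' x ∈ (P.valuation F').valuationSubring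
  rw [Valuation.mem_valuationSubring_iff]
  have h1 : algebraMap F F' x = algebraMap Bv F' (algebraMap Ov Bv ⟨x, hx⟩) := by
    rw [← IsScalarTower.algebraMap_apply Ov Bv F']
    rfl
  rw [h1]
  exact P.valuation_le_one _

/-- membership in the maximal ideal of the place attached to `P`. -/
theorem coe_mem_nonunits_placeOf_iff (P : HeightOneSpectrum Bv) (r : Bv) :
    (r : F') ∈ (placeOf v P).toValuationSubring.nonunits ↔ r ∈ P.asIdeal := by
  show algebraMap Bv F' r ∈ (P.valuation F').valuationSubring.nonunits ↔ _
  rw [ValuationSubring.mem_nonunits_iff,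
    ← (Valuation.isEquiv_valuation_valuationSubring (P.valuation F')).lt_one_iff_lt_one,
    HeightOneSpectrum.valuation_of_algebraMap, HeightOneSpectrum.intValuation_lt_one_iff_mem]

/-- the exponent of `P` in `π B` is the ramification index of the attached place. -/
theorem count_normalizedFactors_eq_ramificationIndex (P : HeightOneSpectrum Bv)
    {π : Ov} (hπ : Irreducible π) :
    Multiset.count P.asIdeal (normalizedFactors (Ideal.span {algebraMap Ov Bv π}))
      = (placeOf v P).ramificationIndex F := by
  classical
  have hπ0 : algebraMap Ov Bv π ≠ 0 := by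
    intro h0
    have h1 : algebraMap Bv F' (algebraMap Ov Bv π) = 0 := by rw [h0, map_zero]
    rw [← IsScalarTower.algebraMap_apply Ov Bv F', algebraMap_O_apply] at h1
    have h2 : (π : F) = 0 := (algebraMap F F').injective (by rw [h1, map_zero])
    exact hπ.ne_zero (Subtype.ext h2)
  have hspan : Ideal.span {algebraMap Ov Bv π} ≠ 0 := by
    rw [Ne, Ideal.zero_eq_bot, Ideal.span_singleton_eq_bot]
    exact hπ0
  have h1 : (placeOf v P).ord (algebraMap F F' (π : F))
      = ((placeOf v P).ramificationIndex F : ℤ) := by
    rw [Place.ord_restrict, restrict_placeOf, v.ord_coe_irreducible hπ, mul_one]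
  have h2 : algebraMap F F' (π : F) = algebraMap Bv F' (algebraMap Ov Bv π) := by
    rw [← IsScalarTower.algebraMap_apply Ov Bv F']
    rfl
  rw [h2, Fermat.Agent.S24.ord_ofHeightOneSpectrum, HeightOneSpectrum.valuation_of_algebraMap,
    HeightOneSpectrum.intValuation_if_neg P hπ0, WithZero.log_exp, neg_neg,
    Ideal.count_associates_factors_eq hspan P.isPrime P.ne_bot] at h1
  exact_mod_cast h1

end Dict

/-! ### The value–norm lemma -/

section Main

variable [FiniteDimensional F F'] [Algebra.IsSeparable F F'] [HasPrincipalDivisors K F']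

attribute [local instance] isDedekindDomain_B isFractionRing_B finite_B free_B isLocalization_B

set_option maxHeartbeats 1000000 in
/-- **Value–norm lemma.** If `u` has the value `c w` at every place `w` of `F'` above `v`
(all residue fields being `K`), then `N_{F'/F}(u)` has the value `∏_{w | v} (c w)^{e(w|v)}`
at `v`. -/
theorem norm_sub_mem_nonunits (v : Place K F)
    (hv : ∀ a ∈ v.toValuationSubring,
      ∃ c : K, a - algebraMap K F c ∈ v.toValuationSubring.nonunits)
    (hw : ∀ w ∈ v.fiber F', ∀ a ∈ w.toValuationSubring,
      ∃ c : K, a - algebraMap K F' c ∈ w.toValuationSubring.nonunits)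
    (u : F') (c : Place K F' → K)
    (hc : ∀ w ∈ v.fiber F', u - algebraMap K F' (c w) ∈ w.toValuationSubring.nonunits) :
    Algebra.norm F u - algebraMap K F (∏ w ∈ v.fiber F', c w ^ w.ramificationIndex F)
      ∈ v.toValuationSubring.nonunits := by
  classical
  -- notation
  let Ov := v.toValuationSubring
  let Bv := integralClosure v.toValuationSubring F'
  -- places attached to primes lie in the fibre
  have hfib : ∀ P : HeightOneSpectrum Bv, placeOf v P ∈ v.fiber F' := fun P =>
    Place.mem_fiber.mpr (restrict_placeOf v P)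
  -- `u` is integral at every `w | v`
  have huw : ∀ w ∈ v.fiber F', u ∈ w.toValuationSubring := by
    intro w hwf
    have h1 := hc w hwf
    have h2 : u - algebraMap K F' (c w) ∈ w.toValuationSubring :=
      (ValuationSubring.mem_nonunits_iff_exists_mem_maximalIdeal.mp h1).1
    have h3 : u = (u - algebraMap K F' (c w)) + algebraMap K F' (c w) := by ring
    rw [h3]
    exact add_mem h2 (w.algebraMap_mem' (c w))
  -- hence `u ∈ B`
  obtain ⟨uB, huB⟩ : ∃ uB : Bv, algebraMap Bv F' uB = u := by
    have h := HeightOneSpectrum.mem_integers_of_valuation_le_one (R := Bv) F' u (fun P => by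
      have h1 := huw _ (hfib P)
      exact (Valuation.mem_valuationSubring_iff _ _).mp h1)
    exact h
  -- values on `O_v`
  have hO : ∀ a : Ov, ∃ c : K, a - algebraMap K Ov c ∈ IsLocalRing.maximalIdeal Ov := by
    intro a
    obtain ⟨c, hc⟩ := hv (a : F) a.2
    refine ⟨c, ?_⟩
    obtain ⟨hmem, hmax⟩ := ValuationSubring.mem_nonunits_iff_exists_mem_maximalIdeal.mp hc
    have e : (⟨(a : F) - algebraMap K F c, hmem⟩ : Ov) = a - algebraMap K Ov c :=
      Subtype.ext (by rw [AddSubgroupClass.coe_sub, Place.coe_algebraMap])
    rw [← e]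
    exact hmax
  -- uniformizer and factorisation
  obtain ⟨π, hπ⟩ := IsDiscreteValuationRing.exists_irreducible Ov
  have hπ0 : algebraMap Ov Bv π ≠ 0 := by
    intro h0
    have h1 : algebraMap Bv F' (algebraMap Ov Bv π) = 0 := by rw [h0, map_zero]
    rw [← IsScalarTower.algebraMap_apply Ov Bv F', algebraMap_O_apply] at h1
    have h2 : (π : F) = 0 := (algebraMap F F').injective (by rw [h1, map_zero])
    exact hπ.ne_zero (Subtype.ext h2)
  have hspan : Ideal.span {algebraMap Ov Bv π} ≠ ⊥ := by
    rw [Ne, Ideal.span_singleton_eq_bot]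
    exact hπ0
  set t : Multiset (Ideal Bv) := normalizedFactors (Ideal.span {algebraMap Ov Bv π}) with ht
  have hfac : (IsLocalRing.maximalIdeal Ov).map (algebraMap Ov Bv) = t.prod := by
    rw [ht, Ideal.prod_normalizedFactors_eq_self hspan, hπ.maximalIdeal_eq, Ideal.map_span,
      Set.image_singleton]
  have htprime : ∀ Q ∈ t, Q.IsPrime ∧ Q ≠ ⊥ := by
    intro Q hQ
    have hp : Prime Q := prime_of_normalized_factor Q hQ
    exact ⟨Ideal.isPrime_of_prime hp, hp.ne_zero⟩
  -- the value function on ideals
  let cI : Ideal Bv → K := fun Q =>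
    if h : Q.IsPrime ∧ Q ≠ ⊥ then c (placeOf v ⟨Q, h.1, h.2⟩) else 0
  have hcI : ∀ P : HeightOneSpectrum Bv, cI P.asIdeal = c (placeOf v P) := by
    intro P
    show (if h : P.asIdeal.IsPrime ∧ P.asIdeal ≠ ⊥ then c (placeOf v ⟨P.asIdeal, h.1, h.2⟩)
      else 0) = _
    rw [dif_pos ⟨P.isPrime, P.ne_bot⟩]
  -- the hypothesis of the core lemma
  have htχ : ∀ Q ∈ t, Q ≠ ⊥ ∧ ∃ χ : Bv →ₐ[K] K, RingHom.ker χ = Q ∧ χ uB = cI Q := by
    intro Q hQ
    obtain ⟨hQp, hQ0⟩ := htprime Q hQ
    refine ⟨hQ0, ?_⟩
    let P : HeightOneSpectrum Bv := ⟨Q, hQp, hQ0⟩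
    have hval : ∀ b : Bv, ∃ c' : K, b - algebraMap K Bv c' ∈ Q := by
      intro b
      obtain ⟨c', hc'⟩ := hw _ (hfib P) (b : F') (mem_of_restrict_eq v (restrict_placeOf v P) b)
      refine ⟨c', ?_⟩
      have h1 := (coe_mem_nonunits_placeOf_iff v P (b - algebraMap K Bv c')).mp (by
        have e : ((b - algebraMap K Bv c' : Bv) : F') = (b : F') - algebraMap K F' c' := by
          rw [AddSubgroupClass.coe_sub]
          rfl
        rw [e]
        exact hc')
      exact h1
    obtain ⟨χ, hker, hχ⟩ := exists_point Q hQp.ne_top hval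
    refine ⟨χ, hker, ?_⟩
    -- the value of `uB` is `c (placeOf v P)`
    have h1 : uB - algebraMap K Bv (c (placeOf v P)) ∈ Q := by
      refine (coe_mem_nonunits_placeOf_iff v P _).mp ?_
      have e : ((uB - algebraMap K Bv (c (placeOf v P)) : Bv) : F')
          = u - algebraMap K F' (c (placeOf v P)) := by
        rw [AddSubgroupClass.coe_sub, ← huB]
        rfl
      rw [e]
      exact hc _ (hfib P)
    have h2 := hχ uB
    have h3 : algebraMap K Bv (χ uB - c (placeOf v P)) ∈ Q := by
      have e : algebraMap K Bv (χ uB - c (placeOf v P))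
          = (uB - algebraMap K Bv (c (placeOf v P))) - (uB - algebraMap K Bv (χ uB)) := by
        rw [map_sub]; ring
      rw [e]
      exact Q.sub_mem h1 h2
    have h4 : χ uB - c (placeOf v P) = 0 := by
      by_contra hne
      apply hQp.ne_top
      exact Ideal.eq_top_of_isUnit_mem Q h3 ((IsUnit.mk0 _ hne).map (algebraMap K Bv))
    rw [show cI Q = c (placeOf v P) from hcI P]
    exact sub_eq_zero.mp h4
  -- the core lemma
  have hcore := NormValCore.norm_sub_prod_mem (K := K) (O := Ov) (B := Bv) hO t uB cI htχ hfac
  -- the product over the multiset is the product over the fibre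
  have hprod : (t.map cI).prod = ∏ w ∈ v.fiber F', c w ^ w.ramificationIndex F := by
    rw [Finset.prod_multiset_map_count]
    refine Finset.prod_bij
      (fun Q hQ => placeOf v ⟨Q, (htprime Q (Multiset.mem_toFinset.mp hQ)).1,
        (htprime Q (Multiset.mem_toFinset.mp hQ)).2⟩) ?_ ?_ ?_ ?_
    · intro Q hQ
      exact hfib _
    · intro Q₁ hQ₁ Q₂ hQ₂ h
      have h' := Fermat.Agent.S24.ofHeightOneSpectrum_injective (K := K) (F := F') (R := Bv) h
      exact congrArg HeightOneSpectrum.asIdeal h'
    · intro w hwf
      obtain ⟨P, hP⟩ := Fermat.Agent.S24.exists_ofHeightOneSpectrum_eq (R := Bv) w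
        (fun r => mem_of_restrict_eq v (Place.mem_fiber.mp hwf) r)
      have hcount := count_normalizedFactors_eq_ramificationIndex v P hπ
      have hpos : 0 < Multiset.count P.asIdeal t := by
        rw [ht, hcount]
        exact Place.ramificationIndex_pos _
      exact ⟨P.asIdeal, Multiset.mem_toFinset.mpr (Multiset.count_pos.mp hpos), hP⟩
    · intro Q hQ
      obtain ⟨hQp, hQ0⟩ := htprime Q (Multiset.mem_toFinset.mp hQ)
      have hcount := count_normalizedFactors_eq_ramificationIndex v ⟨Q, hQp, hQ0⟩ hπ
      rw [← ht] at hcount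
      show cI Q ^ Multiset.count Q t = _
      rw [hcount, show cI Q = c (placeOf v ⟨Q, hQp, hQ0⟩) from hcI ⟨Q, hQp, hQ0⟩]
  -- transfer to `F`
  have hnorm : algebraMap Ov F (Algebra.norm Ov uB) = Algebra.norm F u := by
    rw [← huB]
    exact (Algebra.norm_localization Ov (nonZeroDivisors Ov) (Rₘ := F) (Sₘ := F') uB).symm
  rw [hprod] at hcore
  rw [ValuationSubring.mem_nonunits_iff_exists_mem_maximalIdeal]
  have e : Algebra.norm F u - algebraMap K F (∏ w ∈ v.fiber F', c w ^ w.ramificationIndex F)
      = ((Algebra.norm Ov uB
          - algebraMap K Ov (∏ w ∈ v.fiber F', c w ^ w.ramificationIndex F) : Ov) : F) := by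
    rw [AddSubgroupClass.coe_sub, Place.coe_algebraMap, ← hnorm]
    rfl
  refine ⟨e ▸ Subtype.property _, ?_⟩
  have e' : (⟨Algebra.norm F u
      - algebraMap K F (∏ w ∈ v.fiber F', c w ^ w.ramificationIndex F), e ▸ Subtype.property _⟩ : Ov)
      = Algebra.norm Ov uB
          - algebraMap K Ov (∏ w ∈ v.fiber F', c w ^ w.ramificationIndex F) :=
    Subtype.ext e
  rw [e']
  exact hcore

end Main

end Fermat.Agent.S37.NormVal
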