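/-
S37 — NormValAlong.lean (helper3): consumer forms of the value–norm lemma [NV].

* `mem_nonunits_iff_ord` : `x` lies in the maximal ideal of a place iff `x = 0` or `0 < ord x`.
* `exists_value` : over an algebraically closed field of characteristic zero, every element
  integral at a place of a function field has a value in `K` (S24 `exists_residue`).
* `norm_sub_mem_nonunits_along` : [NV] for a `K`-embedding `φ : F →ₐ[K] F'` in the prelude's
  `fiberAlong` / `ramificationIndexAlong` vocabulary (`K` algebraically closed, char. 0,
  `F`, `F'` function fields in one variable, `φ` finite):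
  if `u - c w ∈ 𝔪_w` for all `w ∈ fiberAlong φ hφ v`, then
  `N_φ(u) - ∏_{w} (c w)^{e_φ(w)} ∈ 𝔪_v`.
-/
import Mathlib
import Fermat.Prelude.Def_AlgebraicCurve_Correspondence
import Fermat.Agent.S24.Residue
import Fermat.Agent.S37.NormVal

set_option autoImplicit false

namespace Fermat.Agent.S37.NormVal

open AlgebraicCurve Fermat.Agent.S24

section Ord

variable {K F : Type*} [Field K] [Field F] [Algebra K F]

/-- The maximal ideal of a place in terms of `ord`. -/
theorem mem_nonunits_iff_ord (v : Place K F) (x : F) :
    x ∈ v.toValuationSubring.nonunits ↔ x = 0 ∨ 0 < v.ord x := by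
  rw [ValuationSubring.mem_nonunits_iff_exists_mem_maximalIdeal]
  constructor
  · rintro ⟨hx, hmax⟩
    by_cases h0 : x = 0
    · exact Or.inl h0
    · right
      have hne : (⟨x, hx⟩ : v.toValuationSubring) ≠ 0 := fun h => h0 (congrArg Subtype.val h)
      exact (ord_pos_iff_mem_maximalIdeal v ⟨x, hx⟩ hne).mpr hmax
  · rintro (rfl | hpos)
    · exact ⟨zero_mem _, by
        have : (⟨0, zero_mem _⟩ : v.toValuationSubring) = 0 := rfl
        rw [this]
        exact Ideal.zero_mem _⟩
    · have hx : x ∈ v.toValuationSubring := mem_of_ord_nonneg v hpos.le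
      have hne : (⟨x, hx⟩ : v.toValuationSubring) ≠ 0 := by
        intro h
        have h0 : x = 0 := congrArg Subtype.val h
        rw [h0, Place.ord_zero] at hpos
        exact lt_irrefl _ hpos
      exact ⟨hx, (ord_pos_iff_mem_maximalIdeal v ⟨x, hx⟩ hne).mp hpos⟩

variable [IsAlgClosed K] [CharZero K]

/-- Every element integral at a place has a value in `K`. -/
theorem exists_value (hF : IsFF1 K F) (v : Place K F) :
    ∀ a ∈ v.toValuationSubring, ∃ c : K, a - algebraMap K F c ∈ v.toValuationSubring.nonunits := by
  intro a ha
  obtain ⟨c, hc⟩ := exists_residue hF v (ord_nonneg_of_mem v ha)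
  refine ⟨c, (mem_nonunits_iff_ord v _).mpr ?_⟩
  rcases hc with h | h
  · exact Or.inl (sub_eq_zero.mpr h)
  · exact Or.inr h

end Ord

section Along

variable {K F F' : Type*} [Field K] [Field F] [Field F'] [Algebra K F] [Algebra K F']
  [IsAlgClosed K] [CharZero K] [HasPrincipalDivisors K F']

/-- **Value–norm lemma along a `K`-embedding.** -/
theorem norm_sub_mem_nonunits_along (hF : IsFF1 K F) (hF' : IsFF1 K F')
    (φ : F →ₐ[K] F') (hφ : φ.toRingHom.IsIntegral) (hfin : FiniteAlong K φ)
    (v : Place K F) (u : F') (c : Place K F' → K)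
    (hc : ∀ w ∈ Place.fiberAlong φ hφ v,
      u - algebraMap K F' (c w) ∈ w.toValuationSubring.nonunits) :
    (letI := algebraAlong φ; Algebra.norm F u)
      - algebraMap K F (∏ w ∈ Place.fiberAlong φ hφ v, c w ^ w.ramificationIndexAlong φ)
      ∈ v.toValuationSubring.nonunits := by
  letI := algebraAlong φ
  have := isScalarTower_along φ
  have := isIntegral_along φ hφ
  have : Module.Finite F F' := hfin
  have : CharZero F := charZero_of_injective_algebraMap (algebraMap K F).injective
  exact norm_sub_mem_nonunits v (exists_value hF v) (fun w _ => exists_value hF' w) u c hc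

end Along

end Fermat.Agent.S37.NormVal
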