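/-
S37 — PMCover.lean (helper73): block [PM], the elementary part.

* the calculus of `PM.ValAt` (values of functions at places: sums, products, inverses,
  uniqueness), and the evaluation ring homomorphism `evHom` of a place all of whose integral
  elements have values;
* `exists_valAt` : over `ℚ̄`, every function regular at a place of `F̄` has a value;
* `exists_valAt_of_mem_chartA` : if the coordinate `t` has a value in `A` at the place `P`, then
  every element of the chart ring `chartA N A t` (integral closure of `A[t]`) is regular at `P`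
  with value in `A`;
* `cover` : every place of `F̄` is in the chart `j ≠ ∞` or reduces to a cusp.
-/
import Mathlib
import Fermat.Agent.S37.PMDefs
import Fermat.Agent.S37.NormValAlong
import Fermat.Agent.S37.HeckeInputs

set_option autoImplicit false
set_option linter.unusedSectionVars false

noncomputable section

namespace Fermat.Agent.S37.PMCover

open ModularCurve AlgebraicCurve HahnSeries Fermat.Agent.S37.PM

section Generic

variable {K F : Type*} [Field K] [Field F] [Algebra K F]

theorem add_mem_nonunits {B : ValuationSubring F} {a b : F} (ha : a ∈ B.nonunits)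
    (hb : b ∈ B.nonunits) : a + b ∈ B.nonunits := by
  rw [ValuationSubring.mem_nonunits_iff] at *
  exact Valuation.map_add_lt _ ha hb

theorem mul_mem_nonunits {B : ValuationSubring F} {a b : F} (ha : a ∈ B)
    (hb : b ∈ B.nonunits) : a * b ∈ B.nonunits := by
  rw [ValuationSubring.mem_nonunits_iff] at *
  rw [map_mul]
  have h1 : B.valuation a ≤ 1 := (B.valuation_le_one_iff a).mpr ha
  calc B.valuation a * B.valuation b ≤ 1 * B.valuation b := mul_le_mul' h1 le_rfl
    _ = B.valuation b := one_mul _
    _ < 1 := hb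

theorem neg_mem_nonunits {B : ValuationSubring F} {a : F} (ha : a ∈ B.nonunits) :
    -a ∈ B.nonunits := by
  rw [ValuationSubring.mem_nonunits_iff] at *
  rwa [Valuation.map_neg]

theorem mem_of_mem_nonunits {B : ValuationSubring F} {a : F} (ha : a ∈ B.nonunits) : a ∈ B := by
  rw [ValuationSubring.mem_nonunits_iff] at ha
  exact (B.valuation_le_one_iff a).mp ha.le

theorem zero_mem_nonunits (B : ValuationSubring F) : (0 : F) ∈ B.nonunits := by
  rw [ValuationSubring.mem_nonunits_iff, map_zero]
  exact zero_lt_one

theorem inv_mem_nonunits_of_not_mem {B : ValuationSubring F} {a : F} (ha : a ∉ B) :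
    a⁻¹ ∈ B.nonunits := by
  rw [ValuationSubring.mem_nonunits_iff, map_inv₀]
  have h1 : ¬ B.valuation a ≤ 1 := fun h => ha ((B.valuation_le_one_iff a).mp h)
  have h2 : 1 < B.valuation a := not_le.mp h1
  exact inv_lt_one_of_one_lt₀ h2

variable (v : Place K F)

theorem valAt_iff {f : F} {c : K} :
    ValAt v f c ↔ f - algebraMap K F c ∈ v.toValuationSubring.nonunits := Iff.rfl

theorem valAt_zero_iff {f : F} : ValAt v f 0 ↔ f ∈ v.toValuationSubring.nonunits := by
  rw [valAt_iff, map_zero, sub_zero]

theorem algebraMap_mem (c : K) : algebraMap K F c ∈ v.toValuationSubring :=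
  v.algebraMap_mem' c

theorem valAt_mem {f : F} {c : K} (h : ValAt v f c) : f ∈ v.toValuationSubring := by
  have h1 := mem_of_mem_nonunits h
  have h2 := v.toValuationSubring.add_mem _ _ h1 (algebraMap_mem v c)
  rwa [sub_add_cancel] at h2

theorem valAt_algebraMap (c : K) : ValAt v (algebraMap K F c) c := by
  rw [valAt_iff, sub_self]
  exact zero_mem_nonunits _

theorem valAt_one : ValAt v (1 : F) 1 := by
  have h := valAt_algebraMap v (1 : K)
  rwa [map_one] at h

theorem valAt_zero : ValAt v (0 : F) 0 := by
  have h := valAt_algebraMap v (0 : K)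
  rwa [map_zero] at h

theorem valAt_add {f g : F} {c d : K} (hf : ValAt v f c) (hg : ValAt v g d) :
    ValAt v (f + g) (c + d) := by
  rw [valAt_iff] at *
  have h := add_mem_nonunits hf hg
  have e : f + g - algebraMap K F (c + d) = f - algebraMap K F c + (g - algebraMap K F d) := by
    rw [map_add]; ring
  rwa [e]

theorem valAt_neg {f : F} {c : K} (hf : ValAt v f c) : ValAt v (-f) (-c) := by
  rw [valAt_iff] at *
  have h := neg_mem_nonunits hf
  have e : -f - algebraMap K F (-c) = -(f - algebraMap K F c) := by
    rw [map_neg]; ring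
  rwa [e]

theorem valAt_sub {f g : F} {c d : K} (hf : ValAt v f c) (hg : ValAt v g d) :
    ValAt v (f - g) (c - d) := by
  have h := valAt_add v hf (valAt_neg v hg)
  rwa [← sub_eq_add_neg, ← sub_eq_add_neg] at h

theorem valAt_mul {f g : F} {c d : K} (hf : ValAt v f c) (hg : ValAt v g d) :
    ValAt v (f * g) (c * d) := by
  have hgm := valAt_mem v hg
  rw [valAt_iff] at *
  have h1 := mul_mem_nonunits hgm hf
  have h2 := mul_mem_nonunits (algebraMap_mem v c) hg
  have h := add_mem_nonunits h1 h2
  have e : f * g - algebraMap K F (c * d)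
      = g * (f - algebraMap K F c) + algebraMap K F c * (g - algebraMap K F d) := by
    rw [map_mul]; ring
  rwa [e]

theorem valAt_pow {f : F} {c : K} (hf : ValAt v f c) (n : ℕ) : ValAt v (f ^ n) (c ^ n) := by
  induction n with
  | zero => rw [pow_zero, pow_zero]; exact valAt_one v
  | succ n ih => rw [pow_succ, pow_succ]; exact valAt_mul v ih hf

/-- A nonzero constant is not in the maximal ideal of a place. -/
theorem algebraMap_not_mem_nonunits {c : K} (hc : c ≠ 0) :
    algebraMap K F c ∉ v.toValuationSubring.nonunits := by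
  intro h
  have h1 := mul_mem_nonunits (algebraMap_mem v c⁻¹) h
  rw [← map_mul, inv_mul_cancel₀ hc, map_one, ValuationSubring.mem_nonunits_iff, map_one] at h1
  exact lt_irrefl _ h1

/-- The value of a function at a place is unique. -/
theorem valAt_unique {f : F} {c d : K} (hf : ValAt v f c) (hg : ValAt v f d) : c = d := by
  by_contra hne
  have h := valAt_add v (valAt_neg v hg) hf
  rw [neg_add_cancel, valAt_iff, zero_sub, ← map_neg] at h
  have h0 : -(-d + c) ≠ 0 := by
    intro h0
    apply hne
    have : c - d = 0 := by linear_combination -h0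
    exact sub_eq_zero.mp this
  exact algebraMap_not_mem_nonunits v h0 h

/-- A function with a nonzero value at a place is a unit there, and its inverse has the
inverse value. -/
theorem valAt_inv {f : F} {c : K} (hf : ValAt v f c) (hc : c ≠ 0) : ValAt v f⁻¹ c⁻¹ := by
  have hf0 : f ≠ 0 := by
    rintro rfl
    rw [valAt_iff, zero_sub, ← map_neg] at hf
    exact algebraMap_not_mem_nonunits v (neg_ne_zero.mpr hc) hf
  -- `f⁻¹ ∈ O_v`: otherwise `f` would be in the maximal ideal, so its value would be `0`
  have hinv : f⁻¹ ∈ v.toValuationSubring := by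
    by_contra hn
    have h1 := inv_mem_nonunits_of_not_mem hn
    rw [inv_inv] at h1
    have h2 : ValAt v f 0 := (valAt_zero_iff v).mpr h1
    exact hc (valAt_unique v hf h2)
  rw [valAt_iff] at *
  have h1 := mul_mem_nonunits (v.toValuationSubring.mul_mem _ _ hinv (algebraMap_mem v c⁻¹))
    (neg_mem_nonunits hf)
  have hc' : algebraMap K F c ≠ 0 := fun h => hc ((map_eq_zero _).mp h)
  have e : f⁻¹ - algebraMap K F c⁻¹ = f⁻¹ * algebraMap K F c⁻¹ * -(f - algebraMap K F c) := by
    rw [map_inv₀]
    field_simp
    ring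
  rwa [e]

/-- The evaluation homomorphism of a place all of whose integral elements have values. -/
def evHom (hv : ∀ a ∈ v.toValuationSubring, ∃ c : K, ValAt v a c) :
    v.toValuationSubring →+* K where
  toFun a := (hv a a.2).choose
  map_one' := valAt_unique v (hv _ (1 : v.toValuationSubring).2).choose_spec (valAt_one v)
  map_zero' := valAt_unique v (hv _ (0 : v.toValuationSubring).2).choose_spec (valAt_zero v)
  map_mul' a b := valAt_unique v (hv _ (a * b).2).choose_spec
    (valAt_mul v (hv a a.2).choose_spec (hv b b.2).choose_spec)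
  map_add' a b := valAt_unique v (hv _ (a + b).2).choose_spec
    (valAt_add v (hv a a.2).choose_spec (hv b b.2).choose_spec)

theorem valAt_evHom (hv : ∀ a ∈ v.toValuationSubring, ∃ c : K, ValAt v a c)
    (a : v.toValuationSubring) : ValAt v (a : F) (evHom v hv a) :=
  (hv a a.2).choose_spec

theorem evHom_eq (hv : ∀ a ∈ v.toValuationSubring, ∃ c : K, ValAt v a c)
    {f : F} {c : K} (h : ValAt v f c) : evHom v hv ⟨f, valAt_mem v h⟩ = c :=
  valAt_unique v (valAt_evHom v hv ⟨f, valAt_mem v h⟩) h

theorem evHom_algebraMap (hv : ∀ a ∈ v.toValuationSubring, ∃ c : K, ValAt v a c) (c : K) :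
    evHom v hv ⟨algebraMap K F c, algebraMap_mem v c⟩ = c :=
  evHom_eq v hv (valAt_algebraMap v c)

/-- Integrality is transported by evaluation: if `x` is integral over a subring `S` of `O_v`
whose values lie in the subring `B` of `K`, then the value of `x` is integral over `B`. -/
theorem isIntegral_evHom (hv : ∀ a ∈ v.toValuationSubring, ∃ c : K, ValAt v a c)
    (S : Subring F) (hS : S ≤ v.toValuationSubring.toSubring) (B : Subring K)
    (hB : ∀ s : S, evHom v hv ⟨(s : F), hS s.2⟩ ∈ B)
    {x : F} (hx : IsIntegral S x) :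
    ∃ hxv : x ∈ v.toValuationSubring, IsIntegral B (evHom v hv ⟨x, hxv⟩) := by
  have hxv : x ∈ v.toValuationSubring := by
    have h1 : IsIntegral v.toValuationSubring.toSubring x := by
      obtain ⟨p, hp, hpx⟩ := hx
      refine ⟨p.map (Subring.inclusion hS), hp.map _, ?_⟩
      rw [Polynomial.eval₂_map]
      exact hpx
    have h2 : IsIntegral v.toValuationSubring x := h1
    obtain ⟨y, hy⟩ := (IsIntegrallyClosed.isIntegral_iff (R := v.toValuationSubring)).mp h2
    rw [← hy]
    exact y.2
  refine ⟨hxv, ?_⟩
  obtain ⟨p, hp, hpx⟩ := hx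
  let incl : S →+* v.toValuationSubring := Subring.inclusion hS
  let φ : S →+* B := ((evHom v hv).comp incl).codRestrict B hB
  refine ⟨p.map φ, hp.map _, ?_⟩
  rw [Polynomial.eval₂_map]
  have e1 : (algebraMap B K).comp φ = (evHom v hv).comp incl := by
    ext s
    rfl
  rw [e1, ← Polynomial.hom_eval₂]
  have e2 : Polynomial.eval₂ incl (⟨x, hxv⟩ : v.toValuationSubring) p = 0 := by
    apply Subtype.ext
    have e3 := Polynomial.hom_eval₂ p incl v.toValuationSubring.subtype ⟨x, hxv⟩
    exact e3.trans hpx
  rw [e2, map_zero]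

end Generic

section Modular

set_option synthInstance.maxHeartbeats 400000

variable (N : ℕ) [NeZero N] (A : ValuationSubring Qb)

/-- Over `ℚ̄`, every function regular at a place of `F̄` has a value there. -/
theorem exists_valAt (P : Place Qb (modularFunctionFieldBar N)) :
    ∀ a ∈ P.toValuationSubring, ∃ c : Qb, ValAt P a c :=
  Fermat.Agent.S37.NormVal.exists_value (Fermat.Agent.S37.HI.isFF1_modular N) P

/-- The evaluation homomorphism `O_P → ℚ̄` of a place of `F̄`. -/
def ev (P : Place Qb (modularFunctionFieldBar N)) : P.toValuationSubring →+* Qb :=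
  evHom P (exists_valAt N P)

theorem valAt_ev (P : Place Qb (modularFunctionFieldBar N)) (a : P.toValuationSubring) :
    ValAt P (a : modularFunctionFieldBar N) (ev N P a) :=
  valAt_evHom P (exists_valAt N P) a

theorem ev_eq (P : Place Qb (modularFunctionFieldBar N)) {f : modularFunctionFieldBar N} {c : Qb}
    (h : ValAt P f c) : ev N P ⟨f, valAt_mem P h⟩ = c :=
  evHom_eq P (exists_valAt N P) h

/-- An element of `ℚ̄` integral over `A` lies in `A`. -/
theorem mem_of_isIntegral {c : Qb} (hc : IsIntegral A.toSubring c) : c ∈ A := by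
  have h2 : IsIntegral A c := hc
  obtain ⟨y, hy⟩ := (IsIntegrallyClosed.isIntegral_iff (R := A)).mp h2
  rw [← hy]
  exact y.2

/-- If the coordinate `t` has a value in `A` at `P`, the subring `A[t]` consists of functions
regular at `P` with values in `A`. -/
theorem AT_le (P : Place Qb (modularFunctionFieldBar N)) (t : modularFunctionFieldBar N)
    (c₀ : A) (ht : ValAt P t (c₀ : Qb)) :
    ∀ s ∈ AT N A t, ∃ c : A, ValAt P s (c : Qb) := by
  intro s hs
  induction hs using Subring.closure_induction with
  | mem x hx =>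
    rcases hx with ⟨a, rfl⟩ | hx
    · exact ⟨a, valAt_algebraMap P (a : Qb)⟩
    · rw [Set.mem_singleton_iff] at hx
      rw [hx]
      exact ⟨c₀, ht⟩
  | zero => exact ⟨0, valAt_zero P⟩
  | one => exact ⟨1, valAt_one P⟩
  | add x y _ _ hx hy =>
    obtain ⟨c, hc⟩ := hx
    obtain ⟨d, hd⟩ := hy
    exact ⟨c + d, valAt_add P hc hd⟩
  | neg x _ hx =>
    obtain ⟨c, hc⟩ := hx
    exact ⟨-c, valAt_neg P hc⟩
  | mul x y _ _ hx hy =>
    obtain ⟨c, hc⟩ := hx
    obtain ⟨d, hd⟩ := hy
    exact ⟨c * d, valAt_mul P hc hd⟩

/-- **Values on a chart.**  If the coordinate `t` has a value in `A` at the place `P`, then every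
element of the chart ring `chartA N A t` (the integral closure of `A[t]` in `F̄`) is regular at
`P` and its value lies in `A`. -/
theorem exists_valAt_of_mem_chartA (P : Place Qb (modularFunctionFieldBar N))
    (t : modularFunctionFieldBar N) (c₀ : A) (ht : ValAt P t (c₀ : Qb)) :
    ∀ x ∈ chartA N A t, ∃ c : A, ValAt P x (c : Qb) := by
  intro x hx
  have hS : AT N A t ≤ P.toValuationSubring.toSubring := by
    intro s hs
    obtain ⟨c, hc⟩ := AT_le N A P t c₀ ht s hs
    exact valAt_mem P hc
  have hB : ∀ s : AT N A t,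
      evHom P (exists_valAt N P) ⟨(s : modularFunctionFieldBar N), hS s.2⟩ ∈ A.toSubring := by
    intro s
    obtain ⟨c, hc⟩ := AT_le N A P t c₀ ht s s.2
    rw [evHom_eq P (exists_valAt N P) hc]
    exact c.2
  have hx' : IsIntegral (AT N A t) x := hx
  obtain ⟨hxv, hint⟩ := isIntegral_evHom P (exists_valAt N P) (AT N A t) hS A.toSubring hB hx'
  exact ⟨⟨_, mem_of_isIntegral A hint⟩, valAt_evHom P (exists_valAt N P) ⟨x, hxv⟩⟩

/-- Elements of `RA0` are regular with values in `A` at the places of the chart `j ≠ ∞`. -/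
theorem exists_valAt_of_mem_RA0 (P : Place Qb (modularFunctionFieldBar N))
    (hP : InChart0 N A P) : ∀ x ∈ RA0 N A, ∃ c : A, ValAt P x (c : Qb) := by
  obtain ⟨c₀, h0⟩ := hP
  exact exists_valAt_of_mem_chartA N A P (jbar N) c₀ h0

/-- Elements of `RAinf` are regular with values in `A` at the places reducing to cusps. -/
theorem exists_valAt_of_mem_RAinf (P : Place Qb (modularFunctionFieldBar N))
    (hP : InCusp N A P) : ∀ x ∈ RAinf N A, ∃ c : A, ValAt P x (c : Qb) := by
  obtain ⟨c₀, -, h0⟩ := hP
  exact exists_valAt_of_mem_chartA N A P (jbar N)⁻¹ c₀ h0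

/-- **[PM] cover**: every place of `F̄` is in the chart `j ≠ ∞` (i.e. `j` is regular with value
in `A`) or reduces to a cusp (`j⁻¹` is regular with value in `𝔪_A`). -/
theorem cover (P : Place Qb (modularFunctionFieldBar N)) : InChart0 N A P ∨ InCusp N A P := by
  by_cases hj : jbar N ∈ P.toValuationSubring
  · obtain ⟨c, hc⟩ := exists_valAt N P (jbar N) hj
    by_cases hcA : c ∈ A
    · exact Or.inl ⟨⟨c, hcA⟩, hc⟩
    · right
      have hc0 : c ≠ 0 := fun h => hcA (h ▸ A.zero_mem)
      have hci : c⁻¹ ∈ A := (A.mem_or_inv_mem c).resolve_left hcA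
      refine ⟨⟨c⁻¹, hci⟩, ?_, valAt_inv P hc hc0⟩
      rw [IsLocalRing.mem_maximalIdeal, mem_nonunits_iff]
      intro hu
      apply hcA
      obtain ⟨u, hu'⟩ := hu
      have h1 : ((u⁻¹ : Aˣ) : A) * (⟨c⁻¹, hci⟩ : A) = 1 := by
        rw [← hu']
        exact u.inv_mul
      have h2 : (((u⁻¹ : Aˣ) : A) : Qb) * c⁻¹ = 1 := congrArg Subtype.val h1
      have h3 : (((u⁻¹ : Aˣ) : A) : Qb) = c := by
        field_simp at h2
        exact h2
      rw [← h3]
      exact ((u⁻¹ : Aˣ) : A).2
  · right
    refine ⟨0, Ideal.zero_mem _, ?_⟩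
    have h := inv_mem_nonunits_of_not_mem hj
    exact (valAt_zero_iff P).mpr h

end Modular

end Fermat.Agent.S37.PMCover
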