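/-
S37 leaf [Frob∃] (helper31): every valuation subring of the algebraic closure of `ℚ` lying over a
prime `ℓ` admits a Frobenius element.  The valuation subring is the localisation of the ring of
algebraic integers at the prime it cuts out, so the landed leaf `S41.FrobA` applies.
-/
import Mathlib
import Fermat.Prelude.Def_FLTPrelim_Ramification
import Fermat.Prelude.Def_EllipticCurve_FrobeniusTrace
import Fermat.Agent.S54.ValSub
import Fermat.Agent.S54.Frobenius
import Fermat.Agent.S41.FrobA

set_option autoImplicit false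

namespace Fermat.Agent.S37.FrobEx

open Fermat.Agent.S54

attribute [local instance] isAlgebraic_int_algebraicClosure_rat

/-- algebraic integers lie in every valuation subring. -/
theorem integral_mem (A : ValuationSubring (AlgebraicClosure ℚ)) (x : AlgebraicClosure ℚ)
    (hx : IsIntegral ℤ x) : x ∈ A := by
  have hxA : IsIntegral A x := hx.tower_top
  obtain ⟨y, hy⟩ := (IsIntegrallyClosed.isIntegral_iff (R := A) (K := AlgebraicClosure ℚ)).mp hxA
  rw [← hy]
  exact y.2

/-- the prime of the ring of algebraic integers cut out by a valuation subring. -/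
def primeOf (A : ValuationSubring (AlgebraicClosure ℚ)) :
    Ideal (integralClosure ℤ (AlgebraicClosure ℚ)) where
  carrier := {b | (b : AlgebraicClosure ℚ) ∈ A.nonunits}
  add_mem' := by
    intro a b ha hb
    have ha' : (a : AlgebraicClosure ℚ) ∈ A.nonunits := ha
    have hb' : (b : AlgebraicClosure ℚ) ∈ A.nonunits := hb
    show ((a + b : integralClosure ℤ (AlgebraicClosure ℚ)) : AlgebraicClosure ℚ) ∈ A.nonunits
    rw [ValuationSubring.mem_nonunits_iff_exists_mem_maximalIdeal] at ha' hb' ⊢
    obtain ⟨ha1, ha2⟩ := ha'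
    obtain ⟨hb1, hb2⟩ := hb'
    refine ⟨A.add_mem _ _ ha1 hb1, ?_⟩
    exact (IsLocalRing.maximalIdeal A).add_mem ha2 hb2
  zero_mem' := by
    show ((0 : integralClosure ℤ (AlgebraicClosure ℚ)) : AlgebraicClosure ℚ) ∈ A.nonunits
    rw [ValuationSubring.mem_nonunits_iff_exists_mem_maximalIdeal]
    exact ⟨A.zero_mem, (IsLocalRing.maximalIdeal A).zero_mem⟩
  smul_mem' := by
    intro c b hb
    have hb' : (b : AlgebraicClosure ℚ) ∈ A.nonunits := hb
    show ((c * b : integralClosure ℤ (AlgebraicClosure ℚ)) : AlgebraicClosure ℚ) ∈ A.nonunits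
    rw [ValuationSubring.mem_nonunits_iff_exists_mem_maximalIdeal] at hb' ⊢
    obtain ⟨hb1, hb2⟩ := hb'
    have hc : (c : AlgebraicClosure ℚ) ∈ A := integral_mem A c c.2
    refine ⟨A.mul_mem _ _ hc hb1, ?_⟩
    exact (IsLocalRing.maximalIdeal A).mul_mem_left ⟨(c : AlgebraicClosure ℚ), hc⟩ hb2

theorem mem_primeOf_iff (A : ValuationSubring (AlgebraicClosure ℚ))
    (b : integralClosure ℤ (AlgebraicClosure ℚ)) :
    b ∈ primeOf A ↔ (b : AlgebraicClosure ℚ) ∈ A.nonunits := Iff.rfl

/-- an element of `A` which is not a nonunit has its inverse in `A`. -/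
theorem inv_mem_of_not_mem_nonunits (A : ValuationSubring (AlgebraicClosure ℚ))
    (x : AlgebraicClosure ℚ) (hx : x ∈ A) (hx' : x ∉ A.nonunits) : x⁻¹ ∈ A := by
  by_contra hinv
  apply hx'
  rw [ValuationSubring.mem_nonunits_iff_exists_mem_maximalIdeal]
  refine ⟨hx, ?_⟩
  rw [IsLocalRing.mem_maximalIdeal, mem_nonunits_iff]
  intro hu
  obtain ⟨⟨y, hy⟩, hxy⟩ := isUnit_iff_exists_inv.mp hu
  have hxy' : x * y = 1 := congrArg Subtype.val hxy
  have : x⁻¹ = y := by
    have hx0 : x ≠ 0 := by
      rintro rfl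
      simp at hxy'
    field_simp
    exact hxy'.symm
  exact hinv (this ▸ hy)

instance primeOf_isPrime (A : ValuationSubring (AlgebraicClosure ℚ)) : (primeOf A).IsPrime := by
  constructor
  · rw [Ideal.ne_top_iff_one]
    intro h1
    have h1' : ((1 : integralClosure ℤ (AlgebraicClosure ℚ)) : AlgebraicClosure ℚ) ∈ A.nonunits :=
      h1
    rw [ValuationSubring.mem_nonunits_iff_exists_mem_maximalIdeal] at h1'
    obtain ⟨h, hm⟩ := h1'
    rw [IsLocalRing.mem_maximalIdeal, mem_nonunits_iff] at hm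
    apply hm
    have : (⟨((1 : integralClosure ℤ (AlgebraicClosure ℚ)) : AlgebraicClosure ℚ), h⟩ : A) = 1 := by
      apply Subtype.ext
      simp
    rw [this]
    exact isUnit_one
  · intro a b hab
    by_contra hcon
    push Not at hcon
    obtain ⟨ha, hb⟩ := hcon
    have ha' : (a : AlgebraicClosure ℚ)⁻¹ ∈ A :=
      inv_mem_of_not_mem_nonunits A a (integral_mem A a a.2) ha
    have hab' : ((a * b : integralClosure ℤ (AlgebraicClosure ℚ)) : AlgebraicClosure ℚ) ∈
        A.nonunits := hab
    rw [ValuationSubring.mem_nonunits_iff_exists_mem_maximalIdeal] at hab'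
    obtain ⟨h1, h2⟩ := hab'
    apply hb
    show (b : AlgebraicClosure ℚ) ∈ A.nonunits
    rw [ValuationSubring.mem_nonunits_iff_exists_mem_maximalIdeal]
    refine ⟨integral_mem A b b.2, ?_⟩
    have h3 := (IsLocalRing.maximalIdeal A).mul_mem_left ⟨(a : AlgebraicClosure ℚ)⁻¹, ha'⟩ h2
    have ha0 : (a : AlgebraicClosure ℚ) ≠ 0 := by
      intro h0
      apply ha
      show (a : AlgebraicClosure ℚ) ∈ A.nonunits
      rw [h0, ValuationSubring.mem_nonunits_iff_exists_mem_maximalIdeal]
      exact ⟨A.zero_mem, (IsLocalRing.maximalIdeal A).zero_mem⟩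
    have e : (⟨(a : AlgebraicClosure ℚ)⁻¹, ha'⟩ : A) *
        ⟨((a * b : integralClosure ℤ (AlgebraicClosure ℚ)) : AlgebraicClosure ℚ), h1⟩ =
        ⟨(b : AlgebraicClosure ℚ), integral_mem A b b.2⟩ := by
      apply Subtype.ext
      show (a : AlgebraicClosure ℚ)⁻¹ *
        ((a * b : integralClosure ℤ (AlgebraicClosure ℚ)) : AlgebraicClosure ℚ) = b
      push_cast
      field_simp
    rw [e] at h3
    exact h3

/-- a valuation subring of the algebraic closure of `ℚ` is the localisation of the ring of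
algebraic integers at the prime it cuts out. -/
theorem valSub_primeOf (A : ValuationSubring (AlgebraicClosure ℚ)) : valSub (primeOf A) = A := by
  ext x
  constructor
  · rintro ⟨a, s, hs, h⟩
    have hsinv : (s : AlgebraicClosure ℚ)⁻¹ ∈ A :=
      inv_mem_of_not_mem_nonunits A s (integral_mem A s s.2) hs
    have hs0 : (s : AlgebraicClosure ℚ) ≠ 0 := by
      intro h0
      apply hs
      show (s : AlgebraicClosure ℚ) ∈ A.nonunits
      rw [h0, ValuationSubring.mem_nonunits_iff_exists_mem_maximalIdeal]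
      exact ⟨A.zero_mem, (IsLocalRing.maximalIdeal A).zero_mem⟩
    have hx : x = (s : AlgebraicClosure ℚ)⁻¹ * a := by
      rw [← h]; field_simp
    rw [hx]
    exact A.mul_mem _ _ hsinv (integral_mem A a a.2)
  · intro hx
    by_contra hxv
    have hinv : x⁻¹ ∈ valSub (primeOf A) :=
      ((valSub (primeOf A)).mem_or_inv_mem x).resolve_left hxv
    obtain ⟨a, s, hs, h⟩ := hinv
    have hx0 : x ≠ 0 := by
      rintro rfl
      exact hxv (valSub (primeOf A)).zero_mem
    -- `s = a * x`
    have hsx : (s : AlgebraicClosure ℚ) = a * x := by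
      rw [← h]; field_simp
    by_cases ha : a ∈ primeOf A
    · -- then `s = a * x` is a nonunit of `A`
      apply hs
      show (s : AlgebraicClosure ℚ) ∈ A.nonunits
      have ha' : (a : AlgebraicClosure ℚ) ∈ A.nonunits := ha
      rw [ValuationSubring.mem_nonunits_iff_exists_mem_maximalIdeal] at ha' ⊢
      obtain ⟨ha1, ha2⟩ := ha'
      refine ⟨integral_mem A s s.2, ?_⟩
      have h3 := (IsLocalRing.maximalIdeal A).mul_mem_left ⟨x, hx⟩ ha2
      have e : (⟨x, hx⟩ : A) * ⟨(a : AlgebraicClosure ℚ), ha1⟩ =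
          ⟨(s : AlgebraicClosure ℚ), integral_mem A s s.2⟩ := by
        apply Subtype.ext
        show x * (a : AlgebraicClosure ℚ) = s
        rw [hsx, mul_comm]
      rw [e] at h3
      exact h3
    · -- then `x = s / a` lies in the localisation
      apply hxv
      refine ⟨s, a, ha, ?_⟩
      exact hsx.symm

/-- **[Frob∃]**: a Frobenius element exists at every valuation subring of the algebraic closure
of `ℚ` lying over a prime `ℓ`. -/
theorem exists_isFrobeniusAt_of_liesOver (ℓ : ℕ) (hℓ : ℓ.Prime)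
    (A : ValuationSubring (AlgebraicClosure ℚ)) (hA : A.LiesOverPrime ℓ) :
    ∃ φ : AlgebraicClosure ℚ ≃ₐ[ℚ] AlgebraicClosure ℚ, A.IsFrobeniusAt φ ℓ := by
  have hQ : (ℓ : integralClosure ℤ (AlgebraicClosure ℚ)) ∈ primeOf A := by
    show ((ℓ : integralClosure ℤ (AlgebraicClosure ℚ)) : AlgebraicClosure ℚ) ∈ A.nonunits
    have : ((ℓ : integralClosure ℤ (AlgebraicClosure ℚ)) : AlgebraicClosure ℚ) =
        (ℓ : AlgebraicClosure ℚ) := by simp
    rw [this]
    exact hA
  obtain ⟨σ, hσ⟩ := Fermat.Agent.S41.FrobA.exists_isFrobeniusAt_valSub ℓ hℓ (primeOf A) hQ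
  rw [valSub_primeOf A] at hσ
  exact ⟨σ, hσ⟩

end Fermat.Agent.S37.FrobEx
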