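/-
S37 — Core2.lean (captain: helper33).  Variant of `Core.lean` for ROUTE P: `SpecCore` from a
place map `r` with the frozen `IsPlaceReductionModL` / `PrincipalGeneratedByIntegral` properties
(i.e. from `ReductionInputsModL A N`) plus the two congruences ON DEGREE-ZERO DIVISORS ONLY:
  * `r_* (g • D) = Fr_g • r_* D`                     (`g` in the decomposition group of `A`),
  * `r_* (T_ℓ D) = Fr • r_* D + ℓ • Fr⁻¹ • r_* D`    (`Fr` the Frobenius at `A`).
Everything here is formal.
-/
import Fermat.Agent.S37.Core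

set_option autoImplicit false

open ModularCurve AlgebraicCurve HahnSeries

namespace Fermat.Agent.S37Core2

open Fermat.Agent.S37Core

noncomputable section

section Main

set_option synthInstance.maxHeartbeats 400000

variable {A : ValuationSubring Qb} {N : ℕ} [NeZero N]
variable {r : Place Qb (modularFunctionFieldBar N) →
  Place (IsLocalRing.ResidueField A) (modularFunctionFieldFullC (IsLocalRing.ResidueField A) N)}

omit [NeZero N] in
set_option maxHeartbeats 1600000 in
/-- `Pic⁰`-level equivariance from equivariance on degree-zero divisors. -/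
theorem reductionPic0Along_smul_of_div0 (hr : IsPlaceReductionModL A N r)
    (hgen : PrincipalGeneratedByIntegral A (IsLocalRing.residue A) N)
    (S : SemilinearAut Qb (modularFunctionFieldBar N))
    (T : SemilinearAut (IsLocalRing.ResidueField A)
      (modularFunctionFieldFullC (IsLocalRing.ResidueField A) N))
    (h : ∀ D : Divisor Qb (modularFunctionFieldBar N), Divisor.degree D = 0 →
      Finsupp.mapDomain r (S • D) = T • Finsupp.mapDomain r D) (x : JZero N) :
    reductionPic0Along r hr hgen (S • x) = T • reductionPic0Along r hr hgen x := by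
  obtain ⟨D, rfl⟩ := Pic0.mk_surjective x
  rw [SemilinearAut.pic0_smul_mk, reductionPic0Along_mk, reductionPic0Along_mk,
    SemilinearAut.pic0_smul_mk]
  refine congrArg Pic0.mk (Subtype.ext ?_)
  rw [coe_reductionDegZeroAlong, SemilinearAut.coe_degZeroSMulHom, SemilinearAut.coe_degZeroSMulHom,
    coe_reductionDegZeroAlong]
  exact h _ (Divisor.mem_degZero.mp D.2)

set_option maxHeartbeats 3200000 in
/-- The frozen Hecke operator `T_ℓ` after reduction, from the congruence on degree-zero
divisors. -/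
theorem reductionPic0Along_heckeOperatorBar_of_div0 {ℓ : ℕ} (hℓ : ℓ.Prime)
    (hr : IsPlaceReductionModL A N r)
    (hgen : PrincipalGeneratedByIntegral A (IsLocalRing.residue A) N)
    (Fr : SemilinearAut (IsLocalRing.ResidueField A)
      (modularFunctionFieldFullC (IsLocalRing.ResidueField A) N))
    (hH : haveI : NeZero ℓ := ⟨hℓ.ne_zero⟩; HeckeInputsAlong Qb N ℓ)
    (hes : haveI : NeZero ℓ := ⟨hℓ.ne_zero⟩;
      ∀ (hα : HeckeAlphaBarIntegral Qb N ℓ) (hβ : HeckeBetaBarIntegral Qb N ℓ)
      [HasPrincipalDivisors Qb (laurentBaseChange Qb (modularFunctionFieldFull (N * ℓ)))]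
      (D : Divisor Qb (modularFunctionFieldBar N)), Divisor.degree D = 0 →
      Finsupp.mapDomain r (heckeDivBar hα hβ D) =
        Fr • Finsupp.mapDomain r D + (ℓ : ℤ) • (Fr⁻¹ • Finsupp.mapDomain r D))
    (y : JZero N) :
    reductionPic0Along r hr hgen (heckeOperatorBar N (⟨ℓ, hℓ⟩ : Nat.Primes) y) =
      Fr • reductionPic0Along r hr hgen y + (ℓ : ℤ) • (Fr⁻¹ • reductionPic0Along r hr hgen y) := by
  have : NeZero ℓ := ⟨hℓ.ne_zero⟩
  obtain ⟨hα, hβ, hP, hfin, hFI, hN⟩ := hH
  have e1 : heckeOperatorBar N (⟨ℓ, hℓ⟩ : Nat.Primes) y = heckePic0Bar hα hβ hFI hfin hN y :=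
    (heckeOperatorBar_apply N (⟨ℓ, hℓ⟩ : Nat.Primes) y).trans
      (DFunLike.congr_fun (heckeOperatorAlong_eq hα hβ hFI hfin hN) y)
  rw [e1]
  obtain ⟨D, rfl⟩ := Pic0.mk_surjective y
  have e2 : heckePic0Bar hα hβ hFI hfin hN (Pic0.mk D)
      = Pic0.mk (Pic0.degZeroCorrespondence (heckeBetaBar Qb N ℓ) (heckeAlphaBar Qb N ℓ) hβ hα hFI D) :=
    rfl
  rw [e2, reductionPic0Along_mk, reductionPic0Along_mk, SemilinearAut.pic0_smul_mk,
    SemilinearAut.pic0_smul_mk, pic0_mk_zsmul, ← Pic0.mk_add]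
  refine congrArg Pic0.mk (Subtype.ext ?_)
  show Finsupp.mapDomain r (heckeDivBar hα hβ (D : Divisor Qb (modularFunctionFieldBar N))) =
      Fr • Finsupp.mapDomain r (D : Divisor Qb (modularFunctionFieldBar N)) +
        (ℓ : ℤ) • (Fr⁻¹ • Finsupp.mapDomain r (D : Divisor Qb (modularFunctionFieldBar N)))
  exact hes hα hβ _ (Divisor.mem_degZero.mp D.2)

end Main

section Final

set_option synthInstance.maxHeartbeats 400000

set_option maxHeartbeats 3200000 in
/-- **The formal core of S37, Route P.**  `SpecCore` at `(ℓ, A)` from the frozen S18 statement,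
the Hecke inputs at `ℓ`, a Frobenius element at `A`, and a place map `r` with the frozen
reduction properties satisfying the two congruences on degree-zero divisors. -/
theorem specCore_of_div0 (N p : ℕ) [NeZero N] (ℓ : ℕ) (hℓ : ℓ.Prime) (hℓNp : ¬ ℓ ∣ N * p)
    (A : ValuationSubring Qb) (hA : A.LiesOverPrime ℓ)
    (hS18 : S18Statement N)
    (hH : haveI : NeZero ℓ := ⟨hℓ.ne_zero⟩; HeckeInputsAlong Qb N ℓ)
    (hF : ∃ φ : GQ, A.IsFrobeniusAt φ ℓ)
    (r : Place Qb (modularFunctionFieldBar N) →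
      Place (IsLocalRing.ResidueField A) (modularFunctionFieldFullC (IsLocalRing.ResidueField A) N))
    (hr : IsPlaceReductionModL A N r)
    (hgen : PrincipalGeneratedByIntegral A (IsLocalRing.residue A) N)
    (hequiv : ∀ (g : A.decompositionSubgroup ℚ) (D : Divisor Qb (modularFunctionFieldBar N)),
      Divisor.degree D = 0 →
      Finsupp.mapDomain r (arithmeticGalois (modularFunctionFieldFull N) (g : GQ) • D) =
        decompSL A N g • Finsupp.mapDomain r D)
    (hes : haveI : NeZero ℓ := ⟨hℓ.ne_zero⟩;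
      ∀ (φ : GQ) (hφ : A.IsFrobeniusAt φ ℓ) (hα : HeckeAlphaBarIntegral Qb N ℓ)
        (hβ : HeckeBetaBarIntegral Qb N ℓ)
        [HasPrincipalDivisors Qb (laurentBaseChange Qb (modularFunctionFieldFull (N * ℓ)))]
        (D : Divisor Qb (modularFunctionFieldBar N)), Divisor.degree D = 0 →
        Finsupp.mapDomain r (heckeDivBar hα hβ D) =
          decompSL A N ⟨φ, hφ.mem_decompositionSubgroup⟩ • Finsupp.mapDomain r D +
            (ℓ : ℤ) • ((decompSL A N ⟨φ, hφ.mem_decompositionSubgroup⟩)⁻¹ •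
              Finsupp.mapDomain r D)) :
    Fermat.Agent.S37Top.SpecCore N p ℓ hℓ A := by
  have hne : NeZero ℓ := ⟨hℓ.ne_zero⟩
  have hfact : Fact ℓ.Prime := ⟨hℓ⟩
  obtain ⟨φ, hφ⟩ := hF
  have hℓN : ¬ ℓ ∣ N := fun h => hℓNp (Dvd.dvd.mul_right h p)
  have hℓp : ¬ ℓ ∣ p := fun h => hℓNp (Dvd.dvd.mul_left h N)
  refine ⟨JZeroC (IsLocalRing.ResidueField A) N, inferInstance, reductionPic0Along r hr hgen,
    ?_, ⟨φ, hφ, ?_⟩, ?_⟩
  · -- inertia invariance
    intro σ hσ x
    unfold ValuationSubring.inertiaSubgroupIn at hσ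
    rw [Subgroup.mem_map] at hσ
    obtain ⟨g, hg, rfl⟩ := hσ
    have h1 := reductionPic0Along_smul_of_div0 hr hgen _ (decompSL A N g) (hequiv g) x
    rw [decompSL_eq_one_of_mem_inertia A N hg, one_smul] at h1
    exact h1
  · -- Eichler–Shimura
    intro x
    have hφx : ∀ y : JZero N, reductionPic0Along r hr hgen (φ • y)
        = decompSL A N ⟨φ, hφ.mem_decompositionSubgroup⟩ • reductionPic0Along r hr hgen y := by
      intro y
      rw [galois_smul_pic0_def]
      exact reductionPic0Along_smul_of_div0 hr hgen _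
        (decompSL A N ⟨φ, hφ.mem_decompositionSubgroup⟩)
        (hequiv ⟨φ, hφ.mem_decompositionSubgroup⟩) y
    have hT := reductionPic0Along_heckeOperatorBar_of_div0 hℓ hr hgen
      (decompSL A N ⟨φ, hφ.mem_decompositionSubgroup⟩) hH
      (fun hα hβ _ D hD => hes φ hφ hα hβ D hD) (φ • x)
    rw [map_add, map_sub, hT, hφx, hφx, inv_smul_smul, map_nsmul, ← natCast_zsmul]
    abel
  · -- injectivity on `p`-power torsion
    rintro x ⟨n, hn⟩ hx
    have hℓpn : ¬ ℓ ∣ p ^ n := fun h => hℓp (hℓ.dvd_of_dvd_pow h)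
    have hm : p ^ n ≠ 0 := fun h0 => hℓpn (h0 ▸ dvd_zero ℓ)
    have hx' : reductionModL A N x = 0 := by
      rw [← reductionPic0Along_eq_reductionModL_of_nsmul_eq_zero hr hgen hm x hn]
      exact hx
    exact hS18 hℓN A hA ⟨r, hr, hgen⟩ (p ^ n) hℓpn x hn hx'

end Final

end

end Fermat.Agent.S37Core2
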