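/-
S37 — PGI.lean (helper10): block [PM], field `gen` of `PM.PlaceMapAPI`.

`principalGeneratedByIntegral`: the principal divisors of `F̄ = ℚ̄(j(q^d) : d ∣ N)` are generated
by the divisors of `A`-integral functions whose reduction is a nonzero element of `F_k`
(frozen `PrincipalGeneratedByIntegral`).

Route.  `f ∈ F̄^×` lies in `F_K` for a suitable `K` with `BaseFacts` ([Desc] + [Base]); by the
refined `qfrac` (`FK_le_fracOF`) `f = â / b̂` with `a, b ∈ O((q))`, `O = A ∩ K`, and `â, b̂ ∈ F_K`;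
primitive parts (`GRelNFB.exists_primitive`) give `â = π^α · P̂`, `b̂ = π^β · Q̂` with
`P, Q ∈ A((q))` of nonzero reduction and `P̂, Q̂ ∈ F_K ⊆ F̄`; the reductions lie in `F_k` by the
`q`-expansion principle ([QExp]); finally `div f = div P̂ - div Q̂` since constants have order `0`.
-/
import Fermat.Agent.S18.QExp
import Fermat.Agent.S18.ModelBasic
import Fermat.Agent.S18.GRelNF
import Fermat.Agent.S18.GRelNFB
import Fermat.Agent.S18.DescCoeff
import Fermat.Agent.S18.Base
import Fermat.Agent.S18.RedDiv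
import Fermat.Agent.S24.PlaceBasic

set_option autoImplicit false

noncomputable section

namespace Fermat.Agent.S37.PGI

open ModularCurve ModularCurve.IgusaScheme AlgebraicCurve HahnSeries
open Fermat.Agent.S18 Fermat.Agent.S18.Arith Fermat.Agent.S18.ModelPlan

section Frac

variable (N : ℕ) (A : ValuationSubring Qb) (K : IntermediateField ℚ Qb)

/-- The subfield of `ℚ̄((q))` of quotients `â / b̂` with `a, b ∈ O((q))` and `â, b̂ ∈ F_K`. -/
def fracOF : Subfield (LaurentSeries Qb) where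
  carrier := {x | ∃ a b : LaurentSeries (OK A K), b ≠ 0 ∧
    coeffMap (incO A K) a ∈ FK N K ∧ coeffMap (incO A K) b ∈ FK N K ∧
    x * coeffMap (incO A K) b = coeffMap (incO A K) a}
  mul_mem' := by
    rintro x x' ⟨a, b, hb, haF, hbF, h⟩ ⟨a', b', hb', haF', hbF', h'⟩
    refine ⟨a * a', b * b', mul_ne_zero hb hb', ?_, ?_, ?_⟩
    · rw [map_mul]; exact mul_mem haF haF'
    · rw [map_mul]; exact mul_mem hbF hbF'
    · rw [map_mul, map_mul, ← h, ← h']
      ring
  one_mem' := ⟨1, 1, one_ne_zero, by rw [map_one]; exact one_mem _,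
    by rw [map_one]; exact one_mem _, by rw [map_one, mul_one]⟩
  add_mem' := by
    rintro x x' ⟨a, b, hb, haF, hbF, h⟩ ⟨a', b', hb', haF', hbF', h'⟩
    refine ⟨a * b' + a' * b, b * b', mul_ne_zero hb hb', ?_, ?_, ?_⟩
    · rw [map_add, map_mul, map_mul]
      exact add_mem (mul_mem haF hbF') (mul_mem haF' hbF)
    · rw [map_mul]; exact mul_mem hbF hbF'
    · rw [map_add, map_mul, map_mul, map_mul, ← h, ← h']
      ring
  zero_mem' := ⟨0, 1, one_ne_zero, by rw [map_zero]; exact zero_mem _,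
    by rw [map_one]; exact one_mem _, by rw [map_zero, zero_mul]⟩
  neg_mem' := by
    rintro x ⟨a, b, hb, haF, hbF, h⟩
    exact ⟨-a, b, hb, by rw [map_neg]; exact neg_mem haF, hbF, by rw [map_neg, ← h, neg_mul]⟩
  inv_mem' := by
    rintro x ⟨a, b, hb, haF, hbF, h⟩
    by_cases hx : x = 0
    · exact ⟨0, 1, one_ne_zero, by rw [map_zero]; exact zero_mem _,
        by rw [map_one]; exact one_mem _, by rw [hx, inv_zero, map_zero, zero_mul]⟩
    · have ha : a ≠ 0 := by
        rintro rfl
        rw [map_zero] at h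
        rcases mul_eq_zero.mp h with h0 | h0
        · exact hx h0
        · exact hb (ModelQFrac.coeffMap_incO_injective A K (h0.trans (map_zero _).symm))
      exact ⟨b, a, ha, hbF, haF, by rw [← h, ← mul_assoc, inv_mul_cancel₀ hx, one_mul]⟩

theorem mem_fracOF_iff {x : LaurentSeries Qb} :
    x ∈ fracOF N A K ↔ ∃ a b : LaurentSeries (OK A K), b ≠ 0 ∧
      coeffMap (incO A K) a ∈ FK N K ∧ coeffMap (incO A K) b ∈ FK N K ∧
      x * coeffMap (incO A K) b = coeffMap (incO A K) a := Iff.rfl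

/-- Series with coefficients in `O` lying in `F_K` belong to `fracOF`. -/
theorem coeffMap_mem_fracOF (X : LaurentSeries (OK A K))
    (hX : coeffMap (incO A K) X ∈ FK N K) : coeffMap (incO A K) X ∈ fracOF N A K :=
  ⟨X, 1, one_ne_zero, hX, by rw [map_one]; exact one_mem _, by rw [map_one, mul_one]⟩

/-- Constants of `K` lie in `F_K`. -/
theorem C_mem_FK (c : K) : (HahnSeries.C (c : Qb) : LaurentSeries Qb) ∈ FK N K :=
  Subfield.subset_closure (Or.inl ⟨c, rfl⟩)

/-- Constants of `K` lie in `fracOF`. -/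
theorem C_mem_fracOF (c : K) : (HahnSeries.C (c : Qb) : LaurentSeries Qb) ∈ fracOF N A K := by
  rcases (OK A K).mem_or_inv_mem c with h | h
  · have h1 : coeffMap (incO A K) (HahnSeries.C (⟨c, h⟩ : OK A K))
        = (HahnSeries.C (c : Qb) : LaurentSeries Qb) := by
      rw [HahnSeries.C_apply, coeffMap_single]
      rfl
    rw [← h1]
    exact coeffMap_mem_fracOF N A K _ (by rw [h1]; exact C_mem_FK N K c)
  · have h1 : coeffMap (incO A K) (HahnSeries.C (⟨c⁻¹, h⟩ : OK A K))
        = (HahnSeries.C (c : Qb) : LaurentSeries Qb)⁻¹ := by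
      rw [HahnSeries.C_apply, coeffMap_single, ← map_inv₀]
      rfl
    have h2 := (fracOF N A K).inv_mem (coeffMap_mem_fracOF N A K
      (HahnSeries.C (⟨c⁻¹, h⟩ : OK A K)) (by rw [h1]; exact inv_mem (C_mem_FK N K c)))
    rwa [h1, inv_inv] at h2

/-- `q`-expansions of elements of `F_ℚ(N)` lie in `fracOF`. -/
theorem coeffEmb_mem_fracOF {x : LaurentSeries ℚ} (hx : x ∈ modularFunctionFieldFull N) :
    coeffEmb Qb x ∈ fracOF N A K := by
  have h1 : x ∈ Subfield.closure
      (Set.range (algebraMap ℚ (LaurentSeries ℚ)) ∪ divisorExpansions N) := hx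
  have h2 : Subfield.closure (Set.range (algebraMap ℚ (LaurentSeries ℚ)) ∪ divisorExpansions N)
      ≤ (fracOF N A K).comap (coeffEmb Qb) := by
    rw [Subfield.closure_le]
    rintro y (⟨c, rfl⟩ | ⟨d, hd, hdN, rfl⟩)
    · change coeffEmb Qb (algebraMap ℚ (LaurentSeries ℚ) c) ∈ fracOF N A K
      have h3 : coeffEmb Qb (algebraMap ℚ (LaurentSeries ℚ) c)
          = (HahnSeries.C (((algebraMap ℚ K c : K)) : Qb) : LaurentSeries Qb) := by
        rw [algebraMap_apply_eq_single, coeffEmb, coeffMap_single, HahnSeries.C_apply]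
        rfl
      rw [h3]
      exact C_mem_fracOF N A K _
    · change coeffEmb Qb (qExpand ℚ d jq) ∈ fracOF N A K
      have h3 : coeffEmb Qb (qExpand ℚ d jq)
          = coeffMap (incO A K) (Fermat.Agent.S28.jd (OK A K) d) := by
        rw [Fermat.Agent.S28.coeffMap_jd, ← Fermat.Agent.S28.jd_rat, coeffEmb,
          Fermat.Agent.S28.coeffMap_jd]
      have h4 : coeffEmb Qb (qExpand ℚ d jq) ∈ FK N K :=
        Subfield.subset_closure (Or.inr ⟨⟨qExpand ℚ d jq,
          Subfield.subset_closure (Or.inr ⟨d, hd, hdN, rfl⟩)⟩, rfl⟩)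
      rw [h3] at h4 ⊢
      exact coeffMap_mem_fracOF N A K _ h4
  exact h2 h1

/-- **Refined `qfrac`**: every element of `F_K` is a quotient `â / b̂` of two Laurent series with
coefficients in `O` which both lie in `F_K`. -/
theorem FK_le_fracOF : FK N K ≤ fracOF N A K := by
  rw [FK, Subfield.closure_le]
  rintro y (⟨c, rfl⟩ | ⟨x, rfl⟩)
  · exact C_mem_fracOF N A K c
  · exact coeffEmb_mem_fracOF N A K x.2

/-- The constant series of a uniformizer, as an element of `F_K`. -/
theorem C_incO_mem_FK (π : OK A K) :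
    (HahnSeries.C (incO A K π) : LaurentSeries Qb) ∈ FK N K :=
  C_mem_FK N K (π : K)

theorem C_incO_ne_zero {π : OK A K} (hπ : π ≠ 0) :
    (HahnSeries.C (incO A K π) : LaurentSeries Qb) ≠ 0 := by
  intro h
  apply hπ
  apply ModelQFrac.incO_injective A K
  rw [map_zero]
  exact HahnSeries.C_injective (by rw [h, map_zero])

/-- Primitive part inside `F_K`: a nonzero series `a ∈ O((q))` with `â ∈ F_K` is `π ^ α` times
a series `P ∈ A((q))` with nonzero reduction and `P̂ ∈ F_K`. -/
theorem exists_primitive_mem [IsDiscreteValuationRing (OK A K)] (π : OK A K)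
    (hπ : Irreducible π) (a : LaurentSeries (OK A K)) (ha : a ≠ 0)
    (haF : coeffMap (incO A K) a ∈ FK N K) :
    ∃ (α : ℕ) (P : LaurentSeries A), coeffMap (IsLocalRing.residue A) P ≠ 0 ∧
      coeffMap A.subtype P ∈ FK N K ∧
      coeffMap (incO A K) a
        = (HahnSeries.C (incO A K π) : LaurentSeries Qb) ^ α * coeffMap A.subtype P := by
  obtain ⟨α, P, hP, h⟩ := GRelNFB.exists_primitive A K π hπ a ha
  refine ⟨α, P, hP, ?_, h⟩
  have hc : (HahnSeries.C (incO A K π) : LaurentSeries Qb) ^ α ≠ 0 :=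
    pow_ne_zero α (C_incO_ne_zero A K hπ.ne_zero)
  have h2 : coeffMap A.subtype P
      = ((HahnSeries.C (incO A K π) : LaurentSeries Qb) ^ α)⁻¹ * coeffMap (incO A K) a := by
    rw [h, ← mul_assoc, inv_mul_cancel₀ hc, one_mul]
  rw [h2]
  exact mul_mem (inv_mem (pow_mem (C_incO_mem_FK N A K π) α)) haF

end Frac

section Main

set_option synthInstance.maxHeartbeats 400000

variable (N : ℕ) [NeZero N] (ℓ : ℕ) [Fact ℓ.Prime]

/-- The `q`-expansion principle over `O`, with all its inputs discharged. -/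
theorem qExp : QExpStatement N ℓ :=
  QExp.qExpStatement N ℓ GRel.gRelStatement GRelNF.gRelNFStatement (ModelBasic.basicStatement N ℓ)

/-- An `A`-integral series lying in `F_K` has its reduction in `F_k`. -/
theorem residue_mem_fullC (hℓN : ¬ ℓ ∣ N) (A : ValuationSubring Qb) (hA : A.LiesOverPrime ℓ)
    (K : IntermediateField ℚ Qb) (hB : BaseFacts ℓ A K) (P : LaurentSeries A)
    (hP : coeffMap A.subtype P ∈ FK N K) :
    coeffMap (IsLocalRing.residue A) P ∈
      modularFunctionFieldFullC (IsLocalRing.ResidueField A) N :=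
  (qExp N ℓ hℓN A hA K hB ⟨coeffMap A.subtype P, hP⟩ _ ((GRel.gRelStatement A).of_int P)).2

/-- **Integral quotient form**: every nonzero `f ∈ F̄` satisfies `f · c^β · Q̂ = c^α · P̂` with
`c ∈ ℚ̄` a nonzero constant, `P, Q ∈ A((q))`, `P̂, Q̂ ∈ F̄`, and the reductions of `P`, `Q`
nonzero elements of `F_k`. -/
theorem exists_integral_quot (hℓN : ¬ ℓ ∣ N) (A : ValuationSubring Qb) (hA : A.LiesOverPrime ℓ)
    (f : LaurentSeries Qb) (hf : f ∈ modularFunctionFieldBar N) (hf0 : f ≠ 0) :
    ∃ (c : Qb) (α β : ℕ) (P Q : LaurentSeries A), c ≠ 0 ∧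
      coeffMap A.subtype P ∈ modularFunctionFieldBar N ∧
      coeffMap A.subtype Q ∈ modularFunctionFieldBar N ∧
      coeffMap (IsLocalRing.residue A) P ∈
        modularFunctionFieldFullC (IsLocalRing.ResidueField A) N ∧
      coeffMap (IsLocalRing.residue A) Q ∈
        modularFunctionFieldFullC (IsLocalRing.ResidueField A) N ∧
      coeffMap (IsLocalRing.residue A) P ≠ 0 ∧ coeffMap (IsLocalRing.residue A) Q ≠ 0 ∧
      f * ((HahnSeries.C c : LaurentSeries Qb) ^ β * coeffMap A.subtype Q)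
        = (HahnSeries.C c : LaurentSeries Qb) ^ α * coeffMap A.subtype P := by
  obtain ⟨S, hS⟩ := (DescCoeff.descStatement N).1 f hf
  obtain ⟨K, hSK, hB⟩ := Base.baseStatement ℓ A hA S
  have hfK : f ∈ FK N K := hS K hSK
  have hdvr : IsDiscreteValuationRing (OK A K) := hB.dvr
  obtain ⟨π, hπ⟩ := IsDiscreteValuationRing.exists_irreducible (OK A K)
  obtain ⟨a, b, hb, haF, hbF, hab⟩ := FK_le_fracOF N A K hfK
  have hb' : coeffMap (incO A K) b ≠ 0 := fun h0 =>
    hb (ModelQFrac.coeffMap_incO_injective A K (h0.trans (map_zero _).symm))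
  have ha : a ≠ 0 := by
    rintro rfl
    rw [map_zero] at hab
    exact (mul_ne_zero hf0 hb') hab
  obtain ⟨α, P, hP, hPF, hPa⟩ := exists_primitive_mem N A K π hπ a ha haF
  obtain ⟨β, Q, hQ, hQF, hQb⟩ := exists_primitive_mem N A K π hπ b hb hbF
  refine ⟨incO A K π, α, β, P, Q, ?_, (DescCoeff.descStatement N).2 K _ hPF,
    (DescCoeff.descStatement N).2 K _ hQF, residue_mem_fullC N ℓ hℓN A hA K hB P hPF,
    residue_mem_fullC N ℓ hℓN A hA K hB Q hQF, hP, hQ, ?_⟩
  · intro h0
    exact hπ.ne_zero (ModelQFrac.incO_injective A K (h0.trans (map_zero _).symm))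
  · rw [← hQb, ← hPa, hab]

/-- **[PM].gen** — principal divisors of `F̄` are generated by the divisors of `A`-integral
functions with nonzero reduction in `F_k` (frozen `PrincipalGeneratedByIntegral`). -/
theorem principalGeneratedByIntegral (hℓN : ¬ ℓ ∣ N) (A : ValuationSubring (AlgebraicClosure ℚ))
    (hA : A.LiesOverPrime ℓ) : PrincipalGeneratedByIntegral A (IsLocalRing.residue A) N := by
  intro D hD
  obtain ⟨f, hf0, hfD⟩ := hD
  have hf0' : (f : LaurentSeries Qb) ≠ 0 := fun h => hf0 (Subtype.ext h)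
  obtain ⟨c, α, β, P, Q, hc, hPbar, hQbar, hPk, hQk, hP, hQ, hrel⟩ :=
    exists_integral_quot N ℓ hℓN A hA (f : LaurentSeries Qb) f.2 hf0'
  -- the elements of `F̄`
  set P' : modularFunctionFieldBar N := ⟨coeffMap A.subtype P, hPbar⟩ with hP'
  set Q' : modularFunctionFieldBar N := ⟨coeffMap A.subtype Q, hQbar⟩ with hQ'
  have hP0 : P' ≠ 0 := Red.ne_zero_of_residue_ne_zero hPbar hP
  have hQ0 : Q' ≠ 0 := Red.ne_zero_of_residue_ne_zero hQbar hQ
  set c' : modularFunctionFieldBar N := algebraMap Qb (modularFunctionFieldBar N) c with hc'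
  have hc0 : c' ≠ 0 := by
    rw [hc']
    exact (map_ne_zero _).mpr hc
  have hcoe : ((c' : modularFunctionFieldBar N) : LaurentSeries Qb)
      = (HahnSeries.C c : LaurentSeries Qb) := by
    change algebraMap Qb (LaurentSeries Qb) c = _
    rw [algebraMap_laurentSeries_eq_single]
    rfl
  have hrel' : f * (c' ^ β * Q') = c' ^ α * P' := by
    apply Subtype.ext
    change (f : LaurentSeries Qb) * ((c' : LaurentSeries Qb) ^ β * coeffMap A.subtype Q)
      = (c' : LaurentSeries Qb) ^ α * coeffMap A.subtype P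
    rw [hcoe]
    exact hrel
  have hordc : ∀ (v : Place Qb (modularFunctionFieldBar N)) (n : ℕ), v.ord (c' ^ n) = 0 := by
    intro v n
    rw [hc', ← map_pow]
    exact Fermat.Agent.S24.ord_algebraMap v _
  obtain ⟨DP, hDP⟩ := Red.divExists N P' hP0
  obtain ⟨DQ, hDQ⟩ := Red.divExists N Q' hQ0
  have hD : D = DP - DQ := by
    refine Finsupp.ext fun v => ?_
    rw [Finsupp.sub_apply, hfD v, hDP v, hDQ v]
    have h1 := congrArg v.ord hrel'
    rw [v.ord_mul hf0 (mul_ne_zero (pow_ne_zero β hc0) hQ0),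
      v.ord_mul (pow_ne_zero β hc0) hQ0, v.ord_mul (pow_ne_zero α hc0) hP0,
      hordc v β, hordc v α, zero_add, zero_add] at h1
    omega
  rw [hD]
  exact sub_mem (AddSubgroup.subset_closure ⟨P, hPbar, hPk, hP, hDP⟩)
    (AddSubgroup.subset_closure ⟨Q, hQbar, hQk, hQ, hDQ⟩)

end Main

end Fermat.Agent.S37.PGI
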