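/-
S37 block [PM], conservation of number — ConsGlue.lean (helper21).

The model-independent GLUE between a local "conservation of number" statement at every place `Q`
of the special fibre and the FROZEN clause `IsPlaceReductionAlong` (`PlaceMapAPI.isRed`):

* `mapDomain_apply_eq_finsum` : `(Finsupp.mapDomain r D) Q = ∑ᶠ P with r P = Q, D P`;
* `fibSum r Q f = ∑ᶠ P with r P = Q, ord_P f`, additive on nonzero functions
  (finite supports);
* `mapDomain_eq_of_local` : if `y * b = a` with `a, b` in a subring `S` on which the fibre sums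
  are computed by a ring hom `ρ : S → F'` (`fibSum a = ord_Q (ρ a)` whenever `ρ a ≠ 0`), then
  `(mapDomain r (div y)) Q = ord_Q (ρ a) - ord_Q (ρ b)`;
* `isPlaceReductionAlong_of_local` : the frozen statement from the local data.

Mathlib + Prelude only.
-/
import Mathlib
import Fermat.Prelude.Def_ModularCurve_ReductionModL

set_option autoImplicit false

noncomputable section

namespace Fermat.Agent.S37.ConsGlue

open AlgebraicCurve HahnSeries ModularCurve

section Abstract

variable {K F k F' : Type*} [Field K] [Field F] [Algebra K F] [Field k] [Field F'] [Algebra k F']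

/-- The sum of the orders of `f` over the fibre of `r` above `Q`. -/
def fibSum (r : Place K F → Place k F') (Q : Place k F') (f : F) : ℤ :=
  ∑ᶠ (P : Place K F) (_ : r P = Q), P.ord f

/-- `Finsupp.mapDomain` evaluated at a point is the sum over the fibre. -/
theorem mapDomain_apply_eq_finsum (r : Place K F → Place k F') (D : Divisor K F)
    (Q : Place k F') :
    Finsupp.mapDomain r D Q = ∑ᶠ (P : Place K F) (_ : r P = Q), D P := by
  classical
  rw [Finsupp.mapDomain, Finsupp.sum_apply, Finsupp.sum]
  simp_rw [Finsupp.single_apply]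
  rw [← Finset.sum_filter]
  change _ = ∑ᶠ (P : Place K F) (_ : P ∈ {P : Place K F | r P = Q}), D P
  rw [finsum_mem_eq_sum_of_inter_support_eq (s := {P | r P = Q})
    (t := D.support.filter (fun P => r P = Q))]
  ext P
  simp only [Set.mem_inter_iff, Set.mem_setOf_eq, Function.mem_support, ne_eq, Finset.coe_filter,
    Finsupp.mem_support_iff]
  tauto

/-- For the divisor of `y`, `mapDomain` at `Q` is the fibre sum of `y`. -/
theorem mapDomain_eq_fibSum (r : Place K F → Place k F') (D : Divisor K F) (y : F)
    (hD : ∀ P, D P = P.ord y) (Q : Place k F') :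
    Finsupp.mapDomain r D Q = fibSum r Q y := by
  rw [mapDomain_apply_eq_finsum, fibSum]
  exact finsum_congr fun P => finsum_congr fun _ => hD P

/-- Finite supports of the order functions, from `HasPrincipalDivisors`. -/
theorem finite_ord_ne_zero [HasPrincipalDivisors K F] (f : F) (hf : f ≠ 0) :
    {P : Place K F | P.ord f ≠ 0}.Finite := by
  obtain ⟨D, hD, -⟩ := HasPrincipalDivisors.exists_divisor (K := K) f hf
  refine D.support.finite_toSet.subset fun P hP => ?_
  simp only [Set.mem_setOf_eq] at hP
  simpa [hD P] using hP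

/-- Additivity of the fibre sums. -/
theorem fibSum_mul (hfin : ∀ f : F, f ≠ 0 → {P : Place K F | P.ord f ≠ 0}.Finite)
    (r : Place K F → Place k F') (Q : Place k F') {f g : F} (hf : f ≠ 0) (hg : g ≠ 0) :
    fibSum r Q (f * g) = fibSum r Q f + fibSum r Q g := by
  unfold fibSum
  change ∑ᶠ (P : Place K F) (_ : P ∈ {P : Place K F | r P = Q}), P.ord (f * g) =
    ∑ᶠ (P : Place K F) (_ : P ∈ {P : Place K F | r P = Q}), P.ord f +
      ∑ᶠ (P : Place K F) (_ : P ∈ {P : Place K F | r P = Q}), P.ord g
  rw [← finsum_mem_add_distrib'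
    (((hfin f hf).subset (by
      intro P hP
      simp only [Set.mem_inter_iff, Function.mem_support] at hP
      exact hP.2)))
    (((hfin g hg).subset (by
      intro P hP
      simp only [Set.mem_inter_iff, Function.mem_support] at hP
      exact hP.2)))]
  exact finsum_mem_congr rfl fun P _ => P.ord_mul hf hg

/-- **Local conservation ⇒ `mapDomain` form.**  If the fibre sums over `Q` of the elements of a
subring `S` are computed by `ρ`, then for every quotient `y = a / b` of elements of `S` with
`ρ a, ρ b ≠ 0` the push-forward of the divisor of `y` has coefficient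
`ord_Q (ρ a) - ord_Q (ρ b)` at `Q`. -/
theorem mapDomain_eq_of_local (hfin : ∀ f : F, f ≠ 0 → {P : Place K F | P.ord f ≠ 0}.Finite)
    (r : Place K F → Place k F') (Q : Place k F') (S : Subring F) (ρ : S →+* F')
    (hsum : ∀ a : S, ρ a ≠ 0 → fibSum r Q (a : F) = Q.ord (ρ a))
    (D : Divisor K F) (y : F) (hD : ∀ P, D P = P.ord y)
    (a b : S) (ha : ρ a ≠ 0) (hb : ρ b ≠ 0) (hy : y * (b : F) = a) :
    Finsupp.mapDomain r D Q = Q.ord (ρ a) - Q.ord (ρ b) := by
  have hb0 : (b : F) ≠ 0 := by
    intro h
    apply hb
    have : b = 0 := Subtype.ext h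
    rw [this, map_zero]
  have ha0 : (a : F) ≠ 0 := by
    intro h
    apply ha
    have : a = 0 := Subtype.ext h
    rw [this, map_zero]
  have hy0 : y ≠ 0 := by
    rintro rfl
    rw [zero_mul] at hy
    exact ha0 hy.symm
  rw [mapDomain_eq_fibSum r D y hD Q]
  have h1 := fibSum_mul hfin r Q hy0 hb0
  rw [hy, hsum a ha, hsum b hb] at h1
  omega

end Abstract

section Modular

variable {L : Type*} [Field L] [Algebra ℚ L] (A : ValuationSubring L)
variable {k : Type*} [Field k] (π : A →+* k) (N : ℕ)

/-- **The frozen conservation-of-number statement from local data.**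
Hypotheses: `deg` is preserved; the order functions of `F̄` have finite supports; and at every
place `Q` of `F_k` there are a subring `S ⊆ F̄` and a ring hom `ρ : S → F_k` such that
(`sum`) the fibre sum over `Q` of any `a ∈ S` with `ρ a ≠ 0` is `ord_Q (ρ a)`, and
(`frac`) every `A`-integral series `y ∈ F̄` with nonzero reduction `ȳ ∈ F_k` is a quotient
`a / b` of elements of `S` with `ρ a, ρ b ≠ 0` and `ȳ = ρ a / ρ b`. -/
theorem isPlaceReductionAlong_of_local
    (r : Place L (laurentBaseChange L (modularFunctionFieldFull N)) →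
      Place k (modularFunctionFieldFullC k N))
    (hdeg : ∀ P, (r P).deg = P.deg)
    (hfin : ∀ f : laurentBaseChange L (modularFunctionFieldFull N), f ≠ 0 →
      {P : Place L (laurentBaseChange L (modularFunctionFieldFull N)) | P.ord f ≠ 0}.Finite)
    (hloc : ∀ Q : Place k (modularFunctionFieldFullC k N),
      ∃ (S : Subring (laurentBaseChange L (modularFunctionFieldFull N)))
        (ρ : S →+* modularFunctionFieldFullC k N),
        (∀ a : S, ρ a ≠ 0 →
          fibSum r Q (a : laurentBaseChange L (modularFunctionFieldFull N)) = Q.ord (ρ a)) ∧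
        ∀ (y : LaurentSeries A)
          (hy : coeffMap A.subtype y ∈ laurentBaseChange L (modularFunctionFieldFull N))
          (hyk : coeffMap π y ∈ modularFunctionFieldFullC k N), coeffMap π y ≠ 0 →
          ∃ a b : S, ρ a ≠ 0 ∧ ρ b ≠ 0 ∧
            (⟨coeffMap A.subtype y, hy⟩ : laurentBaseChange L (modularFunctionFieldFull N)) *
              (b : laurentBaseChange L (modularFunctionFieldFull N)) = a ∧
            (⟨coeffMap π y, hyk⟩ : modularFunctionFieldFullC k N) * ρ b = ρ a) :
    IsPlaceReductionAlong A π N r := by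
  refine ⟨hdeg, ?_⟩
  intro y hy hyk hne D hD Q
  obtain ⟨S, ρ, hsum, hfrac⟩ := hloc Q
  obtain ⟨a, b, ha, hb, hab, hρ⟩ := hfrac y hy hyk hne
  rw [mapDomain_eq_of_local hfin r Q S ρ hsum D _ hD a b ha hb hab]
  have hy0 : (⟨coeffMap π y, hyk⟩ : modularFunctionFieldFullC k N) ≠ 0 := by
    intro h
    exact hne (congrArg Subtype.val h)
  have h1 := Q.ord_mul hy0 hb
  rw [hρ] at h1
  omega

end Modular

end Fermat.Agent.S37.ConsGlue
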