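/-
S37 block [R0] — R0Plan.lean (plan/defs author: helper21; sub-captain: helper63).
BINDING top layer of the construction of the reduction inputs

    ∀ ℓ prime, ℓ ∤ N, ∀ A over ℓ :  ReductionInputsModL A N
        ( = ∃ r, IsPlaceReductionModL A N r ∧ PrincipalGeneratedByIntegral A (residue A) N ).

Notation: `F̄ = modularFunctionFieldBar N ⊂ ℚ̄((q))`, `A ⊂ ℚ̄` a valuation subring over `ℓ`,
`k` its residue field, `F_k = modularFunctionFieldFullC k N ⊂ k((q))`.

The place map `r` is NOT part of the interface: it is produced by the glue from a family of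
*local data*.  A local datum at a place `Q` of `F_k` is a subring `S ⊆ F̄` (in the model: the
local ring of the smooth `A`-model at the closed point `Q`, i.e. the localisation of the chart
`chartA N A t` at the maximal ideal `{x | red x ∈ 𝔪_Q}`) with a ring hom `ρ : S → F_k`
(Gauss reduction of `q`-expansions).  The places of `F̄` *centred on `S`*,

    `Pts N A S = {P | ∀ x ∈ S, x is regular at P with value in A}`,

are the places reducing to `Q`; the glue defines `r P :=` the unique `Q` with `P ∈ Pts (S Q)`.

Leaves (each a `Prop`; owners on the board, topic S37):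
* `LocStatement N ℓ`  : the family of local data: conservation of number at `Q` (`sum`), the
                        Gauss fraction property (`frac`), the partition property, `deg Q = 1`;
* `GenStatement N ℓ`  : `PrincipalGeneratedByIntegral`;
* `Char0Statement N`  : on the `ℚ̄`-side, places have degree one and order functions have
                        finite supports (S24 / `HIFinite`).
Glue: `reductionInputs_of_leaves`.
-/
import Mathlib
import Fermat.Prelude.Def_ModularCurve_ReductionModL
import Fermat.Prelude.Def_FLTPrelim_Ramification
import Fermat.Agent.S37.PMDefs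
import Fermat.Agent.S37.ConsGlue

set_option autoImplicit false

noncomputable section

namespace Fermat.Agent.S37.R0

open ModularCurve AlgebraicCurve HahnSeries Fermat.Agent.S37.PM

set_option synthInstance.maxHeartbeats 400000

section Defs

variable (N : ℕ) (A : ValuationSubring Qb)

/-- The places of `F̄` centred on the subring `S` with values in `A`: every `x ∈ S` is regular
at `P` and its value lies in `A`. -/
def Pts (S : Subring (modularFunctionFieldBar N)) : Set (Place Qb (modularFunctionFieldBar N)) :=
  {P | ∀ x ∈ S, ∃ c : A, ValAt P x (c : Qb)}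

/-- **Local datum at `Q`**: conservation of number and the Gauss fraction property. -/
structure LocalDatum
    (Q : Place (IsLocalRing.ResidueField A)
      (modularFunctionFieldFullC (IsLocalRing.ResidueField A) N))
    (S : Subring (modularFunctionFieldBar N))
    (ρ : S →+* modularFunctionFieldFullC (IsLocalRing.ResidueField A) N) : Prop where
  /-- conservation of number at `Q` for the elements of `S` with nonzero reduction -/
  sum : ∀ a : S, ρ a ≠ 0 →
    ∑ᶠ (P : Place Qb (modularFunctionFieldBar N)) (_ : P ∈ Pts N A S),
      P.ord (a : modularFunctionFieldBar N) = Q.ord (ρ a)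
  /-- every `A`-integral series of `F̄` with nonzero reduction in `F_k` is a quotient of two
  elements of `S` with nonzero reductions, compatibly with reduction -/
  frac : ∀ (y : LaurentSeries A) (hy : coeffMap A.subtype y ∈ modularFunctionFieldBar N)
    (hyk : coeffMap (IsLocalRing.residue A) y ∈
      modularFunctionFieldFullC (IsLocalRing.ResidueField A) N),
    coeffMap (IsLocalRing.residue A) y ≠ 0 →
    ∃ a b : S, ρ a ≠ 0 ∧ ρ b ≠ 0 ∧
      (⟨coeffMap A.subtype y, hy⟩ : modularFunctionFieldBar N) *
        (b : modularFunctionFieldBar N) = a ∧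
      (⟨coeffMap (IsLocalRing.residue A) y, hyk⟩ :
        modularFunctionFieldFullC (IsLocalRing.ResidueField A) N) * ρ b = ρ a

/-- **The family of local data** over `A`. -/
def LocFamily : Prop :=
  ∃ (S : Place (IsLocalRing.ResidueField A)
        (modularFunctionFieldFullC (IsLocalRing.ResidueField A) N) →
        Subring (modularFunctionFieldBar N))
    (ρ : ∀ Q, S Q →+* modularFunctionFieldFullC (IsLocalRing.ResidueField A) N),
    (∀ Q, LocalDatum N A Q (S Q) (ρ Q)) ∧
    (∀ P : Place Qb (modularFunctionFieldBar N), ∃! Q, P ∈ Pts N A (S Q)) ∧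
    ∀ Q : Place (IsLocalRing.ResidueField A)
      (modularFunctionFieldFullC (IsLocalRing.ResidueField A) N), Q.deg = 1

end Defs

/-! ### Leaf statements -/

/-- **[Loc]** the local data exist (model-dependent: S18 charts, [Nor], Gauss, conservation). -/
def LocStatement (N ℓ : ℕ) : Prop :=
  ℓ.Prime → ¬ ℓ ∣ N → ∀ A : ValuationSubring Qb, A.LiesOverPrime ℓ → LocFamily N A

/-- **[Gen]** principal divisors are generated by divisors of `A`-integral functions. -/
def GenStatement (N ℓ : ℕ) : Prop :=
  ℓ.Prime → ¬ ℓ ∣ N → ∀ A : ValuationSubring Qb, A.LiesOverPrime ℓ →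
    PrincipalGeneratedByIntegral A (IsLocalRing.residue A) N

/-- **[Char0]** the `ℚ̄`-side: degree one and finite supports. -/
def Char0Statement (N : ℕ) : Prop :=
  (∀ P : Place Qb (modularFunctionFieldBar N), P.deg = 1) ∧
  ∀ f : modularFunctionFieldBar N, f ≠ 0 →
    {P : Place Qb (modularFunctionFieldBar N) | P.ord f ≠ 0}.Finite

/-! ### Glue -/

/-- The place map of a family of local data and the frozen conservation statement. -/
theorem exists_isPlaceReduction (N : ℕ) (A : ValuationSubring Qb) (h0 : Char0Statement N)
    (hloc : LocFamily N A) :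
    ∃ r : Place Qb (modularFunctionFieldBar N) →
        Place (IsLocalRing.ResidueField A)
          (modularFunctionFieldFullC (IsLocalRing.ResidueField A) N),
      IsPlaceReductionModL A N r := by
  obtain ⟨S, ρ, hdat, hpart, hdegk⟩ := hloc
  choose r hr hruniq using hpart
  have hiff : ∀ P Q, r P = Q ↔ P ∈ Pts N A (S Q) := by
    intro P Q
    constructor
    · rintro rfl
      exact hr P
    · intro h
      exact (hruniq P Q h).symm
  refine ⟨r, ConsGlue.isPlaceReductionAlong_of_local A (IsLocalRing.residue A) N r ?_ h0.2 ?_⟩
  · intro P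
    rw [hdegk, h0.1]
  · intro Q
    refine ⟨S Q, ρ Q, ?_, (hdat Q).frac⟩
    intro a ha
    rw [← (hdat Q).sum a ha]
    unfold ConsGlue.fibSum
    exact finsum_congr fun P => by rw [hiff P Q]

/-- **[R0] from its leaves.** -/
theorem reductionInputs_of_leaves (N ℓ : ℕ) (h0 : Char0Statement N) (hloc : LocStatement N ℓ)
    (hgen : GenStatement N ℓ) (hℓ : ℓ.Prime) (hℓN : ¬ ℓ ∣ N) (A : ValuationSubring Qb)
    (hA : A.LiesOverPrime ℓ) : ReductionInputsModL A N := by
  obtain ⟨r, hr⟩ := exists_isPlaceReduction N A h0 (hloc hℓ hℓN A hA)
  exact ⟨r, hr, hgen hℓ hℓN A hA⟩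

end Fermat.Agent.S37.R0
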