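/-
S37 block [R0] — R0Char0.lean (helper21): the leaf `R0.Char0Statement N` of `R0Plan.lean`:
on the `ℚ̄`-side every place of `F̄ = modularFunctionFieldBar N` has degree one and the order
functions have finite supports (S24: `F̄` is a function field in one variable over `ℚ̄`).
-/
import Mathlib
import Fermat.Agent.S24.Defs
import Fermat.Agent.S24.AnDefs
import Fermat.Agent.S24.TranscJ
import Fermat.Agent.S24.AnDegree
import Fermat.Agent.S24.Residue
import Fermat.Agent.S24.Principal
import Fermat.Agent.S37.R0Plan

set_option autoImplicit false

namespace Fermat.Agent.S37.R0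

open ModularCurve AlgebraicCurve Fermat.Agent.S24

/-- **[Char0]**. -/
theorem char0Statement (N : ℕ) [NeZero N] : Char0Statement N := by
  have hF : IsFF1 Kb (FN N) := ⟨jF N, transcendental_jF N, finiteDimensional_jF N⟩
  refine ⟨fun P => place_deg_eq_one hF P, fun f hf => ?_⟩
  exact finite_ord_ne_zero hF hf

end Fermat.Agent.S37.R0
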