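/-
S37 — Final.lean (captain: helper33).  The frozen S37 conclusion from the single remaining leaf
`R0.LocStatement N ℓ` (for all `ℓ`) of block [R0]:

  frozen S18 (`Fermat.Agent.S18.result`)  +  [H] (`HI.heckeInputsAlong_of_neZero`)
  +  [Frob∃] (`FrobEx`)  +  [P] (`P.DegZero`: equivariance and Eichler–Shimura on degree-zero
  divisors)  +  [R0] (`R0.reductionInputs_of_leaves` with [Char0] = `R0.char0Statement`,
  [Gen] = `PGI.principalGeneratedByIntegral`, [Loc] = hypothesis)
  ⟹  `SpecializationExists N p (JZero N)`.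
-/
import Mathlib
import Fermat.Agent.S18
import Fermat.Agent.S37.Top
import Fermat.Agent.S37.Core
import Fermat.Agent.S37.Core2
import Fermat.Agent.S37.FrobEx
import Fermat.Agent.S37.HeckeInputs
import Fermat.Agent.S37.P.DegZero
import Fermat.Agent.S37.R0Plan
import Fermat.Agent.S37.R0Char0
import Fermat.Agent.S37.PGI

set_option autoImplicit false

open ModularCurve AlgebraicCurve HahnSeries

namespace Fermat.Agent.S37Final

open Fermat.Agent.S37Core

noncomputable section

set_option synthInstance.maxHeartbeats 400000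

/-- The frozen S18 statement, from `Fermat.Agent.S18.result`. -/
theorem s18Statement (N : ℕ) [NeZero N] : S18Statement N :=
  fun {ℓ} _ hℓN A hA h m hm z hmz hz => Fermat.Agent.S18.result N hℓN A hA h m hm z hmz hz

/-- `SpecCore` at `(ℓ, A)` from `ReductionInputsModL A N`. -/
theorem specCore_of_reductionInputs (N p : ℕ) [NeZero N] (ℓ : ℕ) (hℓ : ℓ.Prime)
    (hℓNp : ¬ ℓ ∣ N * p) (A : ValuationSubring Qb) (hA : A.LiesOverPrime ℓ)
    (h : ReductionInputsModL A N) :
    Fermat.Agent.S37Top.SpecCore N p ℓ hℓ A := by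
  have hne : NeZero ℓ := ⟨hℓ.ne_zero⟩
  have hℓN : ¬ ℓ ∣ N := fun h' => hℓNp (Dvd.dvd.mul_right h' p)
  obtain ⟨r, hr, hgen⟩ := h
  refine Fermat.Agent.S37Core2.specCore_of_div0 N p ℓ hℓ hℓNp A hA (s18Statement N)
    (Fermat.Agent.S37.HI.heckeInputsAlong_of_neZero N ℓ)
    (Fermat.Agent.S37.FrobEx.exists_isFrobeniusAt_of_liesOver ℓ hℓ A hA) r hr hgen ?_ ?_
  · intro g D hD
    exact Fermat.Agent.S37.P.DegZero.mapDomain_smul_of_degree_eq_zero N A r hr hgen g D hD
  · intro φ hφ hα hβ _ D hD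
    exact Fermat.Agent.S37.P.DegZero.mapDomain_heckeDivBar_of_degree_eq_zero N ℓ hℓ hℓN A hA r hr
      hgen φ hφ hα hβ D hD

/-- [Gen] of `R0Plan.lean`, from `PGI.lean`. -/
theorem genStatement (N ℓ : ℕ) [NeZero N] : Fermat.Agent.S37.R0.GenStatement N ℓ := by
  intro hℓ hℓN A hA
  haveI : Fact ℓ.Prime := ⟨hℓ⟩
  exact Fermat.Agent.S37.PGI.principalGeneratedByIntegral N ℓ hℓN A hA

/-- **S37 from the leaf [Loc] of block [R0]** (frozen conclusion). -/
theorem specializationExists_of_loc (N p : ℕ) [NeZero N]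
    (hcomm : HeckeOperatorsCommuteBar N)
    (hloc : ∀ ℓ : ℕ, Fermat.Agent.S37.R0.LocStatement N ℓ) :
    letI := heckeModuleBar N
    ∀ (_ : SMulCommClass (AlgebraicClosure ℚ ≃ₐ[ℚ] AlgebraicClosure ℚ) HeckeAlg (JZero N)),
      SpecializationExists (K := ℚ) (L := AlgebraicClosure ℚ) N p (JZero N) :=
  Fermat.Agent.S37Top.specializationExists_of_specCore N p hcomm fun ℓ hℓ hℓNp A hA =>
    specCore_of_reductionInputs N p ℓ hℓ hℓNp A hA
      (Fermat.Agent.S37.R0.reductionInputs_of_leaves N ℓ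
        (Fermat.Agent.S37.R0.char0Statement N) (hloc ℓ) (genStatement N ℓ) hℓ
        (fun h' => hℓNp (Dvd.dvd.mul_right h' p)) A hA)

end

end Fermat.Agent.S37Final
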