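import Mathlib
import Fermat.Agent.S24.Defs

/-!
# S37 team library: algebraic dependence in a function field in one variable

OWNER: helper132 (sub-helper of helper19).

* `exists_algDep`: two elements of a function field in one variable over `K` satisfy a nonzero
  polynomial relation over `K`.
* `halg_of_isFF1`: integral form over a valuation subring `A` of the constant field: for `a ≠ 0`
  and any `x`, some nonzero `g ∈ A[X]` has `g(x) ∈ a · A[a, x]`.
-/

set_option autoImplicit false

namespace Fermat.Agent.S37.ConsAlg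

open Fermat.Agent.S24

/-- Two elements of a function field in one variable are algebraically dependent. -/
theorem exists_algDep {K F : Type*} [Field K] [Field F] [Algebra K F] (hF : IsFF1 K F)
    (x a : F) : ∃ p : MvPolynomial (Fin 2) K, p ≠ 0 ∧ MvPolynomial.aeval ![x, a] p = 0 := by
  obtain ⟨t, -, hfin⟩ := hF
  by_contra hcon
  push Not at hcon
  have hind : AlgebraicIndependent K ![x, a] := by
    rw [algebraicIndependent_iff]
    intro p hp
    by_contra h0
    exact hcon p h0 hp
  have h1 := hind.lift_cardinalMk_le_trdeg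
  have halg : Algebra.IsAlgebraic (Algebra.adjoin K ({t} : Set F)) F := by
    rw [← IntermediateField.isAlgebraic_adjoin_iff_top]
    infer_instance
  have h2 := Algebra.IsAlgebraic.trdeg_le_cardinalMk K ({t} : Set F)
  have h3 : Cardinal.lift.{0} (Algebra.trdeg K F) ≤ 1 := by simpa using h2
  have h4 := h1.trans h3
  simp at h4

section bivariate

open Polynomial

variable {R F : Type*} [CommRing R] [CommRing F]

/-- Values of polynomials at a point of a subring, with coefficients mapped into the subring,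
lie in the subring. -/
theorem eval₂_mem_subring (S : Subring F) (ψ : R →+* F) (hψ : ∀ r, ψ r ∈ S) (y : F) (hy : y ∈ S)
    (g : R[X]) : g.eval₂ ψ y ∈ S := by
  rw [eval₂_eq_sum_range]
  exact Subring.sum_mem _ fun i _ => S.mul_mem (hψ _) (S.pow_mem hy _)

/-- From a two-variable relation to a relation in `R[X][Y]`. -/
theorem exists_bivariate (φ : R →+* F) (x a : F) (p : MvPolynomial (Fin 2) R) (hp : p ≠ 0)
    (h : MvPolynomial.eval₂ φ ![x, a] p = 0) :
    ∃ q : R[X][X], q ≠ 0 ∧ q.eval₂ (eval₂RingHom φ x) a = 0 := by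
  let Φ : MvPolynomial (Fin 2) R →+* R[X][X] :=
    MvPolynomial.eval₂Hom ((C : R[X] →+* R[X][X]).comp C) ![C X, X]
  let Ψ : R[X][X] →+* MvPolynomial (Fin 2) R :=
    eval₂RingHom (eval₂RingHom MvPolynomial.C (MvPolynomial.X 0)) (MvPolynomial.X 1)
  have hΨΦ : Ψ.comp Φ = RingHom.id _ := by
    apply MvPolynomial.ringHom_ext
    · intro r
      simp [Φ, Ψ]
    · intro i
      fin_cases i <;> simp [Φ, Ψ]
  have hE : (eval₂RingHom (eval₂RingHom φ x) a).comp Φ = MvPolynomial.eval₂Hom φ ![x, a] := by
    apply MvPolynomial.ringHom_ext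
    · intro r
      simp [Φ]
    · intro i
      fin_cases i <;> simp [Φ]
  refine ⟨Φ p, ?_, ?_⟩
  · intro h0
    apply hp
    have := congrArg (fun f => f p) hΨΦ
    simpa [h0] using this.symm
  · have := congrArg (fun f => f p) hE
    simpa [h] using this

end bivariate

section key

open Polynomial

variable {R F : Type*} [CommRing R] [Field F]

/-- From a nonzero relation in `R[X][Y]` at `(x, a)` with `a ≠ 0` to a nonzero `g ∈ R[X]` with
`g(x) ∈ a · S`. -/
theorem exists_poly_of_bivariate (φ : R →+* F) (x a : F) (ha : a ≠ 0) (S : Subring F)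
    (hφ : ∀ r, φ r ∈ S) (hx : x ∈ S) (haS : a ∈ S) (q : R[X][X]) (hq : q ≠ 0)
    (h : q.eval₂ (eval₂RingHom φ x) a = 0) :
    ∃ g : R[X], g ≠ 0 ∧ ∃ b ∈ S, g.eval₂ φ x = a * b := by
  obtain ⟨q', hqq', hndvd⟩ := exists_eq_pow_rootMultiplicity_mul_and_not_dvd q hq 0
  rw [C_0, sub_zero] at hqq' hndvd
  have hc0 : q'.coeff 0 ≠ 0 := fun h0 => hndvd (X_dvd_iff.mpr h0)
  rw [hqq', eval₂_mul, eval₂_pow, eval₂_X] at h
  have h' : q'.eval₂ (eval₂RingHom φ x) a = 0 :=
    (mul_eq_zero.mp h).resolve_left (pow_ne_zero _ ha)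
  rw [← divX_mul_X_add q', eval₂_add, eval₂_mul, eval₂_X, eval₂_C] at h'
  refine ⟨q'.coeff 0, hc0, -(q'.divX.eval₂ (eval₂RingHom φ x) a), S.neg_mem ?_, ?_⟩
  · exact eval₂_mem_subring S _ (fun g => eval₂_mem_subring S φ hφ x hx g) a haS _
  · have : eval₂ φ x (q'.coeff 0) = (eval₂RingHom φ x) (q'.coeff 0) := rfl
    rw [this]
    linear_combination h'

end key

/-- Transcendence degree one, integral form: modulo any nonzero `a`, every `x` is algebraic
over the valuation subring `A` of the constant field. -/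
theorem halg_of_isFF1 {L F : Type*} [Field L] [Field F] [Algebra L F] (A : ValuationSubring L)
    (hF : IsFF1 L F) (a x : F) (ha : a ≠ 0) :
    ∃ g : Polynomial A, g ≠ 0 ∧
      ∃ b ∈ Subring.closure (Set.range ((algebraMap L F).comp A.subtype) ∪ {a, x}),
        g.eval₂ ((algebraMap L F).comp A.subtype) x = a * b := by
  have hA : Algebra.IsAlgebraic A L := IsLocalization.isAlgebraic L (nonZeroDivisors A)
  obtain ⟨p, hp0, hp⟩ := exists_algDep hF x a
  have hnot : ¬ AlgebraicIndependent A ![x, a] := fun hind =>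
    hp0 ((hind.extendScalars L).eq_zero_of_aeval_eq_zero p hp)
  rw [algebraicIndependent_iff] at hnot
  push Not at hnot
  obtain ⟨p', hp', hp'0⟩ := hnot
  have hp'' : MvPolynomial.eval₂ ((algebraMap L F).comp A.subtype) ![x, a] p' = 0 := hp'
  obtain ⟨q, hq0, hq⟩ := exists_bivariate _ x a p' hp'0 hp''
  refine exists_poly_of_bivariate _ x a ha _ (fun r => Subring.subset_closure ?_)
    (Subring.subset_closure ?_) (Subring.subset_closure ?_) q hq0 hq
  · exact Or.inl ⟨r, rfl⟩
  · exact Or.inr (by simp)
  · exact Or.inr (by simp)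

end Fermat.Agent.S37.ConsAlg
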