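import Mathlib
import Fermat.Agent.S37.ConsAlg

/-!
# S37 team library: `ConsAlg.halg_of_isFF1` in the shape of the `halg` field of `Cons.Setting`

OWNER: helper132 (sub-helper of helper19).
-/

set_option autoImplicit false

namespace Fermat.Agent.S37.ConsAlgS

/-- Transcendence degree one, in the shape of the `halg` field of `Cons.Setting`: for every
subring `S` of `F` containing the constants of `A`. -/
theorem halg {L F : Type*} [Field L] [Field F] [Algebra L F] (hF : Fermat.Agent.S24.IsFF1 L F)
    (A : ValuationSubring L) (S : Subring F) (hA : ∀ c : A, algebraMap L F (c : L) ∈ S) :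
    ∀ a x : S, a ≠ 0 → ∃ g : Polynomial A, g ≠ 0 ∧ ∃ b : S,
      g.eval₂ ((algebraMap L F).comp A.subtype) (x : F) = (a : F) * (b : F) := by
  intro a x ha
  have ha' : (a : F) ≠ 0 := fun h0 => ha (Subtype.ext h0)
  obtain ⟨g, hg, b, hb, hgb⟩ := Fermat.Agent.S37.ConsAlg.halg_of_isFF1 A hF (a : F) (x : F) ha'
  have hbS : b ∈ S := by
    refine (Subring.closure_le (t := S)).mpr ?_ hb
    rintro y (⟨c, rfl⟩ | hy)
    · exact hA c
    · rcases hy with rfl | rfl
      · exact a.2
      · exact x.2
  exact ⟨g, hg, ⟨b, hbS⟩, hgb⟩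

end Fermat.Agent.S37.ConsAlgS
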