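/-
S37, block [R0] — ConsDefs.lean (helper15): BINDING definitions of the abstract core of
"conservation of number at one closed point" (Design B).  Mathlib-only, no proof obligations.

Setting.  `L` a field, `A` a valuation subring of `L`, `F ⊇ L` a field, `S` a subring of `F`
containing (the image of) `A`, `D` a discrete valuation ring, `ρ : S →+* D` ("reduction"),
`T : S` with `ρ T` a uniformizer of `D`.  The noetherian world enters only through *levels*:
every finite subset of `S` lies in a noetherian subring `S' ≤ S` on which `ρ` is onto `D` with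
kernel `π S'` (`π ∈ 𝔪_A`), whose `ρ`-units are invertible in `S'`, and whose nonzero constants
are `unit * π ^ m`.

Model: `S` = the localisation of the `A`-chart at the maximal ideal of a point `Q` of the special
fibre, `D = O_Q`, `ρ` = Gauss reduction, levels = localisations of the finite-level charts.
The theorems are in `ConsCore.lean` (core) and `ConsPlace.lean` (place form).
-/
import Mathlib

set_option autoImplicit false

namespace Fermat.Agent.S37.Cons

variable {L : Type*} [Field L] (A : ValuationSubring L)
variable {F : Type*} [Field F] [Algebra L F]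
variable (S : Subring F)
variable {D : Type*} [CommRing D]
variable (ρ : S →+* D) (T : S)

/-- A *level* of `(S, ρ, T)`: a noetherian subring `S' ≤ S` containing `T` and a nonzero
nonunit `π` of `A`, on which `ρ` is onto `D` with kernel `π S'`, in which every element with
unit reduction is invertible, and whose nonzero constants are `unit * π ^ m`. -/
structure IsLevel (S' : Subring F) (π : A) : Prop where
  le : S' ≤ S
  noeth : IsNoetherianRing S'
  pi_ne : π ≠ 0
  pi_nonunit : ¬ IsUnit π
  pi_mem : algebraMap L F (π : L) ∈ S'
  T_mem : (T : F) ∈ S'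
  rho_pi : ∀ x : S, (x : F) = algebraMap L F (π : L) → ρ x = 0
  surj : ∀ d : D, ∃ x : S, (x : F) ∈ S' ∧ ρ x = d
  ker : ∀ x : S, (x : F) ∈ S' → ρ x = 0 → ∃ y ∈ S', (x : F) = algebraMap L F (π : L) * y
  unit : ∀ x : S, (x : F) ∈ S' → IsUnit (ρ x) → (x : F)⁻¹ ∈ S'
  const : ∀ c : A, c ≠ 0 → algebraMap L F (c : L) ∈ S' →
    ∃ (m : ℕ) (u : A), IsUnit u ∧ algebraMap L F (u : L) ∈ S' ∧ c = u * π ^ m

/-- The abstract setting of conservation of number at one closed point. -/
structure Setting : Prop where
  /-- `S` contains the constants of `A` -/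
  hA : ∀ c : A, algebraMap L F (c : L) ∈ S
  /-- `ρ T` is a uniformizer of `D` -/
  hT : Irreducible (ρ T)
  /-- every finite subset of `S` lies in a level -/
  hdir : ∀ s : Finset F, (↑s : Set F) ⊆ S →
    ∃ (S' : Subring F) (π : A), IsLevel A S ρ T S' π ∧ (↑s : Set F) ⊆ S'
  /-- transcendence degree one: modulo any nonzero `a`, every `x` is algebraic over `A` -/
  halg : ∀ a x : S, a ≠ 0 → ∃ g : Polynomial A, g ≠ 0 ∧ ∃ b : S,
    g.eval₂ ((algebraMap L F).comp A.subtype) (x : F) = (a : F) * (b : F)

variable {A S ρ T}

/-- The constants `A → S`. -/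
def Setting.const (h : Setting A S ρ T) : A →+* S :=
  ((algebraMap L F).comp A.subtype).codRestrict S h.hA

@[simp]
theorem Setting.coe_const (h : Setting A S ρ T) (c : A) :
    ((h.const c : S) : F) = algebraMap L F (c : L) := rfl

/-- A ring hom `S → A` which is the identity on the constants. -/
def Setting.IsRetraction (h : Setting A S ρ T) (ε : S →+* A) : Prop :=
  ∀ c : A, ε (h.const c) = c

end Fermat.Agent.S37.Cons
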