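/-
S37 — ConsZero.lean (helper3): the "existence of a zero" step (C1) of the conservation-of-number
core (`ConsCore.lean`, helper15).  Mathlib only.

`exists_retraction`: let `A` be a valuation subring of an algebraically closed field `L` and `S` a
local domain which is an `A`-algebra dominating `A` (`A → S` injective, `𝔪_A ↦ 𝔪_S`).  If `a ∈ S`
divides no nonzero constant of `A` and every element of `S` is algebraic over `A` modulo `a`, then
there is a retraction `ε : S →ₐ[A] A` with `ε a = 0`.

Proof: a prime `𝔮 ∋ a` of `S` disjoint from `A ∖ {0}`; `S ⧸ 𝔮` is a domain algebraic over `A`, so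
it embeds into `L` over `A`; the image is a local ring dominating `A`, hence equal to `A`.
-/
import Mathlib

set_option autoImplicit false

namespace Fermat.Agent.S37.ConsZero

open Polynomial

variable {L : Type*} [Field L] [IsAlgClosed L] (A : ValuationSubring L)
variable {S : Type*} [CommRing S] [IsDomain S] [IsLocalRing S] [Algebra A S]

omit [IsAlgClosed L] [IsDomain S] in
/-- A ring homomorphism from a local ring dominating `A` into `L`, which is the identity on `A`,
takes values in `A`. -/
theorem map_mem_of_dominates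
    (hdom : ∀ c : A, c ∈ IsLocalRing.maximalIdeal A →
      algebraMap A S c ∈ IsLocalRing.maximalIdeal S)
    (ε : S →+* L) (hε : ∀ c : A, ε (algebraMap A S c) = (c : L)) (x : S) : ε x ∈ A := by
  by_contra hx
  have hinv : (ε x)⁻¹ ∈ A := (A.mem_or_inv_mem (ε x)).resolve_left hx
  have hx0 : ε x ≠ 0 := fun h => hx (h ▸ A.zero_mem)
  set c : A := ⟨(ε x)⁻¹, hinv⟩ with hc
  have hcmax : c ∈ IsLocalRing.maximalIdeal A := by
    rw [IsLocalRing.mem_maximalIdeal, mem_nonunits_iff]
    intro hu
    obtain ⟨d, hd⟩ := hu.exists_right_inv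
    apply hx
    have h1 : (c : L) * (d : L) = 1 := by
      have := congrArg (fun z : A => (z : L)) hd
      simpa using this
    have h2 : (d : L) = ε x := by
      have h3 : (c : L) = (ε x)⁻¹ := rfl
      rw [h3] at h1
      field_simp at h1
      exact h1
    rw [← h2]
    exact d.2
  have hmem : algebraMap A S c * x ∈ IsLocalRing.maximalIdeal S :=
    Ideal.mul_mem_right _ _ (hdom c hcmax)
  have hunit : IsUnit (algebraMap A S c * x - 1) := by
    have h1 : IsUnit (1 - algebraMap A S c * x) := by
      by_contra hnu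
      have h2 : 1 - algebraMap A S c * x ∈ IsLocalRing.maximalIdeal S :=
        (IsLocalRing.mem_maximalIdeal _).mpr hnu
      have h3 : (1 : S) ∈ IsLocalRing.maximalIdeal S := by
        have h4 := Ideal.add_mem _ h2 hmem
        rwa [sub_add_cancel] at h4
      exact (Ideal.ne_top_iff_one _).mp (IsLocalRing.maximalIdeal.isMaximal S).ne_top h3
    have : algebraMap A S c * x - 1 = -(1 - algebraMap A S c * x) := by ring
    rw [this]
    exact h1.neg
  have hzero : ε (algebraMap A S c * x - 1) = 0 := by
    rw [map_sub, map_mul, hε, map_one]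
    show (ε x)⁻¹ * ε x - 1 = 0
    rw [inv_mul_cancel₀ hx0, sub_self]
  have := hunit.map ε
  rw [hzero] at this
  exact not_isUnit_zero this

omit [IsDomain S] in
/-- **Existence of a zero.**  See the file header. -/
theorem exists_retraction
    (hinj : Function.Injective (algebraMap A S))
    (hdom : ∀ c : A, c ∈ IsLocalRing.maximalIdeal A →
      algebraMap A S c ∈ IsLocalRing.maximalIdeal S)
    (a : S)
    (hdisj : ∀ c : A, c ≠ 0 → ∀ b : S, a * b ≠ algebraMap A S c)
    (halg : ∀ x : S, ∃ g : Polynomial A, g ≠ 0 ∧ Polynomial.aeval x g ∈ Ideal.span {a}) :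
    ∃ ε : S →ₐ[A] A, ε a = 0 := by
  classical
  have _hinj := hinj
  -- the multiplicative set of nonzero constants
  let M : Submonoid S := (nonZeroDivisors A).map (algebraMap A S : A →* S)
  have hM : ∀ s : S, s ∈ M ↔ ∃ c : A, c ≠ 0 ∧ algebraMap A S c = s := by
    intro s
    constructor
    · rintro ⟨c, hc, rfl⟩
      exact ⟨c, nonZeroDivisors.ne_zero hc, rfl⟩
    · rintro ⟨c, hc, rfl⟩
      exact ⟨c, mem_nonZeroDivisors_of_ne_zero hc, rfl⟩
  have hdisjoint : Disjoint ((Ideal.span {a} : Ideal S) : Set S) M := by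
    rw [Set.disjoint_left]
    intro s hs hsM
    obtain ⟨c, hc, rfl⟩ := (hM s).mp hsM
    obtain ⟨b, hb⟩ := Ideal.mem_span_singleton'.mp hs
    exact hdisj c hc b (by rw [mul_comm]; exact hb)
  obtain ⟨p, hp, hap, hpM⟩ := Ideal.exists_le_prime_disjoint (Ideal.span {a}) M hdisjoint
  have hinjQ : Function.Injective (algebraMap A (S ⧸ p)) := by
    rw [injective_iff_map_eq_zero]
    intro c hc
    by_contra hc0
    have h1 : algebraMap A S c ∈ p := by
      rw [IsScalarTower.algebraMap_apply A S (S ⧸ p)] at hc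
      exact Ideal.Quotient.eq_zero_iff_mem.mp hc
    exact Set.disjoint_left.mp hpM h1 ((hM _).mpr ⟨c, hc0, rfl⟩)
  have htf : Module.IsTorsionFree A (S ⧸ p) :=
    Module.isTorsionFree_iff_algebraMap_injective.mpr hinjQ
  have halgQ : Algebra.IsAlgebraic A (S ⧸ p) := by
    refine ⟨fun y => ?_⟩
    obtain ⟨x, rfl⟩ := Ideal.Quotient.mk_surjective y
    obtain ⟨g, hg0, hg⟩ := halg x
    refine ⟨g, hg0, ?_⟩
    have h1 : aeval (Ideal.Quotient.mk p x) g = Ideal.Quotient.mk p (aeval x g) := by
      have := Polynomial.aeval_algHom_apply (Ideal.Quotient.mkₐ A p) x g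
      exact this
    rw [h1]
    exact Ideal.Quotient.eq_zero_iff_mem.mpr (hap hg)
  let φ : (S ⧸ p) →ₐ[A] L := IsAlgClosed.lift
  let ε₀ : S →+* L := (φ : (S ⧸ p) →+* L).comp (Ideal.Quotient.mk p)
  have hε₀ : ∀ c : A, ε₀ (algebraMap A S c) = (c : L) := by
    intro c
    show φ (Ideal.Quotient.mk p (algebraMap A S c)) = (c : L)
    have h1 : Ideal.Quotient.mk p (algebraMap A S c) = algebraMap A (S ⧸ p) c := rfl
    rw [h1, φ.commutes]
    rfl
  have hmem : ∀ x : S, ε₀ x ∈ A := map_mem_of_dominates A hdom ε₀ hε₀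
  refine ⟨{ toFun := fun x => ⟨ε₀ x, hmem x⟩
            map_one' := Subtype.ext (map_one ε₀)
            map_mul' := fun x y => Subtype.ext (map_mul ε₀ x y)
            map_zero' := Subtype.ext (map_zero ε₀)
            map_add' := fun x y => Subtype.ext (map_add ε₀ x y)
            commutes' := fun c => Subtype.ext (hε₀ c) }, ?_⟩
  apply Subtype.ext
  show ε₀ a = 0
  show φ (Ideal.Quotient.mk p a) = 0
  rw [Ideal.Quotient.eq_zero_iff_mem.mpr (hap (Ideal.subset_span rfl)), map_zero]

end Fermat.Agent.S37.ConsZero
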