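/-
S37, block [R0] — ConsCore.lean (helper15): the ABSTRACT CORE of "conservation of number at one
closed point" (Design B: no rationality, no UFD, no lengths).  Mathlib-only; the definitions
(`IsLevel`, `Setting`, `Setting.const`, `Setting.IsRetraction`) are in `ConsDefs.lean`.

Results: retractions `ε : S →+* A` (ring homs that are the identity on `A`) correspond to
`𝔪_A` via `ε ↦ ε T`; `ker ε = (T - ε T)`; every `a : S` with `ρ a ≠ 0` is
`unit * ∏ (T - c_i)` with `c_i ∈ 𝔪_A`, the number of factors being the order of `ρ a`; every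
nonzero `x : S` is `(T - ε T) ^ n * x'` with `ε x' ≠ 0`.
-/
import Mathlib
import Fermat.Agent.S37.ConsDefs
import Fermat.Agent.S37.ConsZero

set_option autoImplicit false

namespace Fermat.Agent.S37.Cons

/-! ### Two lemmas on noetherian local rings -/

/-- **(A1)** In a noetherian local ring with maximal ideal `(p, t)`, a ring hom to a domain that
kills `t` but not `p` has kernel `(t)`. -/
theorem ker_eq_span_of_maximalIdeal_eq {R B : Type*} [CommRing R] [IsLocalRing R]
    [IsNoetherianRing R] [CommRing B] [IsDomain B] (f : R →+* B) (p t : R)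
    (hm : IsLocalRing.maximalIdeal R = Ideal.span {p, t}) (ht : f t = 0) (hp : f p ≠ 0) :
    RingHom.ker f = Ideal.span {t} := by
  apply le_antisymm
  · intro x hx
    rw [RingHom.mem_ker] at hx
    have htm : t ∈ IsLocalRing.maximalIdeal R := hm ▸ Ideal.subset_span (by simp)
    have hpm : p ∈ IsLocalRing.maximalIdeal R := hm ▸ Ideal.subset_span (by simp)
    have hle : Ideal.span {t} ≤ IsLocalRing.maximalIdeal R := by
      rw [Ideal.span_le, Set.singleton_subset_iff]; exact htm
    have hne : Ideal.span {t} ≠ ⊤ := fun h =>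
      (IsLocalRing.maximalIdeal.isMaximal R).ne_top (top_le_iff.mp (h ▸ hle))
    have : Nontrivial (R ⧸ Ideal.span {t}) := Ideal.Quotient.nontrivial_iff.mpr hne
    have : IsLocalRing (R ⧸ Ideal.span {t}) :=
      IsLocalRing.of_surjective' (Ideal.Quotient.mk _) Ideal.Quotient.mk_surjective
    have key : ∀ n : ℕ, ∃ y : R, x - p ^ n * y ∈ Ideal.span {t} := by
      intro n
      induction n with
      | zero => exact ⟨x, by simp⟩
      | succ n ih =>
        obtain ⟨y, hy⟩ := ih
        have hfy : f y = 0 := by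
          obtain ⟨z, hz⟩ := Ideal.mem_span_singleton'.mp hy
          have h1 : f x - f p ^ n * f y = f z * f t := by
            rw [← map_mul, hz, map_sub, map_mul, map_pow]
          rw [hx, ht, mul_zero, zero_sub, neg_eq_zero] at h1
          exact (mul_eq_zero.mp h1).resolve_left (pow_ne_zero n hp)
        have hym : y ∈ IsLocalRing.maximalIdeal R := by
          rw [IsLocalRing.mem_maximalIdeal]
          intro hu
          have h2 := hu.map f
          rw [hfy] at h2
          exact not_isUnit_zero h2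
        rw [hm, Ideal.mem_span_pair] at hym
        obtain ⟨a, b, hab⟩ := hym
        refine ⟨a, ?_⟩
        have h3 : x - p ^ (n + 1) * a = (x - p ^ n * y) + p ^ n * b * t := by
          rw [← hab]; ring
        rw [h3]
        exact Ideal.add_mem _ hy (Ideal.mul_mem_left _ _ (Ideal.subset_span rfl))
    have hI : Ideal.span {Ideal.Quotient.mk (Ideal.span {t}) p} ≠ ⊤ := by
      rw [Ne, Ideal.span_singleton_eq_top]
      intro hu
      obtain ⟨w, hw⟩ := isUnit_iff_exists_inv.mp hu
      obtain ⟨q, rfl⟩ := Ideal.Quotient.mk_surjective w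
      rw [← map_mul, ← map_one (Ideal.Quotient.mk (Ideal.span {t})), Ideal.Quotient.eq] at hw
      have h4 : (1 : R) ∈ IsLocalRing.maximalIdeal R := by
        have h5 : (1 : R) = p * q - (p * q - 1) := by ring
        rw [h5]
        exact Ideal.sub_mem _ (Ideal.mul_mem_right _ _ hpm) (hle hw)
      exact (IsLocalRing.maximalIdeal.isMaximal R).ne_top ((Ideal.eq_top_iff_one _).mpr h4)
    have hbot := Ideal.iInf_pow_eq_bot_of_isLocalRing
      (Ideal.span {Ideal.Quotient.mk (Ideal.span {t}) p}) hI
    have hxW : Ideal.Quotient.mk (Ideal.span {t}) x ∈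
        (⨅ i, Ideal.span {Ideal.Quotient.mk (Ideal.span {t}) p} ^ i) := by
      rw [Ideal.mem_iInf]
      intro n
      obtain ⟨y, hy⟩ := key n
      rw [Ideal.span_singleton_pow, Ideal.mem_span_singleton']
      refine ⟨Ideal.Quotient.mk _ y, ?_⟩
      rw [← map_pow, ← map_mul, mul_comm]
      exact (Ideal.Quotient.eq.mpr hy).symm
    rw [hbot, Ideal.mem_bot, Ideal.Quotient.eq_zero_iff_mem] at hxW
    exact hxW
  · rw [Ideal.span_le, Set.singleton_subset_iff]
    exact ht

/-- **(A1')** Krull stripping: in a noetherian local ring every nonzero `x` is `t ^ n * x'` with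
`x' ∉ (t)`, for a nonunit `t`. -/
theorem exists_eq_pow_mul_of_noeth {R : Type*} [CommRing R] [IsLocalRing R] [IsNoetherianRing R]
    (t : R) (ht : ¬ IsUnit t) {x : R} (hx : x ≠ 0) :
    ∃ (n : ℕ) (x' : R), x = t ^ n * x' ∧ x' ∉ Ideal.span {t} := by
  classical
  have hne : Ideal.span {t} ≠ ⊤ := by
    rwa [Ne, Ideal.span_singleton_eq_top]
  have hbot := Ideal.iInf_pow_eq_bot_of_isLocalRing (Ideal.span {t}) hne
  have hex : ∃ i : ℕ, x ∉ Ideal.span {t} ^ i := by
    by_contra hcon
    push Not at hcon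
    have : x ∈ (⨅ i, Ideal.span {t} ^ i) := by
      rw [Ideal.mem_iInf]; exact hcon
    rw [hbot, Ideal.mem_bot] at this
    exact hx this
  have h0 : Nat.find hex ≠ 0 := by
    intro h0
    have := Nat.find_spec hex
    rw [h0, pow_zero, Ideal.one_eq_top] at this
    exact this Submodule.mem_top
  obtain ⟨n, hn⟩ := Nat.exists_eq_succ_of_ne_zero h0
  have hmem : x ∈ Ideal.span {t} ^ n := by
    by_contra hcon
    have := Nat.find_min' hex hcon
    omega
  rw [Ideal.span_singleton_pow, Ideal.mem_span_singleton] at hmem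
  obtain ⟨x', rfl⟩ := hmem
  refine ⟨n, x', rfl, fun hx' => ?_⟩
  have := Nat.find_spec hex
  rw [hn, Ideal.span_singleton_pow, Ideal.mem_span_singleton] at this
  rw [Ideal.mem_span_singleton] at hx'
  obtain ⟨z, rfl⟩ := hx'
  exact this ⟨z, by rw [pow_succ]; ring⟩


/-! ### The setting -/

variable {L : Type*} [Field L] {A : ValuationSubring L}
variable {F : Type*} [Field F] [Algebra L F]
variable {S : Subring F}
variable {D : Type*} [CommRing D] [IsDomain D] [IsDiscreteValuationRing D]
variable {ρ : S →+* D} {T : S}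

/-! ### Levels -/

section Level

variable {S' : Subring F} {π : A}

/-- The inclusion of a level into `S`. -/
def IsLevel.incl (hl : IsLevel A S ρ T S' π) : S' →+* S := Subring.inclusion hl.le

omit [IsDomain D] [IsDiscreteValuationRing D] in
@[simp]
theorem IsLevel.coe_incl (hl : IsLevel A S ρ T S' π) (x : S') : ((hl.incl x : S) : F) = (x : F) :=
  rfl

theorem IsLevel.isUnit_iff (hl : IsLevel A S ρ T S' π) (x : S') :
    IsUnit x ↔ IsUnit (ρ (hl.incl x)) := by
  constructor
  · intro hx
    exact (hx.map hl.incl).map ρ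
  · intro hx
    have hinv := hl.unit (hl.incl x) x.2 hx
    have hx0 : (x : F) ≠ 0 := by
      intro h0
      have h1 : hl.incl x = 0 := Subtype.ext h0
      rw [h1, map_zero] at hx
      exact not_isUnit_zero hx
    exact isUnit_iff_exists_inv.mpr ⟨⟨(x : F)⁻¹, hinv⟩, Subtype.ext (mul_inv_cancel₀ hx0)⟩

theorem IsLevel.isLocalRing (hl : IsLevel A S ρ T S' π) : IsLocalRing S' := by
  refine IsLocalRing.of_isUnit_or_isUnit_one_sub_self fun x => ?_
  rw [hl.isUnit_iff, hl.isUnit_iff, map_sub, map_one, map_sub, map_one]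
  by_cases hx : IsUnit (ρ (hl.incl x))
  · exact Or.inl hx
  · exact Or.inr (IsLocalRing.isUnit_one_sub_self_of_mem_nonunits _ hx)

omit [IsDomain D] [IsDiscreteValuationRing D] in
/-- Constants of `𝔪_A` in a level are multiples of `π` there. -/
theorem IsLevel.exists_const_eq (hl : IsLevel A S ρ T S' π) {c : A} (hc : ¬ IsUnit c)
    (hcS : algebraMap L F (c : L) ∈ S') :
    ∃ v ∈ S', algebraMap L F (c : L) = algebraMap L F (π : L) * v := by
  by_cases hc0 : c = 0
  · exact ⟨0, S'.zero_mem, by rw [hc0]; simp⟩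
  · obtain ⟨m, u, hu, huS, hcu⟩ := hl.const c hc0 hcS
    have hm : m ≠ 0 := by
      rintro rfl
      apply hc
      rw [hcu, pow_zero, mul_one]
      exact hu
    obtain ⟨m', rfl⟩ := Nat.exists_eq_succ_of_ne_zero hm
    refine ⟨algebraMap L F (u : L) * algebraMap L F (π : L) ^ m',
      S'.mul_mem huS (S'.pow_mem hl.pi_mem _), ?_⟩
    rw [hcu]
    simp only [MulMemClass.coe_mul, SubmonoidClass.coe_pow, map_mul, map_pow, pow_succ]
    ring

/-- In a level, a nonunit is a combination of `π` and `T - c` (`c ∈ 𝔪_A` a constant of the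
level). -/
theorem IsLevel.exists_eq_add (hl : IsLevel A S ρ T S' π) (hT : Irreducible (ρ T)) {c : A}
    (hc : ¬ IsUnit c) (hcS : algebraMap L F (c : L) ∈ S') (x : S')
    (hx : ¬ IsUnit (ρ (hl.incl x))) :
    ∃ y z : S', x = (⟨algebraMap L F (π : L), hl.pi_mem⟩ : S') * y +
      (⟨(T : F) - algebraMap L F (c : L), S'.sub_mem hl.T_mem hcS⟩ : S') * z := by
  have hmem : ρ (hl.incl x) ∈ IsLocalRing.maximalIdeal D := (IsLocalRing.mem_maximalIdeal _).mpr hx
  rw [hT.maximalIdeal_eq, Ideal.mem_span_singleton'] at hmem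
  obtain ⟨d, hd⟩ := hmem
  obtain ⟨x', hx'S, hx'⟩ := hl.surj d
  have hw : ρ (hl.incl x - x' * T) = 0 := by
    rw [map_sub, map_mul, hx', hd, sub_self]
  have hwS : ((hl.incl x - x' * T : S) : F) ∈ S' := S'.sub_mem x.2 (S'.mul_mem hx'S hl.T_mem)
  obtain ⟨y, hyS, hy⟩ := hl.ker _ hwS hw
  obtain ⟨v, hvS, hv⟩ := hl.exists_const_eq hc hcS
  refine ⟨⟨y, hyS⟩ + ⟨v, hvS⟩ * ⟨x', hx'S⟩, ⟨x', hx'S⟩, Subtype.ext ?_⟩
  have h1 : (x : F) = ((hl.incl x - x' * T : S) : F) + (x' : F) * (T : F) := by
    push_cast
    rw [hl.coe_incl]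
    ring
  rw [h1, hy]
  push_cast
  rw [hv]
  ring

end Level

/-! ### Basic consequences -/

/-- `S` is local with maximal ideal `ρ ⁻¹ 𝔪_D`: an element with unit reduction is a unit. -/
theorem Setting.isUnit_of_isUnit_rho (h : Setting A S ρ T) {x : S} (hx : IsUnit (ρ x)) :
    IsUnit x := by
  obtain ⟨S', π, hl, hs⟩ := h.hdir {(x : F)} (by
    intro w hw
    rw [Finset.coe_singleton, Set.mem_singleton_iff] at hw
    rw [hw]
    exact x.2)
  have hxS : (x : F) ∈ S' := hs (by simp)
  have hinv := hl.le (hl.unit x hxS hx)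
  have hx0 : (x : F) ≠ 0 := by
    intro h0
    have h1 : x = 0 := Subtype.ext h0
    rw [h1, map_zero] at hx
    exact not_isUnit_zero hx
  exact isUnit_iff_exists_inv.mpr ⟨⟨(x : F)⁻¹, hinv⟩, Subtype.ext (mul_inv_cancel₀ hx0)⟩

omit [IsDomain D] [IsDiscreteValuationRing D] in
/-- Constants of `𝔪_A` reduce to zero. -/
theorem Setting.rho_const_eq_zero (h : Setting A S ρ T) {c : A} (hc : ¬ IsUnit c) :
    ρ (h.const c) = 0 := by
  obtain ⟨S', π, hl, hs⟩ := h.hdir {algebraMap L F (c : L)} (by
    intro w hw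
    rw [Finset.coe_singleton, Set.mem_singleton_iff] at hw
    rw [hw]
    exact h.hA c)
  have hcS : algebraMap L F (c : L) ∈ S' := hs (by simp)
  obtain ⟨v, hvS, hv⟩ := hl.exists_const_eq hc hcS
  have h1 : h.const c = h.const π * ⟨v, hl.le hvS⟩ := Subtype.ext hv
  rw [h1, map_mul, hl.rho_pi (h.const π) rfl, zero_mul]

omit [IsDomain D] [IsDiscreteValuationRing D] in
/-- Unit constants have unit reduction. -/
theorem Setting.isUnit_rho_const (h : Setting A S ρ T) {c : A} (hc : IsUnit c) :
    IsUnit (ρ (h.const c)) :=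
  (hc.map h.const).map ρ

/-- **(C1)** A nonzero nonunit reduction forces a zero: there is a retraction killing `a`. -/
theorem Setting.exists_retraction [IsAlgClosed L] (h : Setting A S ρ T) {a : S}
    (ha : ρ a ≠ 0) (ha' : ¬ IsUnit (ρ a)) :
    ∃ ε : S →+* A, h.IsRetraction ε ∧ ε a = 0 := by
  classical
  let _ : Algebra A S := h.const.toAlgebra
  have hloc : IsLocalRing S := by
    refine IsLocalRing.of_isUnit_or_isUnit_one_sub_self fun x => ?_
    by_cases hx : IsUnit (ρ x)
    · exact Or.inl (h.isUnit_of_isUnit_rho hx)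
    · refine Or.inr (h.isUnit_of_isUnit_rho ?_)
      rw [map_sub, map_one]
      exact IsLocalRing.isUnit_one_sub_self_of_mem_nonunits _ hx
  have hinj : Function.Injective (algebraMap A S) := by
    intro c c' hcc
    have h1 : algebraMap L F (c : L) = algebraMap L F (c' : L) :=
      congrArg (fun w : S => (w : F)) hcc
    exact Subtype.ext ((algebraMap L F).injective h1)
  have hdom : ∀ c : A, c ∈ IsLocalRing.maximalIdeal A →
      algebraMap A S c ∈ IsLocalRing.maximalIdeal S := by
    intro c hc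
    rw [IsLocalRing.mem_maximalIdeal, mem_nonunits_iff] at hc ⊢
    intro hu
    have h1 := hu.map ρ
    rw [show algebraMap A S c = h.const c from rfl, h.rho_const_eq_zero hc] at h1
    exact not_isUnit_zero h1
  have hdisj : ∀ c : A, c ≠ 0 → ∀ b : S, a * b ≠ algebraMap A S c := by
    intro c hc b hab
    obtain ⟨S', π, hl, hs⟩ := h.hdir {(a : F), (b : F), algebraMap L F (c : L)} (by
      intro w hw
      rw [Finset.coe_insert, Finset.coe_insert, Finset.coe_singleton, Set.mem_insert_iff,
        Set.mem_insert_iff, Set.mem_singleton_iff] at hw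
      rcases hw with rfl | rfl | rfl
      · exact a.2
      · exact b.2
      · exact h.hA _)
    obtain ⟨m, u, hu, huS, hcu⟩ := hl.const c hc (hs (by simp))
    have hπ0 : algebraMap L F (π : L) ≠ 0 := by
      intro h0
      rw [map_eq_zero] at h0
      exact hl.pi_ne (Subtype.ext h0)
    have key : ∀ m : ℕ, ∀ b : S, (b : F) ∈ S' →
        (a : F) * (b : F) = algebraMap L F (u : L) * algebraMap L F (π : L) ^ m → False := by
      intro m
      induction m with
      | zero =>
        intro b _ hb
        rw [pow_zero, mul_one] at hb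
        have hab' : a * b = h.const u := Subtype.ext hb
        have h1 := h.isUnit_rho_const hu
        rw [← hab', map_mul] at h1
        exact ha' (isUnit_of_mul_isUnit_left h1)
      | succ m ih =>
        intro b hbS hb
        have hab' : a * b = h.const u * h.const π ^ (m + 1) := Subtype.ext hb
        have hρ : ρ a * ρ b = 0 := by
          rw [← map_mul, hab', map_mul, map_pow, hl.rho_pi (h.const π) rfl, pow_succ, mul_zero,
            mul_zero]
        have hρb : ρ b = 0 := (mul_eq_zero.mp hρ).resolve_left ha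
        obtain ⟨y, hyS, hy⟩ := hl.ker b hbS hρb
        refine ih ⟨y, hl.le hyS⟩ hyS ?_
        rw [hy, pow_succ] at hb
        have h2 : algebraMap L F (π : L) * ((a : F) * y) =
            algebraMap L F (π : L) * (algebraMap L F (u : L) * algebraMap L F (π : L) ^ m) := by
          rw [← mul_assoc, mul_comm _ (a : F), mul_assoc, hb]
          ring
        exact mul_left_cancel₀ hπ0 h2
    refine key m b (hs (by simp)) ?_
    have h3 : (a : F) * (b : F) = algebraMap L F (c : L) := congrArg (fun w : S => (w : F)) hab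
    rw [h3, hcu]
    simp only [MulMemClass.coe_mul, SubmonoidClass.coe_pow, map_mul, map_pow]
  have halg : ∀ x : S, ∃ g : Polynomial A, g ≠ 0 ∧ Polynomial.aeval x g ∈ Ideal.span {a} := by
    intro x
    have ha0 : a ≠ 0 := fun h0 => ha (by rw [h0, map_zero])
    obtain ⟨g, hg, b, hgb⟩ := h.halg a x ha0
    refine ⟨g, hg, Ideal.mem_span_singleton'.mpr ⟨b, Subtype.ext ?_⟩⟩
    rw [Polynomial.aeval_def]
    have h4 : ((Polynomial.eval₂ (algebraMap A S) x g : S) : F) =
        g.eval₂ ((algebraMap L F).comp A.subtype) (x : F) :=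
      Polynomial.hom_eval₂ g (algebraMap A S) S.subtype x
    rw [h4, hgb]
    push_cast
    ring
  obtain ⟨ε, hε⟩ := ConsZero.exists_retraction A hinj hdom a hdisj halg
  exact ⟨ε.toRingHom, fun c => ε.commutes c, hε⟩

/-- **(C2a)** The value of `T` under a retraction lies in `𝔪_A`. -/
theorem Setting.retraction_T_nonunit (h : Setting A S ρ T) {ε : S →+* A}
    (hε : h.IsRetraction ε) : ¬ IsUnit (ε T) := by
  intro hu
  have h1 : IsUnit (ρ (T - h.const (ε T))) := by
    rw [map_sub]
    by_contra hcon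
    have h2 : ρ T - ρ (h.const (ε T)) ∈ IsLocalRing.maximalIdeal D :=
      (IsLocalRing.mem_maximalIdeal _).mpr hcon
    have h3 : ρ T ∈ IsLocalRing.maximalIdeal D :=
      (IsLocalRing.mem_maximalIdeal _).mpr h.hT.not_isUnit
    have h4 : ρ (h.const (ε T)) ∈ IsLocalRing.maximalIdeal D := by
      have h5 : ρ (h.const (ε T)) = ρ T - (ρ T - ρ (h.const (ε T))) := by ring
      rw [h5]
      exact Ideal.sub_mem _ h3 h2
    exact (IsLocalRing.mem_maximalIdeal _).mp h4 (h.isUnit_rho_const hu)
  have h6 := (h.isUnit_of_isUnit_rho h1).map ε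
  rw [map_sub, hε, sub_self] at h6
  exact not_isUnit_zero h6

section Level2

variable {S' : Subring F} {π : A}

/-- The kernel of a retraction on a level containing the constant `ε T`. -/
theorem IsLevel.ker_comp (hl : IsLevel A S ρ T S' π) (h : Setting A S ρ T) {ε : S →+* A}
    (hε : h.IsRetraction ε) (hcS : algebraMap L F ((ε T : A) : L) ∈ S') :
    RingHom.ker (ε.comp hl.incl) =
      Ideal.span {(⟨(T : F) - algebraMap L F ((ε T : A) : L), S'.sub_mem hl.T_mem hcS⟩ : S')} := by
  have hloc : IsLocalRing S' := hl.isLocalRing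
  have hnoeth : IsNoetherianRing S' := hl.noeth
  have hc := h.retraction_T_nonunit hε
  have hp : hl.incl ⟨algebraMap L F (π : L), hl.pi_mem⟩ = h.const π := Subtype.ext rfl
  have ht : hl.incl ⟨(T : F) - algebraMap L F ((ε T : A) : L), S'.sub_mem hl.T_mem hcS⟩
      = T - h.const (ε T) := Subtype.ext rfl
  refine ker_eq_span_of_maximalIdeal_eq (ε.comp hl.incl) ⟨algebraMap L F (π : L), hl.pi_mem⟩ _ ?_ ?_ ?_
  · ext x
    rw [IsLocalRing.mem_maximalIdeal, mem_nonunits_iff, hl.isUnit_iff, Ideal.mem_span_pair]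
    constructor
    · intro hx
      obtain ⟨y, z, hyz⟩ := hl.exists_eq_add h.hT hc hcS x hx
      exact ⟨y, z, by rw [hyz]; ring⟩
    · rintro ⟨a, b, rfl⟩
      rw [map_add, map_mul, map_mul, hp, ht, map_add, map_mul, map_mul,
        hl.rho_pi (h.const π) rfl, mul_zero, zero_add, map_sub, h.rho_const_eq_zero hc, sub_zero]
      intro hu
      exact h.hT.not_isUnit (isUnit_of_mul_isUnit_right hu)
  · rw [RingHom.comp_apply, ht, map_sub, hε, sub_self]
  · rw [RingHom.comp_apply, hp, hε]
    exact hl.pi_ne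

end Level2

/-- **(C2b)** The kernel of a retraction `ε` is generated by `T - ε T`. -/
theorem Setting.ker_retraction (h : Setting A S ρ T) {ε : S →+* A} (hε : h.IsRetraction ε) :
    RingHom.ker ε = Ideal.span {T - h.const (ε T)} := by
  apply le_antisymm
  · intro x hx
    rw [RingHom.mem_ker] at hx
    classical
    obtain ⟨S', π, hl, hs⟩ := h.hdir {(x : F), algebraMap L F ((ε T : A) : L)} (by
      intro w hw
      rw [Finset.coe_insert, Finset.coe_singleton, Set.mem_insert_iff, Set.mem_singleton_iff] at hw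
      rcases hw with rfl | rfl
      · exact x.2
      · exact h.hA _)
    have hxS : (x : F) ∈ S' := hs (by simp)
    have hcS : algebraMap L F ((ε T : A) : L) ∈ S' := hs (by simp)
    have hker := hl.ker_comp h hε hcS
    have hxk : (⟨(x : F), hxS⟩ : S') ∈ RingHom.ker (ε.comp hl.incl) := by
      rw [RingHom.mem_ker, RingHom.comp_apply]
      have : hl.incl ⟨(x : F), hxS⟩ = x := Subtype.ext rfl
      rw [this, hx]
    rw [hker, Ideal.mem_span_singleton'] at hxk
    obtain ⟨z, hz⟩ := hxk
    rw [Ideal.mem_span_singleton']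
    refine ⟨hl.incl z, Subtype.ext ?_⟩
    have := congrArg (fun w : S' => (w : F)) hz
    simpa using this
  · rw [Ideal.span_le, Set.singleton_subset_iff, SetLike.mem_coe, RingHom.mem_ker, map_sub, hε,
      sub_self]

/-- **(C2c)** A retraction is determined by its value at `T`. -/
theorem Setting.retraction_ext (h : Setting A S ρ T) {ε ε' : S →+* A}
    (hε : h.IsRetraction ε) (hε' : h.IsRetraction ε') (hT : ε T = ε' T) : ε = ε' := by
  refine RingHom.ext fun x => ?_
  have hk : x - h.const (ε x) ∈ RingHom.ker ε := by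
    rw [RingHom.mem_ker, map_sub, hε, sub_self]
  rw [h.ker_retraction hε, hT, ← h.ker_retraction hε', RingHom.mem_ker, map_sub, hε',
    sub_eq_zero] at hk
  exact hk.symm

/-- **(C2d)** Every element of `𝔪_A` is the value of `T` under a retraction. -/
theorem Setting.exists_retraction_of_nonunit [IsAlgClosed L] (h : Setting A S ρ T) {c : A}
    (hc : ¬ IsUnit c) : ∃ ε : S →+* A, h.IsRetraction ε ∧ ε T = c := by
  have hρ : ρ (T - h.const c) = ρ T := by
    rw [map_sub, h.rho_const_eq_zero hc, sub_zero]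
  obtain ⟨ε, hε, h0⟩ := h.exists_retraction (a := T - h.const c)
    (by rw [hρ]; exact h.hT.ne_zero) (by rw [hρ]; exact h.hT.not_isUnit)
  refine ⟨ε, hε, ?_⟩
  rw [map_sub, hε, sub_eq_zero] at h0
  exact h0

/-- **(C3)** Factorisation: `a = unit * ∏ (T - c_i)` with `c_i ∈ 𝔪_A`; the number of factors is
the order of `ρ a`. -/
theorem Setting.exists_factorization [IsAlgClosed L] (h : Setting A S ρ T) {a : S}
    (ha : ρ a ≠ 0) :
    ∃ (cs : Multiset A) (u : S), IsUnit u ∧ (∀ c ∈ cs, ¬ IsUnit c) ∧
      a = u * (cs.map fun c => T - h.const c).prod ∧ Associated (ρ a) (ρ T ^ Multiset.card cs) := by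
  obtain ⟨n, hn⟩ := IsDiscreteValuationRing.associated_pow_irreducible ha h.hT
  induction n generalizing a with
  | zero =>
    rw [pow_zero] at hn
    have hu : IsUnit (ρ a) := hn.symm.isUnit isUnit_one
    exact ⟨0, a, h.isUnit_of_isUnit_rho hu, by simp, by simp, by simpa using hn⟩
  | succ n ih =>
    have hnu : ¬ IsUnit (ρ a) := by
      intro hu
      have h1 : IsUnit (ρ T ^ (n + 1)) := hn.isUnit hu
      exact h.hT.not_isUnit (isUnit_of_dvd_unit (dvd_pow_self _ (Nat.succ_ne_zero n)) h1)
    obtain ⟨ε, hε, h0⟩ := h.exists_retraction ha hnu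
    have hk : a ∈ RingHom.ker ε := h0
    rw [h.ker_retraction hε, Ideal.mem_span_singleton] at hk
    obtain ⟨a₁, rfl⟩ := hk
    have hc := h.retraction_T_nonunit hε
    have hρ : ρ (T - h.const (ε T)) = ρ T := by
      rw [map_sub, h.rho_const_eq_zero hc, sub_zero]
    rw [map_mul, hρ] at ha hn
    have ha₁ : ρ a₁ ≠ 0 := right_ne_zero_of_mul ha
    have hn₁ : Associated (ρ a₁) (ρ T ^ n) := by
      rw [pow_succ'] at hn
      exact hn.of_mul_left (Associated.refl _) h.hT.ne_zero
    obtain ⟨cs, u, hu, hcs, hfac, hass⟩ := ih ha₁ hn₁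
    refine ⟨ε T ::ₘ cs, u, hu, ?_, ?_, ?_⟩
    · intro c hc'
      rw [Multiset.mem_cons] at hc'
      rcases hc' with rfl | hc'
      · exact hc
      · exact hcs c hc'
    · rw [Multiset.map_cons, Multiset.prod_cons]
      conv_lhs => rw [hfac]
      ring
    · rw [Multiset.card_cons, map_mul, hρ, pow_succ']
      exact (Associated.refl _).mul_mul hass

/-- **(C4)** Normal form at a retraction: `x = (T - ε T) ^ n * x'` with `ε x' ≠ 0`. -/
theorem Setting.exists_eq_pow_mul (h : Setting A S ρ T) {ε : S →+* A} (hε : h.IsRetraction ε)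
    {x : S} (hx : x ≠ 0) :
    ∃ (n : ℕ) (x' : S), x = (T - h.const (ε T)) ^ n * x' ∧ ε x' ≠ 0 := by
  classical
  obtain ⟨S', π, hl, hs⟩ := h.hdir {(x : F), algebraMap L F ((ε T : A) : L)} (by
    intro w hw
    rw [Finset.coe_insert, Finset.coe_singleton, Set.mem_insert_iff, Set.mem_singleton_iff] at hw
    rcases hw with rfl | rfl
    · exact x.2
    · exact h.hA _)
  have hxS : (x : F) ∈ S' := hs (by simp)
  have hcS : algebraMap L F ((ε T : A) : L) ∈ S' := hs (by simp)
  have hker := hl.ker_comp h hε hcS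
  have hloc : IsLocalRing S' := hl.isLocalRing
  have hnoeth : IsNoetherianRing S' := hl.noeth
  have hc := h.retraction_T_nonunit hε
  have ht : hl.incl ⟨(T : F) - algebraMap L F ((ε T : A) : L), S'.sub_mem hl.T_mem hcS⟩
      = T - h.const (ε T) := Subtype.ext rfl
  have htu : ¬ IsUnit (⟨(T : F) - algebraMap L F ((ε T : A) : L), S'.sub_mem hl.T_mem hcS⟩ : S') := by
    rw [hl.isUnit_iff, ht, map_sub, h.rho_const_eq_zero hc, sub_zero]
    exact h.hT.not_isUnit
  have hx0 : (⟨(x : F), hxS⟩ : S') ≠ 0 := by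
    intro h0
    exact hx (Subtype.ext (congrArg (fun w : S' => (w : F)) h0))
  obtain ⟨n, y, hy, hyn⟩ := exists_eq_pow_mul_of_noeth _ htu hx0
  refine ⟨n, hl.incl y, ?_, ?_⟩
  · have h1 := congrArg hl.incl hy
    rw [map_mul, map_pow, ht] at h1
    rw [← h1]
    exact Subtype.ext rfl
  · intro h0
    apply hyn
    rw [← hker, RingHom.mem_ker, RingHom.comp_apply, h0]

end Fermat.Agent.S37.Cons
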