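/-
S37, block [PM]/[R0] — ConsPlace.lean (statements: helper15; proofs: helper73): conservation of
number at one closed point, PLACE FORM (for the prelude's `AlgebraicCurve.Place` / `Place.ord`),
on top of the abstract core `ConsCore.lean`.

`Pts A S` := the places `P` of `F / L` at which every element of `S` is regular with a value in
`A` (model: the places with `r P = Q`).  Then `P ↦ (value of T at P)` is a bijection
`Pts A S ≃ 𝔪_A`, and for `a b : S` with `ρ a ≠ 0`, `ρ b ≠ 0`:
`∑_{P ∈ Pts} ord_P (a / b) = ord (ρ a) - ord (ρ b)`.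
-/
import Mathlib
import Fermat.Prelude.Def_AlgebraicCurve_DivisorClassGroup
import Fermat.Agent.S18.PlaceOfUnif
import Fermat.Agent.S24.PlaceBasic
import Fermat.Agent.S37.PMCover
import Fermat.Agent.S37.ConsCore

set_option autoImplicit false
set_option linter.unusedSectionVars false
set_option linter.unusedVariables false

namespace Fermat.Agent.S37.Cons

open AlgebraicCurve Fermat.Agent.S37.PM Fermat.Agent.S37.PMCover

section GenericPlace

variable {K' F' : Type*} [Field K'] [Field F'] [Algebra K' F']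

/-- A function with a nonzero value at a place has order `0` there. -/
theorem ord_eq_zero_of_valAt (v : Place K' F') {z : F'} {c : K'} (hz : ValAt v z c)
    (hc : c ≠ 0) : v.ord z = 0 := by
  have h1 := Fermat.Agent.S24.ord_nonneg_of_mem v (valAt_mem v hz)
  have h2 := Fermat.Agent.S24.ord_nonneg_of_mem v (valAt_mem v (valAt_inv v hz hc))
  rw [v.ord_inv] at h2
  omega

/-- A nonzero function with value `0` at a place has positive order there. -/
theorem ord_pos_of_valAt_zero (v : Place K' F') {z : F'} (hz : ValAt v z 0) (hz0 : z ≠ 0) :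
    0 < v.ord z := by
  have h1 := (valAt_zero_iff v).mp hz
  rcases (Fermat.Agent.S37.NormVal.mem_nonunits_iff_ord v z).mp h1 with h | h
  · exact absurd h hz0
  · exact h

end GenericPlace

variable {L : Type*} [Field L] (A : ValuationSubring L)
variable {F : Type*} [Field F] [Algebra L F]
variable (S : Subring F)
variable {D : Type*} [CommRing D] [IsDomain D] [IsDiscreteValuationRing D]
variable {ρ : S →+* D} {T : S}

/-- The places of `F / L` at which every element of `S` is regular with a value in `A`. -/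
def Pts : Set (Place L F) :=
  {P | ∀ x ∈ S, ∃ c : A, x - algebraMap L F (c : L) ∈ P.toValuationSubring.nonunits}

variable {A S}

/-! ### Auxiliary facts -/

/-- `T - c ≠ 0` for `c ∈ 𝔪_A`. -/
theorem Setting.sub_const_ne_zero (h : Setting A S ρ T) {c : A} (hc : ¬ IsUnit c) :
    T - h.const c ≠ 0 := by
  intro h0
  have h1 := congrArg ρ h0
  rw [map_sub, h.rho_const_eq_zero hc, sub_zero, map_zero] at h1
  exact h.hT.ne_zero h1

/-- A retraction kills `T - ε T`. -/
theorem Setting.eps_sub_const (h : Setting A S ρ T) {ε : S →+* A} (hε : h.IsRetraction ε) :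
    ε (T - h.const (ε T)) = 0 := by
  rw [map_sub, hε, sub_self]

theorem coe_ne_zero_of_ne_zero {z : S} (hz : z ≠ 0) : (z : F) ≠ 0 :=
  fun h0 => hz (Subtype.ext h0)

/-- Elements of `S` with nonzero value have order `0`. -/
theorem Setting.ord_eq_zero_of_eps_ne_zero (h : Setting A S ρ T) {P : Place L F}
    {ε : S →+* A}
    (hPε : ∀ x : S, (x : F) - algebraMap L F ((ε x : A) : L) ∈ P.toValuationSubring.nonunits)
    {z : S} (hz : ε z ≠ 0) : P.ord (z : F) = 0 := by
  have h1 : ValAt P (z : F) ((ε z : A) : L) := hPε z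
  exact ord_eq_zero_of_valAt P h1 (fun h0 => hz (Subtype.ext h0))

theorem Setting.ne_zero_of_eps_ne_zero (h : Setting A S ρ T) {ε : S →+* A} {z : S}
    (hz : ε z ≠ 0) : z ≠ 0 := by
  rintro rfl
  exact hz (map_zero ε)

/-- The order of `(T - ε T) ^ n * z'` with `ε z' ≠ 0`. -/
theorem Setting.ord_pow_mul (h : Setting A S ρ T) {P : Place L F} {ε : S →+* A}
    (hε : h.IsRetraction ε)
    (hPε : ∀ x : S, (x : F) - algebraMap L F ((ε x : A) : L) ∈ P.toValuationSubring.nonunits)
    {z z' : S} {n : ℕ} (hz : z = (T - h.const (ε T)) ^ n * z') (hz' : ε z' ≠ 0) :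
    P.ord (z : F) = n * P.ord ((T - h.const (ε T) : S) : F) := by
  have hτ : (T - h.const (ε T) : S) ≠ 0 := h.sub_const_ne_zero (h.retraction_T_nonunit hε)
  have hτF : ((T - h.const (ε T) : S) : F) ≠ 0 := coe_ne_zero_of_ne_zero hτ
  have hz'F : (z' : F) ≠ 0 := coe_ne_zero_of_ne_zero (h.ne_zero_of_eps_ne_zero hz')
  rw [hz, Subring.coe_mul, Subring.coe_pow, P.ord_mul (pow_ne_zero n hτF) hz'F,
    Fermat.Agent.S24.ord_pow, h.ord_eq_zero_of_eps_ne_zero hPε hz', add_zero]

/-- `T - ε T` is a uniformizer at the place. -/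
theorem Setting.ord_sub_const (h : Setting A S ρ T)
    (hfrac : ∀ f : F, ∃ x y : S, y ≠ 0 ∧ f * (y : F) = x) {P : Place L F}
    {ε : S →+* A} (hε : h.IsRetraction ε)
    (hPε : ∀ x : S, (x : F) - algebraMap L F ((ε x : A) : L) ∈ P.toValuationSubring.nonunits) :
    P.ord ((T - h.const (ε T) : S) : F) = 1 := by
  have hτ : (T - h.const (ε T) : S) ≠ 0 := h.sub_const_ne_zero (h.retraction_T_nonunit hε)
  have hτF : ((T - h.const (ε T) : S) : F) ≠ 0 := coe_ne_zero_of_ne_zero hτ
  -- positivity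
  have hpos : 0 < P.ord ((T - h.const (ε T) : S) : F) := by
    refine ord_pos_of_valAt_zero P ?_ hτF
    have h1 := hPε (T - h.const (ε T))
    rw [h.eps_sub_const hε] at h1
    exact h1
  -- a uniformizer of the place is a quotient of two elements of `S`
  obtain ⟨π, hπ⟩ := Fermat.Agent.S24.exists_ord_eq_one P
  have hπ0 : π ≠ 0 := by
    rintro rfl
    rw [Place.ord_zero] at hπ
    exact zero_ne_one hπ
  obtain ⟨x₁, y₁, hy₁, hxy⟩ := hfrac π
  have hy₁F : (y₁ : F) ≠ 0 := coe_ne_zero_of_ne_zero hy₁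
  have hx₁ : x₁ ≠ 0 := by
    rintro rfl
    rw [Subring.coe_zero] at hxy
    rcases mul_eq_zero.mp hxy with h0 | h0
    · exact hπ0 h0
    · exact hy₁F h0
  obtain ⟨n₁, x₁', hex, hx₁'⟩ := h.exists_eq_pow_mul hε hx₁
  obtain ⟨m₁, y₁', hey, hy₁'⟩ := h.exists_eq_pow_mul hε hy₁
  have e1 := h.ord_pow_mul hε hPε hex hx₁'
  have e2 := h.ord_pow_mul hε hPε hey hy₁'
  have e3 : P.ord π + P.ord (y₁ : F) = P.ord (x₁ : F) := by
    rw [← hxy, P.ord_mul hπ0 hy₁F]
  rw [hπ, e1, e2] at e3
  refine Int.eq_one_of_dvd_one hpos.le ⟨(n₁ : ℤ) - m₁, ?_⟩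
  linear_combination e3

/-! ### The five statements -/

/-- The value map of a place in `Pts A S` is a retraction. -/
theorem Setting.exists_retraction_of_mem_pts (h : Setting A S ρ T) {P : Place L F}
    (hP : P ∈ Pts A S) :
    ∃ ε : S →+* A, h.IsRetraction ε ∧
      ∀ x : S, (x : F) - algebraMap L F ((ε x : A) : L) ∈ P.toValuationSubring.nonunits := by
  classical
  choose f hf using fun x : S => hP (x : F) x.2
  have hf' : ∀ x : S, ValAt P (x : F) ((f x : A) : L) := hf
  have huniq : ∀ (x : S) (c : A), ValAt P (x : F) (c : L) → f x = c := fun x c hc =>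
    Subtype.ext (valAt_unique P (hf' x) hc)
  let ε : S →+* A :=
    { toFun := f
      map_one' := huniq 1 1 (valAt_one P)
      map_mul' := fun a b => huniq (a * b) (f a * f b) (valAt_mul P (hf' a) (hf' b))
      map_zero' := huniq 0 0 (valAt_zero P)
      map_add' := fun a b => huniq (a + b) (f a + f b) (valAt_add P (hf' a) (hf' b)) }
  exact ⟨ε, fun c => huniq (h.const c) c (valAt_algebraMap P (c : L)), hf⟩

/-- Orders at a place of `Pts A S` are read off from the normal form of the core. -/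
theorem Setting.ord_eq_of_mem_pts (h : Setting A S ρ T)
    (hfrac : ∀ f : F, ∃ x y : S, y ≠ 0 ∧ f * (y : F) = x) {P : Place L F} (hP : P ∈ Pts A S)
    {ε : S →+* A} (hε : h.IsRetraction ε)
    (hPε : ∀ x : S, (x : F) - algebraMap L F ((ε x : A) : L) ∈ P.toValuationSubring.nonunits)
    {x x' : S} {n : ℕ} (hx : x = (T - h.const (ε T)) ^ n * x') (hx' : ε x' ≠ 0) :
    P.ord (x : F) = n := by
  rw [h.ord_pow_mul hε hPε hx hx', h.ord_sub_const hfrac hε hPε, mul_one]

/-- A place of `Pts A S` is determined by the value of `T`. -/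
theorem Setting.pts_ext (h : Setting A S ρ T)
    (hfrac : ∀ f : F, ∃ x y : S, y ≠ 0 ∧ f * (y : F) = x) {P P' : Place L F}
    (hP : P ∈ Pts A S) (hP' : P' ∈ Pts A S) {c : A}
    (hc : (T : F) - algebraMap L F (c : L) ∈ P.toValuationSubring.nonunits)
    (hc' : (T : F) - algebraMap L F (c : L) ∈ P'.toValuationSubring.nonunits) : P = P' := by
  obtain ⟨ε, hε, hPε⟩ := h.exists_retraction_of_mem_pts hP
  obtain ⟨ε', hε', hPε'⟩ := h.exists_retraction_of_mem_pts hP'
  have e1 : ε T = c := Subtype.ext (valAt_unique P (hPε T) hc)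
  have e2 : ε' T = c := Subtype.ext (valAt_unique P' (hPε' T) hc')
  have hεε : ε = ε' := h.retraction_ext hε hε' (e1.trans e2.symm)
  subst hεε
  have key : ∀ f : F, P.ord f = P'.ord f := by
    intro f
    by_cases hf : f = 0
    · subst hf
      rw [Place.ord_zero, Place.ord_zero]
    obtain ⟨x, y, hy, hxy⟩ := hfrac f
    have hyF : (y : F) ≠ 0 := coe_ne_zero_of_ne_zero hy
    have hx : x ≠ 0 := by
      rintro rfl
      rw [Subring.coe_zero] at hxy
      rcases mul_eq_zero.mp hxy with h0 | h0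
      · exact hf h0
      · exact hyF h0
    obtain ⟨n, x', hex, hx'⟩ := h.exists_eq_pow_mul hε hx
    obtain ⟨m, y', hey, hy'⟩ := h.exists_eq_pow_mul hε hy
    have a1 := h.ord_eq_of_mem_pts hfrac hP hε hPε hex hx'
    have a2 := h.ord_eq_of_mem_pts hfrac hP' hε hPε' hex hx'
    have b1 := h.ord_eq_of_mem_pts hfrac hP hε hPε hey hy'
    have b2 := h.ord_eq_of_mem_pts hfrac hP' hε hPε' hey hy'
    have c1 : P.ord f + P.ord (y : F) = P.ord (x : F) := by
      rw [← hxy, P.ord_mul hf hyF]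
    have c2 : P'.ord f + P'.ord (y : F) = P'.ord (x : F) := by
      rw [← hxy, P'.ord_mul hf hyF]
    omega
  apply Place.ext
  ext f
  rw [Fermat.Agent.S24.mem_iff_ord_nonneg' P f, Fermat.Agent.S24.mem_iff_ord_nonneg' P' f, key f]

/-- Every element of `𝔪_A` is the value of `T` at a place of `Pts A S`. -/
theorem Setting.exists_mem_pts [IsAlgClosed L] (h : Setting A S ρ T)
    (hfrac : ∀ f : F, ∃ x y : S, y ≠ 0 ∧ f * (y : F) = x) {c : A} (hc : ¬ IsUnit c) :
    ∃ P ∈ Pts A S, (T : F) - algebraMap L F (c : L) ∈ P.toValuationSubring.nonunits := by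
  obtain ⟨ε, hε, hεT⟩ := h.exists_retraction_of_nonunit hc
  have hτ : (T - h.const (ε T) : S) ≠ 0 := h.sub_const_ne_zero (h.retraction_T_nonunit hε)
  have hτF : ((T - h.const (ε T) : S) : F) ≠ 0 := coe_ne_zero_of_ne_zero hτ
  have hετ : ε (T - h.const (ε T)) = 0 := h.eps_sub_const hε
  have hε1 : ε 1 ≠ 0 := by rw [map_one]; exact one_ne_zero
  -- normal form of the nonzero elements of `F`
  have nf : ∀ f : F, f ≠ 0 → ∃ (k : ℤ) (x' y' : S), ε x' ≠ 0 ∧ ε y' ≠ 0 ∧
      f * (y' : F) = ((T - h.const (ε T) : S) : F) ^ k * (x' : F) := by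
    intro f hf
    obtain ⟨x, y, hy, hxy⟩ := hfrac f
    have hyF : (y : F) ≠ 0 := coe_ne_zero_of_ne_zero hy
    have hx : x ≠ 0 := by
      rintro rfl
      rw [Subring.coe_zero] at hxy
      rcases mul_eq_zero.mp hxy with h0 | h0
      · exact hf h0
      · exact hyF h0
    obtain ⟨n, x', hex, hx'⟩ := h.exists_eq_pow_mul hε hx
    obtain ⟨m, y', hey, hy'⟩ := h.exists_eq_pow_mul hε hy
    refine ⟨(n : ℤ) - m, x', y', hx', hy', ?_⟩
    have hxy' : f * (((T - h.const (ε T) : S) : F) ^ m * (y' : F))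
        = ((T - h.const (ε T) : S) : F) ^ n * (x' : F) := by
      have e1 : (y : F) = ((T - h.const (ε T) : S) : F) ^ m * (y' : F) := by
        rw [hey, Subring.coe_mul, Subring.coe_pow]
      have e2 : (x : F) = ((T - h.const (ε T) : S) : F) ^ n * (x' : F) := by
        rw [hex, Subring.coe_mul, Subring.coe_pow]
      rw [← e1, ← e2]
      exact hxy
    rw [zpow_sub₀ hτF, zpow_natCast, zpow_natCast]
    have hm : ((T - h.const (ε T) : S) : F) ^ m ≠ 0 := pow_ne_zero m hτF
    field_simp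
    linear_combination hxy'
  -- the local ring of `ε`
  let W : ValuationSubring F :=
    { carrier := {f | ∃ x y : S, ε y ≠ 0 ∧ f * (y : F) = x}
      mul_mem' := by
        rintro f g ⟨x, y, hy, e⟩ ⟨x', y', hy', e'⟩
        refine ⟨x * x', y * y', ?_, ?_⟩
        · rw [map_mul]; exact mul_ne_zero hy hy'
        · rw [Subring.coe_mul, Subring.coe_mul, ← e, ← e']; ring
      one_mem' := ⟨1, 1, hε1, by rw [Subring.coe_one, mul_one]⟩
      add_mem' := by
        rintro f g ⟨x, y, hy, e⟩ ⟨x', y', hy', e'⟩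
        refine ⟨x * y' + x' * y, y * y', ?_, ?_⟩
        · rw [map_mul]; exact mul_ne_zero hy hy'
        · rw [Subring.coe_add, Subring.coe_mul, Subring.coe_mul, Subring.coe_mul, ← e, ← e']; ring
      zero_mem' := ⟨0, 1, hε1, by rw [Subring.coe_one, mul_one, Subring.coe_zero]⟩
      neg_mem' := by
        rintro f ⟨x, y, hy, e⟩
        exact ⟨-x, y, hy, by rw [Subring.coe_neg, ← e]; ring⟩
      mem_or_inv_mem' := by
        intro f
        by_cases hf : f = 0
        · left
          exact ⟨0, 1, hε1, by rw [hf, Subring.coe_zero, zero_mul]⟩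
        obtain ⟨k, x', y', hx', hy', e⟩ := nf f hf
        have hx'F : (x' : F) ≠ 0 := coe_ne_zero_of_ne_zero (h.ne_zero_of_eps_ne_zero hx')
        have hy'F : (y' : F) ≠ 0 := coe_ne_zero_of_ne_zero (h.ne_zero_of_eps_ne_zero hy')
        rcases le_or_gt 0 k with hk | hk
        · left
          obtain ⟨j, rfl⟩ := Int.eq_ofNat_of_zero_le hk
          refine ⟨(T - h.const (ε T)) ^ j * x', y', hy', ?_⟩
          rw [e, zpow_natCast, Subring.coe_mul, Subring.coe_pow]
        · right
          obtain ⟨j, hj⟩ := Int.eq_ofNat_of_zero_le (show (0 : ℤ) ≤ -k by omega)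
          refine ⟨(T - h.const (ε T)) ^ j * y', x', hx', ?_⟩
          rw [Subring.coe_mul, Subring.coe_pow, ← zpow_natCast, ← hj, zpow_neg]
          have hk0 : ((T - h.const (ε T) : S) : F) ^ k ≠ 0 := zpow_ne_zero k hτF
          field_simp
          linear_combination -e }
  have hW : ∀ f : F, f ∈ W ↔ ∃ x y : S, ε y ≠ 0 ∧ f * (y : F) = x := fun f => Iff.rfl
  have hSW : ∀ z : S, (z : F) ∈ W := fun z =>
    (hW _).mpr ⟨z, 1, hε1, by rw [Subring.coe_one, mul_one]⟩
  have hconst : ∀ c' : L, algebraMap L F c' ∈ W := by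
    intro c'
    by_cases hc' : c' ∈ A
    · exact hSW (h.const ⟨c', hc'⟩)
    · have hci : c'⁻¹ ∈ A := (A.mem_or_inv_mem c').resolve_left hc'
      have hc0 : c' ≠ 0 := fun h0 => hc' (h0 ▸ A.zero_mem)
      refine (hW _).mpr ⟨1, h.const ⟨c'⁻¹, hci⟩, ?_, ?_⟩
      · rw [hε]
        intro h0
        exact inv_ne_zero hc0 (congrArg Subtype.val h0)
      · rw [Setting.coe_const, Subring.coe_one, ← map_mul]
        show algebraMap L F (c' * c'⁻¹) = 1
        rw [mul_inv_cancel₀ hc0, map_one]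
  have htW : ((T - h.const (ε T) : S) : F) ∈ W := hSW _
  have htn : ((T - h.const (ε T) : S) : F)⁻¹ ∉ W := by
    intro hmem
    obtain ⟨x, y, hy, e⟩ := (hW _).mp hmem
    apply hy
    have e' : y = (T - h.const (ε T)) * x := by
      apply Subtype.ext
      rw [Subring.coe_mul, ← e]
      field_simp
    rw [e', map_mul, hετ, zero_mul]
  have hgood : ∀ f : F, f ≠ 0 → ∃ n : ℤ, f * ((T - h.const (ε T) : S) : F) ^ n ∈ W ∧
      (f * ((T - h.const (ε T) : S) : F) ^ n)⁻¹ ∈ W := by
    intro f hf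
    obtain ⟨k, x', y', hx', hy', e⟩ := nf f hf
    have hx'F : (x' : F) ≠ 0 := coe_ne_zero_of_ne_zero (h.ne_zero_of_eps_ne_zero hx')
    have hy'F : (y' : F) ≠ 0 := coe_ne_zero_of_ne_zero (h.ne_zero_of_eps_ne_zero hy')
    have hk0 : ((T - h.const (ε T) : S) : F) ^ k ≠ 0 := zpow_ne_zero k hτF
    have e0 : f * ((T - h.const (ε T) : S) : F) ^ (-k) * (y' : F) = (x' : F) := by
      rw [zpow_neg]
      field_simp
      linear_combination e
    refine ⟨-k, (hW _).mpr ⟨x', y', hy', e0⟩, (hW _).mpr ⟨y', x', hx', ?_⟩⟩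
    have e1 : f * ((T - h.const (ε T) : S) : F) ^ (-k) = (x' : F) / (y' : F) := by
      rw [eq_div_iff hy'F]
      exact e0
    rw [e1, inv_div, div_mul_cancel₀ _ hx'F]
  obtain ⟨P, hPW, -⟩ := Fermat.Agent.S18.PlaceOfUnif.exists_place_of_uniformizer W hconst
    ((T - h.const (ε T) : S) : F) htW htn hgood
  have hτnon : ((T - h.const (ε T) : S) : F) ∈ W.nonunits := by
    have h1 := inv_mem_nonunits_of_not_mem htn
    rwa [inv_inv] at h1
  have hker : ∀ z : S, ε z = 0 → (z : F) ∈ W.nonunits := by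
    intro z hz
    have h1 : z ∈ RingHom.ker ε := (RingHom.mem_ker).mpr hz
    rw [h.ker_retraction hε, Ideal.mem_span_singleton] at h1
    obtain ⟨w, hw⟩ := h1
    rw [hw, Subring.coe_mul, mul_comm]
    exact mul_mem_nonunits (hSW w) hτnon
  refine ⟨P, ?_, ?_⟩
  · intro x hx
    refine ⟨ε ⟨x, hx⟩, ?_⟩
    rw [hPW]
    have h1 := hker (⟨x, hx⟩ - h.const (ε ⟨x, hx⟩)) (by rw [map_sub, hε, sub_self])
    exact h1
  · rw [hPW]
    have h1 := hτnon
    rw [hεT] at h1
    exact h1

/-- The order at a place of `Pts A S` of a product `u * ∏ (T - c_i)`. -/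
theorem Setting.ord_prod_sub_const [DecidableEq A] (h : Setting A S ρ T)
    (hfrac : ∀ f : F, ∃ x y : S, y ≠ 0 ∧ f * (y : F) = x) {P : Place L F}
    {ε : S →+* A} (hε : h.IsRetraction ε)
    (hPε : ∀ x : S, (x : F) - algebraMap L F ((ε x : A) : L) ∈ P.toValuationSubring.nonunits)
    (cs : Multiset A) (hcs : ∀ c ∈ cs, ¬ IsUnit c) :
    (cs.map fun c => T - h.const c).prod ≠ 0 ∧
      P.ord (((cs.map fun c => T - h.const c).prod : S) : F) = (cs.count (ε T) : ℤ) := by
  induction cs using Multiset.induction with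
  | empty =>
    refine ⟨by rw [Multiset.map_zero, Multiset.prod_zero]; exact one_ne_zero, ?_⟩
    rw [Multiset.map_zero, Multiset.prod_zero, Subring.coe_one, Place.ord_one,
      Multiset.count_zero, Nat.cast_zero]
  | cons c cs ih =>
    have ih' := ih (fun c' hc' => hcs c' (Multiset.mem_cons_of_mem hc'))
    have hc : ¬ IsUnit c := hcs c (Multiset.mem_cons_self c cs)
    have hne : T - h.const c ≠ 0 := h.sub_const_ne_zero hc
    rw [Multiset.map_cons, Multiset.prod_cons]
    refine ⟨mul_ne_zero hne ih'.1, ?_⟩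
    rw [Subring.coe_mul, P.ord_mul (coe_ne_zero_of_ne_zero hne) (coe_ne_zero_of_ne_zero ih'.1),
      ih'.2]
    by_cases hcε : ε T = c
    · subst hcε
      rw [h.ord_sub_const hfrac hε hPε, Multiset.count_cons_self]
      push_cast
      ring
    · have h1 : ε (T - h.const c) ≠ 0 := by
        rw [map_sub, hε]
        exact sub_ne_zero.mpr hcε
      rw [h.ord_eq_zero_of_eps_ne_zero hPε h1, Multiset.count_cons_of_ne hcε, zero_add]

/-- **Conservation of number at one closed point.**  For `a b : S` whose reductions have orders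
`m`, `n` (i.e. are associated to `(ρ T) ^ m`, `(ρ T) ^ n`), the function `a / b` has only
finitely many zeros and poles among the places of `Pts A S`, and the sum of its orders there is
`m - n`. -/
theorem Setting.conservation [IsAlgClosed L] (h : Setting A S ρ T)
    (hfrac : ∀ f : F, ∃ x y : S, y ≠ 0 ∧ f * (y : F) = x) (a b : S) (m n : ℕ)
    (ha : Associated (ρ a) (ρ T ^ m)) (hb : Associated (ρ b) (ρ T ^ n)) :
    {P : Place L F | P ∈ Pts A S ∧ P.ord ((a : F) / (b : F)) ≠ 0}.Finite ∧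
      ∑ᶠ (P : Place L F) (_ : P ∈ Pts A S), P.ord ((a : F) / (b : F)) = (m : ℤ) - n := by
  classical
  have hρT0 : ρ T ≠ 0 := h.hT.ne_zero
  have hρTu : ¬ IsUnit (ρ T) := h.hT.not_isUnit
  have hρa : ρ a ≠ 0 := by
    intro h0
    rw [h0] at ha
    exact pow_ne_zero m hρT0 ((associated_zero_iff_eq_zero _).mp ha.symm)
  have hρb : ρ b ≠ 0 := by
    intro h0
    rw [h0] at hb
    exact pow_ne_zero n hρT0 ((associated_zero_iff_eq_zero _).mp hb.symm)
  obtain ⟨cs, u, hu, hcs, hau, hacs⟩ := h.exists_factorization hρa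
  obtain ⟨ds, w, hw, hds, hbw, hbds⟩ := h.exists_factorization hρb
  have hm : Multiset.card cs = m := by
    have h1 : Associated (ρ T ^ Multiset.card cs) (ρ T ^ m) := hacs.symm.trans ha
    exact le_antisymm ((pow_dvd_pow_iff hρT0 hρTu).mp h1.dvd)
      ((pow_dvd_pow_iff hρT0 hρTu).mp h1.symm.dvd)
  have hn : Multiset.card ds = n := by
    have h1 : Associated (ρ T ^ Multiset.card ds) (ρ T ^ n) := hbds.symm.trans hb
    exact le_antisymm ((pow_dvd_pow_iff hρT0 hρTu).mp h1.dvd)
      ((pow_dvd_pow_iff hρT0 hρTu).mp h1.symm.dvd)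
  -- the order of `a / b` at a place of `Pts A S` in terms of the value of `T`
  have key : ∀ P ∈ Pts A S, ∀ c : A,
      (T : F) - algebraMap L F (c : L) ∈ P.toValuationSubring.nonunits →
      P.ord ((a : F) / (b : F)) = (cs.count c : ℤ) - ds.count c := by
    intro P hP c hc
    obtain ⟨ε, hε, hPε⟩ := h.exists_retraction_of_mem_pts hP
    have e1 : ε T = c := Subtype.ext (valAt_unique P (hPε T) hc)
    obtain ⟨p1, p2⟩ := h.ord_prod_sub_const hfrac hε hPε cs hcs
    obtain ⟨q1, q2⟩ := h.ord_prod_sub_const hfrac hε hPε ds hds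
    have hu0 : ε u ≠ 0 := (hu.map ε).ne_zero
    have hw0 : ε w ≠ 0 := (hw.map ε).ne_zero
    have hau' : P.ord (a : F) = (cs.count c : ℤ) := by
      rw [hau, Subring.coe_mul, P.ord_mul (coe_ne_zero_of_ne_zero (h.ne_zero_of_eps_ne_zero hu0))
        (coe_ne_zero_of_ne_zero p1), h.ord_eq_zero_of_eps_ne_zero hPε hu0, p2, e1, zero_add]
    have hbw' : P.ord (b : F) = (ds.count c : ℤ) := by
      rw [hbw, Subring.coe_mul, P.ord_mul (coe_ne_zero_of_ne_zero (h.ne_zero_of_eps_ne_zero hw0))
        (coe_ne_zero_of_ne_zero q1), h.ord_eq_zero_of_eps_ne_zero hPε hw0, q2, e1, zero_add]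
    have ha0 : (a : F) ≠ 0 := coe_ne_zero_of_ne_zero (fun h0 => hρa (by rw [h0, map_zero]))
    have hb0 : (b : F) ≠ 0 := coe_ne_zero_of_ne_zero (fun h0 => hρb (by rw [h0, map_zero]))
    rw [Fermat.Agent.S24.ord_div P ha0 hb0, hau', hbw']
  -- a place for every element of `𝔪_A`
  have h0u : ¬ IsUnit (0 : A) := not_isUnit_zero
  have : Nonempty (Place L F) := ⟨(h.exists_mem_pts hfrac h0u).choose⟩
  choose! pl hpl using fun (c : A) (hc : ¬ IsUnit c) => h.exists_mem_pts hfrac hc
  let C : Finset A := (cs + ds).toFinset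
  have hC : ∀ c ∈ C, ¬ IsUnit c := by
    intro c hc
    rw [Multiset.mem_toFinset, Multiset.mem_add] at hc
    rcases hc with hc | hc
    · exact hcs c hc
    · exact hds c hc
  let t : Finset (Place L F) := C.image pl
  have h₂ : (↑t : Set (Place L F)) ⊆ Pts A S := by
    intro P hP
    rw [Finset.mem_coe, Finset.mem_image] at hP
    obtain ⟨c, hc, rfl⟩ := hP
    exact (hpl c (hC c hc)).1
  have h₁ : ∀ P : Place L F, P ∈ Pts A S → P.ord ((a : F) / (b : F)) ≠ 0 → P ∈ t := by
    intro P hP hne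
    obtain ⟨c, hc⟩ := hP (T : F) T.2
    rw [key P hP c hc] at hne
    have hcC : c ∈ C := by
      rw [Multiset.mem_toFinset, Multiset.mem_add]
      by_contra hcon
      rw [not_or] at hcon
      apply hne
      rw [Multiset.count_eq_zero_of_notMem hcon.1, Multiset.count_eq_zero_of_notMem hcon.2,
        sub_self]
    rw [Finset.mem_image]
    exact ⟨c, hcC, h.pts_ext hfrac (hpl c (hC c hcC)).1 hP (hpl c (hC c hcC)).2 hc⟩
  have hinj : Set.InjOn pl (↑C : Set A) := by
    intro c hc c' hc' hcc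
    have e1 := (hpl c (hC c hc)).2
    have e2 := (hpl c' (hC c' hc')).2
    rw [← hcc] at e2
    exact Subtype.ext (valAt_unique (pl c) e1 e2)
  refine ⟨Set.Finite.subset t.finite_toSet (fun P hP => h₁ P hP.1 hP.2), ?_⟩
  rw [finsum_mem_eq_sum_of_subset (fun P : Place L F => P.ord ((a : F) / (b : F)))
    (fun P hP => h₁ P hP.1 hP.2) h₂, Finset.sum_image hinj]
  have e1 : ∀ c ∈ C, (pl c).ord ((a : F) / (b : F)) = (cs.count c : ℤ) - ds.count c :=
    fun c hc => key (pl c) (hpl c (hC c hc)).1 c (hpl c (hC c hc)).2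
  rw [Finset.sum_congr rfl e1, Finset.sum_sub_distrib, ← Nat.cast_sum, ← Nat.cast_sum,
    Multiset.sum_count_eq_card (fun c hc => by
      rw [Multiset.mem_toFinset, Multiset.mem_add]; exact Or.inl hc),
    Multiset.sum_count_eq_card (fun c hc => by
      rw [Multiset.mem_toFinset, Multiset.mem_add]; exact Or.inr hc), hm, hn]

end Fermat.Agent.S37.Cons
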