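/-
S37 block [R0] — R0LocDefs.lean (plan/defs author: helper21).  BINDING definitions of the second
layer of [R0] (shared by `R0Loc.lean` = Setting-instance half and `R0Part.lean` = partition
half).  Definitions only (the subring axioms use nothing but the `GRel` calculus of S18).

Notation: `F̄ = modularFunctionFieldBar N ⊂ ℚ̄((q))`, `A ⊂ ℚ̄` a valuation subring, `k` its
residue field, `F_k = modularFunctionFieldFullC k N ⊂ k((q))`, `Q` a place of `F_k / k`.

* `jk N A : F_k`                 the function `j̄ = j (mod ℓ)`;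
* `Red N A x y`                  Gauss reduction as a relation `F̄ → F_k`
                                 (`= S18.Arith.GRel A ↑x ↑y`; functional by `GRelFacts.unique`);
* `UnitAt N A Q β`               `β ∈ F_k` is a unit at `Q` (`v_Q β = 1`);
* `tQ N A Q : F̄`                the chart coordinate at `Q`: `j` if `j̄` is regular at `Q`,
                                 `j⁻¹` otherwise;
* `SQ N A Q : Subring F̄`        the local ring of the `A`-model at the closed point `Q`:
                                 fractions `x / s`, `x, s ∈ chartA N A (tQ Q)`, `red s` a unit at `Q`;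
* `tQK N A Q K : FK N K`, `SQK N A Q K : Subring F̄`   the same at a finite level `K`
                                 (`x, s ∈ Arith.chart N A K (tQK Q K)`): the levels of `SQ`.
-/
import Mathlib
import Fermat.Agent.S18.GRel
import Fermat.Agent.S37.ConsDefs
import Fermat.Agent.S37.R0Plan

set_option autoImplicit false

noncomputable section

namespace Fermat.Agent.S37.R0

open ModularCurve AlgebraicCurve HahnSeries Fermat.Agent.S37.PM Fermat.Agent.S18

set_option synthInstance.maxHeartbeats 400000

section Defs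

variable (N : ℕ) (A : ValuationSubring Qb)

/-- `j̄ ∈ F_k`. -/
def jk : modularFunctionFieldFullC (IsLocalRing.ResidueField A) N :=
  ⟨jqModC (IsLocalRing.ResidueField A), jqModC_mem_full (IsLocalRing.ResidueField A) N⟩

/-- Gauss reduction, as a relation between `F̄` and `F_k`. -/
def Red (x : modularFunctionFieldBar N)
    (y : modularFunctionFieldFullC (IsLocalRing.ResidueField A) N) : Prop :=
  Arith.GRel A (x : LaurentSeries Qb) (y : LaurentSeries (IsLocalRing.ResidueField A))

/-- `β` is a unit at the place `Q`. -/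
def UnitAt (Q : Place (IsLocalRing.ResidueField A)
      (modularFunctionFieldFullC (IsLocalRing.ResidueField A) N))
    (β : modularFunctionFieldFullC (IsLocalRing.ResidueField A) N) : Prop :=
  Q.toValuationSubring.valuation β = 1

open Classical in
/-- The chart coordinate at `Q`: `j` if `j̄` is regular at `Q`, and `j⁻¹` otherwise. -/
def tQ (Q : Place (IsLocalRing.ResidueField A)
      (modularFunctionFieldFullC (IsLocalRing.ResidueField A) N)) : modularFunctionFieldBar N :=
  if jk N A ∈ Q.toValuationSubring then jbar N else (jbar N)⁻¹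

variable {N A} in
theorem Red.mul {x x' : modularFunctionFieldBar N}
    {y y' : modularFunctionFieldFullC (IsLocalRing.ResidueField A) N}
    (h : Red N A x y) (h' : Red N A x' y') : Red N A (x * x') (y * y') :=
  (GRel.gRelStatement A).mul _ _ _ _ h h'

variable {N A} in
theorem Red.add {x x' : modularFunctionFieldBar N}
    {y y' : modularFunctionFieldFullC (IsLocalRing.ResidueField A) N}
    (h : Red N A x y) (h' : Red N A x' y') : Red N A (x + x') (y + y') :=
  (GRel.gRelStatement A).add _ _ _ _ h h'

variable {N A} in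
theorem Red.neg {x : modularFunctionFieldBar N}
    {y : modularFunctionFieldFullC (IsLocalRing.ResidueField A) N}
    (h : Red N A x y) : Red N A (-x) (-y) :=
  (GRel.gRelStatement A).neg _ _ h

theorem red_one : Red N A 1 1 := by
  have h := (GRel.gRelStatement A).of_int 1
  rw [map_one, map_one] at h
  exact h

theorem red_zero : Red N A 0 0 := by
  have h := (GRel.gRelStatement A).of_int 0
  rw [map_zero, map_zero] at h
  exact h

variable {N A} in
theorem Red.unique {x : modularFunctionFieldBar N}
    {y y' : modularFunctionFieldFullC (IsLocalRing.ResidueField A) N}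
    (h : Red N A x y) (h' : Red N A x y') : y = y' :=
  Subtype.ext ((GRel.gRelStatement A).unique _ _ _ h h')

variable {N A} in
theorem UnitAt.mul {Q : Place (IsLocalRing.ResidueField A)
      (modularFunctionFieldFullC (IsLocalRing.ResidueField A) N)}
    {β β' : modularFunctionFieldFullC (IsLocalRing.ResidueField A) N}
    (h : UnitAt N A Q β) (h' : UnitAt N A Q β') : UnitAt N A Q (β * β') := by
  unfold UnitAt at *
  rw [map_mul, h, h', one_mul]

theorem unitAt_one (Q : Place (IsLocalRing.ResidueField A)
      (modularFunctionFieldFullC (IsLocalRing.ResidueField A) N)) : UnitAt N A Q 1 := by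
  unfold UnitAt
  rw [map_one]

/-- **The local ring of the `A`-model at the closed point `Q`**: the fractions `x / s` with
`x, s` in the chart `chartA N A (tQ Q)` and the reduction of `s` a unit at `Q`. -/
def SQ (Q : Place (IsLocalRing.ResidueField A)
      (modularFunctionFieldFullC (IsLocalRing.ResidueField A) N)) :
    Subring (modularFunctionFieldBar N) where
  carrier := {f | ∃ x s : modularFunctionFieldBar N, x ∈ chartA N A (tQ N A Q) ∧
    s ∈ chartA N A (tQ N A Q) ∧ (∃ β, Red N A s β ∧ UnitAt N A Q β) ∧ f * s = x}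
  mul_mem' := by
    rintro f f' ⟨x, s, hx, hs, ⟨β, hβ, hu⟩, h⟩ ⟨x', s', hx', hs', ⟨β', hβ', hu'⟩, h'⟩
    refine ⟨x * x', s * s', Subring.mul_mem _ hx hx', Subring.mul_mem _ hs hs',
      ⟨β * β', hβ.mul hβ', hu.mul hu'⟩, ?_⟩
    rw [← h, ← h']
    ring
  one_mem' := ⟨1, 1, Subring.one_mem _, Subring.one_mem _, ⟨1, red_one N A, unitAt_one N A Q⟩,
    mul_one 1⟩
  add_mem' := by
    rintro f f' ⟨x, s, hx, hs, ⟨β, hβ, hu⟩, h⟩ ⟨x', s', hx', hs', ⟨β', hβ', hu'⟩, h'⟩
    refine ⟨x * s' + x' * s, s * s',
      Subring.add_mem _ (Subring.mul_mem _ hx hs') (Subring.mul_mem _ hx' hs),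
      Subring.mul_mem _ hs hs', ⟨β * β', hβ.mul hβ', hu.mul hu'⟩, ?_⟩
    rw [← h, ← h']
    ring
  zero_mem' := ⟨0, 1, Subring.zero_mem _, Subring.one_mem _,
    ⟨1, red_one N A, unitAt_one N A Q⟩, zero_mul 1⟩
  neg_mem' := by
    rintro f ⟨x, s, hx, hs, hβ, h⟩
    refine ⟨-x, s, Subring.neg_mem _ hx, hs, hβ, ?_⟩
    rw [← h]
    ring

variable {N A} in
theorem mem_SQ_iff {Q : Place (IsLocalRing.ResidueField A)
      (modularFunctionFieldFullC (IsLocalRing.ResidueField A) N)}
    {f : modularFunctionFieldBar N} :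
    f ∈ SQ N A Q ↔ ∃ x s : modularFunctionFieldBar N, x ∈ chartA N A (tQ N A Q) ∧
      s ∈ chartA N A (tQ N A Q) ∧ (∃ β, Red N A s β ∧ UnitAt N A Q β) ∧ f * s = x :=
  Iff.rfl

end Defs

section Levels

variable (N : ℕ) [NeZero N] (A : ValuationSubring Qb)

open Classical in
/-- The chart coordinate at `Q`, at the finite level `K`. -/
def tQK (Q : Place (IsLocalRing.ResidueField A)
      (modularFunctionFieldFullC (IsLocalRing.ResidueField A) N))
    (K : IntermediateField ℚ Qb) : Arith.FK N K :=
  if jk N A ∈ Q.toValuationSubring then Arith.jK N K else (Arith.jK N K)⁻¹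

/-- **The level-`K` local ring at `Q`**: the fractions `x / s` with `x, s` in the finite-level
chart `Arith.chart N A K (tQK Q K)` and the reduction of `s` a unit at `Q`
(as a subring of `F̄`). -/
def SQK (Q : Place (IsLocalRing.ResidueField A)
      (modularFunctionFieldFullC (IsLocalRing.ResidueField A) N))
    (K : IntermediateField ℚ Qb) : Subring (modularFunctionFieldBar N) where
  carrier := {f | ∃ x s : Arith.FK N K, x ∈ Arith.chart N A K (tQK N A Q K) ∧
    s ∈ Arith.chart N A K (tQK N A Q K) ∧
    (∃ β : modularFunctionFieldFullC (IsLocalRing.ResidueField A) N,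
      Arith.GRel A (s : LaurentSeries Qb) (β : LaurentSeries (IsLocalRing.ResidueField A)) ∧
        UnitAt N A Q β) ∧
    (f : LaurentSeries Qb) * (s : LaurentSeries Qb) = (x : LaurentSeries Qb)}
  mul_mem' := by
    rintro f f' ⟨x, s, hx, hs, ⟨β, hβ, hu⟩, h⟩ ⟨x', s', hx', hs', ⟨β', hβ', hu'⟩, h'⟩
    refine ⟨x * x', s * s', Subalgebra.mul_mem _ hx hx', Subalgebra.mul_mem _ hs hs',
      ⟨β * β', (GRel.gRelStatement A).mul _ _ _ _ hβ hβ', hu.mul hu'⟩, ?_⟩
    push_cast
    rw [← h, ← h']
    ring
  one_mem' := ⟨1, 1, Subalgebra.one_mem _, Subalgebra.one_mem _,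
    ⟨1, red_one N A, unitAt_one N A Q⟩, by push_cast; ring⟩
  add_mem' := by
    rintro f f' ⟨x, s, hx, hs, ⟨β, hβ, hu⟩, h⟩ ⟨x', s', hx', hs', ⟨β', hβ', hu'⟩, h'⟩
    refine ⟨x * s' + x' * s, s * s',
      Subalgebra.add_mem _ (Subalgebra.mul_mem _ hx hs') (Subalgebra.mul_mem _ hx' hs),
      Subalgebra.mul_mem _ hs hs', ⟨β * β', (GRel.gRelStatement A).mul _ _ _ _ hβ hβ', hu.mul hu'⟩,
      ?_⟩
    push_cast
    rw [← h, ← h']
    ring
  zero_mem' := ⟨0, 1, Subalgebra.zero_mem _, Subalgebra.one_mem _,
    ⟨1, red_one N A, unitAt_one N A Q⟩, by push_cast; ring⟩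
  neg_mem' := by
    rintro f ⟨x, s, hx, hs, hβ, h⟩
    refine ⟨-x, s, Subalgebra.neg_mem _ hx, hs, hβ, ?_⟩
    push_cast
    rw [← h]
    ring

variable {N A} in
theorem mem_SQK_iff {Q : Place (IsLocalRing.ResidueField A)
      (modularFunctionFieldFullC (IsLocalRing.ResidueField A) N)}
    {K : IntermediateField ℚ Qb} {f : modularFunctionFieldBar N} :
    f ∈ SQK N A Q K ↔ ∃ x s : Arith.FK N K, x ∈ Arith.chart N A K (tQK N A Q K) ∧
      s ∈ Arith.chart N A K (tQK N A Q K) ∧
      (∃ β : modularFunctionFieldFullC (IsLocalRing.ResidueField A) N,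
        Arith.GRel A (s : LaurentSeries Qb) (β : LaurentSeries (IsLocalRing.ResidueField A)) ∧
          UnitAt N A Q β) ∧
      (f : LaurentSeries Qb) * (s : LaurentSeries Qb) = (x : LaurentSeries Qb) :=
  Iff.rfl

end Levels

end Fermat.Agent.S37.R0
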