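/-
S37 block [R0] — R0Loc.lean (plan author: helper21; sub-captain: helper63).
BINDING second layer of [R0]: the leaf `R0.LocStatement N ℓ` of `R0Plan.lean` is cut into
`Prop` leaves about the concrete local rings `SQ N A Q` of `R0LocDefs.lean`, with compiled glue.

For a place `Q` of `F_k`:  `S = SQ N A Q ⊆ F̄` (local ring of the `A`-model at `Q`),
`D = O_Q = Q.toValuationSubring`, levels `SQK N A Q K` (`K` with `Arith.BaseFacts ℓ A K`).

Leaves (quantified over `ℓ` prime, `ℓ ∤ N`, `A` over `ℓ`, all places `Q` of `F_k`):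
* `RhoStatement`   : a ring hom `ρ : SQ → O_Q` which is the Gauss reduction (`RedCompat`);
* `SurjStatement`  : `ρ` maps every level `SQK` ONTO `O_Q`           (special fibre, [Nor]);
* `NoethStatement` : every level `SQK` is noetherian                  (localisation of the chart);
* `LevelStatement` : the remaining fields of `Cons.IsLevel` for `SQK` (le, π, ρ π = 0, ker, unit,
                     const), given `noeth` and `surj`;
* `DirStatement`   : every finite subset of `SQ` lies in a level `SQK`   (Base + Desc);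
* `AlgStatement`   : `halg` of `Cons.Setting` (transcendence degree one);
* `FracStatement`  : `Frac SQ = F̄`;
* `PartStatement`  : every place `P` of `F̄` is centred on exactly one `SQ N A Q`;
* `DegKStatement`  : the places of `F_k` have degree one.
Glue: `pointDatum_of_leaves` (⇒ `Cons.Setting` + `RedCompat` + `HFrac` at every `Q`),
`localDatum_of_pointDatum` (conservation of number `Cons.Setting.conservation` and the derived
Gauss fraction property ⇒ `R0.LocalDatum`), `locStatement_of_leaves` (⇒ `R0.LocStatement`).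
-/
import Mathlib
import Fermat.Agent.S37.ConsPlace
import Fermat.Agent.S37.R0LocDefs

set_option autoImplicit false

noncomputable section

namespace Fermat.Agent.S37.R0

open ModularCurve AlgebraicCurve HahnSeries Fermat.Agent.S37.PM Fermat.Agent.S18

set_option synthInstance.maxHeartbeats 400000

/-! ### Definitions -/

section Defs

variable (N : ℕ) (A : ValuationSubring Qb)
variable (Q : Place (IsLocalRing.ResidueField A)
  (modularFunctionFieldFullC (IsLocalRing.ResidueField A) N))

/-- `ρ : SQ → O_Q` is the Gauss reduction. -/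
def RedCompat (ρ : SQ N A Q →+* Q.toValuationSubring) : Prop :=
  ∀ x : SQ N A Q, Red N A (x : modularFunctionFieldBar N)
    ((ρ x : Q.toValuationSubring) : modularFunctionFieldFullC (IsLocalRing.ResidueField A) N)

/-- `Frac (SQ) = F̄`. -/
def HFrac : Prop :=
  ∀ f : modularFunctionFieldBar N, ∃ x y : SQ N A Q, y ≠ 0 ∧
    f * (y : modularFunctionFieldBar N) = x

/-- **Point datum at `Q`**: the input of the conservation core for `SQ N A Q`. -/
structure PointDatum (ρ : SQ N A Q →+* Q.toValuationSubring) (T : SQ N A Q) : Prop where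
  red : RedCompat N A Q ρ
  setting : Cons.Setting A (SQ N A Q) ρ T
  hfrac : HFrac N A Q

end Defs

/-! ### Leaf statements -/

/-- **[Rho]** the Gauss reduction `ρ : SQ → O_Q` exists. -/
def RhoStatement (N ℓ : ℕ) : Prop :=
  ℓ.Prime → ¬ ℓ ∣ N → ∀ A : ValuationSubring Qb, A.LiesOverPrime ℓ →
    ∀ Q : Place (IsLocalRing.ResidueField A)
      (modularFunctionFieldFullC (IsLocalRing.ResidueField A) N),
    ∃ ρ : SQ N A Q →+* Q.toValuationSubring, RedCompat N A Q ρ

/-- **[Surj]** the reduction maps every level onto `O_Q`. -/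
def SurjStatement (N ℓ : ℕ) [NeZero N] : Prop :=
  ℓ.Prime → ¬ ℓ ∣ N → ∀ A : ValuationSubring Qb, A.LiesOverPrime ℓ →
    ∀ (Q : Place (IsLocalRing.ResidueField A)
      (modularFunctionFieldFullC (IsLocalRing.ResidueField A) N))
      (ρ : SQ N A Q →+* Q.toValuationSubring), RedCompat N A Q ρ →
    ∀ K : IntermediateField ℚ Qb, Arith.BaseFacts ℓ A K →
    ∀ d : Q.toValuationSubring, ∃ x : SQ N A Q,
      (x : modularFunctionFieldBar N) ∈ SQK N A Q K ∧ ρ x = d

/-- **[Noeth]** the levels are noetherian. -/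
def NoethStatement (N ℓ : ℕ) [NeZero N] : Prop :=
  ℓ.Prime → ¬ ℓ ∣ N → ∀ A : ValuationSubring Qb, A.LiesOverPrime ℓ →
    ∀ (Q : Place (IsLocalRing.ResidueField A)
      (modularFunctionFieldFullC (IsLocalRing.ResidueField A) N))
      (K : IntermediateField ℚ Qb), Arith.BaseFacts ℓ A K → IsNoetherianRing (SQK N A Q K)

/-- **[Level]** the levels `SQK N A Q K` are levels of `(SQ N A Q, ρ, T)` (given that they are
noetherian and that `ρ` maps them onto `O_Q`). -/
def LevelStatement (N ℓ : ℕ) [NeZero N] : Prop :=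
  ℓ.Prime → ¬ ℓ ∣ N → ∀ A : ValuationSubring Qb, A.LiesOverPrime ℓ →
    ∀ (Q : Place (IsLocalRing.ResidueField A)
      (modularFunctionFieldFullC (IsLocalRing.ResidueField A) N))
      (ρ : SQ N A Q →+* Q.toValuationSubring), RedCompat N A Q ρ →
    ∀ (T : SQ N A Q) (K : IntermediateField ℚ Qb), Arith.BaseFacts ℓ A K →
      (T : modularFunctionFieldBar N) ∈ SQK N A Q K →
      IsNoetherianRing (SQK N A Q K) →
      (∀ d : Q.toValuationSubring, ∃ x : SQ N A Q,
        (x : modularFunctionFieldBar N) ∈ SQK N A Q K ∧ ρ x = d) →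
      ∃ π : A, Cons.IsLevel A (SQ N A Q) ρ T (SQK N A Q K) π

/-- **[Dir]** every finite subset of `SQ` lies in a level. -/
def DirStatement (N ℓ : ℕ) [NeZero N] : Prop :=
  ℓ.Prime → ¬ ℓ ∣ N → ∀ A : ValuationSubring Qb, A.LiesOverPrime ℓ →
    ∀ (Q : Place (IsLocalRing.ResidueField A)
      (modularFunctionFieldFullC (IsLocalRing.ResidueField A) N))
      (s : Finset (modularFunctionFieldBar N)),
      (↑s : Set (modularFunctionFieldBar N)) ⊆ SQ N A Q →
      ∃ K : IntermediateField ℚ Qb, Arith.BaseFacts ℓ A K ∧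
        (↑s : Set (modularFunctionFieldBar N)) ⊆ SQK N A Q K

/-- **[Alg]** transcendence degree one: modulo any nonzero `a`, every `x` is algebraic over
`A`. -/
def AlgStatement (N ℓ : ℕ) : Prop :=
  ℓ.Prime → ¬ ℓ ∣ N → ∀ A : ValuationSubring Qb, A.LiesOverPrime ℓ →
    ∀ (Q : Place (IsLocalRing.ResidueField A)
      (modularFunctionFieldFullC (IsLocalRing.ResidueField A) N))
      (a x : SQ N A Q), a ≠ 0 → ∃ g : Polynomial A, g ≠ 0 ∧ ∃ b : SQ N A Q,
        g.eval₂ ((algebraMap Qb (modularFunctionFieldBar N)).comp A.subtype)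
          (x : modularFunctionFieldBar N) =
          (a : modularFunctionFieldBar N) * (b : modularFunctionFieldBar N)

/-- **[Frac]** `Frac (SQ) = F̄`. -/
def FracStatement (N ℓ : ℕ) : Prop :=
  ℓ.Prime → ¬ ℓ ∣ N → ∀ A : ValuationSubring Qb, A.LiesOverPrime ℓ →
    ∀ Q : Place (IsLocalRing.ResidueField A)
      (modularFunctionFieldFullC (IsLocalRing.ResidueField A) N), HFrac N A Q

/-- **[Part]** every place of `F̄` is centred on exactly one of the local rings `SQ N A Q`. -/
def PartStatement (N ℓ : ℕ) : Prop :=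
  ℓ.Prime → ¬ ℓ ∣ N → ∀ A : ValuationSubring Qb, A.LiesOverPrime ℓ →
    ∀ P : Place Qb (modularFunctionFieldBar N), ∃! Q, P ∈ Pts N A (SQ N A Q)

/-- **[DegK]** the places of `F_k` have degree one. -/
def DegKStatement (N ℓ : ℕ) : Prop :=
  ℓ.Prime → ¬ ℓ ∣ N → ∀ A : ValuationSubring Qb, A.LiesOverPrime ℓ →
    ∀ Q : Place (IsLocalRing.ResidueField A)
      (modularFunctionFieldFullC (IsLocalRing.ResidueField A) N), Q.deg = 1

/-- The point data exist at every `Q`. -/
def PointStatement (N ℓ : ℕ) : Prop :=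
  ℓ.Prime → ¬ ℓ ∣ N → ∀ A : ValuationSubring Qb, A.LiesOverPrime ℓ →
    ∀ Q : Place (IsLocalRing.ResidueField A)
      (modularFunctionFieldFullC (IsLocalRing.ResidueField A) N),
    ∃ (ρ : SQ N A Q →+* Q.toValuationSubring) (T : SQ N A Q), PointDatum N A Q ρ T

/-! ### Glue 1: the point datum from the leaves -/

/-- The constants of `A` lie in `SQ N A Q`. -/
theorem const_mem_SQ (N : ℕ) (A : ValuationSubring Qb)
    (Q : Place (IsLocalRing.ResidueField A)
      (modularFunctionFieldFullC (IsLocalRing.ResidueField A) N)) (c : A) :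
    algebraMap Qb (modularFunctionFieldBar N) (c : Qb) ∈ SQ N A Q := by
  refine ⟨algebraMap Qb (modularFunctionFieldBar N) (c : Qb), 1, ?_, Subring.one_mem _,
    ⟨1, red_one N A, unitAt_one N A Q⟩, mul_one _⟩
  have h1 : constA N A c ∈ AT N A (tQ N A Q) := Subring.subset_closure (Or.inl ⟨c, rfl⟩)
  exact Subalgebra.algebraMap_mem (integralClosure (AT N A (tQ N A Q)) (modularFunctionFieldBar N))
    ⟨constA N A c, h1⟩

theorem pointStatement_of_leaves (N ℓ : ℕ) [NeZero N] (hrho : RhoStatement N ℓ)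
    (hsurj : SurjStatement N ℓ) (hnoeth : NoethStatement N ℓ) (hlevel : LevelStatement N ℓ)
    (hdir : DirStatement N ℓ) (halg : AlgStatement N ℓ) (hfrac : FracStatement N ℓ) :
    PointStatement N ℓ := by
  intro hℓ hℓN A hA Q
  obtain ⟨ρ, hρ⟩ := hrho hℓ hℓN A hA Q
  obtain ⟨K₀, hK₀, -⟩ := hdir hℓ hℓN A hA Q ∅ (by simp)
  obtain ⟨ϖ, hϖ⟩ := IsDiscreteValuationRing.exists_irreducible Q.toValuationSubring
  obtain ⟨T, -, hT⟩ := hsurj hℓ hℓN A hA Q ρ hρ K₀ hK₀ ϖ
  refine ⟨ρ, T, hρ, ⟨const_mem_SQ N A Q, hT ▸ hϖ, ?_, halg hℓ hℓN A hA Q⟩, hfrac hℓ hℓN A hA Q⟩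
  intro s hs
  classical
  obtain ⟨K, hK, hsK⟩ := hdir hℓ hℓN A hA Q (insert (T : modularFunctionFieldBar N) s) (by
    intro w hw
    rw [Finset.coe_insert, Set.mem_insert_iff] at hw
    rcases hw with rfl | hw
    · exact T.2
    · exact hs hw)
  have hTK : (T : modularFunctionFieldBar N) ∈ SQK N A Q K :=
    hsK (by rw [Finset.coe_insert]; exact Set.mem_insert _ _)
  obtain ⟨π, hπ⟩ := hlevel hℓ hℓN A hA Q ρ hρ T K hK hTK (hnoeth hℓ hℓN A hA Q K hK)
    (hsurj hℓ hℓN A hA Q ρ hρ K hK)
  refine ⟨SQK N A Q K, π, hπ, ?_⟩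
  intro w hw
  exact hsK (by rw [Finset.coe_insert]; exact Set.mem_insert_of_mem _ hw)

end Fermat.Agent.S37.R0
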