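/-
S37 block [R0] — R0AlgS.lean (owner: helper48; row (Alg-S) of helper63's table v3 delta).

The leaf `R0.AlgStatement N ℓ` of `R0Loc.lean` (the `halg` field of `Cons.Setting` for the local
rings `SQ N A Q`): `F̄_N` is a function field in one variable over `ℚ̄` (S24: `j` is
transcendental and `F̄_N / ℚ̄(j)` is finite), so `ConsAlgS.halg` (helper132) applies to the
subring `SQ N A Q`, which contains the constants of `A` (`R0.const_mem_SQ`).
-/
import Mathlib
import Fermat.Agent.S24.TranscJ
import Fermat.Agent.S24.AnDegree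
import Fermat.Agent.S37.ConsAlgS
import Fermat.Agent.S37.R0Loc

set_option autoImplicit false

namespace Fermat.Agent.S37.R0AlgS

open ModularCurve AlgebraicCurve Fermat.Agent.S37.PM

set_option synthInstance.maxHeartbeats 400000

/-- `F̄_N` is a function field in one variable over `ℚ̄`. -/
theorem isFF1_bar (N : ℕ) [NeZero N] : Fermat.Agent.S24.IsFF1 Qb (modularFunctionFieldBar N) :=
  ⟨Fermat.Agent.S24.jF N, Fermat.Agent.S24.transcendental_jF N,
    Fermat.Agent.S24.finiteDimensional_jF N⟩

/-- **[Alg]** for one local ring: the `halg` field of `Cons.Setting A (SQ N A Q) ρ T`. -/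
theorem halg_SQ (N : ℕ) [NeZero N] (A : ValuationSubring Qb)
    (Q : Place (IsLocalRing.ResidueField A)
      (modularFunctionFieldFullC (IsLocalRing.ResidueField A) N))
    (a x : R0.SQ N A Q) (ha : a ≠ 0) :
    ∃ g : Polynomial A, g ≠ 0 ∧ ∃ b : R0.SQ N A Q,
      g.eval₂ ((algebraMap Qb (modularFunctionFieldBar N)).comp A.subtype)
        (x : modularFunctionFieldBar N) =
        (a : modularFunctionFieldBar N) * (b : modularFunctionFieldBar N) :=
  Fermat.Agent.S37.ConsAlgS.halg (isFF1_bar N) A (R0.SQ N A Q) (R0.const_mem_SQ N A Q) a x ha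

/-- **[Alg]** the leaf `R0.AlgStatement N ℓ` of `R0Loc.lean`. -/
theorem algStatement (N ℓ : ℕ) : R0.AlgStatement N ℓ := by
  intro _ hℓN A _ Q a x ha
  have : NeZero N := ⟨fun h => hℓN (h ▸ dvd_zero ℓ)⟩
  exact halg_SQ N A Q a x ha

end Fermat.Agent.S37.R0AlgS
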