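/-
S37 block [R0] — R0Part.lean (helper63, sub-captain of [R0]).  BINDING plan of the
PARTITION half of `R0.LocFamily` (see `R0Plan.lean`):

    ∀ P, ∃! Q, P ∈ R0.Pts N A (S Q)        and        ∀ Q, Q.deg = 1.

Vocabulary (`PMDefs.lean`: `ValAt`, `jbar`, `chartA`, `InCusp`; `S18.Arith.GRel A x b`: the series
`x ∈ ℚ̄((q))` is Gauss-integral with reduction `b ∈ k((q))`):

* `RedTo N A t P Q` : the place `P` of `F̄` reduces to the place `Q` of `F_k` through the chart
  with coordinate `t`: every `x` in the chart ring `chartA N A t` with Gauss reduction `b`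
  is regular at `P` with a value `c ∈ A`, `b ∈ F_k`, and `b` is regular at `Q` with value `c̄`.
* `Reduces N A P Q` : through the chart `t = j`, or (`P` reduces to a cusp and) through `t = j⁻¹`.

Leaves (`Prop`-valued):
* `TotalStatement N ℓ`   [R8]  every place `P` reduces to some `Q`;
* `UniqueStatement N ℓ`  [R9]  ... to at most one `Q`;
* `MemStatement N ℓ S`   [R10] for the family `S` of local rings of the second layer
                               (`R0Loc.lean`): `P ∈ Pts (S Q) ↔ Reduces P Q`;
* `DegKStatement N ℓ`    [R3a] all places of `F_k` have degree one.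

Glue: `existsUnique_pts_of_leaves`.
-/
import Fermat.Agent.S37.R0Plan
import Fermat.Agent.S18.ArithPlan

set_option autoImplicit false

noncomputable section

namespace Fermat.Agent.S37.R0Part

open ModularCurve AlgebraicCurve HahnSeries Fermat.Agent.S37.PM

set_option synthInstance.maxHeartbeats 400000

section Defs

variable (N : ℕ) (A : ValuationSubring Qb)

/-- `P` reduces to `Q` through the chart with coordinate `t`: every `x` in the chart ring
`chartA N A t` (the integral closure of `A[t]` in `F̄`) with Gauss reduction `b` is regular at `P`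
with a value `c ∈ A`, the reduction `b` lies in `F_k`, and `b` is regular at `Q` with value the
residue class of `c`. -/
def RedTo (t : modularFunctionFieldBar N) (P : Place Qb (modularFunctionFieldBar N))
    (Q : Place (IsLocalRing.ResidueField A)
      (modularFunctionFieldFullC (IsLocalRing.ResidueField A) N)) : Prop :=
  ∀ x ∈ chartA N A t, ∀ b : LaurentSeries (IsLocalRing.ResidueField A),
    Fermat.Agent.S18.Arith.GRel A ((x : modularFunctionFieldBar N) : LaurentSeries Qb) b →
    ∃ (hb : b ∈ modularFunctionFieldFullC (IsLocalRing.ResidueField A) N) (c : A),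
      ValAt P x (c : Qb) ∧
      ValAt Q (⟨b, hb⟩ : modularFunctionFieldFullC (IsLocalRing.ResidueField A) N)
        (IsLocalRing.residue A c)

/-- `P` reduces to `Q`: through the chart `j ≠ ∞`, or `P` reduces to a cusp (`j⁻¹` has a value in
the maximal ideal of `A` at `P`) and `P` reduces to `Q` through the chart `j ≠ 0`. -/
def Reduces (P : Place Qb (modularFunctionFieldBar N))
    (Q : Place (IsLocalRing.ResidueField A)
      (modularFunctionFieldFullC (IsLocalRing.ResidueField A) N)) : Prop :=
  RedTo N A (jbar N) P Q ∨ (InCusp N A P ∧ RedTo N A (jbar N)⁻¹ P Q)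

end Defs

section Leaves

variable (N ℓ : ℕ)

/-- **[R8]** every place of `F̄` reduces to a place of `F_k` (construction of the reduction
point: `χ_P = res ∘ ev_P` on the reduced chart ring, then a place of `F_k` centred at
`ker χ_P`). -/
def TotalStatement : Prop :=
  ℓ.Prime → ¬ ℓ ∣ N → ∀ A : ValuationSubring Qb, A.LiesOverPrime ℓ →
    ∀ P : Place Qb (modularFunctionFieldBar N),
      ∃ Q : Place (IsLocalRing.ResidueField A)
        (modularFunctionFieldFullC (IsLocalRing.ResidueField A) N), Reduces N A P Q

/-- **[R9]** the reduction point is unique (a place of `F_k` is determined by its centre on the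
reduced chart ring; the two charts are told apart by the value of `j⁻¹`). -/
def UniqueStatement : Prop :=
  ℓ.Prime → ¬ ℓ ∣ N → ∀ A : ValuationSubring Qb, A.LiesOverPrime ℓ →
    ∀ (P : Place Qb (modularFunctionFieldBar N))
      (Q Q' : Place (IsLocalRing.ResidueField A)
        (modularFunctionFieldFullC (IsLocalRing.ResidueField A) N)),
      Reduces N A P Q → Reduces N A P Q' → Q = Q'

/-- **[R10]** for the family `S` of local rings (second layer): the places centred on `S Q` with
values in `A` are exactly the places reducing to `Q`. -/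
def MemStatement
    (S : ∀ A : ValuationSubring Qb,
      Place (IsLocalRing.ResidueField A)
        (modularFunctionFieldFullC (IsLocalRing.ResidueField A) N) →
      Subring (modularFunctionFieldBar N)) : Prop :=
  ℓ.Prime → ¬ ℓ ∣ N → ∀ A : ValuationSubring Qb, A.LiesOverPrime ℓ →
    ∀ (Q : Place (IsLocalRing.ResidueField A)
        (modularFunctionFieldFullC (IsLocalRing.ResidueField A) N))
      (P : Place Qb (modularFunctionFieldBar N)),
      P ∈ R0.Pts N A (S A Q) ↔ Reduces N A P Q

/-- **[R3a]** all places of `F_k` have degree one. -/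
def DegKStatement : Prop :=
  ℓ.Prime → ¬ ℓ ∣ N → ∀ A : ValuationSubring Qb, A.LiesOverPrime ℓ →
    ∀ Q : Place (IsLocalRing.ResidueField A)
      (modularFunctionFieldFullC (IsLocalRing.ResidueField A) N), Q.deg = 1

end Leaves

section Glue

variable {N ℓ : ℕ}

/-- **Glue of the partition half**: [R8] + [R9] + [R10] give the partition clause of
`R0.LocFamily` for the family `S`. -/
theorem existsUnique_pts_of_leaves
    (S : ∀ A : ValuationSubring Qb,
      Place (IsLocalRing.ResidueField A)
        (modularFunctionFieldFullC (IsLocalRing.ResidueField A) N) →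
      Subring (modularFunctionFieldBar N))
    (hT : TotalStatement N ℓ) (hU : UniqueStatement N ℓ) (hM : MemStatement N ℓ S)
    (hℓ : ℓ.Prime) (hℓN : ¬ ℓ ∣ N) (A : ValuationSubring Qb) (hA : A.LiesOverPrime ℓ)
    (P : Place Qb (modularFunctionFieldBar N)) :
    ∃! Q, P ∈ R0.Pts N A (S A Q) := by
  obtain ⟨Q, hQ⟩ := hT hℓ hℓN A hA P
  refine ⟨Q, (hM hℓ hℓN A hA Q P).2 hQ, fun Q' hQ' => ?_⟩
  exact hU hℓ hℓN A hA P Q' Q ((hM hℓ hℓN A hA Q' P).1 hQ') hQ

/-- **`R0.LocFamily` from the two halves**: the local data (first half, `R0Loc.lean`) and the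
partition half. -/
theorem locFamily_of_halves
    (S : ∀ A : ValuationSubring Qb,
      Place (IsLocalRing.ResidueField A)
        (modularFunctionFieldFullC (IsLocalRing.ResidueField A) N) →
      Subring (modularFunctionFieldBar N))
    (hT : TotalStatement N ℓ) (hU : UniqueStatement N ℓ) (hM : MemStatement N ℓ S)
    (hD : DegKStatement N ℓ)
    (hℓ : ℓ.Prime) (hℓN : ¬ ℓ ∣ N) (A : ValuationSubring Qb) (hA : A.LiesOverPrime ℓ)
    (ρ : ∀ Q, S A Q →+* modularFunctionFieldFullC (IsLocalRing.ResidueField A) N)
    (hdat : ∀ Q, R0.LocalDatum N A Q (S A Q) (ρ Q)) : R0.LocFamily N A :=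
  ⟨S A, ρ, hdat, existsUnique_pts_of_leaves S hT hU hM hℓ hℓN A hA, hD hℓ hℓN A hA⟩

end Glue

end Fermat.Agent.S37.R0Part
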