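/-
S37 block [R0] — R0DegK.lean (helper61): leaf **[R3a]** `R0Part.DegKStatement N ℓ`
(all places of `F_k` have degree one) and the companion "every regular function has a value",
from the characteristic-free port `PMPlacesK2.lean` of `S24/Residue.lean`.
(No hypothesis on `N`: for `N = 0` the hypothesis `¬ ℓ ∣ N` is absurd.)
-/
import Fermat.Agent.S37.PMPlacesK2
import Fermat.Agent.S37.R0Part

set_option autoImplicit false

namespace Fermat.Agent.S37.R0DegK

open ModularCurve AlgebraicCurve HahnSeries Fermat.Agent.S37.PM

set_option synthInstance.maxHeartbeats 400000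

/-- **[R3a]** all places of `F_k` have degree one. -/
theorem degKStatement (N ℓ : ℕ) : R0Part.DegKStatement N ℓ := by
  intro _ hℓN A _ Q
  have : NeZero N := ⟨fun h => hℓN (h ▸ dvd_zero ℓ)⟩
  exact PMPlacesK2.deg_eq_one_modL N A Q

/-- **[R3a], values**: every function regular at a place of `F_k` has a value in `k`
(for every valuation subring `A` of `ℚ̄` and every `N ≠ 0`). -/
theorem exists_value (N : ℕ) [NeZero N] (A : ValuationSubring Qb)
    (Q : Place (IsLocalRing.ResidueField A)
      (modularFunctionFieldFullC (IsLocalRing.ResidueField A) N))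
    (β : modularFunctionFieldFullC (IsLocalRing.ResidueField A) N)
    (hβ : β ∈ Q.toValuationSubring) :
    ∃ c : IsLocalRing.ResidueField A, ValAt Q β c :=
  PMPlacesK2.exists_valAt_modL N A Q β hβ

/-- The degree clause of the frozen `IsPlaceReductionModL` holds for every place map. -/
theorem deg_clause (N : ℕ) [NeZero N] (A : ValuationSubring Qb)
    (r : Place Qb (modularFunctionFieldBar N) →
      Place (IsLocalRing.ResidueField A)
        (modularFunctionFieldFullC (IsLocalRing.ResidueField A) N))
    (P : Place Qb (modularFunctionFieldBar N)) : (r P).deg = P.deg :=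
  PMPlacesK2.deg_clause N A r P

end Fermat.Agent.S37.R0DegK
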