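/-
S37 block [PM] — PMChartA.lean (helper93).

The `A`-level chart rings `PM.chartA N A t` (integral closure of `A[t]` in `F̄`, `t = j` or
`t = j⁻¹`) versus the finite-level charts `Arith.chart N A K t` of the S18 model (`K` a number
field with `BaseFacts`, `O = A ∩ K` a discrete valuation ring):

* (A1) descent: every `x ∈ chartA N A t` lies in `chart N A K t` as soon as `K` contains a
  suitable finite set of constants (`exists_level`), and conversely
  `chart N A K t ⊆ chartA N A t` (`mem_chartA_of_mem_chart`);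
* (A2) Gauss reduction on the `A`-level charts: a ring hom `ρ_A : chartA N A t → k((q))` with
  `GRel A x (ρ_A x)` and values in `F_k` (`exists_rhoA`);
* (A3) its kernel: `GRel A x 0` implies `x = π · y` with `π ∈ 𝔪_A`, `y ∈ chartA N A t`
  (`exists_eq_const_mul_of_gRel_zero`);
* (A5) the `k`-point attached to a place: if all elements of the chart have values in `A` at
  the place `P`, then the residue class of the value of `x` at `P` depends only on the Gauss
  reduction of `x` (`residue_val_eq_of_gRel`).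
-/
import Mathlib
import Fermat.Agent.S37.PMDefs
import Fermat.Agent.S37.PMCover
import Fermat.Agent.S18.ModelAll
import Fermat.Agent.S18.ModelRed
import Fermat.Agent.S18.DescCoeff
import Fermat.Agent.S18.Base
import Fermat.Agent.S18.GRel

set_option autoImplicit false

noncomputable section

namespace Fermat.Agent.S37.PMChartA

open ModularCurve ModularCurve.IgusaScheme AlgebraicCurve HahnSeries
open Fermat.Agent.S18 Fermat.Agent.S18.Arith Fermat.Agent.S18.ModelPlan
open Fermat.Agent.S37.PM hiding Qb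

set_option synthInstance.maxHeartbeats 400000

/-! ### Constants and coercions -/

section Coe

variable (N : ℕ) (A : ValuationSubring Qb)

theorem coe_constA (c : A) :
    ((constA N A c : modularFunctionFieldBar N) : LaurentSeries Qb) = C (c : Qb) := by
  show algebraMap Qb (LaurentSeries Qb) (c : Qb) = C (c : Qb)
  exact algebraMap_laurentSeries_eq_single Qb (c : Qb)

theorem coe_algebraMap_OK (K : IntermediateField ℚ Qb) (o : OK A K) :
    ((algebraMap (OK A K) (FK N K) o : FK N K) : LaurentSeries Qb) = C (incO A K o) := rfl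

end Coe

/-! ### (A1) descent of integrality to a finite level -/

section Descent

variable (N : ℕ) (A : ValuationSubring Qb)

/-- The inclusion `O_K[t] → ℚ̄((q))`. -/
def adjInc (K : IntermediateField ℚ Qb) (tK : FK N K) :
    ↥(Algebra.adjoin (OK A K) {tK}) →+* LaurentSeries Qb :=
  (FK N K).subtype.comp (algebraMap ↥(Algebra.adjoin (OK A K) {tK}) (FK N K))

/-- The inclusion `A[t] → ℚ̄((q))`. -/
def atInc (t : modularFunctionFieldBar N) : ↥(AT N A t) →+* LaurentSeries Qb :=
  (algebraMap (modularFunctionFieldBar N) (LaurentSeries Qb)).comp (AT N A t).subtype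

theorem exists_level_of_mem_AT (t a : modularFunctionFieldBar N) (ha : a ∈ AT N A t) :
    ∃ S : Finset Qb, ∀ K : IntermediateField ℚ Qb, (↑S ⊆ (K : Set Qb)) →
      ∀ ht : (t : LaurentSeries Qb) ∈ FK N K,
        (a : LaurentSeries Qb) ∈ (adjInc N A K ⟨(t : LaurentSeries Qb), ht⟩).range := by
  classical
  unfold AT at ha
  induction ha using Subring.closure_induction with
  | mem x hx =>
    rcases hx with ⟨c, rfl⟩ | hx
    · refine ⟨{(c : Qb)}, fun K hK ht => ?_⟩
      have hcK : (c : Qb) ∈ K := hK (by simp)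
      let o : OK A K := ⟨⟨(c : Qb), hcK⟩, c.2⟩
      exact ⟨algebraMap (OK A K) _ o, (coe_constA N A c).symm⟩
    · rw [Set.mem_singleton_iff] at hx
      subst hx
      exact ⟨∅, fun K _ ht => ⟨⟨⟨_, ht⟩, Algebra.subset_adjoin rfl⟩, rfl⟩⟩
  | zero => exact ⟨∅, fun K _ ht => ⟨0, map_zero _⟩⟩
  | one => exact ⟨∅, fun K _ ht => ⟨1, map_one _⟩⟩
  | add x y _ _ ihx ihy =>
    obtain ⟨S₁, h₁⟩ := ihx
    obtain ⟨S₂, h₂⟩ := ihy
    refine ⟨S₁ ∪ S₂, fun K hK ht => ?_⟩
    have hK₁ : (↑S₁ : Set Qb) ⊆ (K : Set Qb) := fun z hz => hK (by simp [hz])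
    have hK₂ : (↑S₂ : Set Qb) ⊆ (K : Set Qb) := fun z hz => hK (by simp [hz])
    exact Subring.add_mem _ (h₁ K hK₁ ht) (h₂ K hK₂ ht)
  | neg x _ ihx =>
    obtain ⟨S₁, h₁⟩ := ihx
    exact ⟨S₁, fun K hK ht => Subring.neg_mem _ (h₁ K hK ht)⟩
  | mul x y _ _ ihx ihy =>
    obtain ⟨S₁, h₁⟩ := ihx
    obtain ⟨S₂, h₂⟩ := ihy
    refine ⟨S₁ ∪ S₂, fun K hK ht => ?_⟩
    have hK₁ : (↑S₁ : Set Qb) ⊆ (K : Set Qb) := fun z hz => hK (by simp [hz])
    have hK₂ : (↑S₂ : Set Qb) ⊆ (K : Set Qb) := fun z hz => hK (by simp [hz])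
    exact Subring.mul_mem _ (h₁ K hK₁ ht) (h₂ K hK₂ ht)

/-- **(A1)** Every element of the `A`-level chart `chartA N A t` lies in the finite-level chart
`chart N A K t` as soon as `K` contains a suitable finite set of constants. -/
theorem exists_level (t x : modularFunctionFieldBar N) (hx : x ∈ chartA N A t) :
    ∃ S : Finset Qb, ∀ K : IntermediateField ℚ Qb, (↑S ⊆ (K : Set Qb)) →
      ∃ (ht : (t : LaurentSeries Qb) ∈ FK N K) (hxK : (x : LaurentSeries Qb) ∈ FK N K),
        (⟨(x : LaurentSeries Qb), hxK⟩ : FK N K) ∈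
          chart N A K ⟨(t : LaurentSeries Qb), ht⟩ := by
  classical
  have hx' : IsIntegral (AT N A t) x := hx
  obtain ⟨p, hpm, hp0⟩ := hx'
  choose! Sf hSf using exists_level_of_mem_AT N A t
  obtain ⟨St, hSt⟩ := (DescCoeff.descStatement N).1 (t : LaurentSeries Qb) t.2
  obtain ⟨Sx, hSx⟩ := (DescCoeff.descStatement N).1 (x : LaurentSeries Qb) x.2
  refine ⟨St ∪ Sx ∪ p.support.biUnion (fun n => Sf (p.coeff n : modularFunctionFieldBar N)),
    fun K hK => ?_⟩
  have hKt : (↑St : Set Qb) ⊆ (K : Set Qb) := fun z hz => hK (by simp [hz])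
  have hKx : (↑Sx : Set Qb) ⊆ (K : Set Qb) := fun z hz => hK (by simp [hz])
  have ht := hSt K hKt
  have hxK := hSx K hKx
  refine ⟨ht, hxK, ?_⟩
  rw [mem_chart_iff]
  have hlift : p.map (atInc N A t) ∈
      Polynomial.lifts (adjInc N A K ⟨(t : LaurentSeries Qb), ht⟩) := by
    rw [Polynomial.lifts_iff_coeff_lifts]
    intro n
    rw [Polynomial.coeff_map]
    by_cases hn : n ∈ p.support
    · have hKn : (↑(Sf (p.coeff n : modularFunctionFieldBar N)) : Set Qb) ⊆ (K : Set Qb) := by
        intro z hz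
        apply hK
        simp only [Finset.coe_union, Finset.coe_biUnion, Set.mem_union, Set.mem_iUnion]
        exact Or.inr ⟨n, hn, hz⟩
      exact hSf _ (p.coeff n).2 K hKn ht
    · rw [Polynomial.notMem_support_iff.mp hn, map_zero]
      exact ⟨0, map_zero _⟩
  obtain ⟨q, hq, -, hqm⟩ := Polynomial.lifts_and_natDegree_eq_and_monic hlift (hpm.map _)
  refine ⟨q, hqm, ?_⟩
  apply Subtype.ext
  have h1 : (FK N K).subtype (Polynomial.eval₂
      (algebraMap ↥(Algebra.adjoin (OK A K) {(⟨(t : LaurentSeries Qb), ht⟩ : FK N K)}) (FK N K))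
      (⟨(x : LaurentSeries Qb), hxK⟩ : FK N K) q) =
      Polynomial.eval₂ (adjInc N A K ⟨(t : LaurentSeries Qb), ht⟩) (x : LaurentSeries Qb) q :=
    Polynomial.hom_eval₂ q _ (FK N K).subtype _
  have h2 : Polynomial.eval₂ (adjInc N A K ⟨(t : LaurentSeries Qb), ht⟩)
      (x : LaurentSeries Qb) q = Polynomial.eval₂ (atInc N A t) (x : LaurentSeries Qb) p := by
    rw [← Polynomial.eval_map, hq, Polynomial.eval_map]
  have h3 : algebraMap (modularFunctionFieldBar N) (LaurentSeries Qb)
      (Polynomial.eval₂ (algebraMap ↥(AT N A t) (modularFunctionFieldBar N)) x p) =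
      Polynomial.eval₂ (atInc N A t) (x : LaurentSeries Qb) p :=
    Polynomial.hom_eval₂ p _ (algebraMap (modularFunctionFieldBar N) (LaurentSeries Qb)) _
  have h4 : (FK N K).subtype (Polynomial.eval₂
      (algebraMap ↥(Algebra.adjoin (OK A K) {(⟨(t : LaurentSeries Qb), ht⟩ : FK N K)}) (FK N K))
      (⟨(x : LaurentSeries Qb), hxK⟩ : FK N K) q) = 0 := by
    rw [h1, h2, ← h3, hp0, map_zero]
  exact h4

theorem mem_AT_of_mem_adjoin (K : IntermediateField ℚ Qb) (t : modularFunctionFieldBar N)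
    (tK : FK N K) (htK : (tK : LaurentSeries Qb) = (t : LaurentSeries Qb))
    (z : FK N K) (hz : z ∈ Algebra.adjoin (OK A K) {tK}) :
    (z : LaurentSeries Qb) ∈ (atInc N A t).range := by
  induction hz using Algebra.adjoin_induction with
  | mem z hz =>
    rw [Set.mem_singleton_iff] at hz
    subst hz
    exact ⟨⟨t, Subring.subset_closure (Or.inr rfl)⟩, htK.symm⟩
  | algebraMap o =>
    exact ⟨⟨constA N A ⟨incO A K o, o.2⟩, Subring.subset_closure (Or.inl ⟨_, rfl⟩)⟩,
      coe_constA N A ⟨incO A K o, o.2⟩⟩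
  | add a b _ _ ha hb => exact Subring.add_mem _ ha hb
  | mul a b _ _ ha hb => exact Subring.mul_mem _ ha hb

/-- Converse of (A1): the finite-level charts are contained in the `A`-level chart. -/
theorem mem_chartA_of_mem_chart (K : IntermediateField ℚ Qb) (t x : modularFunctionFieldBar N)
    (tK : FK N K) (htK : (tK : LaurentSeries Qb) = (t : LaurentSeries Qb))
    (xK : FK N K) (hxK : (xK : LaurentSeries Qb) = (x : LaurentSeries Qb))
    (h : xK ∈ chart N A K tK) : x ∈ chartA N A t := by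
  classical
  rw [mem_chart_iff] at h
  obtain ⟨q, hqm, hq0⟩ := h
  have hlift : q.map (adjInc N A K tK) ∈ Polynomial.lifts (atInc N A t) := by
    rw [Polynomial.lifts_iff_coeff_lifts]
    intro n
    rw [Polynomial.coeff_map]
    exact mem_AT_of_mem_adjoin N A K t tK htK _ (q.coeff n).2
  obtain ⟨p, hp, -, hpm⟩ := Polynomial.lifts_and_natDegree_eq_and_monic hlift (hqm.map _)
  show IsIntegral (AT N A t) x
  refine ⟨p, hpm, ?_⟩
  apply Subtype.ext
  have h1 : (FK N K).subtype (Polynomial.eval₂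
      (algebraMap ↥(Algebra.adjoin (OK A K) {tK}) (FK N K)) xK q) =
      Polynomial.eval₂ (adjInc N A K tK) (xK : LaurentSeries Qb) q :=
    Polynomial.hom_eval₂ q _ (FK N K).subtype _
  have h2 : Polynomial.eval₂ (adjInc N A K tK) (xK : LaurentSeries Qb) q =
      Polynomial.eval₂ (atInc N A t) (xK : LaurentSeries Qb) p := by
    rw [← Polynomial.eval_map, ← hp, Polynomial.eval_map]
  have h3 : algebraMap (modularFunctionFieldBar N) (LaurentSeries Qb)
      (Polynomial.eval₂ (algebraMap ↥(AT N A t) (modularFunctionFieldBar N)) x p) =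
      Polynomial.eval₂ (atInc N A t) (x : LaurentSeries Qb) p :=
    Polynomial.hom_eval₂ p _ (algebraMap (modularFunctionFieldBar N) (LaurentSeries Qb)) _
  have h4 : algebraMap (modularFunctionFieldBar N) (LaurentSeries Qb)
      (Polynomial.eval₂ (algebraMap ↥(AT N A t) (modularFunctionFieldBar N)) x p) = 0 := by
    rw [h3, ← hxK, ← h2, ← h1, hq0, map_zero]
  exact h4

/-- Converse of (A1), for an element given at the finite level. -/
theorem exists_mem_chartA_of_mem_chart (K : IntermediateField ℚ Qb)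
    (t : modularFunctionFieldBar N) (tK : FK N K)
    (htK : (tK : LaurentSeries Qb) = (t : LaurentSeries Qb))
    (y : FK N K) (hy : y ∈ chart N A K tK) :
    ∃ x ∈ chartA N A t, (x : LaurentSeries Qb) = (y : LaurentSeries Qb) :=
  ⟨⟨(y : LaurentSeries Qb), (DescCoeff.descStatement N).2 K _ y.2⟩,
    mem_chartA_of_mem_chart N A K t _ tK htK y rfl hy, rfl⟩

end Descent

/-! ### The coordinates `j`, `j⁻¹` and the level package -/

section Level

variable (N : ℕ) [NeZero N]

theorem coe_jK (K : IntermediateField ℚ Qb) :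
    ((jK N K : FK N K) : LaurentSeries Qb) =
      ((jbar N : modularFunctionFieldBar N) : LaurentSeries Qb) := rfl

theorem coe_jK_inv (K : IntermediateField ℚ Qb) :
    (((jK N K)⁻¹ : FK N K) : LaurentSeries Qb) =
      (((jbar N)⁻¹ : modularFunctionFieldBar N) : LaurentSeries Qb) := by
  rw [Subfield.coe_inv, IntermediateField.coe_inv, coe_jK]

variable (ℓ : ℕ) [Fact ℓ.Prime] (A : ValuationSubring Qb)

/-- **Level package.**  Finitely many elements of an `A`-level chart (`t = j` or `t = j⁻¹`) lie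
in the chart of a common finite level `K ⊇ S₀` with `BaseFacts`, for which the chart satisfies
`ChartFacts` (S18 [Model]). -/
theorem exists_level_facts (hℓN : ¬ ℓ ∣ N) (hA : A.LiesOverPrime ℓ)
    {t : modularFunctionFieldBar N} (ht : t = jbar N ∨ t = (jbar N)⁻¹)
    (S₀ : Finset Qb) (s : Finset (modularFunctionFieldBar N))
    (hs : ∀ x ∈ s, x ∈ chartA N A t) :
    ∃ (K : IntermediateField ℚ Qb) (tK : FK N K), (↑S₀ ⊆ (K : Set Qb)) ∧ BaseFacts ℓ A K ∧
      (tK : LaurentSeries Qb) = (t : LaurentSeries Qb) ∧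
      (tK = jK N K ∨ tK = (jK N K)⁻¹) ∧
      ChartFacts N A K (chart N A K tK) tK ∧
      ∀ x ∈ s, ∃ hxK : (x : LaurentSeries Qb) ∈ FK N K,
        (⟨(x : LaurentSeries Qb), hxK⟩ : FK N K) ∈ chart N A K tK := by
  classical
  choose! Sf hSf using exists_level N A t
  obtain ⟨K, hSK, hbase⟩ := Base.baseStatement ℓ A hA (S₀ ∪ s.biUnion Sf)
  have hM : ModelFacts N ℓ A K := ModelAll.modelStatement N ℓ hℓN A hA K hbase
  have hS₀ : (↑S₀ : Set Qb) ⊆ (K : Set Qb) := fun z hz => hSK (by simp [hz])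
  have hSx : ∀ x ∈ s, (↑(Sf x) : Set Qb) ⊆ (K : Set Qb) := by
    intro x hx z hz
    apply hSK
    simp only [Finset.coe_union, Finset.coe_biUnion, Set.mem_union, Set.mem_iUnion]
    exact Or.inr ⟨x, hx, hz⟩
  rcases ht with rfl | rfl
  · refine ⟨K, jK N K, hS₀, hbase, coe_jK N K, Or.inl rfl, hM.c0, fun x hx => ?_⟩
    obtain ⟨ht', hxK, hmem⟩ := hSf x (hs x hx) K (hSx x hx)
    exact ⟨hxK, hmem⟩
  · refine ⟨K, (jK N K)⁻¹, hS₀, hbase, coe_jK_inv N K, Or.inr rfl, hM.cInf, fun x hx => ?_⟩
    obtain ⟨ht', hxK, hmem⟩ := hSf x (hs x hx) K (hSx x hx)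
    have e : (⟨(((jbar N)⁻¹ : modularFunctionFieldBar N) : LaurentSeries Qb), ht'⟩ : FK N K) =
        (jK N K)⁻¹ := Subtype.ext (coe_jK_inv N K).symm
    rw [e] at hmem
    exact ⟨hxK, hmem⟩

end Level

/-! ### (A2) Gauss reduction on the `A`-level charts -/

section Red

variable (N : ℕ) [NeZero N] (ℓ : ℕ) [Fact ℓ.Prime] (A : ValuationSubring Qb)

/-- **(A2)** Every element of an `A`-level chart is Gauss-integral, with reduction in `F_k`. -/
theorem exists_gRel (hℓN : ¬ ℓ ∣ N) (hA : A.LiesOverPrime ℓ)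
    {t : modularFunctionFieldBar N} (ht : t = jbar N ∨ t = (jbar N)⁻¹)
    {x : modularFunctionFieldBar N} (hx : x ∈ chartA N A t) :
    ∃ b : LaurentSeries (IsLocalRing.ResidueField A), GRel A (x : LaurentSeries Qb) b ∧
      b ∈ modularFunctionFieldFullC (IsLocalRing.ResidueField A) N := by
  classical
  obtain ⟨K, tK, -, -, -, -, hC, hK⟩ := exists_level_facts N ℓ A hℓN hA ht ∅ {x}
    (fun y hy => by rw [Finset.mem_singleton] at hy; rw [hy]; exact hx)
  obtain ⟨hxK, hmem⟩ := hK x (Finset.mem_singleton_self x)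
  obtain ⟨ρ, hρG, -, hρF⟩ := hC.red
  exact ⟨ρ ⟨_, hmem⟩, hρG ⟨_, hmem⟩, hρF ⟨_, hmem⟩⟩

/-- **(A2)** The Gauss reduction `ρ_A` of an `A`-level chart, as a ring homomorphism into
`F_k`. -/
theorem exists_rhoA (hℓN : ¬ ℓ ∣ N) (hA : A.LiesOverPrime ℓ)
    {t : modularFunctionFieldBar N} (ht : t = jbar N ∨ t = (jbar N)⁻¹) :
    ∃ ρ : ↥(chartA N A t) →+* ↥(modularFunctionFieldFullC (IsLocalRing.ResidueField A) N),
      ∀ x : ↥(chartA N A t),
        GRel A (((x : modularFunctionFieldBar N)) : LaurentSeries Qb)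
          ((ρ x : modularFunctionFieldFullC (IsLocalRing.ResidueField A) N) :
            LaurentSeries (IsLocalRing.ResidueField A)) := by
  classical
  have hG : GRelFacts A := GRel.gRelStatement A
  have hR : ∀ x : ↥(chartA N A t), ∃ b : LaurentSeries (IsLocalRing.ResidueField A),
      GRel A (((x : modularFunctionFieldBar N)) : LaurentSeries Qb) b ∧
        b ∈ modularFunctionFieldFullC (IsLocalRing.ResidueField A) N :=
    fun x => exists_gRel N ℓ A hℓN hA ht x.2
  choose f hfG hfF using hR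
  refine ⟨{ toFun := fun x => ⟨f x, hfF x⟩
            map_one' := ?_
            map_mul' := ?_
            map_zero' := ?_
            map_add' := ?_ }, hfG⟩
  · exact Subtype.ext (hG.unique _ _ _ (hfG 1) (ModelRed.gRel_one hG))
  · intro a b
    exact Subtype.ext (hG.unique _ _ _ (hfG (a * b)) (hG.mul _ _ _ _ (hfG a) (hfG b)))
  · exact Subtype.ext (hG.unique _ _ _ (hfG 0) (ModelRed.gRel_zero hG))
  · intro a b
    exact Subtype.ext (hG.unique _ _ _ (hfG (a + b)) (hG.add _ _ _ _ (hfG a) (hfG b)))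

/-! ### (A3) the kernel of the Gauss reduction -/

omit [NeZero N] in
/-- Kernel of the reduction at a finite level: an element of a chart with Gauss reduction `0` is
divisible by a uniformizer of `O = A ∩ K` in the chart. -/
theorem exists_eq_pi_mul_of_gRel_zero {K : IntermediateField ℚ Qb} {tK : FK N K}
    (hC : ChartFacts N A K (chart N A K tK) tK) (hdvr : IsDiscreteValuationRing (OK A K))
    (π : OK A K) (hπ : Irreducible π) (xK : FK N K) (hxK : xK ∈ chart N A K tK)
    (h0 : GRel A (xK : LaurentSeries Qb) 0) :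
    ∃ yK ∈ chart N A K tK, xK = algebraMap (OK A K) (FK N K) π * yK := by
  have hG : GRelFacts A := GRel.gRelStatement A
  obtain ⟨ρ, hρG, hρker, -⟩ := hC.red
  have hz : ρ ⟨xK, hxK⟩ = 0 := hG.unique _ _ _ (hρG ⟨xK, hxK⟩) h0
  have hmem : (⟨xK, hxK⟩ : chart N A K tK) ∈ piIdeal N A K (chart N A K tK) := by
    rw [← hρker]
    exact hz
  unfold piIdeal at hmem
  rw [hπ.maximalIdeal_eq, Ideal.map_span, Set.image_singleton, Ideal.mem_span_singleton] at hmem
  obtain ⟨y, hy⟩ := hmem
  exact ⟨y.1, y.2, congrArg Subtype.val hy⟩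

/-- **(A3)** An element of an `A`-level chart with Gauss reduction `0` is `π · y` with
`π ∈ 𝔪_A` and `y` in the chart. -/
theorem exists_eq_const_mul_of_gRel_zero (hℓN : ¬ ℓ ∣ N) (hA : A.LiesOverPrime ℓ)
    {t : modularFunctionFieldBar N} (ht : t = jbar N ∨ t = (jbar N)⁻¹)
    {x : modularFunctionFieldBar N} (hx : x ∈ chartA N A t)
    (h0 : GRel A (x : LaurentSeries Qb) 0) :
    ∃ π : A, π ∈ IsLocalRing.maximalIdeal A ∧ ∃ y ∈ chartA N A t, x = constA N A π * y := by
  classical
  obtain ⟨K, tK, -, hbase, htK, -, hC, hK⟩ := exists_level_facts N ℓ A hℓN hA ht ∅ {x}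
    (fun y hy => by rw [Finset.mem_singleton] at hy; rw [hy]; exact hx)
  obtain ⟨hxK, hmem⟩ := hK x (Finset.mem_singleton_self x)
  have hdvr := hbase.dvr
  obtain ⟨π, hπ⟩ := IsDiscreteValuationRing.exists_irreducible (OK A K)
  obtain ⟨yK, hyK, hxy⟩ := exists_eq_pi_mul_of_gRel_zero N A hC hbase.dvr π hπ _ hmem h0
  obtain ⟨y, hy, hyv⟩ := exists_mem_chartA_of_mem_chart N A K t tK htK yK hyK
  refine ⟨⟨incO A K π, π.2⟩, ?_, y, hy, ?_⟩
  · rw [← IsLocalRing.residue_eq_zero_iff]
    exact ModelRed.resO_eq_zero_of_not_isUnit K π hπ.not_isUnit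
  · apply Subtype.ext
    have h1 : (x : LaurentSeries Qb) =
        ((algebraMap (OK A K) (FK N K) π : FK N K) : LaurentSeries Qb) *
          (yK : LaurentSeries Qb) := congrArg Subtype.val hxy
    rw [h1, ← hyv]
    show _ = ((constA N A ⟨incO A K π, π.2⟩ : modularFunctionFieldBar N) : LaurentSeries Qb) *
      (y : LaurentSeries Qb)
    rw [coe_constA]
    rfl

end Red

/-! ### (A5) the `k`-point attached to a place -/

section Point

variable (N : ℕ) [NeZero N] (ℓ : ℕ) [Fact ℓ.Prime] (A : ValuationSubring Qb)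

/-- **(A5)** If the coordinate `t` (`= j` or `j⁻¹`) has a value in `A` at the place `P`, then the
residue class of the value at `P` of an element `x` of the chart depends only on the Gauss
reduction of `x`. -/
theorem residue_val_eq_of_gRel (hℓN : ¬ ℓ ∣ N) (hA : A.LiesOverPrime ℓ)
    {t : modularFunctionFieldBar N} (ht : t = jbar N ∨ t = (jbar N)⁻¹)
    (P : Place Qb (modularFunctionFieldBar N)) {c₀ : A} (hP : ValAt P t (c₀ : Qb))
    {x x' : modularFunctionFieldBar N} (hx : x ∈ chartA N A t) (hx' : x' ∈ chartA N A t)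
    {b : LaurentSeries (IsLocalRing.ResidueField A)}
    (hb : GRel A (x : LaurentSeries Qb) b) (hb' : GRel A (x' : LaurentSeries Qb) b)
    {a a' : A} (ha : ValAt P x (a : Qb)) (ha' : ValAt P x' (a' : Qb)) :
    IsLocalRing.residue A a = IsLocalRing.residue A a' := by
  have hG : GRelFacts A := GRel.gRelStatement A
  have hd : x - x' ∈ chartA N A t := Subring.sub_mem _ hx hx'
  have h0 : GRel A ((x - x' : modularFunctionFieldBar N) : LaurentSeries Qb) 0 := by
    have h := hG.add _ _ _ _ hb (hG.neg _ _ hb')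
    rw [add_neg_cancel] at h
    have e : ((x - x' : modularFunctionFieldBar N) : LaurentSeries Qb) =
        (x : LaurentSeries Qb) + -(x' : LaurentSeries Qb) := by
      rw [← sub_eq_add_neg]; rfl
    rw [e]
    exact h
  obtain ⟨π, hπ, y, hy, hxy⟩ := exists_eq_const_mul_of_gRel_zero N ℓ A hℓN hA ht hd h0
  obtain ⟨c, hc⟩ := PMCover.exists_valAt_of_mem_chartA N A P t c₀ hP y hy
  have h1 : ValAt P (x - x') ((a : Qb) - (a' : Qb)) := PMCover.valAt_sub P ha ha'
  have h2 : ValAt P (constA N A π * y) ((π : Qb) * (c : Qb)) :=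
    PMCover.valAt_mul P (PMCover.valAt_algebraMap P (π : Qb)) hc
  rw [← hxy] at h2
  have h3 : (a : Qb) - (a' : Qb) = (π : Qb) * (c : Qb) := PMCover.valAt_unique P h1 h2
  have h4 : a - a' = π * c := Subtype.ext h3
  have h5 : IsLocalRing.residue A (a - a') = 0 := by
    rw [IsLocalRing.residue_eq_zero_iff, h4]
    exact Ideal.mul_mem_right _ _ hπ
  rw [map_sub, sub_eq_zero] at h5
  exact h5

end Point

end Fermat.Agent.S37.PMChartA
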