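/-
S37 block [R0], row R5 [Dir] (helper7): every finite subset of the local ring `R0.SQ N A Q` of the
`A`-model at a closed point `Q` of the special fibre lies in a finite level `R0.SQK N A Q K`,
`K` an intermediate field with `BaseFacts ℓ A K` (and containing any prescribed finite set of
constants).
-/
import Fermat.Agent.S37.R0Loc
import Fermat.Agent.S37.PMChartA

set_option autoImplicit false

noncomputable section

namespace Fermat.Agent.S37.R0Dir

open ModularCurve AlgebraicCurve HahnSeries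
open Fermat.Agent.S18 Fermat.Agent.S18.Arith
open Fermat.Agent.S37.PM hiding Qb

set_option synthInstance.maxHeartbeats 400000

variable (N : ℕ) [NeZero N] (ℓ : ℕ) [Fact ℓ.Prime] (A : ValuationSubring Qb)

omit [NeZero N] in
/-- The chart coordinate at `Q` is `j` or `j⁻¹`. -/
theorem tQ_eq (Q : Place (IsLocalRing.ResidueField A)
      (modularFunctionFieldFullC (IsLocalRing.ResidueField A) N)) :
    R0.tQ N A Q = jbar N ∨ R0.tQ N A Q = (jbar N)⁻¹ := by
  unfold R0.tQ
  split_ifs
  · exact Or.inl rfl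
  · exact Or.inr rfl

/-- The finite-level chart coordinate at `Q` is `jK` or `jK⁻¹`. -/
theorem tQK_eq (Q : Place (IsLocalRing.ResidueField A)
      (modularFunctionFieldFullC (IsLocalRing.ResidueField A) N)) (K : IntermediateField ℚ Qb) :
    R0.tQK N A Q K = jK N K ∨ R0.tQK N A Q K = (jK N K)⁻¹ := by
  unfold R0.tQK
  split_ifs
  · exact Or.inl rfl
  · exact Or.inr rfl

/-- The finite-level chart coordinate at `Q` has the same `q`-expansion as the chart coordinate
at `Q`. -/
theorem coe_tQK (Q : Place (IsLocalRing.ResidueField A)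
      (modularFunctionFieldFullC (IsLocalRing.ResidueField A) N)) (K : IntermediateField ℚ Qb) :
    ((R0.tQK N A Q K : FK N K) : LaurentSeries Qb) =
      ((R0.tQ N A Q : modularFunctionFieldBar N) : LaurentSeries Qb) := by
  unfold R0.tQ R0.tQK
  split_ifs
  · exact PMChartA.coe_jK N K
  · exact PMChartA.coe_jK_inv N K

/-- An element of `F_K` with the `q`-expansion of the chart coordinate at `Q` is the finite-level
chart coordinate. -/
theorem eq_tQK_of_coe_eq (Q : Place (IsLocalRing.ResidueField A)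
      (modularFunctionFieldFullC (IsLocalRing.ResidueField A) N)) (K : IntermediateField ℚ Qb)
    (tK : FK N K)
    (h : (tK : LaurentSeries Qb) = ((R0.tQ N A Q : modularFunctionFieldBar N) : LaurentSeries Qb)) :
    tK = R0.tQK N A Q K :=
  Subtype.ext (h.trans (coe_tQK N A Q K).symm)

/-- **(Dir)**, full form: every finite subset of `SQ` lies in a level `SQK`, for some `K ⊇ S₀`
with `BaseFacts` (and the chart at level `K` satisfies `ChartFacts`). -/
theorem exists_level_chartFacts (hℓN : ¬ ℓ ∣ N) (hA : A.LiesOverPrime ℓ)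
    (Q : Place (IsLocalRing.ResidueField A)
      (modularFunctionFieldFullC (IsLocalRing.ResidueField A) N))
    (S₀ : Finset Qb) (s : Finset (modularFunctionFieldBar N))
    (hs : (↑s : Set (modularFunctionFieldBar N)) ⊆ R0.SQ N A Q) :
    ∃ K : IntermediateField ℚ Qb, (↑S₀ ⊆ (K : Set Qb)) ∧ BaseFacts ℓ A K ∧
      ChartFacts N A K (chart N A K (R0.tQK N A Q K)) (R0.tQK N A Q K) ∧
      (↑s : Set (modularFunctionFieldBar N)) ⊆ R0.SQK N A Q K := by
  classical
  have hs' : ∀ f ∈ s, ∃ x d : modularFunctionFieldBar N, x ∈ chartA N A (R0.tQ N A Q) ∧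
      d ∈ chartA N A (R0.tQ N A Q) ∧ (∃ β, R0.Red N A d β ∧ R0.UnitAt N A Q β) ∧ f * d = x :=
    fun f hf => hs hf
  choose! X D hX hD hβ hfD using hs'
  obtain ⟨K, tK, hS₀, hbase, htK, -, hC, hmem⟩ :=
    PMChartA.exists_level_facts N ℓ A hℓN hA (tQ_eq N A Q) S₀ (s.image X ∪ s.image D) (by
      intro x hx
      rcases Finset.mem_union.mp hx with h | h
      · obtain ⟨f, hf, rfl⟩ := Finset.mem_image.mp h
        exact hX f hf
      · obtain ⟨f, hf, rfl⟩ := Finset.mem_image.mp h
        exact hD f hf)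
  have htK' : tK = R0.tQK N A Q K := eq_tQK_of_coe_eq N A Q K tK htK
  rw [htK'] at hC
  refine ⟨K, hS₀, hbase, hC, fun f hf => ?_⟩
  obtain ⟨hxK, hx⟩ := hmem (X f) (Finset.mem_union_left _ (Finset.mem_image_of_mem X hf))
  obtain ⟨hdK, hd⟩ := hmem (D f) (Finset.mem_union_right _ (Finset.mem_image_of_mem D hf))
  obtain ⟨β, hβr, hβu⟩ := hβ f hf
  rw [htK'] at hx hd
  refine ⟨⟨_, hxK⟩, ⟨_, hdK⟩, hx, hd, ⟨β, hβr, hβu⟩, ?_⟩
  have h1 := congrArg (fun z : modularFunctionFieldBar N => (z : LaurentSeries Qb)) (hfD f hf)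
  exact h1

/-- **(Dir)** every finite subset of `SQ` lies in a level `SQK`, `K ⊇ S₀` with `BaseFacts`. -/
theorem exists_level (hℓN : ¬ ℓ ∣ N) (hA : A.LiesOverPrime ℓ)
    (Q : Place (IsLocalRing.ResidueField A)
      (modularFunctionFieldFullC (IsLocalRing.ResidueField A) N))
    (S₀ : Finset Qb) (s : Finset (modularFunctionFieldBar N))
    (hs : (↑s : Set (modularFunctionFieldBar N)) ⊆ R0.SQ N A Q) :
    ∃ K : IntermediateField ℚ Qb, (↑S₀ ⊆ (K : Set Qb)) ∧ BaseFacts ℓ A K ∧
      (↑s : Set (modularFunctionFieldBar N)) ⊆ R0.SQK N A Q K := by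
  obtain ⟨K, hS₀, hbase, -, hsK⟩ := exists_level_chartFacts N ℓ A hℓN hA Q S₀ s hs
  exact ⟨K, hS₀, hbase, hsK⟩

end Fermat.Agent.S37.R0Dir

namespace Fermat.Agent.S37.R0Dir

open ModularCurve AlgebraicCurve HahnSeries

set_option synthInstance.maxHeartbeats 400000

/-- **[Dir]** the leaf `R0.DirStatement` of `R0Loc.lean`. -/
theorem dirStatement (N ℓ : ℕ) [NeZero N] : R0.DirStatement N ℓ := by
  intro hℓ hℓN A hA Q s hs
  have : Fact ℓ.Prime := ⟨hℓ⟩
  obtain ⟨K, -, hbase, hsK⟩ := exists_level N ℓ A hℓN hA Q ∅ s hs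
  exact ⟨K, hbase, hsK⟩

end Fermat.Agent.S37.R0Dir
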