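/-
S37, block [R0], row R4 [Level] — LevelCore.lean (helper65): the ABSTRACT core of the
`Cons.IsLevel` instance.  Mathlib + `ConsDefs` only.

Setting of `ConsDefs`: `A ⊂ L` a valuation subring, `F ⊇ L` a field, `S ⊆ F` a subring,
`ρ : S →+* D`, `T : S`.  A *fraction level* over a subring `R ⊆ F` (model: a finite-level chart
`Arith.chart N A K t`, viewed inside `F̄`) is a subring `S'` with `R ≤ S' ≤ S` which is the
localisation of `R` at the elements with unit reduction:
every `x ∈ S'` is `a / s` with `a, s ∈ R`, `ρ s` a unit, and such `s` are invertible in `S'`.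

Results: `S'` is noetherian when `R` is (`IsFracLevel.isNoetherianRing`), the `ker` / `unit`
fields of `Cons.IsLevel` follow from the corresponding facts on `R`
(`IsFracLevel.ker`, `IsFracLevel.unit`), and the whole `Cons.IsLevel` instance
(`IsFracLevel.isLevel`).
-/
import Mathlib
import Fermat.Agent.S37.ConsDefs

set_option autoImplicit false

namespace Fermat.Agent.S37.LevelCore

open Fermat.Agent.S37

variable {L : Type*} [Field L] (A : ValuationSubring L)
variable {F : Type*} [Field F] [Algebra L F]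
variable (S : Subring F) {D : Type*} [CommRing D] (ρ : S →+* D) (T : S)

/-- `S'` is the localisation, inside `F`, of the subring `R` at its elements with unit
reduction, and lies in `S`. -/
structure IsFracLevel (R S' : Subring F) : Prop where
  R_le : R ≤ S'
  le : S' ≤ S
  /-- every element of `S'` is a fraction `a / s` with `a, s ∈ R` and `ρ s` a unit -/
  frac : ∀ x ∈ S', ∃ a s : S, (a : F) ∈ R ∧ (s : F) ∈ R ∧ IsUnit (ρ s) ∧ x * (s : F) = a
  /-- the elements of `R` with unit reduction are invertible in `S'` -/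
  inv : ∀ s : S, (s : F) ∈ R → IsUnit (ρ s) → (s : F)⁻¹ ∈ S'

variable {S ρ}

namespace IsFracLevel

variable {R S' : Subring F}

/-- An element with unit reduction is nonzero. -/
theorem ne_zero_of_isUnit [Nontrivial D] {s : S} (hs : IsUnit (ρ s)) : (s : F) ≠ 0 := by
  intro h0
  have : s = 0 := Subtype.ext h0
  rw [this, map_zero] at hs
  exact not_isUnit_zero hs

/-- The `unit` field: an element of `S'` with unit reduction is invertible in `S'`. -/
theorem unit [Nontrivial D] (h : IsFracLevel S ρ R S') (x : S) (hx : (x : F) ∈ S')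
    (hu : IsUnit (ρ x)) : (x : F)⁻¹ ∈ S' := by
  obtain ⟨a, s, haR, hsR, hsu, hxs⟩ := h.frac x hx
  have has : x * s = a := Subtype.ext hxs
  have hau : IsUnit (ρ a) := by
    rw [← has, map_mul]
    exact hu.mul hsu
  have hs0 : (s : F) ≠ 0 := ne_zero_of_isUnit hsu
  have hx0 : (x : F) ≠ 0 := ne_zero_of_isUnit hu
  have ha0 : (a : F) ≠ 0 := ne_zero_of_isUnit hau
  have hinv : (x : F)⁻¹ = (s : F) * (a : F)⁻¹ := by
    rw [← hxs]
    field_simp
  rw [hinv]
  exact S'.mul_mem (h.R_le hsR) (h.inv a haR hau)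

/-- The `ker` field: if the kernel of `ρ` on `R` is generated by `p`, so is it on `S'`. -/
theorem ker [Nontrivial D] (h : IsFracLevel S ρ R S') (p : F)
    (hker : ∀ x : S, (x : F) ∈ R → ρ x = 0 → ∃ y ∈ R, (x : F) = p * y)
    (x : S) (hx : (x : F) ∈ S') (h0 : ρ x = 0) : ∃ y ∈ S', (x : F) = p * y := by
  obtain ⟨a, s, haR, hsR, hsu, hxs⟩ := h.frac x hx
  have has : x * s = a := Subtype.ext hxs
  have ha0 : ρ a = 0 := by rw [← has, map_mul, h0, zero_mul]
  obtain ⟨y, hyR, hay⟩ := hker a haR ha0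
  have hs0 : (s : F) ≠ 0 := ne_zero_of_isUnit hsu
  refine ⟨y * (s : F)⁻¹, S'.mul_mem (h.R_le hyR) (h.inv s hsR hsu), ?_⟩
  rw [← mul_assoc, ← hay, ← hxs, mul_assoc, mul_inv_cancel₀ hs0, mul_one]

/-- `S'` is noetherian when `R` is: it is a localisation of `R`. -/
theorem isNoetherianRing [Nontrivial D] (h : IsFracLevel S ρ R S') (hR : IsNoetherianRing R) :
    IsNoetherianRing S' := by
  classical
  let ι : R →+* S := Subring.inclusion (h.R_le.trans h.le)
  let M : Submonoid R := (IsUnit.submonoid D).comap (ρ.comp ι).toMonoidHom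
  have hM : ∀ s : R, s ∈ M ↔ IsUnit (ρ (ι s)) := fun s => Iff.rfl
  let _ : Algebra R S' := (Subring.inclusion h.R_le).toAlgebra
  have halg : ∀ r : R, ((algebraMap R S' r : S') : F) = (r : F) := fun r => rfl
  have : IsLocalization M S' := by
    refine ⟨?_, ?_, ?_⟩
    · rintro ⟨s, hs⟩
      have hs' : IsUnit (ρ (ι s)) := (hM s).1 hs
      have hs0 : (s : F) ≠ 0 := ne_zero_of_isUnit (s := ι s) hs'
      refine isUnit_iff_exists_inv.mpr ⟨⟨(s : F)⁻¹, h.inv (ι s) s.2 hs'⟩, ?_⟩
      apply Subtype.ext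
      show (s : F) * (s : F)⁻¹ = 1
      exact mul_inv_cancel₀ hs0
    · intro z
      obtain ⟨a, s, haR, hsR, hsu, hzs⟩ := h.frac z z.2
      refine ⟨(⟨(a : F), haR⟩, ⟨⟨(s : F), hsR⟩, ?_⟩), ?_⟩
      · rw [hM]
        have : ι ⟨(s : F), hsR⟩ = s := Subtype.ext rfl
        rw [this]
        exact hsu
      · apply Subtype.ext
        exact hzs
    · intro a b hab
      refine ⟨1, ?_⟩
      have hab' : ((algebraMap R S' a : S') : F) = ((algebraMap R S' b : S') : F) :=
        congrArg Subtype.val hab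
      rw [halg, halg] at hab'
      rw [Subtype.ext hab']
  exact IsLocalization.isNoetherianRing M S' hR

/-- **The abstract `Cons.IsLevel` instance** of a fraction level. -/
theorem isLevel [Nontrivial D] (h : IsFracLevel S ρ R S') (hR : IsNoetherianRing R) (π : A)
    (hπ0 : π ≠ 0) (hπu : ¬ IsUnit π) (hπR : algebraMap L F (π : L) ∈ R)
    (hT : (T : F) ∈ S')
    (hρπ : ∀ x : S, (x : F) = algebraMap L F (π : L) → ρ x = 0)
    (hsurj : ∀ d : D, ∃ x : S, (x : F) ∈ S' ∧ ρ x = d)
    (hker : ∀ x : S, (x : F) ∈ R → ρ x = 0 → ∃ y ∈ R, (x : F) = algebraMap L F (π : L) * y)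
    (hconst : ∀ c : A, c ≠ 0 → algebraMap L F (c : L) ∈ S' →
      ∃ (m : ℕ) (u : A), IsUnit u ∧ algebraMap L F (u : L) ∈ S' ∧ c = u * π ^ m) :
    Cons.IsLevel A S ρ T S' π where
  le := h.le
  noeth := h.isNoetherianRing hR
  pi_ne := hπ0
  pi_nonunit := hπu
  pi_mem := h.R_le hπR
  T_mem := hT
  rho_pi := hρπ
  surj := hsurj
  ker := h.ker _ hker
  unit := h.unit
  const := hconst

end IsFracLevel

end Fermat.Agent.S37.LevelCore
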