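/-
S37 block [R0], row R4 [Level] — R0Level.lean (helper65).

The `Cons.IsLevel` instance of the finite-level local rings: for a place `Q` of `F_k` and a level
`K` (with `O = A ∩ K` a discrete valuation ring and `ChartFacts` for the chart
`Arith.chart N A K (tQK Q K)`), the subring `SQK N A Q K ⊆ F̄` of `R0LocDefs` is a level of
`(SQ N A Q, ρ, T)` in the sense of `ConsDefs`, for every ring hom
`ρ : SQ N A Q →+* O_Q` compatible with Gauss reduction (`Red N A x (ρ x)`).

Inputs left as hypotheses (outputs of the special-fibre rows): `hT` (`T ∈ SQK`) and `hsurj`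
(`ρ` restricted to `SQK` is onto `O_Q`).
-/
import Mathlib
import Fermat.Agent.S37.R0LocDefs
import Fermat.Agent.S37.LevelCore
import Fermat.Agent.S37.PMChartA
import Fermat.Agent.S18.Nor
import Fermat.Agent.S18.DescCoeff
import Fermat.Agent.S18.DictInst
import Fermat.Agent.S18.ChartBase
import Fermat.Agent.S18.ChartVert
import Fermat.Agent.S18.ResOKEquiv

set_option autoImplicit false
set_option linter.unusedSectionVars false

noncomputable section

namespace Fermat.Agent.S37.R0Level

open ModularCurve AlgebraicCurve HahnSeries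
open Fermat.Agent.S18 Fermat.Agent.S18.Arith
open Fermat.Agent.S37.PM hiding Qb
open Fermat.Agent.S37.R0

set_option synthInstance.maxHeartbeats 400000

variable (N : ℕ) [NeZero N] (A : ValuationSubring Qb)
variable (Q : Place (IsLocalRing.ResidueField A)
  (modularFunctionFieldFullC (IsLocalRing.ResidueField A) N))
variable (K : IntermediateField ℚ Qb)

/-- The finite-level chart `Arith.chart N A K (tQK Q K)`, as a subring of `F̄`. -/
def chartK : Subring (modularFunctionFieldBar N) :=
  ((chart N A K (tQK N A Q K)).toSubring).map (DictInst.incl N K)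

variable {N A Q K}

theorem mem_chartK_iff {f : modularFunctionFieldBar N} :
    f ∈ chartK N A Q K ↔ ∃ x ∈ chart N A K (tQK N A Q K), DictInst.incl N K x = f := by
  unfold chartK
  rw [Subring.mem_map]
  rfl

variable (N A Q K)

/-- The coordinates at the two levels have the same `q`-expansion. -/
theorem coe_tQK : ((tQK N A Q K : FK N K) : LaurentSeries Qb) =
    ((tQ N A Q : modularFunctionFieldBar N) : LaurentSeries Qb) := by
  unfold tQK tQ
  split_ifs
  · exact PMChartA.coe_jK N K
  · exact PMChartA.coe_jK_inv N K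


/-- `1 ∈ F_K` has Gauss reduction `1`. -/
theorem gRel_one : GRel A (((1 : FK N K) : FK N K) : LaurentSeries Qb)
    (((1 : modularFunctionFieldFullC (IsLocalRing.ResidueField A) N) :
      modularFunctionFieldFullC (IsLocalRing.ResidueField A) N) :
        LaurentSeries (IsLocalRing.ResidueField A)) :=
  R0.red_one N A

/-- `chartK ≤ SQK`. -/
theorem chartK_le_SQK : chartK N A Q K ≤ SQK N A Q K := by
  intro f hf
  obtain ⟨x, hx, rfl⟩ := mem_chartK_iff.mp hf
  rw [mem_SQK_iff]
  refine ⟨x, 1, hx, Subalgebra.one_mem _, ⟨1, gRel_one N A K, unitAt_one N A Q⟩, ?_⟩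
  rw [DictInst.coe_incl]
  show (x : LaurentSeries Qb) * ((1 : FK N K) : LaurentSeries Qb) = _
  rw [show ((1 : FK N K) : LaurentSeries Qb) = 1 from rfl, mul_one]

/-- `SQK ≤ SQ`. -/
theorem SQK_le_SQ : SQK N A Q K ≤ SQ N A Q := by
  intro f hf
  obtain ⟨x, s, hx, hs, ⟨β, hβ, hu⟩, h⟩ := mem_SQK_iff.mp hf
  rw [mem_SQ_iff]
  refine ⟨DictInst.incl N K x, DictInst.incl N K s, ?_, ?_, ⟨β, hβ, hu⟩, ?_⟩
  · exact PMChartA.mem_chartA_of_mem_chart N A K (tQ N A Q) _ (tQK N A Q K)
      (coe_tQK N A Q K) x rfl hx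
  · exact PMChartA.mem_chartA_of_mem_chart N A K (tQ N A Q) _ (tQK N A Q K)
      (coe_tQK N A Q K) s rfl hs
  · apply Subtype.ext
    exact h


section Rho

variable {N A Q K}
variable (ρ : SQ N A Q →+* Q.toValuationSubring)
  (hρ : ∀ x : SQ N A Q, Red N A (x : modularFunctionFieldBar N)
    ((ρ x : Q.toValuationSubring) : modularFunctionFieldFullC (IsLocalRing.ResidueField A) N))

include hρ

/-- If `x ∈ SQ` has Gauss reduction `β`, then `ρ x = β`. -/
theorem rho_eq_of_gRel (x : SQ N A Q)
    (β : modularFunctionFieldFullC (IsLocalRing.ResidueField A) N)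
    (h : GRel A ((x : modularFunctionFieldBar N) : LaurentSeries Qb)
      (β : LaurentSeries (IsLocalRing.ResidueField A))) :
    ((ρ x : Q.toValuationSubring) : modularFunctionFieldFullC (IsLocalRing.ResidueField A) N) = β :=
  Red.unique (hρ x) h

/-- `ρ x` is a unit of `O_Q` iff it is a unit at `Q`. -/
theorem isUnit_rho_iff (x : SQ N A Q) :
    IsUnit (ρ x) ↔ UnitAt N A Q
      ((ρ x : Q.toValuationSubring) : modularFunctionFieldFullC (IsLocalRing.ResidueField A) N) := by
  unfold UnitAt
  exact ValuationSubring.valuation_eq_one_iff Q.toValuationSubring (ρ x)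

/-- The fraction-level structure of `SQK` over `chartK`. -/
theorem isFracLevel : LevelCore.IsFracLevel (SQ N A Q) ρ (chartK N A Q K) (SQK N A Q K) where
  R_le := chartK_le_SQK N A Q K
  le := SQK_le_SQ N A Q K
  frac := by
    intro f hf
    obtain ⟨x, s, hx, hs, ⟨β, hβ, hu⟩, h⟩ := mem_SQK_iff.mp hf
    have hxK : DictInst.incl N K x ∈ chartK N A Q K := mem_chartK_iff.mpr ⟨x, hx, rfl⟩
    have hsK : DictInst.incl N K s ∈ chartK N A Q K := mem_chartK_iff.mpr ⟨s, hs, rfl⟩
    have hxS : DictInst.incl N K x ∈ SQ N A Q :=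
      SQK_le_SQ N A Q K (chartK_le_SQK N A Q K hxK)
    have hsS : DictInst.incl N K s ∈ SQ N A Q :=
      SQK_le_SQ N A Q K (chartK_le_SQK N A Q K hsK)
    refine ⟨⟨_, hxS⟩, ⟨_, hsS⟩, hxK, hsK, ?_, ?_⟩
    · rw [isUnit_rho_iff ρ hρ, rho_eq_of_gRel ρ hρ ⟨_, hsS⟩ β hβ]
      exact hu
    · apply Subtype.ext
      exact h
  inv := by
    intro s hsK hsu
    obtain ⟨s₀, hs₀, hs₀s⟩ := mem_chartK_iff.mp hsK
    have hs0 : (s : modularFunctionFieldBar N) ≠ 0 := LevelCore.IsFracLevel.ne_zero_of_isUnit hsu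
    rw [mem_SQK_iff]
    refine ⟨1, s₀, Subalgebra.one_mem _, hs₀,
      ⟨((ρ s : Q.toValuationSubring) :
        modularFunctionFieldFullC (IsLocalRing.ResidueField A) N), ?_, ?_⟩, ?_⟩
    · have := hρ s
      unfold Red at this
      rw [← hs₀s] at this
      exact this
    · exact (isUnit_rho_iff ρ hρ s).mp hsu
    · have h1 : (s : modularFunctionFieldBar N)⁻¹ * (s : modularFunctionFieldBar N) = 1 :=
        inv_mul_cancel₀ hs0
      have h2 := congrArg (fun z : modularFunctionFieldBar N => (z : LaurentSeries Qb)) h1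
      simp only [MulMemClass.coe_mul, OneMemClass.coe_one] at h2
      rw [← hs₀s, DictInst.coe_incl] at h2
      rw [show ((1 : FK N K) : LaurentSeries Qb) = 1 from rfl]
      convert h2 using 2
      rw [hs₀s]

end Rho

/-! ### The chart ring `chartK` is noetherian -/

section Noeth

variable {N A Q K}

theorem isNoetherianRing_chartK (hdvr : IsDiscreteValuationRing (OK A K))
    (hC : ChartFacts N A K (chart N A K (tQK N A Q K)) (tQK N A Q K)) :
    IsNoetherianRing (chartK N A Q K) := by
  have h1 : IsNoetherianRing (chart N A K (tQK N A Q K)) := Nor.isNoetherianRing_chart hdvr hC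
  have h2 : IsNoetherianRing ((chart N A K (tQK N A Q K)).toSubring) := h1
  exact isNoetherianRing_of_ringEquiv _
    (Subring.equivMapOfInjective _ (DictInst.incl N K) (DictInst.incl N K).injective)

end Noeth

/-! ### Constants -/

section Const

variable {N A Q K}

/-- The structure map of `F̄` on a constant of `O = A ∩ K` is the image of the constant of
`F_K`. -/
theorem algebraMap_incO (o : OK A K) :
    algebraMap Qb (modularFunctionFieldBar N) (incO A K o) =
      DictInst.incl N K (algebraMap (OK A K) (FK N K) o) := by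
  apply Subtype.ext
  rw [DictInst.coe_incl, PMChartA.coe_algebraMap_OK]
  show algebraMap Qb (LaurentSeries Qb) (incO A K o) = C (incO A K o)
  exact algebraMap_laurentSeries_eq_single Qb (incO A K o)

/-- Constants of `O` lie in the chart ring. -/
theorem algebraMap_incO_mem_chartK (o : OK A K) :
    algebraMap Qb (modularFunctionFieldBar N) (incO A K o) ∈ chartK N A Q K := by
  rw [algebraMap_incO]
  exact mem_chartK_iff.mpr ⟨_, Subalgebra.algebraMap_mem _ o, rfl⟩

/-- A uniformizer of `O` is a nonzero nonunit of `A`. -/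
theorem pi_ne_zero (π₀ : OK A K) (hπ₀ : Irreducible π₀) :
    (⟨incO A K π₀, π₀.2⟩ : A) ≠ 0 := by
  intro h
  have h1 : incO A K π₀ = 0 := congrArg (fun z : A => (z : Qb)) h
  have h2 : π₀ = 0 := ChartBase.incO_injective A K (by rw [h1, map_zero])
  exact hπ₀.ne_zero h2

theorem pi_not_isUnit (π₀ : OK A K) (hπ₀ : Irreducible π₀) :
    ¬ IsUnit (⟨incO A K π₀, π₀.2⟩ : A) := by
  intro h
  have h1 : IsUnit (ResOKEquiv.incA A K π₀) := h
  exact hπ₀.not_isUnit ((ResOKEquiv.isUnit_incA_iff A K π₀).mp h1)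

/-- The reduction of a uniformizer of `O` vanishes. -/
theorem gRel_pi (π₀ : OK A K) (hπ₀ : Irreducible π₀) :
    GRel A ((algebraMap (OK A K) (FK N K) π₀ : FK N K) : LaurentSeries Qb) 0 := by
  have h := ChartVert.gRel_const (N := N) A K GRel.gRelStatement π₀
  have h0 : resO A K π₀ = 0 := by
    rw [ResOKEquiv.resO_eq_zero_iff, IsLocalRing.mem_maximalIdeal, mem_nonunits_iff]
    exact hπ₀.not_isUnit
  rw [h0, map_zero] at h
  exact h

end Const

section Fields

variable {N A Q K}
variable (ρ : SQ N A Q →+* Q.toValuationSubring)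
  (hρ : ∀ x : SQ N A Q, Red N A (x : modularFunctionFieldBar N)
    ((ρ x : Q.toValuationSubring) : modularFunctionFieldFullC (IsLocalRing.ResidueField A) N))

include hρ

/-- `ρ` kills the uniformizer. -/
theorem rho_pi (π₀ : OK A K) (hπ₀ : Irreducible π₀) (x : SQ N A Q)
    (hx : (x : modularFunctionFieldBar N) =
      algebraMap Qb (modularFunctionFieldBar N) (((⟨incO A K π₀, π₀.2⟩ : A) : A) : Qb)) :
    ρ x = 0 := by
  have h1 : ((x : modularFunctionFieldBar N) : LaurentSeries Qb) =
      ((algebraMap (OK A K) (FK N K) π₀ : FK N K) : LaurentSeries Qb) := by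
    rw [hx]
    show ((algebraMap Qb (modularFunctionFieldBar N) (incO A K π₀) :
      modularFunctionFieldBar N) : LaurentSeries Qb) = _
    rw [algebraMap_incO, DictInst.coe_incl]
  have h2 : GRel A ((x : modularFunctionFieldBar N) : LaurentSeries Qb)
      (((0 : modularFunctionFieldFullC (IsLocalRing.ResidueField A) N) :
        modularFunctionFieldFullC (IsLocalRing.ResidueField A) N) :
          LaurentSeries (IsLocalRing.ResidueField A)) := by
    rw [h1]
    exact gRel_pi π₀ hπ₀
  have h3 := rho_eq_of_gRel ρ hρ x 0 h2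
  exact Subtype.ext h3

/-- The kernel of `ρ` on the chart ring is generated by the uniformizer. -/
theorem ker_chartK (hdvr : IsDiscreteValuationRing (OK A K))
    (hC : ChartFacts N A K (chart N A K (tQK N A Q K)) (tQK N A Q K))
    (π₀ : OK A K) (hπ₀ : Irreducible π₀) (x : SQ N A Q)
    (hx : (x : modularFunctionFieldBar N) ∈ chartK N A Q K) (h0 : ρ x = 0) :
    ∃ y ∈ chartK N A Q K, (x : modularFunctionFieldBar N) =
      algebraMap Qb (modularFunctionFieldBar N) (((⟨incO A K π₀, π₀.2⟩ : A) : A) : Qb) * y := by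
  obtain ⟨x₀, hx₀, hx₀x⟩ := mem_chartK_iff.mp hx
  have hred := hρ x
  unfold Red at hred
  rw [h0, ← hx₀x, DictInst.coe_incl] at hred
  have hg : GRel A (x₀ : LaurentSeries Qb) 0 := hred
  obtain ⟨y₀, hy₀, hxy⟩ := PMChartA.exists_eq_pi_mul_of_gRel_zero N A hC hdvr π₀ hπ₀ x₀ hx₀ hg
  refine ⟨DictInst.incl N K y₀, mem_chartK_iff.mpr ⟨y₀, hy₀, rfl⟩, ?_⟩
  show (x : modularFunctionFieldBar N) =
    algebraMap Qb (modularFunctionFieldBar N) (incO A K π₀) * DictInst.incl N K y₀
  rw [algebraMap_incO, ← map_mul, ← hxy, hx₀x]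

end Fields

/-! ### Constants of the level ring -/

section ConstLevel

variable {N A Q K}

/-- A constant of `A` lying in the level ring `SQK` lies in `K`. -/
theorem mem_K_of_const_mem_SQK (c : Qb)
    (hc : algebraMap Qb (modularFunctionFieldBar N) c ∈ SQK N A Q K) : c ∈ K := by
  obtain ⟨x, s, hx, hs, ⟨β, hβ, hu⟩, h⟩ := mem_SQK_iff.mp hc
  have hs0 : (s : LaurentSeries Qb) ≠ 0 := by
    intro hs0
    rw [hs0] at hβ
    have hz : GRel A (0 : LaurentSeries Qb)
        (((0 : modularFunctionFieldFullC (IsLocalRing.ResidueField A) N) :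
          modularFunctionFieldFullC (IsLocalRing.ResidueField A) N) :
            LaurentSeries (IsLocalRing.ResidueField A)) := R0.red_zero N A
    have hβ0 : β = 0 := Subtype.ext ((GRel.gRelStatement A).unique _ _ _ hβ hz)
    unfold UnitAt at hu
    rw [hβ0, map_zero] at hu
    exact zero_ne_one hu
  have hC : ((algebraMap Qb (modularFunctionFieldBar N) c : modularFunctionFieldBar N) :
      LaurentSeries Qb) = C c := by
    show algebraMap Qb (LaurentSeries Qb) c = C c
    exact algebraMap_laurentSeries_eq_single Qb c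
  rw [hC] at h
  have hmem : (C c : LaurentSeries Qb) ∈ FK N K := by
    have h1 : (C c : LaurentSeries Qb) = (x : LaurentSeries Qb) * (s : LaurentSeries Qb)⁻¹ := by
      rw [← h, mul_assoc, mul_inv_cancel₀ hs0, mul_one]
    rw [h1]
    exact Subfield.mul_mem _ x.2 (Subfield.inv_mem _ s.2)
  have h2 := DescCoeff.coeffStatement N K _ hmem 0
  rw [show (C c : LaurentSeries Qb).coeff 0 = c from by
    show (HahnSeries.single 0 c).coeff 0 = c
    exact HahnSeries.coeff_single_same 0 c] at h2
  exact h2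

/-- **The constants of the level ring**: a nonzero constant of `A` lying in `SQK` is a unit
constant of `SQK` times a power of the uniformizer. -/
theorem const_SQK (hdvr : IsDiscreteValuationRing (OK A K))
    (π₀ : OK A K) (hπ₀ : Irreducible π₀) (c : A) (hc0 : c ≠ 0)
    (hc : algebraMap Qb (modularFunctionFieldBar N) (c : Qb) ∈ SQK N A Q K) :
    ∃ (m : ℕ) (u : A), IsUnit u ∧
      algebraMap Qb (modularFunctionFieldBar N) (u : Qb) ∈ SQK N A Q K ∧
      c = u * (⟨incO A K π₀, π₀.2⟩ : A) ^ m := by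
  have hcK : (c : Qb) ∈ K := mem_K_of_const_mem_SQK (c : Qb) hc
  obtain ⟨o, ho⟩ := ChartBase.exists_OK_of_mem (A := A) (K := K) hcK c.2
  have ho0 : o ≠ 0 := by
    intro h
    apply hc0
    apply Subtype.ext
    rw [← ho, h, map_zero]
    rfl
  obtain ⟨m, u₀, hu₀⟩ := IsDiscreteValuationRing.eq_unit_mul_pow_irreducible ho0 hπ₀
  refine ⟨m, ResOKEquiv.incA A K (u₀ : OK A K),
    (ResOKEquiv.isUnit_incA_iff A K _).mpr u₀.isUnit, ?_, ?_⟩
  · exact chartK_le_SQK N A Q K (algebraMap_incO_mem_chartK (u₀ : OK A K))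
  · apply Subtype.ext
    show (c : Qb) = incO A K (u₀ : OK A K) * (incO A K π₀) ^ m
    rw [← ho, hu₀, map_mul, map_pow]

end ConstLevel

/-! ### The level -/

/-- **Row R4 [Level].**  For a level `K` with `O = A ∩ K` a discrete valuation ring and
`ChartFacts` for the chart at `Q`, the level ring `SQK N A Q K` is a level of `(SQ N A Q, ρ, T)`
with uniformizer any irreducible `π₀` of `O` — for every ring hom `ρ : SQ → O_Q` compatible with
Gauss reduction, provided `T ∈ SQK` and `ρ` restricted to `SQK` is onto `O_Q`. -/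
theorem isLevel_SQK (N : ℕ) [NeZero N] (A : ValuationSubring Qb)
    (Q : Place (IsLocalRing.ResidueField A)
      (modularFunctionFieldFullC (IsLocalRing.ResidueField A) N))
    (K : IntermediateField ℚ Qb) (hdvr : IsDiscreteValuationRing (OK A K))
    (hC : ChartFacts N A K (chart N A K (tQK N A Q K)) (tQK N A Q K))
    (ρ : SQ N A Q →+* Q.toValuationSubring)
    (hρ : ∀ x : SQ N A Q, Red N A (x : modularFunctionFieldBar N)
      ((ρ x : Q.toValuationSubring) : modularFunctionFieldFullC (IsLocalRing.ResidueField A) N))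
    (T : SQ N A Q) (hT : (T : modularFunctionFieldBar N) ∈ SQK N A Q K)
    (hsurj : ∀ d : Q.toValuationSubring, ∃ x : SQ N A Q,
      (x : modularFunctionFieldBar N) ∈ SQK N A Q K ∧ ρ x = d)
    (π₀ : OK A K) (hπ₀ : Irreducible π₀) :
    Cons.IsLevel A (SQ N A Q) ρ T (SQK N A Q K) ⟨incO A K π₀, π₀.2⟩ :=
  (isFracLevel ρ hρ).isLevel A T (isNoetherianRing_chartK hdvr hC) ⟨incO A K π₀, π₀.2⟩
    (pi_ne_zero π₀ hπ₀) (pi_not_isUnit π₀ hπ₀) (algebraMap_incO_mem_chartK π₀) hT
    (rho_pi ρ hρ π₀ hπ₀) hsurj (ker_chartK ρ hρ hdvr hC π₀ hπ₀)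
    (const_SQK hdvr π₀ hπ₀)

end Fermat.Agent.S37.R0Level
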