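/-
S37 block [R0] — PMChi.lean (helper93): the `k`-point `χ_P` of the reduced chart ring attached to
a place `P` of `F̄` (input of row [R8] Total).

* `redRange N A t` : the reduced chart ring `B_t = ρ_A(chartA N A t)`, the set of Gauss reductions
  of the elements of the `A`-level chart, as a `k`-subalgebra of `F_k`;
* `exists_chi` : if the coordinate `t` (`= j` or `j⁻¹`) has a value in `A` at the place `P`, there
  is a `k`-algebra homomorphism `χ_P : B_t → k` with `χ_P (red x) = residue (x(P))` for every
  `x` in the chart.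
-/
import Mathlib
import Fermat.Agent.S37.R0LocDefs
import Fermat.Agent.S37.PMChartA
import Fermat.Agent.S37.PMCover

set_option autoImplicit false

noncomputable section

namespace Fermat.Agent.S37.PMChi

open ModularCurve AlgebraicCurve HahnSeries
open Fermat.Agent.S18 Fermat.Agent.S37.PM

set_option synthInstance.maxHeartbeats 400000

section Defs

variable (N : ℕ) (A : ValuationSubring Qb)

/-- `A[t]` is contained in the chart ring. -/
theorem AT_le_chartA (t : modularFunctionFieldBar N) : AT N A t ≤ chartA N A t := by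
  intro a ha
  show IsIntegral (AT N A t) a
  exact isIntegral_algebraMap (R := AT N A t) (x := ⟨a, ha⟩)

theorem constA_mem_chartA (t : modularFunctionFieldBar N) (c : A) :
    constA N A c ∈ chartA N A t :=
  AT_le_chartA N A t (Subring.subset_closure (Or.inl ⟨c, rfl⟩))

theorem t_mem_chartA (t : modularFunctionFieldBar N) : t ∈ chartA N A t :=
  AT_le_chartA N A t (Subring.subset_closure (Or.inr rfl))

/-- Constants of `A` reduce to their residue classes. -/
theorem red_constA (c : A) :
    R0.Red N A (constA N A c)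
      (algebraMap (IsLocalRing.ResidueField A)
        (modularFunctionFieldFullC (IsLocalRing.ResidueField A) N) (IsLocalRing.residue A c)) := by
  have hG := GRel.gRelStatement A
  have h := hG.of_int (C c)
  have h1 : coeffMap A.subtype (C c) = (C (c : Qb) : LaurentSeries Qb) := coeffMap_single _ _ _
  have h2 : coeffMap (IsLocalRing.residue A) (C c) =
      (C (IsLocalRing.residue A c) : LaurentSeries (IsLocalRing.ResidueField A)) :=
    coeffMap_single _ _ _
  rw [h1, h2] at h
  unfold R0.Red
  rw [PMChartA.coe_constA]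
  have h3 : ((algebraMap (IsLocalRing.ResidueField A)
      (modularFunctionFieldFullC (IsLocalRing.ResidueField A) N) (IsLocalRing.residue A c) :
        modularFunctionFieldFullC (IsLocalRing.ResidueField A) N) :
          LaurentSeries (IsLocalRing.ResidueField A)) = C (IsLocalRing.residue A c) := by
    show algebraMap (IsLocalRing.ResidueField A) (LaurentSeries (IsLocalRing.ResidueField A))
      (IsLocalRing.residue A c) = C (IsLocalRing.residue A c)
    exact algebraMap_laurentSeries_eq_single _ _
  rw [h3]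
  exact h

/-- **The reduced chart ring** `B_t = ρ_A(chartA N A t)`: the Gauss reductions of the elements of
the `A`-level chart with coordinate `t`, as a `k`-subalgebra of `F_k`. -/
def redRange (t : modularFunctionFieldBar N) :
    Subalgebra (IsLocalRing.ResidueField A)
      (modularFunctionFieldFullC (IsLocalRing.ResidueField A) N) where
  carrier := {b | ∃ x ∈ chartA N A t, R0.Red N A x b}
  mul_mem' := by
    rintro b b' ⟨x, hx, h⟩ ⟨x', hx', h'⟩
    exact ⟨x * x', Subring.mul_mem _ hx hx', h.mul h'⟩
  one_mem' := ⟨1, Subring.one_mem _, R0.red_one N A⟩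
  add_mem' := by
    rintro b b' ⟨x, hx, h⟩ ⟨x', hx', h'⟩
    exact ⟨x + x', Subring.add_mem _ hx hx', h.add h'⟩
  zero_mem' := ⟨0, Subring.zero_mem _, R0.red_zero N A⟩
  algebraMap_mem' := by
    intro r
    obtain ⟨c, rfl⟩ := IsLocalRing.residue_surjective r
    exact ⟨constA N A c, constA_mem_chartA N A t c, red_constA N A c⟩

variable {N A} in
theorem mem_redRange_iff {t : modularFunctionFieldBar N}
    {b : modularFunctionFieldFullC (IsLocalRing.ResidueField A) N} :
    b ∈ redRange N A t ↔ ∃ x ∈ chartA N A t, R0.Red N A x b := Iff.rfl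

end Defs

section Chi

variable (N : ℕ) [NeZero N] (ℓ : ℕ) [Fact ℓ.Prime] (A : ValuationSubring Qb)

/-- **The `k`-point of a place.**  If the coordinate `t` (`= j` or `j⁻¹`) has a value in `A` at
the place `P` of `F̄`, there is a `k`-algebra homomorphism `χ_P` from the reduced chart ring to
`k` sending the reduction of `x` to the residue class of the value of `x` at `P`. -/
theorem exists_chi (hℓN : ¬ ℓ ∣ N) (hA : A.LiesOverPrime ℓ)
    {t : modularFunctionFieldBar N} (ht : t = jbar N ∨ t = (jbar N)⁻¹)
    (P : Place Qb (modularFunctionFieldBar N)) {c₀ : A} (hP : ValAt P t (c₀ : Qb)) :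
    ∃ χ : ↥(redRange N A t) →ₐ[IsLocalRing.ResidueField A] IsLocalRing.ResidueField A,
      ∀ (x : modularFunctionFieldBar N) (hx : x ∈ chartA N A t)
        (b : modularFunctionFieldFullC (IsLocalRing.ResidueField A) N) (hb : R0.Red N A x b)
        (c : A), ValAt P x (c : Qb) → χ ⟨b, x, hx, hb⟩ = IsLocalRing.residue A c := by
  classical
  have key : ∀ b : ↥(redRange N A t), ∃ r : IsLocalRing.ResidueField A,
      ∀ (x : modularFunctionFieldBar N) (_ : x ∈ chartA N A t)
        (_ : R0.Red N A x (b : modularFunctionFieldFullC (IsLocalRing.ResidueField A) N))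
        (c : A), ValAt P x (c : Qb) → r = IsLocalRing.residue A c := by
    rintro ⟨b, x₀, hx₀, hb₀⟩
    obtain ⟨c₁, hc₁⟩ := PMCover.exists_valAt_of_mem_chartA N A P t c₀ hP x₀ hx₀
    refine ⟨IsLocalRing.residue A c₁, fun x hx hb c hc => ?_⟩
    exact PMChartA.residue_val_eq_of_gRel N ℓ A hℓN hA ht P hP hx₀ hx hb₀ hb hc₁ hc
  choose χ hχ using key
  have hval : ∀ x ∈ chartA N A t, ∃ c : A, ValAt P x (c : Qb) :=
    PMCover.exists_valAt_of_mem_chartA N A P t c₀ hP
  refine ⟨{ toFun := χ
            map_one' := ?_
            map_mul' := ?_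
            map_zero' := ?_
            map_add' := ?_
            commutes' := ?_ }, ?_⟩
  · have h := hχ 1 1 (Subring.one_mem _) (R0.red_one N A) 1 (by
      have := PMCover.valAt_one P
      simpa using this)
    rw [h, map_one]
  · rintro ⟨b, x, hx, hb⟩ ⟨b', x', hx', hb'⟩
    obtain ⟨c, hc⟩ := hval x hx
    obtain ⟨c', hc'⟩ := hval x' hx'
    have h1 := hχ ⟨b, x, hx, hb⟩ x hx hb c hc
    have h2 := hχ ⟨b', x', hx', hb'⟩ x' hx' hb' c' hc'
    have h3 := hχ (⟨b, x, hx, hb⟩ * ⟨b', x', hx', hb'⟩) (x * x') (Subring.mul_mem _ hx hx')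
      (hb.mul hb') (c * c') (PMCover.valAt_mul P hc hc')
    rw [h1, h2, h3, map_mul]
  · have h := hχ 0 0 (Subring.zero_mem _) (R0.red_zero N A) 0 (by
      have := PMCover.valAt_zero P
      simpa using this)
    rw [h, map_zero]
  · rintro ⟨b, x, hx, hb⟩ ⟨b', x', hx', hb'⟩
    obtain ⟨c, hc⟩ := hval x hx
    obtain ⟨c', hc'⟩ := hval x' hx'
    have h1 := hχ ⟨b, x, hx, hb⟩ x hx hb c hc
    have h2 := hχ ⟨b', x', hx', hb'⟩ x' hx' hb' c' hc'
    have h3 := hχ (⟨b, x, hx, hb⟩ + ⟨b', x', hx', hb'⟩) (x + x') (Subring.add_mem _ hx hx')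
      (hb.add hb') (c + c') (PMCover.valAt_add P hc hc')
    rw [h1, h2, h3, map_add]
  · intro r
    obtain ⟨c, rfl⟩ := IsLocalRing.residue_surjective r
    exact hχ _ (constA N A c) (constA_mem_chartA N A t c) (red_constA N A c) c
      (PMCover.valAt_algebraMap P (c : Qb))
  · intro x hx b hb c hc
    exact hχ ⟨b, x, hx, hb⟩ x hx hb c hc

end Chi

end Fermat.Agent.S37.PMChi
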