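/-
S37 block [R0] — R0Rho.lean (helper93): row (Rho) of the second layer of [R0].

For a place `Q` of `F_k`, with chart coordinate `tQ` (`= j` if `j̄` is regular at `Q`, `j⁻¹`
otherwise) and local ring `SQ` (fractions `x / s`, `x, s ∈ chartA N A tQ`, `red s` a unit at `Q`):

* `red_jbar`, `red_jbar_inv`, `red_tQ` : the Gauss reductions of the coordinates;
* `red_mem_of_mem_chartA` : the Gauss reduction of an element of the chart is regular at `Q`
  (it is integral over `k[t̄] ⊆ O_Q`);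
* `exists_red_of_mem_SQ`, `exists_rho` : the Gauss reduction `ρ : SQ →+* O_Q`, a ring hom with
  `Red x (ρ x)`;
* by-products: `chartA_le_SQ`, `constA_mem_SQ`, `inv_mem_SQ` (elements with unit reduction are
  invertible in `SQ`), `isUnit_iff_unitAt`.
-/
import Mathlib
import Fermat.Agent.S37.R0LocDefs
import Fermat.Agent.S37.PMChartA
import Fermat.Agent.S37.PMChi
import Fermat.Agent.S18.JNot

set_option autoImplicit false

noncomputable section

namespace Fermat.Agent.S37.R0Rho

open ModularCurve AlgebraicCurve HahnSeries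
open Fermat.Agent.S18 Fermat.Agent.S37.PM

set_option synthInstance.maxHeartbeats 400000

/-- Instance shortcut (the standard instance, found slowly by unification otherwise). -/
@[reducible] local instance algKFk (N : ℕ) (A : ValuationSubring Qb) :
    Algebra (IsLocalRing.ResidueField A)
      ↥(modularFunctionFieldFullC (IsLocalRing.ResidueField A) N) :=
  SubalgebraClass.toAlgebra (modularFunctionFieldFullC (IsLocalRing.ResidueField A) N)

section Coord

variable (N : ℕ) (A : ValuationSubring Qb)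

theorem coe_jbar :
    ((jbar N : modularFunctionFieldBar N) : LaurentSeries Qb) = jqModC Qb := by
  have h1 : ((jbar N : modularFunctionFieldBar N) : LaurentSeries Qb) = coeffEmb Qb jq := rfl
  rw [h1, ← jqModC_rat]
  exact JNot.coeffMap_jqModC (algebraMap ℚ Qb)

/-- `j` reduces to `j̄`. -/
theorem red_jbar : R0.Red N A (jbar N) (R0.jk N A) := by
  have hG := GRel.gRelStatement A
  have h := hG.of_int (jqModC A)
  rw [JNot.coeffMap_jqModC, JNot.coeffMap_jqModC] at h
  unfold R0.Red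
  rw [coe_jbar]
  exact h

theorem jk_ne_zero : R0.jk N A ≠ 0 := fun h =>
  JNot.jqModC_ne_zero (IsLocalRing.ResidueField A) (congrArg Subtype.val h)

variable {N A} in
/-- Gauss reduction commutes with inversion. -/
theorem red_inv {x : modularFunctionFieldBar N}
    {y : modularFunctionFieldFullC (IsLocalRing.ResidueField A) N}
    (h : R0.Red N A x y) (hy : y ≠ 0) : R0.Red N A x⁻¹ y⁻¹ := by
  have hG := GRel.gRelStatement A
  have hy' : (y : LaurentSeries (IsLocalRing.ResidueField A)) ≠ 0 := fun h0 =>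
    hy (Subtype.ext h0)
  have h1 := hG.inv _ _ h hy'
  unfold R0.Red
  rw [IntermediateField.coe_inv, IntermediateField.coe_inv]
  exact h1

/-- `j⁻¹` reduces to `j̄⁻¹`. -/
theorem red_jbar_inv : R0.Red N A (jbar N)⁻¹ (R0.jk N A)⁻¹ :=
  red_inv (red_jbar N A) (jk_ne_zero N A)

variable (Q : Place (IsLocalRing.ResidueField A)
  (modularFunctionFieldFullC (IsLocalRing.ResidueField A) N))

theorem tQ_eq : R0.tQ N A Q = jbar N ∨ R0.tQ N A Q = (jbar N)⁻¹ := by
  unfold R0.tQ
  split_ifs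
  · exact Or.inl rfl
  · exact Or.inr rfl

/-- The chart coordinate at `Q` reduces to a function regular at `Q`. -/
theorem red_tQ : ∃ τ : modularFunctionFieldFullC (IsLocalRing.ResidueField A) N,
    R0.Red N A (R0.tQ N A Q) τ ∧ τ ∈ Q.toValuationSubring := by
  unfold R0.tQ
  split_ifs with h
  · exact ⟨R0.jk N A, red_jbar N A, h⟩
  · exact ⟨(R0.jk N A)⁻¹, red_jbar_inv N A,
      (Q.toValuationSubring.mem_or_inv_mem _).resolve_left h⟩

/-- Elements of `A[tQ]` reduce to functions regular at `Q`. -/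
theorem exists_red_of_mem_AT {a : modularFunctionFieldBar N}
    (ha : a ∈ AT N A (R0.tQ N A Q)) :
    ∃ β : modularFunctionFieldFullC (IsLocalRing.ResidueField A) N,
      R0.Red N A a β ∧ β ∈ Q.toValuationSubring := by
  unfold AT at ha
  induction ha using Subring.closure_induction with
  | mem x hx =>
    rcases hx with ⟨c, rfl⟩ | hx
    · exact ⟨_, PMChi.red_constA N A c, Q.algebraMap_mem' _⟩
    · rw [Set.mem_singleton_iff] at hx
      subst hx
      exact red_tQ N A Q
  | zero => exact ⟨0, R0.red_zero N A, zero_mem _⟩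
  | one => exact ⟨1, R0.red_one N A, one_mem _⟩
  | add x y _ _ ihx ihy =>
    obtain ⟨β, hβ, hm⟩ := ihx
    obtain ⟨β', hβ', hm'⟩ := ihy
    exact ⟨β + β', hβ.add hβ', add_mem hm hm'⟩
  | neg x _ ihx =>
    obtain ⟨β, hβ, hm⟩ := ihx
    exact ⟨-β, hβ.neg, neg_mem hm⟩
  | mul x y _ _ ihx ihy =>
    obtain ⟨β, hβ, hm⟩ := ihx
    obtain ⟨β', hβ', hm'⟩ := ihy
    exact ⟨β * β', hβ.mul hβ', mul_mem hm hm'⟩

variable {N A Q} in
theorem unitAt_ne_zero {β : modularFunctionFieldFullC (IsLocalRing.ResidueField A) N}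
    (h : R0.UnitAt N A Q β) : β ≠ 0 := by
  rintro rfl
  unfold R0.UnitAt at h
  rw [map_zero] at h
  exact zero_ne_one h

variable {N A Q} in
theorem unitAt_mem {β : modularFunctionFieldFullC (IsLocalRing.ResidueField A) N}
    (h : R0.UnitAt N A Q β) : β ∈ Q.toValuationSubring :=
  (Q.toValuationSubring.valuation_le_one_iff β).mp (le_of_eq h)

variable {N A Q} in
theorem unitAt_inv {β : modularFunctionFieldFullC (IsLocalRing.ResidueField A) N}
    (h : R0.UnitAt N A Q β) : R0.UnitAt N A Q β⁻¹ := by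
  unfold R0.UnitAt at *
  rw [map_inv₀, h, inv_one]

variable {N A Q} in
/-- An element of `O_Q` is a unit of `O_Q` iff it is a unit at `Q`. -/
theorem isUnit_iff_unitAt (b : ↥Q.toValuationSubring) :
    IsUnit b ↔ R0.UnitAt N A Q (b : modularFunctionFieldFullC (IsLocalRing.ResidueField A) N) :=
  ValuationSubring.valuation_eq_one_iff Q.toValuationSubring b

end Coord

section Rho

variable (N : ℕ) [NeZero N] (ℓ : ℕ) [Fact ℓ.Prime] (A : ValuationSubring Qb)
variable (Q : Place (IsLocalRing.ResidueField A)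
  (modularFunctionFieldFullC (IsLocalRing.ResidueField A) N))

/-- **(ρ2)** The Gauss reduction of an element of the chart `chartA N A (tQ Q)` is regular at
`Q`: it is integral over `k[t̄] ⊆ O_Q`, and `O_Q` is integrally closed. -/
theorem red_mem_of_mem_chartA (hℓN : ¬ ℓ ∣ N) (hA : A.LiesOverPrime ℓ)
    {x : modularFunctionFieldBar N} (hx : x ∈ chartA N A (R0.tQ N A Q))
    {β : modularFunctionFieldFullC (IsLocalRing.ResidueField A) N} (hβ : R0.Red N A x β) :
    β ∈ Q.toValuationSubring := by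
  obtain ⟨ρ, hρ⟩ := PMChartA.exists_rhoA N ℓ A hℓN hA (tQ_eq N A Q)
  have hβ' : ρ ⟨x, hx⟩ = β := R0.Red.unique (hρ ⟨x, hx⟩) hβ
  have hx' : IsIntegral (AT N A (R0.tQ N A Q)) x := hx
  obtain ⟨p, hpm, hp0⟩ := hx'
  let ι : ↥(AT N A (R0.tQ N A Q)) →+* ↥(chartA N A (R0.tQ N A Q)) :=
    Subring.inclusion (PMChi.AT_le_chartA N A (R0.tQ N A Q))
  have hmem : ∀ a : ↥(AT N A (R0.tQ N A Q)), (ρ.comp ι) a ∈ Q.toValuationSubring := by
    intro a
    obtain ⟨γ, hγ, hm⟩ := exists_red_of_mem_AT N A Q a.2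
    have e : (ρ.comp ι) a = γ := R0.Red.unique (hρ (ι a)) hγ
    rw [e]
    exact hm
  let φ : ↥(AT N A (R0.tQ N A Q)) →+* ↥Q.toValuationSubring :=
    (ρ.comp ι).codRestrict Q.toValuationSubring hmem
  have hint : IsIntegral ↥Q.toValuationSubring β := by
    refine ⟨p.map φ, hpm.map φ, ?_⟩
    rw [Polynomial.eval₂_map]
    have hcomp : (algebraMap ↥Q.toValuationSubring
        (modularFunctionFieldFullC (IsLocalRing.ResidueField A) N)).comp φ = ρ.comp ι :=
      RingHom.ext fun a => rfl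
    rw [hcomp, ← hβ', ← Polynomial.hom_eval₂]
    have h0 : Polynomial.eval₂ ι (⟨x, hx⟩ : ↥(chartA N A (R0.tQ N A Q))) p = 0 := by
      apply Subtype.ext
      have h1 := Polynomial.hom_eval₂ p ι (chartA N A (R0.tQ N A Q)).subtype ⟨x, hx⟩
      have h2 : (chartA N A (R0.tQ N A Q)).subtype.comp ι =
          algebraMap ↥(AT N A (R0.tQ N A Q)) (modularFunctionFieldBar N) :=
        RingHom.ext fun a => rfl
      rw [h2] at h1
      exact h1.trans hp0
    rw [h0, map_zero]
  obtain ⟨y, hy⟩ := IsIntegrallyClosed.isIntegral_iff.mp hint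
  rw [← hy]
  exact y.2

/-- Every element of the local ring `SQ` has a Gauss reduction, regular at `Q`. -/
theorem exists_red_of_mem_SQ (hℓN : ¬ ℓ ∣ N) (hA : A.LiesOverPrime ℓ)
    {f : modularFunctionFieldBar N} (hf : f ∈ R0.SQ N A Q) :
    ∃ γ : modularFunctionFieldFullC (IsLocalRing.ResidueField A) N,
      R0.Red N A f γ ∧ γ ∈ Q.toValuationSubring := by
  obtain ⟨x, s, hx, hs, ⟨β, hβ, hu⟩, hfs⟩ := hf
  obtain ⟨b, hb, hbF⟩ := PMChartA.exists_gRel N ℓ A hℓN hA (tQ_eq N A Q) hx
  have hξ : R0.Red N A x (⟨b, hbF⟩ :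
      modularFunctionFieldFullC (IsLocalRing.ResidueField A) N) := hb
  have hξm := red_mem_of_mem_chartA N ℓ A Q hℓN hA hx hξ
  have hβ0 := unitAt_ne_zero hu
  have hs0 : s ≠ 0 := by
    rintro rfl
    exact hβ0 (R0.Red.unique hβ (R0.red_zero N A))
  have hf' : f = x * s⁻¹ := by
    rw [← hfs, mul_assoc, mul_inv_cancel₀ hs0, mul_one]
  refine ⟨⟨b, hbF⟩ * β⁻¹, ?_, mul_mem hξm (unitAt_mem (unitAt_inv hu))⟩
  rw [hf']
  exact hξ.mul (red_inv hβ hβ0)

/-- **(Rho)** The Gauss reduction of the local ring at `Q`: a ring homomorphism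
`ρ : SQ → O_Q` with `Red x (ρ x)`. -/
theorem exists_rho (hℓN : ¬ ℓ ∣ N) (hA : A.LiesOverPrime ℓ) :
    ∃ ρ : ↥(R0.SQ N A Q) →+* ↥Q.toValuationSubring,
      ∀ x : ↥(R0.SQ N A Q), R0.Red N A (x : modularFunctionFieldBar N)
        ((ρ x : ↥Q.toValuationSubring) :
          modularFunctionFieldFullC (IsLocalRing.ResidueField A) N) := by
  classical
  choose f hfR hfm using fun x : ↥(R0.SQ N A Q) =>
    exists_red_of_mem_SQ N ℓ A Q hℓN hA x.2
  refine ⟨{ toFun := fun x => ⟨f x, hfm x⟩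
            map_one' := ?_
            map_mul' := ?_
            map_zero' := ?_
            map_add' := ?_ }, hfR⟩
  · exact Subtype.ext (R0.Red.unique (hfR 1) (R0.red_one N A))
  · intro a b
    exact Subtype.ext (R0.Red.unique (hfR (a * b)) ((hfR a).mul (hfR b)))
  · exact Subtype.ext (R0.Red.unique (hfR 0) (R0.red_zero N A))
  · intro a b
    exact Subtype.ext (R0.Red.unique (hfR (a + b)) ((hfR a).add (hfR b)))

end Rho

section ByProducts

variable (N : ℕ) (A : ValuationSubring Qb)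
variable (Q : Place (IsLocalRing.ResidueField A)
  (modularFunctionFieldFullC (IsLocalRing.ResidueField A) N))

/-- The chart is contained in the local ring at `Q`. -/
theorem chartA_le_SQ : chartA N A (R0.tQ N A Q) ≤ R0.SQ N A Q := by
  intro x hx
  exact ⟨x, 1, hx, Subring.one_mem _, ⟨1, R0.red_one N A, R0.unitAt_one N A Q⟩, mul_one x⟩

/-- The constants of `A` lie in the local ring at `Q`. -/
theorem constA_mem_SQ (c : A) : constA N A c ∈ R0.SQ N A Q :=
  chartA_le_SQ N A Q (PMChi.constA_mem_chartA N A _ c)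

theorem algebraMap_mem_SQ (c : A) :
    algebraMap Qb (modularFunctionFieldBar N) (c : Qb) ∈ R0.SQ N A Q :=
  constA_mem_SQ N A Q c

variable {N A Q} in
/-- An element of `SQ` whose reduction is a unit at `Q` is invertible in `SQ`. -/
theorem inv_mem_SQ [NeZero N] (ℓ : ℕ) [Fact ℓ.Prime] (hℓN : ¬ ℓ ∣ N) (hA : A.LiesOverPrime ℓ)
    {f : modularFunctionFieldBar N} (hf : f ∈ R0.SQ N A Q)
    {γ : modularFunctionFieldFullC (IsLocalRing.ResidueField A) N} (hγ : R0.Red N A f γ)
    (hu : R0.UnitAt N A Q γ) : f⁻¹ ∈ R0.SQ N A Q := by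
  obtain ⟨x, s, hx, hs, ⟨β, hβ, hβu⟩, hfs⟩ := hf
  obtain ⟨b, hb, hbF⟩ := PMChartA.exists_gRel N ℓ A hℓN hA (tQ_eq N A Q) hx
  have hξ : R0.Red N A x (⟨b, hbF⟩ :
      modularFunctionFieldFullC (IsLocalRing.ResidueField A) N) := hb
  have hprod : R0.Red N A (f * s) (γ * β) := hγ.mul hβ
  rw [hfs] at hprod
  have hξe : (⟨b, hbF⟩ : modularFunctionFieldFullC (IsLocalRing.ResidueField A) N) = γ * β :=
    R0.Red.unique hξ hprod
  have hξu : R0.UnitAt N A Q (⟨b, hbF⟩ :
      modularFunctionFieldFullC (IsLocalRing.ResidueField A) N) := by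
    rw [hξe]
    exact hu.mul hβu
  have hγ0 := unitAt_ne_zero hu
  have hf0 : f ≠ 0 := by
    rintro rfl
    exact hγ0 (R0.Red.unique hγ (R0.red_zero N A))
  refine ⟨s, x, hs, hx, ⟨_, hξ, hξu⟩, ?_⟩
  rw [← hfs, ← mul_assoc, inv_mul_cancel₀ hf0, one_mul]

end ByProducts

end Fermat.Agent.S37.R0Rho
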