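/-
S37 block [R0] — R0RhoS.lean (helper93): the leaf `R0.RhoStatement N ℓ` of `R0Loc.lean`, closed
from `R0Rho.exists_rho`.
-/
import Mathlib
import Fermat.Agent.S37.R0Loc
import Fermat.Agent.S37.R0Rho

set_option autoImplicit false

namespace Fermat.Agent.S37.R0RhoS

open ModularCurve AlgebraicCurve HahnSeries
open Fermat.Agent.S18 Fermat.Agent.S37.PM

set_option synthInstance.maxHeartbeats 400000

/-- **[Rho]** the Gauss reduction `ρ : SQ → O_Q` exists (exact leaf of `R0Loc.lean`).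
For `N = 0` the hypothesis `¬ ℓ ∣ N` is absurd, so no `NeZero N` is needed. -/
theorem rhoStatement (N ℓ : ℕ) : R0.RhoStatement N ℓ := by
  intro hℓ hℓN A hA Q
  have hN : N ≠ 0 := by
    rintro rfl
    exact hℓN (dvd_zero ℓ)
  have : NeZero N := ⟨hN⟩
  have : Fact ℓ.Prime := ⟨hℓ⟩
  exact R0Rho.exists_rho N ℓ A Q hℓN hA

end Fermat.Agent.S37.R0RhoS
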