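/-
S37 block [R0], row R4 [Level] — R0LevelS.lean (helper65): the leaves `R0.LevelStatement N ℓ`
and `R0.NoethStatement N ℓ` of `R0Loc.lean`, closed from `R0Level.isLevel_SQK`
(`R0Level.isFracLevel` + `R0Level.isNoetherianRing_chartK` for the second, with the reduction
`ρ` of `R0RhoS.rhoStatement`).
-/
import Mathlib
import Fermat.Agent.S37.R0Loc
import Fermat.Agent.S37.R0Level
import Fermat.Agent.S37.R0RhoS
import Fermat.Agent.S18.ModelAll

set_option autoImplicit false

namespace Fermat.Agent.S37.R0LevelS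

open ModularCurve AlgebraicCurve HahnSeries
open Fermat.Agent.S18 Fermat.Agent.S18.Arith
open Fermat.Agent.S37.PM hiding Qb
open Fermat.Agent.S37.R0

set_option synthInstance.maxHeartbeats 400000

/-- `ChartFacts` for the chart at `Q`, at every level `K` with `BaseFacts` (S18 [Model]). -/
theorem chartFacts_tQK (N : ℕ) [NeZero N] (ℓ : ℕ) [Fact ℓ.Prime] (hℓN : ¬ ℓ ∣ N)
    (A : ValuationSubring Qb) (hA : A.LiesOverPrime ℓ)
    (Q : Place (IsLocalRing.ResidueField A)
      (modularFunctionFieldFullC (IsLocalRing.ResidueField A) N))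
    (K : IntermediateField ℚ Qb) (hB : BaseFacts ℓ A K) :
    ChartFacts N A K (chart N A K (tQK N A Q K)) (tQK N A Q K) := by
  have hM : ModelFacts N ℓ A K := ModelAll.modelStatement N ℓ hℓN A hA K hB
  unfold tQK
  split_ifs
  · exact hM.c0
  · exact hM.cInf

/-- **[Level]** (exact leaf of `R0Loc.lean`). -/
theorem levelStatement (N ℓ : ℕ) [NeZero N] : R0.LevelStatement N ℓ := by
  intro hℓ hℓN A hA Q ρ hρ T K hB hT _ hsurj
  have : Fact ℓ.Prime := ⟨hℓ⟩
  have hdvr : IsDiscreteValuationRing (OK A K) := hB.dvr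
  obtain ⟨π₀, hπ₀⟩ := IsDiscreteValuationRing.exists_irreducible (OK A K)
  exact ⟨_, R0Level.isLevel_SQK N A Q K hdvr (chartFacts_tQK N ℓ hℓN A hA Q K hB) ρ hρ T hT
    hsurj π₀ hπ₀⟩

/-- **[Noeth]** (exact leaf of `R0Loc.lean`): the levels are noetherian. -/
theorem noethStatement (N ℓ : ℕ) [NeZero N] : R0.NoethStatement N ℓ := by
  intro hℓ hℓN A hA Q K hB
  have : Fact ℓ.Prime := ⟨hℓ⟩
  obtain ⟨ρ, hρ⟩ := R0RhoS.rhoStatement N ℓ hℓ hℓN A hA Q
  exact (R0Level.isFracLevel ρ hρ).isNoetherianRing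
    (R0Level.isNoetherianRing_chartK hB.dvr (chartFacts_tQK N ℓ hℓN A hA Q K hB))

end Fermat.Agent.S37.R0LevelS
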