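/-
S37 block [R0], row R7 [Frac] — R0Frac.lean (helper10).

The Gauss fraction property (`R0.LocalDatum.frac`) and the fraction-field property (`hfrac` of
the conservation core) for the charts:

* chart level (`exists_chart_quot`): for a chart `R` of `F_K` over the discrete valuation ring
  `O = A ∩ K` with `ChartFacts`, every `x ∈ F_K` which is Gauss-integral with NONZERO reduction
  `y` is a quotient `a / b` of two elements of `R` with nonzero reductions `ā`, `b̄`, and
  `y · b̄ = ā`  (`frac` + `π`-adic stripping in the noetherian domain `R` + uniqueness of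
  Gauss reduction);
* `A`-level (`exists_chartA_quot`): every `A`-integral series `y` of `F̄` with nonzero reduction
  is `a / b` with `a, b ∈ PM.chartA N A t` (`t = j` or `j⁻¹`), with Gauss reductions
  `ā, b̄ ∈ F_k ∖ 0` and `ȳ · b̄ = ā`;
* consumer forms for ANY pair `(S, ρ)` with `chartA N A t ≤ S` and `ρ` a Gauss reduction:
  `localDatum_frac` (= the field `frac` of `R0.LocalDatum`, verbatim) and `setting_hfrac`
  (= the hypothesis `hfrac` of `Cons.Setting.conservation`).
-/
import Fermat.Agent.S18.ModelAll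
import Fermat.Agent.S18.ModelBasic
import Fermat.Agent.S18.Nor
import Fermat.Agent.S18.GRel
import Fermat.Agent.S18.DescCoeff
import Fermat.Agent.S18.DictInst
import Fermat.Agent.S18.Base
import Fermat.Agent.S37.PMDefs

set_option autoImplicit false

noncomputable section

namespace Fermat.Agent.S37.R0Frac

open ModularCurve ModularCurve.IgusaScheme AlgebraicCurve HahnSeries
open Fermat.Agent.S18 Fermat.Agent.S18.Arith Fermat.Agent.S18.ModelPlan

/-! ### Chart level -/

section Chart

variable {N : ℕ} {A : ValuationSubring Qb} {K : IntermediateField ℚ Qb}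

/-- `π`-adic stripping in a chart: a nonzero element is `π ^ m` times an element outside
`π R = 𝔪_O R`. -/
theorem exists_pow_mul_not_mem (hdvr : IsDiscreteValuationRing (OK A K))
    {R : Subalgebra (OK A K) (FK N K)} {t : FK N K} (hC : ChartFacts N A K R t)
    {π : OK A K} (hπ : Irreducible π) (x : R) (hx : x ≠ 0) :
    ∃ (m : ℕ) (x' : R), x' ∉ piIdeal N A K R ∧ x = algebraMap (OK A K) R π ^ m * x' := by
  have : IsNoetherianRing R := Nor.isNoetherianRing_chart hdvr hC
  obtain ⟨ρ, -, hρker, -⟩ := hC.red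
  set ϖ : R := algebraMap (OK A K) R π with hϖ
  have hP : piIdeal N A K R = Ideal.span {ϖ} := Nor.piIdeal_eq_span R hπ
  have hϖu : ¬ IsUnit ϖ := by
    intro h
    have h1 : ρ ϖ = 0 := by
      rw [← RingHom.mem_ker, hρker, hP]
      exact Ideal.mem_span_singleton_self ϖ
    have h2 := h.map ρ
    rw [h1] at h2
    exact not_isUnit_zero h2
  obtain ⟨m, x', hx', hxeq⟩ := WfDvdMonoid.max_power_factor' hx hϖu
  refine ⟨m, x', ?_, hxeq⟩
  rw [hP, Ideal.mem_span_singleton]
  exact hx'

/-- **Gauss fraction property of a chart.**  An element `x` of `F_K` which is Gauss-integral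
with nonzero reduction `y` is a quotient of two chart elements with nonzero reductions,
compatibly with reduction. -/
theorem exists_chart_quot (hG : GRelFacts A) (hdvr : IsDiscreteValuationRing (OK A K))
    {R : Subalgebra (OK A K) (FK N K)} {t : FK N K} (hC : ChartFacts N A K R t)
    (x : FK N K) (y : LaurentSeries (IsLocalRing.ResidueField A))
    (hxy : GRel A (x : LaurentSeries Qb) y) (hy : y ≠ 0) :
    ∃ (a b : R) (a' b' : LaurentSeries (IsLocalRing.ResidueField A)),
      GRel A (((a : R) : FK N K) : LaurentSeries Qb) a' ∧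
      GRel A (((b : R) : FK N K) : LaurentSeries Qb) b' ∧
      a' ∈ modularFunctionFieldFullC (IsLocalRing.ResidueField A) N ∧
      b' ∈ modularFunctionFieldFullC (IsLocalRing.ResidueField A) N ∧
      a' ≠ 0 ∧ b' ≠ 0 ∧ x * (b : FK N K) = (a : FK N K) ∧ y * b' = a' := by
  have := hdvr
  obtain ⟨π, hπ⟩ := IsDiscreteValuationRing.exists_irreducible (OK A K)
  obtain ⟨ρ, hρG, hρker, hρF⟩ := hC.red
  set ϖ : R := algebraMap (OK A K) R π with hϖ
  have hP : piIdeal N A K R = Ideal.span {ϖ} := Nor.piIdeal_eq_span R hπ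
  have hρϖ : ρ ϖ = 0 := by
    rw [← RingHom.mem_ker, hρker, hP]
    exact Ideal.mem_span_singleton_self ϖ
  have hne : ∀ z : R, z ∉ piIdeal N A K R → ρ z ≠ 0 := fun z hz h0 =>
    hz (by rw [← hρker, RingHom.mem_ker]; exact h0)
  have hϖ0 : ((ϖ : R) : FK N K) ≠ 0 := by
    have h1 : ((ϖ : R) : FK N K) = constK N K (π : K) := rfl
    rw [h1]
    exact (map_ne_zero (constK N K)).2 (fun h => hπ.ne_zero (Subtype.ext h))
  -- `x ≠ 0`
  have hx0 : x ≠ 0 := by
    rintro rfl
    have h0 : GRel A (0 : LaurentSeries Qb) 0 := by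
      have := hG.of_int 0
      simpa using this
    exact hy (hG.unique _ _ _ hxy h0)
  obtain ⟨a0, ha0, b0, hb0, hb00, hab⟩ := hC.frac x
  have ha00 : (⟨a0, ha0⟩ : R) ≠ 0 := by
    intro h
    have h0 : a0 = 0 := congrArg Subtype.val h
    rw [h0] at hab
    exact (mul_ne_zero hx0 hb00) hab
  have hb00' : (⟨b0, hb0⟩ : R) ≠ 0 := fun h => hb00 (congrArg Subtype.val h)
  obtain ⟨α, a1, ha1, haeq⟩ := exists_pow_mul_not_mem hdvr hC hπ _ ha00
  obtain ⟨β, b1, hb1, hbeq⟩ := exists_pow_mul_not_mem hdvr hC hπ _ hb00'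
  have haeq' : a0 = ((ϖ : R) : FK N K) ^ α * (a1 : FK N K) :=
    congrArg (fun z : R => (z : FK N K)) haeq
  have hbeq' : b0 = ((ϖ : R) : FK N K) ^ β * (b1 : FK N K) :=
    congrArg (fun z : R => (z : FK N K)) hbeq
  -- the relation `x * (ϖ^β * b1) = ϖ^α * a1`
  have hrel : x * (((ϖ : R) : FK N K) ^ β * (b1 : FK N K))
      = ((ϖ : R) : FK N K) ^ α * (a1 : FK N K) := by
    rw [← hbeq', ← haeq', hab]
  -- Gauss reductions of products
  have gmul : ∀ z : R, GRel A ((x : LaurentSeries Qb) * (((z : R) : FK N K) : LaurentSeries Qb))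
      (y * ρ z) := fun z => hG.mul _ _ _ _ hxy (hρG z)
  rcases lt_trichotomy α β with hlt | heq | hgt
  · -- `α < β`: then `x * (ϖ^(β-α) * b1) = a1`, so `ρ a1 = 0`
    exfalso
    have h3 : x * (((ϖ ^ (β - α) * b1 : R) : R) : FK N K) = (a1 : FK N K) := by
      apply mul_left_cancel₀ (pow_ne_zero α hϖ0)
      rw [← hrel]
      have hβ : β = α + (β - α) := (Nat.add_sub_cancel' hlt.le).symm
      conv_rhs => rw [hβ, _root_.pow_add]
      push_cast
      ring
    have g2 := gmul (ϖ ^ (β - α) * b1)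
    have e2 : (x : LaurentSeries Qb) * ((((ϖ ^ (β - α) * b1 : R) : R) : FK N K) : LaurentSeries Qb)
        = (((a1 : R) : FK N K) : LaurentSeries Qb) := by
      rw [← h3]
      rfl
    rw [e2, map_mul, map_pow, hρϖ, zero_pow (Nat.sub_ne_zero_of_lt hlt), zero_mul, mul_zero] at g2
    exact hne a1 ha1 (hG.unique _ _ _ (hρG a1) g2)
  · -- `α = β`
    subst heq
    have h3 : x * (b1 : FK N K) = (a1 : FK N K) := by
      apply mul_left_cancel₀ (pow_ne_zero α hϖ0)
      rw [← hrel]
      ring
    have g2 := gmul b1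
    have e2 : (x : LaurentSeries Qb) * (((b1 : R) : FK N K) : LaurentSeries Qb)
        = (((a1 : R) : FK N K) : LaurentSeries Qb) := by
      rw [← h3]
      rfl
    rw [e2] at g2
    exact ⟨a1, b1, ρ a1, ρ b1, hρG a1, hρG b1, hρF a1, hρF b1, hne a1 ha1, hne b1 hb1, h3,
      hG.unique _ _ _ g2 (hρG a1)⟩
  · -- `β < α`: then `x * b1 = ϖ^(α-β) * a1`, so `y * ρ b1 = 0`
    exfalso
    have h3 : x * (b1 : FK N K) = (((ϖ ^ (α - β) * a1 : R) : R) : FK N K) := by
      apply mul_left_cancel₀ (pow_ne_zero β hϖ0)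
      have hα : α = β + (α - β) := (Nat.add_sub_cancel' hgt.le).symm
      have h4 : ((ϖ : R) : FK N K) ^ β * (x * (b1 : FK N K))
          = ((ϖ : R) : FK N K) ^ α * (a1 : FK N K) := by
        rw [← hrel]
        ring
      rw [h4]
      conv_lhs => rw [hα, _root_.pow_add]
      push_cast
      ring
    have g2 := gmul b1
    have e2 : (x : LaurentSeries Qb) * (((b1 : R) : FK N K) : LaurentSeries Qb)
        = ((((ϖ ^ (α - β) * a1 : R) : R) : FK N K) : LaurentSeries Qb) := by
      rw [← h3]
      rfl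
    rw [e2] at g2
    have h5 := hG.unique _ _ _ g2 (hρG (ϖ ^ (α - β) * a1))
    rw [map_mul, map_pow, hρϖ, zero_pow (Nat.sub_ne_zero_of_lt hgt), zero_mul] at h5
    rcases mul_eq_zero.mp h5 with h6 | h6
    · exact hy h6
    · exact hne b1 hb1 h6

end Chart

/-! ### From the finite-level charts to the `A`-level charts -/

section Incl

set_option synthInstance.maxHeartbeats 400000

variable (N : ℕ) (A : ValuationSubring Qb) (K : IntermediateField ℚ Qb)

/-- The image in `F̄` of `O[t] ⊆ F_K` lies in `A[t] ⊆ F̄`. -/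
theorem incl_mem_AT (t : FK N K) (r : FK N K) (hr : r ∈ Algebra.adjoin (OK A K) {t}) :
    DictInst.incl N K r ∈ PM.AT N A (DictInst.incl N K t) := by
  induction hr using Algebra.adjoin_induction with
  | mem x hx =>
    rw [Set.mem_singleton_iff] at hx
    rw [hx]
    exact Subring.subset_closure (Or.inr rfl)
  | algebraMap o =>
    refine Subring.subset_closure (Or.inl ⟨⟨((o : K) : Qb), o.2⟩, ?_⟩)
    have h := congrArg (fun f => f (o : K)) (DictInst.incl_comp_algebraMap N K)
    exact h.symm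
  | add x y _ _ hx hy =>
    rw [map_add]
    exact Subring.add_mem _ hx hy
  | mul x y _ _ hx hy =>
    rw [map_mul]
    exact Subring.mul_mem _ hx hy

/-- Elements of the finite-level chart `chart N A K t` lie in the `A`-level chart. -/
theorem incl_mem_chartA (t : FK N K) (x : FK N K) (hx : x ∈ Arith.chart N A K t) :
    DictInst.incl N K x ∈ PM.chartA N A (DictInst.incl N K t) := by
  have hx' : IsIntegral (Algebra.adjoin (OK A K) {t}) x := hx
  obtain ⟨p, hp, hpx⟩ := hx'
  let g : Algebra.adjoin (OK A K) {t} →+* PM.AT N A (DictInst.incl N K t) :=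
    ((DictInst.incl N K).comp (Algebra.adjoin (OK A K) {t}).val.toRingHom).codRestrict
      (PM.AT N A (DictInst.incl N K t)) (fun r => incl_mem_AT N A K t r r.2)
  change IsIntegral (PM.AT N A (DictInst.incl N K t)) (DictInst.incl N K x)
  refine ⟨p.map g, hp.map g, ?_⟩
  rw [Polynomial.eval₂_map]
  have h1 : (algebraMap (PM.AT N A (DictInst.incl N K t)) (modularFunctionFieldBar N)).comp g
      = (DictInst.incl N K).comp (algebraMap (Algebra.adjoin (OK A K) {t}) (FK N K)) := rfl
  rw [h1, ← Polynomial.hom_eval₂, hpx, map_zero]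

theorem incl_jK [NeZero N] : DictInst.incl N K (jK N K) = PM.jbar N := rfl

theorem incl_jK_inv [NeZero N] : DictInst.incl N K (jK N K)⁻¹ = (PM.jbar N)⁻¹ := by
  rw [map_inv₀, incl_jK]

end Incl

/-! ### `A`-level -/

section ALevel

set_option synthInstance.maxHeartbeats 400000

variable (N : ℕ) [NeZero N] (ℓ : ℕ) [Fact ℓ.Prime]

/-- **Gauss fraction property, `A`-level.**  Every `A`-integral series of `F̄` with nonzero
reduction is a quotient of two elements of the chart `chartA N A t` (`t = j` or `t = j⁻¹`)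
whose Gauss reductions are nonzero elements of `F_k`, compatibly with reduction. -/
theorem exists_chartA_quot (hℓN : ¬ ℓ ∣ N) (A : ValuationSubring Qb) (hA : A.LiesOverPrime ℓ)
    (t : modularFunctionFieldBar N) (ht : t = PM.jbar N ∨ t = (PM.jbar N)⁻¹)
    (y : LaurentSeries A) (hy : coeffMap A.subtype y ∈ modularFunctionFieldBar N)
    (hy0 : coeffMap (IsLocalRing.residue A) y ≠ 0) :
    ∃ (a b : modularFunctionFieldBar N) (a' b' : LaurentSeries (IsLocalRing.ResidueField A)),
      a ∈ PM.chartA N A t ∧ b ∈ PM.chartA N A t ∧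
      GRel A (a : LaurentSeries Qb) a' ∧ GRel A (b : LaurentSeries Qb) b' ∧
      a' ∈ modularFunctionFieldFullC (IsLocalRing.ResidueField A) N ∧
      b' ∈ modularFunctionFieldFullC (IsLocalRing.ResidueField A) N ∧
      a' ≠ 0 ∧ b' ≠ 0 ∧
      (⟨coeffMap A.subtype y, hy⟩ : modularFunctionFieldBar N) * b = a ∧
      coeffMap (IsLocalRing.residue A) y * b' = a' := by
  have hG : GRelFacts A := GRel.gRelStatement A
  obtain ⟨S, hS⟩ := (DescCoeff.descStatement N).1 (coeffMap A.subtype y) hy
  obtain ⟨K, hSK, hB⟩ := Base.baseStatement ℓ A hA S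
  have hyK : coeffMap A.subtype y ∈ FK N K := hS K hSK
  have hM : ModelFacts N ℓ A K := ModelAll.modelStatement N ℓ hℓN A hA K hB
  have key : ∀ (tK : FK N K), ChartFacts N A K (Arith.chart N A K tK) tK →
      DictInst.incl N K tK = t →
      ∃ (a b : modularFunctionFieldBar N) (a' b' : LaurentSeries (IsLocalRing.ResidueField A)),
        a ∈ PM.chartA N A t ∧ b ∈ PM.chartA N A t ∧
        GRel A (a : LaurentSeries Qb) a' ∧ GRel A (b : LaurentSeries Qb) b' ∧
        a' ∈ modularFunctionFieldFullC (IsLocalRing.ResidueField A) N ∧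
        b' ∈ modularFunctionFieldFullC (IsLocalRing.ResidueField A) N ∧
        a' ≠ 0 ∧ b' ≠ 0 ∧
        (⟨coeffMap A.subtype y, hy⟩ : modularFunctionFieldBar N) * b = a ∧
        coeffMap (IsLocalRing.residue A) y * b' = a' := by
    intro tK hC htK
    obtain ⟨a, b, a', b', hga, hgb, haF, hbF, ha0, hb0, hab, hred⟩ :=
      exists_chart_quot hG hB.dvr hC ⟨coeffMap A.subtype y, hyK⟩ _ (hG.of_int y) hy0
    refine ⟨DictInst.incl N K a, DictInst.incl N K b, a', b', ?_, ?_, hga, hgb, haF, hbF, ha0, hb0,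
      ?_, hred⟩
    · rw [← htK]
      exact incl_mem_chartA N A K tK a a.2
    · rw [← htK]
      exact incl_mem_chartA N A K tK b b.2
    · apply Subtype.ext
      exact congrArg (fun z : FK N K => (z : LaurentSeries Qb)) hab
  rcases ht with rfl | rfl
  · exact key (jK N K) hM.c0 (incl_jK N K)
  · exact key (jK N K)⁻¹ hM.cInf (incl_jK_inv N K)

/-- **Fraction-field property, `A`-level.**  Every element of `F̄` is a quotient of two elements
of the chart `chartA N A t` (`t = j` or `t = j⁻¹`). -/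
theorem exists_chartA_frac (A : ValuationSubring Qb)
    (t : modularFunctionFieldBar N) (ht : t = PM.jbar N ∨ t = (PM.jbar N)⁻¹)
    (f : modularFunctionFieldBar N) :
    ∃ x y : modularFunctionFieldBar N, x ∈ PM.chartA N A t ∧ y ∈ PM.chartA N A t ∧ y ≠ 0 ∧
      f * y = x := by
  have : Fact (Nat.Prime 2) := ⟨Nat.prime_two⟩
  obtain ⟨S, hS⟩ := (DescCoeff.descStatement N).1 (f : LaurentSeries Qb) f.2
  let K : IntermediateField ℚ Qb := IntermediateField.adjoin ℚ (S : Set Qb)
  have hfK : (f : LaurentSeries Qb) ∈ FK N K := hS K (IntermediateField.subset_adjoin ℚ _)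
  have hBF := ModelBasic.basicFacts N 2 A K
  rcases ht with rfl | rfl
  · obtain ⟨a, ha, b, hb, hb0, hab⟩ := hBF.frac0 ⟨(f : LaurentSeries Qb), hfK⟩
    refine ⟨DictInst.incl N K a, DictInst.incl N K b, ?_, ?_, ?_, ?_⟩
    · rw [← incl_jK N K]
      exact incl_mem_chartA N A K (jK N K) a ha
    · rw [← incl_jK N K]
      exact incl_mem_chartA N A K (jK N K) b hb
    · exact (map_ne_zero (DictInst.incl N K)).2 hb0
    · apply Subtype.ext
      exact congrArg (fun z : FK N K => (z : LaurentSeries Qb)) hab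
  · obtain ⟨a, ha, b, hb, hb0, hab⟩ := hBF.fracInf ⟨(f : LaurentSeries Qb), hfK⟩
    refine ⟨DictInst.incl N K a, DictInst.incl N K b, ?_, ?_, ?_, ?_⟩
    · rw [← incl_jK_inv N K]
      exact incl_mem_chartA N A K (jK N K)⁻¹ a ha
    · rw [← incl_jK_inv N K]
      exact incl_mem_chartA N A K (jK N K)⁻¹ b hb
    · exact (map_ne_zero (DictInst.incl N K)).2 hb0
    · apply Subtype.ext
      exact congrArg (fun z : FK N K => (z : LaurentSeries Qb)) hab

/-! ### Consumer forms -/

/-- **`R0.LocalDatum.frac`, verbatim**, for any subring `S ⊆ F̄` containing a chart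
`chartA N A t` (`t = j` or `j⁻¹`) and any ring hom `ρ : S → F_k` which is a Gauss reduction. -/
theorem localDatum_frac (hℓN : ¬ ℓ ∣ N) (A : ValuationSubring Qb) (hA : A.LiesOverPrime ℓ)
    (t : modularFunctionFieldBar N) (ht : t = PM.jbar N ∨ t = (PM.jbar N)⁻¹)
    (S : Subring (modularFunctionFieldBar N)) (hS : PM.chartA N A t ≤ S)
    (ρ : S →+* modularFunctionFieldFullC (IsLocalRing.ResidueField A) N)
    (hρ : ∀ x : S, GRel A (((x : S) : modularFunctionFieldBar N) : LaurentSeries Qb)
      ((ρ x : modularFunctionFieldFullC (IsLocalRing.ResidueField A) N) :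
        LaurentSeries (IsLocalRing.ResidueField A)))
    (y : LaurentSeries A) (hy : coeffMap A.subtype y ∈ modularFunctionFieldBar N)
    (hyk : coeffMap (IsLocalRing.residue A) y ∈
      modularFunctionFieldFullC (IsLocalRing.ResidueField A) N)
    (hy0 : coeffMap (IsLocalRing.residue A) y ≠ 0) :
    ∃ a b : S, ρ a ≠ 0 ∧ ρ b ≠ 0 ∧
      (⟨coeffMap A.subtype y, hy⟩ : modularFunctionFieldBar N) *
        (b : modularFunctionFieldBar N) = a ∧
      (⟨coeffMap (IsLocalRing.residue A) y, hyk⟩ :
        modularFunctionFieldFullC (IsLocalRing.ResidueField A) N) * ρ b = ρ a := by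
  have hG : GRelFacts A := GRel.gRelStatement A
  obtain ⟨a, b, a', b', haS, hbS, hga, hgb, -, -, ha0, hb0, hab, hred⟩ :=
    exists_chartA_quot N ℓ hℓN A hA t ht y hy hy0
  have hρa : ((ρ ⟨a, hS haS⟩ : modularFunctionFieldFullC (IsLocalRing.ResidueField A) N) :
      LaurentSeries (IsLocalRing.ResidueField A)) = a' :=
    hG.unique _ _ _ (hρ ⟨a, hS haS⟩) hga
  have hρb : ((ρ ⟨b, hS hbS⟩ : modularFunctionFieldFullC (IsLocalRing.ResidueField A) N) :
      LaurentSeries (IsLocalRing.ResidueField A)) = b' :=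
    hG.unique _ _ _ (hρ ⟨b, hS hbS⟩) hgb
  refine ⟨⟨a, hS haS⟩, ⟨b, hS hbS⟩, ?_, ?_, hab, ?_⟩
  · intro h0
    apply ha0
    rw [← hρa, h0]
    rfl
  · intro h0
    apply hb0
    rw [← hρb, h0]
    rfl
  · apply Subtype.ext
    change coeffMap (IsLocalRing.residue A) y *
      ((ρ ⟨b, hS hbS⟩ : modularFunctionFieldFullC (IsLocalRing.ResidueField A) N) :
        LaurentSeries (IsLocalRing.ResidueField A)) = _
    rw [hρb, hρa, hred]

/-- **`hfrac` of the conservation core** (`Cons.Setting.conservation`), for any subring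
`S ⊆ F̄` containing a chart `chartA N A t` (`t = j` or `j⁻¹`). -/
theorem setting_hfrac (A : ValuationSubring Qb)
    (t : modularFunctionFieldBar N) (ht : t = PM.jbar N ∨ t = (PM.jbar N)⁻¹)
    (S : Subring (modularFunctionFieldBar N)) (hS : PM.chartA N A t ≤ S)
    (f : modularFunctionFieldBar N) :
    ∃ x y : S, y ≠ 0 ∧ f * (y : modularFunctionFieldBar N) = x := by
  obtain ⟨x, y, hx, hy, hy0, hxy⟩ := exists_chartA_frac N A t ht f
  exact ⟨⟨x, hS hx⟩, ⟨y, hS hy⟩, fun h => hy0 (congrArg Subtype.val h), hxy⟩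

end ALevel

end Fermat.Agent.S37.R0Frac
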