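/-
S37 block [R0] — R0LocGlue.lean (helper21): compiled glue of the second layer.

* `fracStatement`            : the leaf `R0.FracStatement` (from `R0Frac.setting_hfrac`, helper10);
* `localDatum_of_pointDatum` : `R0.PointDatum N A Q ρ T ⟹ R0.LocalDatum N A Q (SQ N A Q) (ι ∘ ρ)`:
    `sum`  = `Cons.Setting.conservation` (helper15/helper73) with `b = 1`,
    `frac` = `R0Frac.localDatum_frac` (helper10);
* `locStatement_of_point`    : `PointStatement` + the partition half (`R0Part`) ⟹ `LocStatement`;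
* `reductionInputs_of_point` : [R0] itself, `ReductionInputsModL A N`, from `PointStatement` and
    the four `R0Part` leaves (with `R0Char0.char0Statement` and `PGI`).
-/
import Mathlib
import Fermat.Agent.S37.R0Loc
import Fermat.Agent.S37.R0Frac
import Fermat.Agent.S37.R0Part
import Fermat.Agent.S37.R0Char0
import Fermat.Agent.S37.PGI

set_option autoImplicit false

noncomputable section

namespace Fermat.Agent.S37.R0

open ModularCurve AlgebraicCurve HahnSeries Fermat.Agent.S37.PM Fermat.Agent.S18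

set_option synthInstance.maxHeartbeats 400000

section Generic

variable {K F : Type*} [Field K] [Field F] [Algebra K F]

/-- The order at a place of an element of its valuation ring associated to the `m`-th power of a
uniformizer is `m`. -/
theorem ord_eq_of_associated (v : Place K F) {x ϖ : v.toValuationSubring} (hϖ : Irreducible ϖ)
    {m : ℕ} (h : Associated x (ϖ ^ m)) : v.ord (x : F) = m := by
  obtain ⟨u, hu⟩ := h
  have hx : x = ((u⁻¹ : (v.toValuationSubring)ˣ) : v.toValuationSubring) * ϖ ^ m := by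
    rw [← hu, mul_comm x, ← mul_assoc, ← Units.val_mul, inv_mul_cancel, Units.val_one, one_mul]
  have hcoe : (x : F) = (((u⁻¹ : (v.toValuationSubring)ˣ) : v.toValuationSubring) : F) *
      (ϖ : F) ^ (m : ℤ) := by
    rw [hx, zpow_natCast]
    rfl
  rw [hcoe]
  exact v.ord_unit_smul_zpow u⁻¹ hϖ (m : ℤ)

end Generic

section Basic

variable (N : ℕ) (A : ValuationSubring Qb)
variable (Q : Place (IsLocalRing.ResidueField A)
  (modularFunctionFieldFullC (IsLocalRing.ResidueField A) N))

theorem tQ_eq : tQ N A Q = jbar N ∨ tQ N A Q = (jbar N)⁻¹ := by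
  unfold tQ
  split_ifs
  · exact Or.inl rfl
  · exact Or.inr rfl

theorem chartA_le_SQ : chartA N A (tQ N A Q) ≤ SQ N A Q := fun x hx =>
  ⟨x, 1, hx, Subring.one_mem _, ⟨1, red_one N A, unitAt_one N A Q⟩, mul_one x⟩

end Basic

/-- **[Frac]**. -/
theorem fracStatement (N ℓ : ℕ) [NeZero N] : FracStatement N ℓ := fun _ _ A _ Q f =>
  R0Frac.setting_hfrac N A (tQ N A Q) (tQ_eq N A Q) (SQ N A Q) (chartA_le_SQ N A Q) f

/-- **Point datum ⟹ local datum.** -/
theorem localDatum_of_pointDatum (N ℓ : ℕ) [NeZero N] (hℓ : ℓ.Prime) (hℓN : ¬ ℓ ∣ N)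
    (A : ValuationSubring Qb) (hA : A.LiesOverPrime ℓ)
    (Q : Place (IsLocalRing.ResidueField A)
      (modularFunctionFieldFullC (IsLocalRing.ResidueField A) N))
    {ρ : SQ N A Q →+* Q.toValuationSubring} {T : SQ N A Q} (h : PointDatum N A Q ρ T) :
    LocalDatum N A Q (SQ N A Q) (Q.toValuationSubring.subtype.comp ρ) := by
  have : Fact ℓ.Prime := ⟨hℓ⟩
  refine ⟨?_, ?_⟩
  · intro a ha
    have hρa : ρ a ≠ 0 := by
      intro h0
      apply ha
      rw [RingHom.comp_apply, h0, map_zero]
    obtain ⟨m, hm⟩ := IsDiscreteValuationRing.associated_pow_irreducible hρa h.setting.hT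
    have h1 : Associated (ρ (1 : SQ N A Q)) (ρ T ^ 0) := by
      rw [map_one, pow_zero]
    have hc := (h.setting.conservation h.hfrac a 1 m 0 hm h1).2
    have hsum : ∑ᶠ (P : Place Qb (modularFunctionFieldBar N)) (_ : P ∈ Pts N A (SQ N A Q)),
        P.ord (a : modularFunctionFieldBar N) = (m : ℤ) := by
      have hc' : ∑ᶠ (P : Place Qb (modularFunctionFieldBar N)) (_ : P ∈ Pts N A (SQ N A Q)),
          P.ord ((a : modularFunctionFieldBar N) /
            ((1 : SQ N A Q) : modularFunctionFieldBar N)) = (m : ℤ) - (0 : ℕ) := hc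
      rw [Subring.coe_one] at hc'
      simp only [div_one, Nat.cast_zero, sub_zero] at hc'
      exact hc'
    rw [hsum]
    exact (ord_eq_of_associated Q h.setting.hT hm).symm
  · intro y hy hyk hne
    exact R0Frac.localDatum_frac N ℓ hℓN A hA (tQ N A Q) (tQ_eq N A Q) (SQ N A Q)
      (chartA_le_SQ N A Q) (Q.toValuationSubring.subtype.comp ρ) (fun x => h.red x) y hy hyk hne

/-- **[Loc] from the point data and the partition half.** -/
theorem locStatement_of_point (N ℓ : ℕ) [NeZero N] (hpoint : PointStatement N ℓ)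
    (hT : R0Part.TotalStatement N ℓ) (hU : R0Part.UniqueStatement N ℓ)
    (hM : R0Part.MemStatement N ℓ (fun A Q => SQ N A Q)) (hD : R0Part.DegKStatement N ℓ) :
    LocStatement N ℓ := by
  intro hℓ hℓN A hA
  choose ρ T hdat using hpoint hℓ hℓN A hA
  exact R0Part.locFamily_of_halves (fun A Q => SQ N A Q) hT hU hM hD hℓ hℓN A hA
    (fun Q => Q.toValuationSubring.subtype.comp (ρ Q))
    (fun Q => localDatum_of_pointDatum N ℓ hℓ hℓN A hA Q (hdat Q))

/-- **[R0]** from the point data and the partition half. -/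
theorem reductionInputs_of_point (N ℓ : ℕ) [NeZero N] (hpoint : PointStatement N ℓ)
    (hT : R0Part.TotalStatement N ℓ) (hU : R0Part.UniqueStatement N ℓ)
    (hM : R0Part.MemStatement N ℓ (fun A Q => SQ N A Q)) (hD : R0Part.DegKStatement N ℓ)
    (hℓ : ℓ.Prime) (hℓN : ¬ ℓ ∣ N) (A : ValuationSubring Qb) (hA : A.LiesOverPrime ℓ) :
    ReductionInputsModL A N :=
  reductionInputs_of_leaves N ℓ (char0Statement N) (locStatement_of_point N ℓ hpoint hT hU hM hD)
    (fun hℓ' hℓN' A' hA' => by
      have : Fact ℓ.Prime := ⟨hℓ'⟩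
      exact PGI.principalGeneratedByIntegral N ℓ hℓN' A' hA') hℓ hℓN A hA

/-- **[R0]** from all the leaves of `R0Loc.lean` and `R0Part.lean`. -/
theorem reductionInputs_of_all_leaves (N ℓ : ℕ) [NeZero N] (hrho : RhoStatement N ℓ)
    (hsurj : SurjStatement N ℓ) (hnoeth : NoethStatement N ℓ) (hlevel : LevelStatement N ℓ)
    (hdir : DirStatement N ℓ) (halg : AlgStatement N ℓ)
    (hT : R0Part.TotalStatement N ℓ) (hU : R0Part.UniqueStatement N ℓ)
    (hM : R0Part.MemStatement N ℓ (fun A Q => SQ N A Q)) (hD : R0Part.DegKStatement N ℓ)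
    (hℓ : ℓ.Prime) (hℓN : ¬ ℓ ∣ N) (A : ValuationSubring Qb) (hA : A.LiesOverPrime ℓ) :
    ReductionInputsModL A N :=
  reductionInputs_of_point N ℓ
    (pointStatement_of_leaves N ℓ hrho hsurj hnoeth hlevel hdir halg (fracStatement N ℓ))
    hT hU hM hD hℓ hℓN A hA

end Fermat.Agent.S37.R0
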