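/-
S37 block [R0] — R0Mem.lean (helper38): leaf **[R10]** of the partition half (`R0Part.lean`),

    `memStatement : R0Part.MemStatement N ℓ (fun A Q => R0.SQ N A Q)`,

i.e. for a prime `ℓ ∤ N`, a valuation subring `A ⊂ ℚ̄` over `ℓ`, a place `Q` of `F_k` and a place
`P` of `F̄`:

    `P ∈ R0.Pts N A (R0.SQ N A Q)  ↔  R0Part.Reduces N A P Q`.

`SQ N A Q` is the local ring of the `A`-model at `Q` (fractions `x / s` of elements of the chart
`chartA N A (tQ Q)` with the reduction of `s` a unit at `Q`), `Pts` are the places of `F̄` at which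
all its elements have values in `A`, and `Reduces P Q` says that `P` reduces to `Q` through the
chart `j` or (cusp case) through the chart `j⁻¹`.

Proof.
(⇐) `RedTo j P Q` at `x = j` shows that `j̄` is regular at `Q`, so `tQ Q = j`; for `f · s = x` in
`SQ` the value of `s` at `P` reduces to the (nonzero) value at `Q` of its unit reduction, so it is
a unit of `A`, and the value of `x` lies in `A` (`PMCover`).  Cusp case: `InCusp` and `RedTo j⁻¹`
at `x = j⁻¹` show `j̄⁻¹ ∈ 𝔪_Q`, so `tQ Q = j⁻¹`.
(⇒) Let `t = tQ Q`.  For `x` in the chart with Gauss reduction `b`: `b ∈ F_k` (`PMChartA`), `b` is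
regular at `Q` (it is integral over `k[t̄] ⊆ O_Q`), and `x` has a value `c ∈ A` at `P`.  If
`b - c̄ ∉ 𝔪_Q` then it is a unit at `Q`, hence `(x - c)⁻¹ ∈ SQ` is regular at `P`, although `x - c`
vanishes at `P`: contradiction.  Cusp case: the value `0` of `j̄⁻¹` at `Q` gives `InCusp`.

No input from the special-fibre rows (R2/R3) is needed.
-/
import Mathlib
import Fermat.Agent.S37.R0Part
import Fermat.Agent.S37.R0LocDefs
import Fermat.Agent.S37.PMChartA
import Fermat.Agent.S37.PMCover
import Fermat.Agent.S18.JNot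

set_option autoImplicit false

noncomputable section

namespace Fermat.Agent.S37.R0Mem

open ModularCurve AlgebraicCurve HahnSeries Fermat.Agent.S37.PM Fermat.Agent.S18
open Fermat.Agent.S37.R0 Fermat.Agent.S37.R0Part

set_option synthInstance.maxHeartbeats 400000

/-! ### Valuation subrings -/

section Val

variable {F : Type*} [Field F]

theorem one_not_mem_nonunits (B : ValuationSubring F) : (1 : F) ∉ B.nonunits := by
  rw [ValuationSubring.mem_nonunits_iff, map_one]
  exact lt_irrefl _

/-- `v β = 1` iff `β` lies in the valuation ring but not in its maximal ideal. -/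
theorem valuation_eq_one_iff (B : ValuationSubring F) (β : F) :
    B.valuation β = 1 ↔ β ∈ B ∧ β ∉ B.nonunits := by
  rw [ValuationSubring.mem_nonunits_iff, ← B.valuation_le_one_iff β, not_lt]
  constructor
  · intro h
    exact ⟨h.le, h.ge⟩
  · rintro ⟨h1, h2⟩
    exact le_antisymm h1 h2

/-- An element of the maximal ideal is not inverted in the valuation ring. -/
theorem inv_not_mem_of_mem_nonunits (B : ValuationSubring F) {s : F} (hs0 : s ≠ 0)
    (hs : s ∈ B.nonunits) : s⁻¹ ∉ B := by
  intro hinv
  have h := PMCover.mul_mem_nonunits hinv hs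
  rw [inv_mul_cancel₀ hs0] at h
  exact one_not_mem_nonunits B h

end Val

/-! ### The chart rings -/

section Chart

variable (N : ℕ) (A : ValuationSubring Qb)

theorem AT_le_chartA (t : modularFunctionFieldBar N) : AT N A t ≤ chartA N A t := by
  intro a ha
  exact (integralClosure (AT N A t) (modularFunctionFieldBar N)).algebraMap_mem ⟨a, ha⟩

theorem self_mem_chartA (t : modularFunctionFieldBar N) : t ∈ chartA N A t :=
  AT_le_chartA N A t (Subring.subset_closure (Or.inr rfl))

theorem constA_mem_chartA (t : modularFunctionFieldBar N) (c : A) :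
    constA N A c ∈ chartA N A t :=
  AT_le_chartA N A t (Subring.subset_closure (Or.inl ⟨c, rfl⟩))

/-- The chart at `Q` lies in the local ring at `Q`. -/
theorem chartA_le_SQ (Q : Place (IsLocalRing.ResidueField A)
      (modularFunctionFieldFullC (IsLocalRing.ResidueField A) N)) :
    chartA N A (tQ N A Q) ≤ SQ N A Q := by
  intro x hx
  exact ⟨x, 1, hx, Subring.one_mem _, ⟨1, red_one N A, unitAt_one N A Q⟩, mul_one x⟩

/-- `UnitAt` in terms of the valuation ring and its maximal ideal. -/
theorem unitAt_iff (Q : Place (IsLocalRing.ResidueField A)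
      (modularFunctionFieldFullC (IsLocalRing.ResidueField A) N))
    (β : modularFunctionFieldFullC (IsLocalRing.ResidueField A) N) :
    UnitAt N A Q β ↔ β ∈ Q.toValuationSubring ∧ β ∉ Q.toValuationSubring.nonunits :=
  valuation_eq_one_iff Q.toValuationSubring β

end Chart

/-! ### Gauss reductions of `j`, `j⁻¹` and of the constants -/

section Red

variable (N : ℕ) (A : ValuationSubring Qb)

/-- A constant of `A` reduces to its residue class. -/
theorem red_const (c : A) :
    Red N A (constA N A c)
      (algebraMap (IsLocalRing.ResidueField A)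
        (modularFunctionFieldFullC (IsLocalRing.ResidueField A) N) (IsLocalRing.residue A c)) := by
  have h := (GRel.gRelStatement A).of_int (C c)
  have h1 : coeffMap A.subtype (C c) = (C (c : Qb) : LaurentSeries Qb) := coeffMap_single _ _ _
  have h2 : coeffMap (IsLocalRing.residue A) (C c) =
      (C (IsLocalRing.residue A c) : LaurentSeries (IsLocalRing.ResidueField A)) :=
    coeffMap_single _ _ _
  rw [h1, h2] at h
  have h3 : ((algebraMap (IsLocalRing.ResidueField A)
      (modularFunctionFieldFullC (IsLocalRing.ResidueField A) N) (IsLocalRing.residue A c) :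
        modularFunctionFieldFullC (IsLocalRing.ResidueField A) N) :
          LaurentSeries (IsLocalRing.ResidueField A)) = C (IsLocalRing.residue A c) := by
    show algebraMap (IsLocalRing.ResidueField A) (LaurentSeries (IsLocalRing.ResidueField A))
      (IsLocalRing.residue A c) = C (IsLocalRing.residue A c)
    exact algebraMap_laurentSeries_eq_single (IsLocalRing.ResidueField A) (IsLocalRing.residue A c)
  unfold Red
  rw [PMChartA.coe_constA, h3]
  exact h

variable [NeZero N]

/-- `j` reduces to `j̄`. -/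
theorem red_jbar : Red N A (jbar N) (jk N A) :=
  JNot.gRel_jK GRel.gRelStatement N A ⊥

omit [NeZero N] in
theorem jk_ne_zero : jk N A ≠ 0 := by
  intro h
  exact JNot.jqModC_ne_zero (IsLocalRing.ResidueField A) (congrArg Subtype.val h)

/-- `j⁻¹` reduces to `j̄⁻¹`. -/
theorem red_jbar_inv : Red N A (jbar N)⁻¹ (jk N A)⁻¹ := by
  have h := (GRel.gRelStatement A).inv _ _ (red_jbar N A)
    (fun h0 => jk_ne_zero N A (Subtype.ext h0))
  unfold Red
  rw [IntermediateField.coe_inv, IntermediateField.coe_inv]
  exact h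

end Red

/-! ### Regularity at `Q` of the reductions of the chart elements -/

section Integral

variable (N : ℕ) [NeZero N] (ℓ : ℕ) [Fact ℓ.Prime] (A : ValuationSubring Qb)

/-- **Regularity of reductions.**  If the reduction `τ` of the chart coordinate `t` is regular at
the place `Q` of `F_k`, so is the reduction of every element of the chart `chartA N A t`
(it is integral over `k[τ]`). -/
theorem red_mem_valuationSubring (hℓN : ¬ ℓ ∣ N) (hA : A.LiesOverPrime ℓ)
    {t : modularFunctionFieldBar N} (ht : t = jbar N ∨ t = (jbar N)⁻¹)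
    (Q : Place (IsLocalRing.ResidueField A)
      (modularFunctionFieldFullC (IsLocalRing.ResidueField A) N))
    {τ : modularFunctionFieldFullC (IsLocalRing.ResidueField A) N} (hτ : Red N A t τ)
    (hτQ : τ ∈ Q.toValuationSubring)
    {x : modularFunctionFieldBar N} (hx : x ∈ chartA N A t)
    {β : modularFunctionFieldFullC (IsLocalRing.ResidueField A) N} (hβ : Red N A x β) :
    β ∈ Q.toValuationSubring := by
  obtain ⟨ρ, hρ⟩ := PMChartA.exists_rhoA N ℓ A hℓN hA ht
  have hρβ : ρ ⟨x, hx⟩ = β := Red.unique (hρ ⟨x, hx⟩) hβ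
  -- `ρ` maps `A[t]` into `O_Q`
  have hle : AT N A t ≤ Subring.map (chartA N A t).subtype
      (Subring.comap ρ Q.toValuationSubring.toSubring) := by
    unfold AT
    rw [Subring.closure_le]
    rintro a (⟨c, rfl⟩ | ha)
    · refine ⟨⟨constA N A c, constA_mem_chartA N A t c⟩, ?_, rfl⟩
      have e : ρ ⟨constA N A c, constA_mem_chartA N A t c⟩ =
          algebraMap (IsLocalRing.ResidueField A)
            (modularFunctionFieldFullC (IsLocalRing.ResidueField A) N) (IsLocalRing.residue A c) :=
        Red.unique (hρ ⟨constA N A c, constA_mem_chartA N A t c⟩) (red_const N A c)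
      show ρ ⟨constA N A c, constA_mem_chartA N A t c⟩ ∈ Q.toValuationSubring
      rw [e]
      exact PMCover.algebraMap_mem Q _
    · rw [Set.mem_singleton_iff] at ha
      subst ha
      refine ⟨⟨a, self_mem_chartA N A a⟩, ?_, rfl⟩
      have e : ρ ⟨a, self_mem_chartA N A a⟩ = τ :=
        Red.unique (hρ ⟨a, self_mem_chartA N A a⟩) hτ
      show ρ ⟨a, self_mem_chartA N A a⟩ ∈ Q.toValuationSubring
      rw [e]
      exact hτQ
  have hmem : ∀ a : AT N A t,
      ρ (Subring.inclusion (AT_le_chartA N A t) a) ∈ Q.toValuationSubring.toSubring := by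
    intro a
    obtain ⟨y, hy, hya⟩ := hle a.2
    have e : y = Subring.inclusion (AT_le_chartA N A t) a := Subtype.ext hya
    rw [← e]
    exact hy
  -- the induced ring hom `A[t] → O_Q`
  let g : AT N A t →+* Q.toValuationSubring :=
    (ρ.comp (Subring.inclusion (AT_le_chartA N A t))).codRestrict
      Q.toValuationSubring.toSubring hmem
  have hx' : IsIntegral (AT N A t) x := hx
  obtain ⟨p, hp, hpx⟩ := hx'
  have hint : IsIntegral Q.toValuationSubring β := by
    refine ⟨p.map g, hp.map g, ?_⟩
    rw [Polynomial.eval₂_map]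
    have e1 : (algebraMap Q.toValuationSubring
        (modularFunctionFieldFullC (IsLocalRing.ResidueField A) N)).comp g =
        ρ.comp (Subring.inclusion (AT_le_chartA N A t)) := by
      ext a
      rfl
    rw [e1, ← hρβ, ← Polynomial.hom_eval₂]
    have e2 : Polynomial.eval₂ (Subring.inclusion (AT_le_chartA N A t)) ⟨x, hx⟩ p = 0 := by
      apply Subtype.ext
      have e3 := Polynomial.hom_eval₂ p (Subring.inclusion (AT_le_chartA N A t))
        (chartA N A t).subtype ⟨x, hx⟩
      exact e3.trans hpx
    rw [e2, map_zero]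
  obtain ⟨y, hy⟩ := IsIntegrallyClosed.isIntegral_iff.mp hint
  rw [← hy]
  exact y.2

end Integral

/-! ### The two implications -/

section Main

variable (N : ℕ) [NeZero N] (ℓ : ℕ) [Fact ℓ.Prime] (A : ValuationSubring Qb)

omit [NeZero N] in
/-- (⇐), common core: if `tQ Q = t`, the chart elements have values in `A` at `P`, and `P`
reduces to `Q` through the chart `t`, then `P` is centred on `SQ Q` with values in `A`. -/
theorem mem_pts_of_redTo
    (Q : Place (IsLocalRing.ResidueField A)
      (modularFunctionFieldFullC (IsLocalRing.ResidueField A) N))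
    (P : Place Qb (modularFunctionFieldBar N)) {t : modularFunctionFieldBar N}
    (htQ : tQ N A Q = t) (hchart : ∀ x ∈ chartA N A t, ∃ c : A, ValAt P x (c : Qb))
    (hred : RedTo N A t P Q) : P ∈ Pts N A (SQ N A Q) := by
  intro f hf
  obtain ⟨x, s, hx, hs, ⟨β, hβ, hu⟩, hfs⟩ := hf
  rw [htQ] at hx hs
  obtain ⟨hb, cs, hPs, hQs⟩ := hred s hs _ hβ
  obtain ⟨cx, hPx⟩ := hchart x hx
  -- the value of `s` at `P` is a unit of `A`
  have hres : IsLocalRing.residue A cs ≠ 0 := by
    intro h0
    rw [h0] at hQs
    have h1 := (PMCover.valAt_zero_iff Q).mp hQs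
    exact ((unitAt_iff N A Q β).mp hu).2 h1
  have hcsu : IsUnit cs := by
    by_contra hnu
    exact hres ((IsLocalRing.residue_eq_zero_iff cs).mpr ((IsLocalRing.mem_maximalIdeal cs).mpr hnu))
  obtain ⟨u, hu'⟩ := hcsu
  have hmul : (cs : Qb) * ((↑(u⁻¹ : Aˣ) : A) : Qb) = 1 := by
    have h1 : cs * (↑(u⁻¹ : Aˣ) : A) = 1 := by
      rw [← hu']
      exact u.mul_inv
    exact congrArg Subtype.val h1
  have hcs0 : (cs : Qb) ≠ 0 := left_ne_zero_of_mul_eq_one hmul
  have hinv : (cs : Qb)⁻¹ = ((↑(u⁻¹ : Aˣ) : A) : Qb) := inv_eq_of_mul_eq_one_right hmul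
  have hs0 : s ≠ 0 := by
    rintro rfl
    exact hcs0 (PMCover.valAt_unique P hPs (PMCover.valAt_zero P))
  have hf' : f = x * s⁻¹ := by
    rw [← hfs, mul_assoc, mul_inv_cancel₀ hs0, mul_one]
  have hval : ValAt P f ((cx : Qb) * (cs : Qb)⁻¹) := by
    rw [hf']
    exact PMCover.valAt_mul P hPx (PMCover.valAt_inv P hPs hcs0)
  refine ⟨cx * (↑(u⁻¹ : Aˣ) : A), ?_⟩
  rw [hinv] at hval
  exact hval

/-- (⇒), common core: a place centred on `SQ Q` with values in `A` reduces to `Q` through the
chart `tQ Q`. -/
theorem redTo_of_mem_pts (hℓN : ¬ ℓ ∣ N) (hA : A.LiesOverPrime ℓ)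
    (Q : Place (IsLocalRing.ResidueField A)
      (modularFunctionFieldFullC (IsLocalRing.ResidueField A) N))
    (P : Place Qb (modularFunctionFieldBar N)) (hP : P ∈ Pts N A (SQ N A Q))
    (ht : tQ N A Q = jbar N ∨ tQ N A Q = (jbar N)⁻¹)
    {τ : modularFunctionFieldFullC (IsLocalRing.ResidueField A) N} (hτ : Red N A (tQ N A Q) τ)
    (hτQ : τ ∈ Q.toValuationSubring) : RedTo N A (tQ N A Q) P Q := by
  intro x hx b hb
  obtain ⟨b', hb'G, hb'F⟩ := PMChartA.exists_gRel N ℓ A hℓN hA ht hx
  have hbb' : b = b' := (GRel.gRelStatement A).unique _ _ _ hb hb'G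
  have hbF : b ∈ modularFunctionFieldFullC (IsLocalRing.ResidueField A) N := by
    rw [hbb']
    exact hb'F
  have hβ : Red N A x ⟨b, hbF⟩ := hb
  have hβQ : (⟨b, hbF⟩ : modularFunctionFieldFullC (IsLocalRing.ResidueField A) N) ∈
      Q.toValuationSubring :=
    red_mem_valuationSubring N ℓ A hℓN hA ht Q hτ hτQ hx hβ
  obtain ⟨c, hc⟩ := hP x (chartA_le_SQ N A Q hx)
  refine ⟨hbF, c, hc, ?_⟩
  by_contra hne
  -- `s := x - c` has a unit reduction at `Q` but vanishes at `P`
  have hs : x - constA N A c ∈ chartA N A (tQ N A Q) :=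
    Subring.sub_mem _ hx (constA_mem_chartA N A _ c)
  have hγ : Red N A (x - constA N A c)
      (⟨b, hbF⟩ - algebraMap (IsLocalRing.ResidueField A)
        (modularFunctionFieldFullC (IsLocalRing.ResidueField A) N) (IsLocalRing.residue A c)) := by
    rw [sub_eq_add_neg, sub_eq_add_neg]
    exact hβ.add (red_const N A c).neg
  have hu : UnitAt N A Q (⟨b, hbF⟩ - algebraMap (IsLocalRing.ResidueField A)
      (modularFunctionFieldFullC (IsLocalRing.ResidueField A) N) (IsLocalRing.residue A c)) := by
    rw [unitAt_iff]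
    exact ⟨sub_mem hβQ (PMCover.algebraMap_mem Q _), hne⟩
  have hs0 : x - constA N A c ≠ 0 := by
    intro h0
    rw [h0] at hγ
    have h1 := Red.unique hγ (red_zero N A)
    apply hne
    show (⟨b, hbF⟩ : modularFunctionFieldFullC (IsLocalRing.ResidueField A) N) -
      algebraMap (IsLocalRing.ResidueField A)
        (modularFunctionFieldFullC (IsLocalRing.ResidueField A) N) (IsLocalRing.residue A c) ∈
        Q.toValuationSubring.nonunits
    rw [h1]
    exact PMCover.zero_mem_nonunits _
  have hinvS : (x - constA N A c)⁻¹ ∈ SQ N A Q :=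
    ⟨1, x - constA N A c, Subring.one_mem _, hs, ⟨_, hγ, hu⟩, inv_mul_cancel₀ hs0⟩
  obtain ⟨d, hd⟩ := hP _ hinvS
  have hsP : x - constA N A c ∈ P.toValuationSubring.nonunits := hc
  exact inv_not_mem_of_mem_nonunits P.toValuationSubring hs0 hsP (PMCover.valAt_mem P hd)

/-- **[R10]** The places centred on the local ring `SQ Q` with values in `A` are exactly the
places reducing to `Q`. -/
theorem mem_pts_iff_reduces (hℓN : ¬ ℓ ∣ N) (hA : A.LiesOverPrime ℓ)
    (Q : Place (IsLocalRing.ResidueField A)
      (modularFunctionFieldFullC (IsLocalRing.ResidueField A) N))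
    (P : Place Qb (modularFunctionFieldBar N)) :
    P ∈ Pts N A (SQ N A Q) ↔ Reduces N A P Q := by
  constructor
  · intro hP
    by_cases hj : jk N A ∈ Q.toValuationSubring
    · have htQ : tQ N A Q = jbar N := if_pos hj
      left
      have h := redTo_of_mem_pts N ℓ A hℓN hA Q P hP (Or.inl htQ)
        (by rw [htQ]; exact red_jbar N A) hj
      rwa [htQ] at h
    · have htQ : tQ N A Q = (jbar N)⁻¹ := if_neg hj
      have hjinv : (jk N A)⁻¹ ∈ Q.toValuationSubring.nonunits :=
        PMCover.inv_mem_nonunits_of_not_mem hj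
      have h := redTo_of_mem_pts N ℓ A hℓN hA Q P hP (Or.inr htQ)
        (by rw [htQ]; exact red_jbar_inv N A) (PMCover.mem_of_mem_nonunits hjinv)
      rw [htQ] at h
      right
      refine ⟨?_, h⟩
      obtain ⟨hb, c, hPc, hQc⟩ := h _ (self_mem_chartA N A _) _ (red_jbar_inv N A)
      have h0 : ValAt Q (jk N A)⁻¹ 0 := (PMCover.valAt_zero_iff Q).mpr hjinv
      have hres : IsLocalRing.residue A c = 0 := PMCover.valAt_unique Q hQc h0
      exact ⟨c, (IsLocalRing.residue_eq_zero_iff c).mp hres, hPc⟩
  · rintro (hred | ⟨hcusp, hred⟩)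
    · obtain ⟨hb, c, hPc, hQc⟩ := hred _ (self_mem_chartA N A _) _ (red_jbar N A)
      have hj : jk N A ∈ Q.toValuationSubring := PMCover.valAt_mem Q hQc
      have htQ : tQ N A Q = jbar N := if_pos hj
      exact mem_pts_of_redTo N A Q P htQ
        (PMCover.exists_valAt_of_mem_RA0 N A P ⟨c, hPc⟩) hred
    · obtain ⟨hb, c, hPc, hQc⟩ := hred _ (self_mem_chartA N A _) _ (red_jbar_inv N A)
      obtain ⟨c₀, hc₀, hPc₀⟩ := hcusp
      have hcc : (c : Qb) = (c₀ : Qb) := PMCover.valAt_unique P hPc hPc₀
      have hcc' : c = c₀ := Subtype.ext hcc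
      have hres : IsLocalRing.residue A c = 0 := by
        rw [hcc']
        exact (IsLocalRing.residue_eq_zero_iff c₀).mpr hc₀
      rw [hres] at hQc
      have hjinv : (jk N A)⁻¹ ∈ Q.toValuationSubring.nonunits :=
        (PMCover.valAt_zero_iff Q).mp hQc
      have hj : jk N A ∉ Q.toValuationSubring := by
        intro hj
        have h1 := inv_not_mem_of_mem_nonunits Q.toValuationSubring
          (inv_ne_zero (jk_ne_zero N A)) hjinv
        rw [inv_inv] at h1
        exact h1 hj
      have htQ : tQ N A Q = (jbar N)⁻¹ := if_neg hj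
      exact mem_pts_of_redTo N A Q P htQ
        (PMCover.exists_valAt_of_mem_RAinf N A P ⟨c₀, hc₀, hPc₀⟩) hred

end Main

/-- **Leaf [R10]** of `R0Part.lean`. -/
theorem memStatement (N ℓ : ℕ) [NeZero N] :
    R0Part.MemStatement N ℓ (fun A Q => R0.SQ N A Q) := by
  intro hℓ hℓN A hA Q P
  have : Fact ℓ.Prime := ⟨hℓ⟩
  exact mem_pts_iff_reduces N ℓ A hℓN hA Q P

end Fermat.Agent.S37.R0Mem
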