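/-
S37 block [R0], row R4 [Level] — R0SurjB.lean (helper19; independent B of `R0Surj`, [Nor] route).

The reduction `ρ : SQ N A Q → O_Q` maps every level `SQK N A Q K` ONTO `O_Q`
(`R0.SurjStatement`), and a uniformizer of `O_Q` lifts to the level.

* `coe_tQK`, `SQK_le_SQ`, `mk_mem_SQK` : bookkeeping between the finite-level charts and
  `SQ`/`SQK`;
* `surj_of_chart_frac` : the glue.  If every `d ∈ O_Q` is `ρ_K x / ρ_K y` with `x, y` in the
  level-`K` chart and `ρ_K y` a unit at `Q` (the special-fibre statement: `O_Q` is the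
  localisation of the reduction of the chart), then `ρ` maps `SQK` onto `O_Q`;
* `chart_frac_of_spFib` : the hypothesis of the glue from (R2, hard half) `B_t̄ ⊆ ρ_K(chart)`
  and (R3b) `O_Q = (B_t̄)` localised at `𝔪_Q ∩ B_t̄`;
* `exists_tb` : the chart coordinate `tQK` is `j` or `j⁻¹` and its reduction is regular at `Q`;
* `exists_unif_of_surj` : a uniformizer lifts.
-/
import Mathlib
import Fermat.Agent.S37.R0LocDefs
import Fermat.Agent.S37.PMChartA
import Fermat.Agent.S37.SpFibDefs

set_option autoImplicit false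

noncomputable section

namespace Fermat.Agent.S37.R0SurjB

open ModularCurve AlgebraicCurve HahnSeries
open Fermat.Agent.S18 Fermat.Agent.S18.Arith
open Fermat.Agent.S37.PM hiding Qb
open Fermat.Agent.S37.R0

set_option synthInstance.maxHeartbeats 400000

section Glue

variable (N : ℕ) [NeZero N] (A : ValuationSubring Qb)
variable (Q : Place (IsLocalRing.ResidueField A)
  (modularFunctionFieldFullC (IsLocalRing.ResidueField A) N))
variable (K : IntermediateField ℚ Qb)

/-- The level-`K` chart coordinate at `Q` is the chart coordinate at `Q`. -/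
theorem coe_tQK :
    ((tQK N A Q K : FK N K) : LaurentSeries Qb) =
      ((tQ N A Q : modularFunctionFieldBar N) : LaurentSeries Qb) := by
  unfold tQK tQ
  split_ifs
  · exact PMChartA.coe_jK N K
  · exact PMChartA.coe_jK_inv N K

/-- The level-`K` local ring is contained in the local ring at `Q`. -/
theorem SQK_le_SQ : SQK N A Q K ≤ SQ N A Q := by
  rintro f ⟨x, s, hx, hs, ⟨β, hβ, hu⟩, h⟩
  obtain ⟨x', hx', hxx'⟩ := PMChartA.exists_mem_chartA_of_mem_chart N A K (tQ N A Q)
    (tQK N A Q K) (coe_tQK N A Q K) x hx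
  obtain ⟨s', hs', hss'⟩ := PMChartA.exists_mem_chartA_of_mem_chart N A K (tQ N A Q)
    (tQK N A Q K) (coe_tQK N A Q K) s hs
  refine ⟨x', s', hx', hs', ⟨β, ?_, hu⟩, ?_⟩
  · show Arith.GRel A (s' : LaurentSeries Qb) _
    rw [hss']
    exact hβ
  · apply Subtype.ext
    show (f : LaurentSeries Qb) * (s' : LaurentSeries Qb) = (x' : LaurentSeries Qb)
    rw [hss', hxx']
    exact h

/-- The chart coordinate at level `K` is `j` or `j⁻¹`, and its reduction `j̄` resp. `j̄⁻¹` is
regular at `Q`. -/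
theorem exists_tb :
    ∃ tb : LaurentSeries (IsLocalRing.ResidueField A),
      ((tQK N A Q K = jK N K ∧ tb = jqModC (IsLocalRing.ResidueField A)) ∨
        (tQK N A Q K = (jK N K)⁻¹ ∧ tb = (jqModC (IsLocalRing.ResidueField A))⁻¹)) ∧
      ∃ h : tb ∈ modularFunctionFieldFullC (IsLocalRing.ResidueField A) N,
        (⟨tb, h⟩ : modularFunctionFieldFullC (IsLocalRing.ResidueField A) N) ∈
          Q.toValuationSubring := by
  by_cases hj : jk N A ∈ Q.toValuationSubring
  · refine ⟨jqModC (IsLocalRing.ResidueField A), Or.inl ⟨?_, rfl⟩,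
      jqModC_mem_full (IsLocalRing.ResidueField A) N, hj⟩
    unfold tQK
    rw [if_pos hj]
  · have hinv : (jk N A)⁻¹ ∈ Q.toValuationSubring :=
      (Q.toValuationSubring.mem_or_inv_mem (jk N A)).resolve_left hj
    refine ⟨(jqModC (IsLocalRing.ResidueField A))⁻¹, Or.inr ⟨?_, rfl⟩,
      ((jk N A)⁻¹ : modularFunctionFieldFullC (IsLocalRing.ResidueField A) N).2, hinv⟩
    unfold tQK
    rw [if_neg hj]

/-- **Glue.**  If every `d ∈ O_Q` is a quotient of reductions of elements of the level-`K` chart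
with denominator a unit at `Q`, then `ρ` maps the level `SQK N A Q K` onto `O_Q`. -/
theorem surj_of_chart_frac (ρ : SQ N A Q →+* Q.toValuationSubring)
    (hρ : ∀ x : SQ N A Q, Red N A (x : modularFunctionFieldBar N)
      ((ρ x : Q.toValuationSubring) : modularFunctionFieldFullC (IsLocalRing.ResidueField A) N))
    (hcf : ∀ d ∈ Q.toValuationSubring, ∃ (x y : FK N K)
      (a s : modularFunctionFieldFullC (IsLocalRing.ResidueField A) N),
      x ∈ chart N A K (tQK N A Q K) ∧ y ∈ chart N A K (tQK N A Q K) ∧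
      GRel A (x : LaurentSeries Qb) (a : LaurentSeries (IsLocalRing.ResidueField A)) ∧
      GRel A (y : LaurentSeries Qb) (s : LaurentSeries (IsLocalRing.ResidueField A)) ∧
      s ∈ Q.toValuationSubring ∧ s ∉ Q.toValuationSubring.nonunits ∧ d * s = a) :
    ∀ d : Q.toValuationSubring, ∃ x : SQ N A Q,
      (x : modularFunctionFieldBar N) ∈ SQK N A Q K ∧ ρ x = d := by
  intro d
  obtain ⟨x, y, a, s, hx, hy, hxa, hys, hsQ, hsu, hds⟩ := hcf d d.2
  have hdesc := (DescCoeff.descStatement N).2 K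
  have hs0 : s ≠ 0 := by
    rintro rfl
    apply hsu
    rw [ValuationSubring.mem_nonunits_iff, map_zero]
    exact zero_lt_one
  have hu : UnitAt N A Q s := by
    unfold UnitAt
    rw [ValuationSubring.mem_nonunits_iff, not_lt] at hsu
    exact le_antisymm ((ValuationSubring.valuation_le_one_iff _ _).mpr hsQ) hsu
  set x' : modularFunctionFieldBar N := ⟨(x : LaurentSeries Qb), hdesc _ x.2⟩ with hx'
  set y' : modularFunctionFieldBar N := ⟨(y : LaurentSeries Qb), hdesc _ y.2⟩ with hy'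
  have hy0 : y' ≠ 0 := by
    intro h0
    have h1 : (y : LaurentSeries Qb) = 0 := congrArg Subtype.val h0
    rw [h1] at hys
    exact hs0 (Subtype.ext ((GRel.gRelStatement A).unique _ _ _ hys (red_zero N A)))
  have hfy : x' * y'⁻¹ * y' = x' := inv_mul_cancel_right₀ hy0 x'
  have hfK : x' * y'⁻¹ ∈ SQK N A Q K :=
    ⟨x, y, hx, hy, ⟨s, hys, hu⟩, congrArg Subtype.val hfy⟩
  refine ⟨⟨x' * y'⁻¹, SQK_le_SQ N A Q K hfK⟩, hfK, ?_⟩
  have h1 : Red N A (x' * y'⁻¹ * y') ((ρ ⟨x' * y'⁻¹, SQK_le_SQ N A Q K hfK⟩ :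
      modularFunctionFieldFullC (IsLocalRing.ResidueField A) N) * s) :=
    (hρ ⟨x' * y'⁻¹, SQK_le_SQ N A Q K hfK⟩).mul hys
  rw [hfy] at h1
  have h2 : (ρ ⟨x' * y'⁻¹, SQK_le_SQ N A Q K hfK⟩ :
      modularFunctionFieldFullC (IsLocalRing.ResidueField A) N) * s = a := h1.unique hxa
  apply Subtype.ext
  exact mul_right_cancel₀ hs0 (h2.trans hds.symm)

/-- The chart-fraction property from the two special-fibre inputs: (R2, hard half) every
element of `B_t̄` (integral closure of `k[t̄]` in `F_k`) is the reduction of an element of the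
level-`K` chart, and (R3b) `O_Q` is the localisation of `B_t̄`. -/
theorem chart_frac_of_spFib (tb : LaurentSeries (IsLocalRing.ResidueField A))
    (hR2 : ∀ b : LaurentSeries (IsLocalRing.ResidueField A), SpFib.IsSpFib N A tb b →
      ∃ x : FK N K, x ∈ chart N A K (tQK N A Q K) ∧ GRel A (x : LaurentSeries Qb) b)
    (hloc : (∀ b (hb : SpFib.IsSpFib N A tb b),
        (⟨b, hb.1⟩ : modularFunctionFieldFullC (IsLocalRing.ResidueField A) N) ∈
          Q.toValuationSubring) ∧
      ∀ d ∈ Q.toValuationSubring, ∃ (a s : LaurentSeries (IsLocalRing.ResidueField A))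
        (ha : SpFib.IsSpFib N A tb a) (hs : SpFib.IsSpFib N A tb s),
        (⟨s, hs.1⟩ : modularFunctionFieldFullC (IsLocalRing.ResidueField A) N) ∉
          Q.toValuationSubring.nonunits ∧
        d * ⟨s, hs.1⟩ = ⟨a, ha.1⟩) :
    ∀ d ∈ Q.toValuationSubring, ∃ (x y : FK N K)
      (a s : modularFunctionFieldFullC (IsLocalRing.ResidueField A) N),
      x ∈ chart N A K (tQK N A Q K) ∧ y ∈ chart N A K (tQK N A Q K) ∧
      GRel A (x : LaurentSeries Qb) (a : LaurentSeries (IsLocalRing.ResidueField A)) ∧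
      GRel A (y : LaurentSeries Qb) (s : LaurentSeries (IsLocalRing.ResidueField A)) ∧
      s ∈ Q.toValuationSubring ∧ s ∉ Q.toValuationSubring.nonunits ∧ d * s = a := by
  intro d hd
  obtain ⟨a, s, ha, hs, hsu, hds⟩ := hloc.2 d hd
  obtain ⟨x, hx, hxa⟩ := hR2 a ha
  obtain ⟨y, hy, hys⟩ := hR2 s hs
  exact ⟨x, y, ⟨a, ha.1⟩, ⟨s, hs.1⟩, hx, hy, hxa, hys, hloc.1 s hs, hsu, hds⟩

/-- A uniformizer of `O_Q` lifts to the level, once `ρ` maps the level onto `O_Q`. -/
theorem exists_unif_of_surj (ρ : SQ N A Q →+* Q.toValuationSubring)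
    (hsurj : ∀ d : Q.toValuationSubring, ∃ x : SQ N A Q,
      (x : modularFunctionFieldBar N) ∈ SQK N A Q K ∧ ρ x = d) :
    ∃ T : SQ N A Q, (T : modularFunctionFieldBar N) ∈ SQK N A Q K ∧ Irreducible (ρ T) := by
  obtain ⟨ϖ, hϖ⟩ := IsDiscreteValuationRing.exists_irreducible Q.toValuationSubring
  obtain ⟨T, hTK, hT⟩ := hsurj ϖ
  exact ⟨T, hTK, hT ▸ hϖ⟩

end Glue

end Fermat.Agent.S37.R0SurjB
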