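/-
S37 — IntQ.lean (helper61): chart elements have integral `q`-expansions.

For a principal ideal domain `O` (e.g. a discrete valuation ring) the ring `O((q))` of Laurent
series is integrally closed (Mathlib: `O⟦X⟧` is a UFD, `O((q))` is its localisation at `X`).
Hence a Laurent series `x` over a field `L ⊇ O` which is a quotient of two series with
coefficients in `O` and is integral over `O((q))` has coefficients in `O`.
No Weierstrass preparation, no Gauss reduction.
-/
import Mathlib
import Fermat.Prelude.Def_ModularCurve_LaurentCoeff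
import Fermat.Agent.S18.ArithPlan
import Fermat.Agent.S18.ModelQFrac

set_option autoImplicit false

noncomputable section

namespace Fermat.Agent.S37.IntQ

open Polynomial ModularCurve

/-- `O((q))` is integrally closed for a principal ideal domain `O`. -/
theorem isIntegrallyClosed_laurentSeries (O : Type*) [CommRing O] [IsDomain O]
    [IsPrincipalIdealRing O] : IsIntegrallyClosed (LaurentSeries O) :=
  isIntegrallyClosed_of_isLocalization (LaurentSeries O)
    (Submonoid.powers (PowerSeries.X : PowerSeries O))
    (powers_le_nonZeroDivisors_of_noZeroDivisors PowerSeries.X_ne_zero)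

/-- An element of a field `E` which is a quotient of two elements of an integrally closed
domain `B ⊆ E` and is integral over `B` lies in `B`.  (`E` need not be the fraction field.) -/
theorem exists_eq_of_isIntegralElem {B E : Type*} [CommRing B] [IsDomain B]
    [IsIntegrallyClosed B] [Field E] (φ : B →+* E) (hφ : Function.Injective φ) (x : E)
    (a b : B) (hb : b ≠ 0) (hab : x * φ b = φ a) (hint : φ.IsIntegralElem x) :
    ∃ X : B, φ X = x := by
  obtain ⟨p, hp, hpx⟩ := hint
  let K := FractionRing B
  let ψ : K →+* E := IsFractionRing.lift hφ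
  have hψ : ∀ c : B, ψ (algebraMap B K c) = φ c := fun c => IsFractionRing.lift_algebraMap hφ c
  have hψinj : Function.Injective ψ := ψ.injective
  have hφb : φ b ≠ 0 := fun h => hb (hφ (h.trans (map_zero φ).symm))
  have hbK : algebraMap B K b ≠ 0 := fun h =>
    hb (IsFractionRing.injective B K (h.trans (map_zero _).symm))
  set z : K := algebraMap B K a / algebraMap B K b with hz
  have hzx : ψ z = x := by
    rw [hz, map_div₀, hψ, hψ, ← hab, mul_div_assoc, div_self hφb, mul_one]
  have hzint : IsIntegral B z := by
    refine ⟨p, hp, hψinj ?_⟩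
    rw [Polynomial.hom_eval₂, map_zero, hzx]
    have : ψ.comp (algebraMap B K) = φ := RingHom.ext hψ
    rw [this]
    exact hpx
  obtain ⟨y, hy⟩ := (isIntegrallyClosed_iff K).mp inferInstance hzint
  exact ⟨y, by rw [← hψ, hy, hzx]⟩

/-- Transport of integrality: if `x' : F'` is integral over `R'`, `ι : F' → E` is a ring
homomorphism and every element of `R'` is mapped by `ι` into the image of `φ : B → E`, then
`ι x'` is an integral element for `φ`. -/
theorem isIntegralElem_of_isIntegral {B E R' F' : Type*} [CommRing B] [CommRing E]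
    [CommRing R'] [CommRing F'] [Algebra R' F'] (φ : B →+* E) (ι : F' →+* E)
    (hR : ∀ r : R', ∃ c : B, φ c = ι (algebraMap R' F' r)) (x : F') (hx : IsIntegral R' x) :
    φ.IsIntegralElem (ι x) := by
  classical
  obtain ⟨p, hp, hpx⟩ := hx
  choose g hg using hR
  set n := p.natDegree with hn
  refine ⟨X ^ n + ∑ i : Fin n, C (g (p.coeff i)) * X ^ (i : ℕ), ?_, ?_⟩
  · exact Polynomial.monic_X_pow_add (Polynomial.degree_sum_fin_lt _)
  · have h1 : p = X ^ n + ∑ i : Fin n, C (p.coeff i) * X ^ (i : ℕ) := by
      conv_lhs => rw [hp.as_sum]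
      rw [← hn, Fin.sum_univ_eq_sum_range (fun i => C (p.coeff i) * X ^ i) n]
    rw [h1] at hpx
    have h2 := congrArg ι hpx
    simp only [Polynomial.eval₂_add, Polynomial.eval₂_pow, Polynomial.eval₂_X,
      Polynomial.eval₂_finsetSum, Polynomial.eval₂_mul, Polynomial.eval₂_C, map_add, map_pow,
      map_sum, map_mul, map_zero] at h2 ⊢
    rw [← h2]
    congr 1
    refine Finset.sum_congr rfl fun i _ => ?_
    rw [hg]

section Laurent

variable {O L : Type*} [CommRing O] [IsDomain O] [IsPrincipalIdealRing O] [Field L]

theorem coeffMap_injective {R S : Type*} [CommRing R] [CommRing S] (f : R →+* S)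
    (hf : Function.Injective f) : Function.Injective (coeffMap f) := by
  intro x y h
  ext n
  apply hf
  have := congrArg (fun z => HahnSeries.coeff z n) h
  simpa using this

/-- **Integral `q`-expansions.**  A Laurent series over a field `L ⊇ O` (`O` a principal ideal
domain) which is a quotient of two series with coefficients in `O` and is integral over
`O((q))` has coefficients in `O`. -/
theorem exists_coeffMap_eq (f : O →+* L) (hf : Function.Injective f) (x : LaurentSeries L)
    (a b : LaurentSeries O) (hb : b ≠ 0) (hab : x * coeffMap f b = coeffMap f a)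
    (hint : (coeffMap f).IsIntegralElem x) : ∃ X : LaurentSeries O, coeffMap f X = x := by
  have := isIntegrallyClosed_laurentSeries O
  exact exists_eq_of_isIntegralElem (coeffMap f) (coeffMap_injective f hf) x a b hb hab hint

/-- Consumer form: `x'` integral over a ring `R'` all of whose elements have `O`-integral
expansions. -/
theorem exists_coeffMap_eq_of_isIntegral (f : O →+* L) (hf : Function.Injective f)
    {R' F' : Type*} [CommRing R'] [CommRing F'] [Algebra R' F'] (ι : F' →+* LaurentSeries L)
    (hR : ∀ r : R', ∃ c : LaurentSeries O, coeffMap f c = ι (algebraMap R' F' r))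
    (x : F') (hx : IsIntegral R' x)
    (a b : LaurentSeries O) (hb : b ≠ 0) (hab : ι x * coeffMap f b = coeffMap f a) :
    ∃ X : LaurentSeries O, coeffMap f X = ι x :=
  exists_coeffMap_eq f hf (ι x) a b hb hab (isIntegralElem_of_isIntegral _ ι hR x hx)

end Laurent

section Chart

open Fermat.Agent.S18.Arith HahnSeries

variable (N : ℕ) [NeZero N] (A : ValuationSubring Qb) (K : IntermediateField ℚ Qb)

omit [NeZero N] in
/-- The `q`-expansion of a constant of `O = A ∩ K` in `F_K`. -/
theorem coe_algebraMap_OK (o : OK A K) :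
    ((algebraMap (OK A K) (FK N K) o : FK N K) : LaurentSeries Qb) =
      coeffMap (incO A K) (HahnSeries.C o) := by
  change (HahnSeries.C ((o : K) : Qb) : LaurentSeries Qb) = _
  rw [HahnSeries.C_apply, HahnSeries.C_apply, coeffMap_single]
  rfl

/-- **Chart elements have `O`-integral `q`-expansions**: every element of the chart
`Arith.chart N A K t` (`t = j` or `t = j⁻¹`; the integral closure of `O[t]` in `F_K`) is a
Laurent series with coefficients in the discrete valuation ring `O = A ∩ K`. -/
theorem exists_coeffMap_eq_of_mem_chart (hdvr : IsDiscreteValuationRing (OK A K))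
    (t : FK N K) (ht : t = jK N K ∨ t = (jK N K)⁻¹) (x : FK N K)
    (hx : x ∈ chart N A K t) :
    ∃ X : LaurentSeries (OK A K), coeffMap (incO A K) X = (x : LaurentSeries Qb) := by
  obtain ⟨J, Jinv, hJ, hJinv⟩ := Fermat.Agent.S18.ModelQFrac.jint N A K
  obtain ⟨a, b, hb, hab⟩ := Fermat.Agent.S18.ModelQFrac.qfrac N A K x
  have hT : ∃ T : LaurentSeries (OK A K), coeffMap (incO A K) T = (t : LaurentSeries Qb) := by
    rcases ht with rfl | rfl
    · exact ⟨J, hJ⟩
    · exact ⟨Jinv, hJinv⟩
  have hR : ∀ r : Algebra.adjoin (OK A K) {t}, ∃ c : LaurentSeries (OK A K),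
      coeffMap (incO A K) c = (FK N K).subtype
        (algebraMap (Algebra.adjoin (OK A K) {t}) (FK N K) r) := by
    rintro ⟨r, hr⟩
    change ∃ c : LaurentSeries (OK A K), coeffMap (incO A K) c = (r : LaurentSeries Qb)
    induction hr using Algebra.adjoin_induction with
    | mem y hy =>
      rw [Set.mem_singleton_iff] at hy
      subst hy
      exact hT
    | algebraMap o => exact ⟨HahnSeries.C o, (coe_algebraMap_OK N A K o).symm⟩
    | add y z _ _ hy hz =>
      obtain ⟨cy, hcy⟩ := hy
      obtain ⟨cz, hcz⟩ := hz
      exact ⟨cy + cz, by rw [map_add, hcy, hcz]; rfl⟩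
    | mul y z _ _ hy hz =>
      obtain ⟨cy, hcy⟩ := hy
      obtain ⟨cz, hcz⟩ := hz
      exact ⟨cy * cz, by rw [map_mul, hcy, hcz]; rfl⟩
  exact exists_coeffMap_eq_of_isIntegral (incO A K)
    (Fermat.Agent.S18.ModelQFrac.incO_injective A K) (FK N K).subtype hR x hx a b hb hab

/-- Chart `j ≠ ∞`. -/
theorem exists_coeffMap_eq_of_mem_R0 (ℓ : ℕ) [Fact ℓ.Prime]
    (hdvr : IsDiscreteValuationRing (OK A K)) (x : FK N K) (hx : x ∈ R0 N ℓ A K) :
    ∃ X : LaurentSeries (OK A K), coeffMap (incO A K) X = (x : LaurentSeries Qb) :=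
  exists_coeffMap_eq_of_mem_chart N A K hdvr (jK N K) (Or.inl rfl) x hx

/-- Chart `j ≠ 0`. -/
theorem exists_coeffMap_eq_of_mem_Rinf (ℓ : ℕ) [Fact ℓ.Prime]
    (hdvr : IsDiscreteValuationRing (OK A K)) (x : FK N K) (hx : x ∈ Rinf N ℓ A K) :
    ∃ X : LaurentSeries (OK A K), coeffMap (incO A K) X = (x : LaurentSeries Qb) :=
  exists_coeffMap_eq_of_mem_chart N A K hdvr (jK N K)⁻¹ (Or.inr rfl) x hx

end Chart

end Fermat.Agent.S37.IntQ
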