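import Mathlib
import Fermat.Agent.S18.ModelAll
import Fermat.Agent.S18.IgusaStmt
import Fermat.Agent.S18.Nor
import Fermat.Agent.S18.GRel
import Fermat.Agent.S18.ModelBasicCore
import Fermat.Agent.S18.JNot
import Fermat.Agent.S18.ChartVert
import Fermat.Agent.S37.IntQ
import Fermat.Agent.S37.SpFibDefs

/-!
# S37 block [R0], row R2 [SpFib] (helper55): the special fibre ring of a chart

For a good level `K` (`BaseFacts ℓ A K`, `ℓ ∤ N`, `A` over `ℓ`) and a chart
`R = Arith.chart N A K t` (`t = j` or `t = j⁻¹`), the image of `R` under Gauss reduction is exactly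

    `B_t := {b ∈ F_k | b integral over k[t̄]}`   (`k` the residue field of `A`, `t̄` = reduction of `t`),

the integral closure of `k[t̄]` in `F_k = modularFunctionFieldFullC k N`; in particular it does not
depend on `K`.

* `⊆` : `ChartFacts.red` (range in `F_k`) and the image of an integral equation over `O[t]`;
* `⊇` : `R / π R ≅ ρ(R)` is integrally closed (`Nor.norStatement`), its fraction field contains
  the generators `j̄(q^d)` of `F_k`, and `k[t̄] = ρ(O[t])`.
-/

set_option autoImplicit false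

noncomputable section

namespace Fermat.Agent.S37.SpFibB

open Polynomial ModularCurve Fermat.Agent.S18 Fermat.Agent.S18.Arith Fermat.Agent.S37.SpFib

/-! ### Abstract core -/

section Abstract

/-- Integrality with respect to a ring hom transfers along a surjection of base rings. -/
theorem isIntegralElem_of_surjective {S₁ S₂ E : Type*} [CommRing S₁] [CommRing S₂] [CommRing E]
    (f : S₁ →+* E) (g : S₂ →+* E) (θ : S₂ →+* S₁) (hθ : Function.Surjective θ)
    (hfg : f.comp θ = g) {b : E} (hb : f.IsIntegralElem b) : g.IsIntegralElem b := by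
  obtain ⟨p, hp, hpb⟩ := hb
  obtain ⟨q, hq, -, hqm⟩ := Polynomial.lifts_and_natDegree_eq_and_monic
    (Polynomial.mem_lifts_of_surjective hθ p) hp
  refine ⟨q, hqm, ?_⟩
  rw [← hfg, ← Polynomial.eval₂_map, hq]
  exact hpb

/-- Integrality with respect to a ring hom is inherited by any ring hom through which it
factors. -/
theorem isIntegralElem_of_comp {S₁ S₂ E : Type*} [CommRing S₁] [CommRing S₂] [CommRing E]
    (f : S₁ →+* E) (g : S₂ →+* E) (θ : S₁ →+* S₂) (hfg : g.comp θ = f) {b : E}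
    (hb : f.IsIntegralElem b) : g.IsIntegralElem b := by
  obtain ⟨p, hp, hpb⟩ := hb
  refine ⟨p.map θ, hp.map θ, ?_⟩
  rw [Polynomial.eval₂_map, hfg]
  exact hpb

/-- If `R / ker ρ` is integrally closed, an element of the field `E` which is a quotient of
elements of `ρ(R)` and integral over `ρ(R)` lies in `ρ(R)`. -/
theorem exists_eq_of_isIntegrallyClosed_quotient {R E : Type*} [CommRing R] [Field E]
    (ρ : R →+* E) (I : Ideal R) (hI : RingHom.ker ρ = I) [IsIntegrallyClosed (R ⧸ I)]
    (b : E) (a s : R) (hs : ρ s ≠ 0) (hb : b * ρ s = ρ a) (hint : ρ.IsIntegralElem b) :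
    ∃ x : R, ρ x = b := by
  subst hI
  have hprime : (RingHom.ker ρ).IsPrime := RingHom.ker_isPrime ρ
  have hdom : IsDomain (R ⧸ RingHom.ker ρ) := Ideal.Quotient.isDomain _
  have hinj : Function.Injective (RingHom.kerLift ρ) := RingHom.kerLift_injective ρ
  have hcomp : (RingHom.kerLift ρ).comp (Ideal.Quotient.mk (RingHom.ker ρ)) = ρ := by
    ext x
    rfl
  have hint' : (RingHom.kerLift ρ).IsIntegralElem b :=
    isIntegralElem_of_comp ρ (RingHom.kerLift ρ) (Ideal.Quotient.mk (RingHom.ker ρ)) hcomp hint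
  have hs' : Ideal.Quotient.mk (RingHom.ker ρ) s ≠ 0 := by
    intro h0
    apply hs
    have := congrArg (RingHom.kerLift ρ) h0
    rwa [map_zero] at this
  obtain ⟨X, hX⟩ := Fermat.Agent.S37.IntQ.exists_eq_of_isIntegralElem (RingHom.kerLift ρ) hinj b
    (Ideal.Quotient.mk (RingHom.ker ρ) a) (Ideal.Quotient.mk (RingHom.ker ρ) s) hs' hb hint'
  obtain ⟨x, rfl⟩ := Ideal.Quotient.mk_surjective X
  exact ⟨x, hX⟩

end Abstract

/-! ### The special fibre ring of a chart -/

section Chart

variable {N : ℕ} [NeZero N] {ℓ : ℕ} [Fact ℓ.Prime] {A : ValuationSubring Qb}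
  {K : IntermediateField ℚ Qb}

/-- The structure map `O[X] → R`, `X ↦ t`, of a chart. -/
def eta (t : FK N K) : (OK A K)[X] →+* chart N A K t :=
  (aeval (R := OK A K) (A := chart N A K t) ⟨t, Model.self_mem_chart N A K t⟩).toRingHom

/-- The map `O[X] → k((q))`, `X ↦ t̄`, constants reduced. -/
def psi (A : ValuationSubring Qb) (K : IntermediateField ℚ Qb)
    (tb : LaurentSeries (IsLocalRing.ResidueField A)) :
    (OK A K)[X] →+* LaurentSeries (IsLocalRing.ResidueField A) :=
  (aeval (R := IsLocalRing.ResidueField A) tb).toRingHom.comp (mapRingHom (resO A K))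

omit [NeZero N] in
theorem coe_eta (t : FK N K) (p : (OK A K)[X]) :
    ((eta (A := A) t p : chart N A K t) : FK N K) = aeval (R := OK A K) (A := FK N K) t p := by
  have h : (chart N A K t).val.toRingHom.comp (eta (A := A) t) =
      (aeval (R := OK A K) (A := FK N K) t).toRingHom := by
    refine Polynomial.ringHom_ext (fun o => ?_) ?_
    · show ((aeval (R := OK A K) (A := chart N A K t) ⟨t, Model.self_mem_chart N A K t⟩ (C o) :
        chart N A K t) : FK N K) = aeval (R := OK A K) (A := FK N K) t (C o)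
      rw [aeval_C, aeval_C]
      rfl
    · show ((aeval (R := OK A K) (A := chart N A K t) ⟨t, Model.self_mem_chart N A K t⟩ X :
        chart N A K t) : FK N K) = aeval (R := OK A K) (A := FK N K) t X
      rw [aeval_X, aeval_X]
  exact congrArg (fun f => f p) h

/-- `ρ ∘ η = ψ`. -/
theorem rho_comp_eta (hG : ModelPlan.GRelStatement) {t : FK N K}
    {tb : LaurentSeries (IsLocalRing.ResidueField A)}
    (ht : GRel A ((t : FK N K) : LaurentSeries Qb) tb)
    (ρ : chart N A K t →+* LaurentSeries (IsLocalRing.ResidueField A))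
    (hρ : ∀ x : chart N A K t, GRel A ((x : FK N K) : LaurentSeries Qb) (ρ x)) :
    ρ.comp (eta (A := A) t) = psi A K tb := by
  refine Polynomial.ringHom_ext (fun o => ?_) ?_
  · show ρ (aeval (R := OK A K) (A := chart N A K t) ⟨t, Model.self_mem_chart N A K t⟩ (C o)) =
      aeval (R := IsLocalRing.ResidueField A) tb ((C o).map (resO A K))
    rw [aeval_C, map_C, aeval_C, algebraMap_laurentSeries_eq_single]
    exact (hG A).unique _ _ _ (hρ _) (ChartVert.gRel_const N A K hG o)
  · show ρ (aeval (R := OK A K) (A := chart N A K t) ⟨t, Model.self_mem_chart N A K t⟩ X) =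
      aeval (R := IsLocalRing.ResidueField A) tb ((X : (OK A K)[X]).map (resO A K))
    rw [aeval_X, map_X, aeval_X]
    exact (hG A).unique _ _ _ (hρ _) ht

/-- The corestriction of `ψ` to `k[t̄]`. -/
def theta (A : ValuationSubring Qb) (K : IntermediateField ℚ Qb)
    (tb : LaurentSeries (IsLocalRing.ResidueField A)) :
    (OK A K)[X] →+* Algebra.adjoin (IsLocalRing.ResidueField A) {tb} :=
  (psi A K tb).codRestrict (Algebra.adjoin (IsLocalRing.ResidueField A) {tb})
    (fun p => aeval_mem_adjoin_singleton (IsLocalRing.ResidueField A) tb)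

theorem algebraMap_comp_theta (tb : LaurentSeries (IsLocalRing.ResidueField A)) :
    (algebraMap (Algebra.adjoin (IsLocalRing.ResidueField A) {tb})
      (LaurentSeries (IsLocalRing.ResidueField A))).comp (theta A K tb) = psi A K tb :=
  RingHom.ext fun _ => rfl

theorem theta_surjective (hres : Function.Surjective (resO A K))
    (tb : LaurentSeries (IsLocalRing.ResidueField A)) :
    Function.Surjective (theta A K tb) := by
  rintro ⟨y, hy⟩
  rw [Algebra.adjoin_singleton_eq_range_aeval] at hy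
  obtain ⟨q, rfl⟩ := hy
  obtain ⟨p, rfl⟩ := Polynomial.map_surjective (resO A K) hres q
  exact ⟨p, rfl⟩

/-- Elements of a chart satisfy a monic equation over `O[X]` (`X ↦ t`) inside the chart. -/
theorem eta_isIntegralElem (t : FK N K) (x : chart N A K t) :
    (eta (A := A) t).IsIntegralElem x := by
  obtain ⟨q, hq, hqx⟩ := (IgusaInst.isIntegral_iff N A K t x.1).2 x.2
  refine ⟨q, hq, ?_⟩
  apply Subtype.ext
  have h1 := Polynomial.hom_eval₂ q (eta (A := A) t) (chart N A K t).val.toRingHom x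
  have h2 : (chart N A K t).val.toRingHom.comp (eta (A := A) t) =
      algebraMap (OK A K)[X] (IgusaInst.ChartF N K t) :=
    RingHom.ext fun p => coe_eta t p
  rw [h2] at h1
  exact h1.trans hqx

omit [NeZero N] in
/-- `ρ` on constants. -/
theorem rho_algebraMap (hG : ModelPlan.GRelStatement) {t : FK N K}
    (ρ : chart N A K t →+* LaurentSeries (IsLocalRing.ResidueField A))
    (hρ : ∀ x : chart N A K t, GRel A ((x : FK N K) : LaurentSeries Qb) (ρ x)) (o : OK A K) :
    ρ (algebraMap (OK A K) (chart N A K t) o) =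
      algebraMap (IsLocalRing.ResidueField A) (LaurentSeries (IsLocalRing.ResidueField A))
        (resO A K o) := by
  rw [algebraMap_laurentSeries_eq_single]
  exact (hG A).unique _ _ _ (hρ _) (ChartVert.gRel_const N A K hG o)

omit [NeZero N] in
/-- Fraction property: every element of `F_k` is a quotient of two reductions of chart
elements, as soon as the generators `j̄(q^d)` are. -/
theorem exists_frac_of_mem (hG : ModelPlan.GRelStatement)
    (hres : Function.Surjective (resO A K)) {t : FK N K}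
    (ρ : chart N A K t →+* LaurentSeries (IsLocalRing.ResidueField A))
    (hρ : ∀ x : chart N A K t, GRel A ((x : FK N K) : LaurentSeries Qb) (ρ x))
    (hgen : ∀ d : ℕ, d ∣ N → d ≠ 0 → ∃ a s : chart N A K t, ρ s ≠ 0 ∧
      S28.jd (IsLocalRing.ResidueField A) d * ρ s = ρ a)
    (b : LaurentSeries (IsLocalRing.ResidueField A))
    (hb : b ∈ modularFunctionFieldFullC (IsLocalRing.ResidueField A) N) :
    ∃ a s : chart N A K t, ρ s ≠ 0 ∧ b * ρ s = ρ a := by
  refine IntermediateField.adjoin_induction (F := IsLocalRing.ResidueField A)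
    (s := divisorExpansionsC (IsLocalRing.ResidueField A) N)
    (p := fun x _ => ∃ a s : chart N A K t, ρ s ≠ 0 ∧ x * ρ s = ρ a) ?_ ?_ ?_ ?_ ?_ hb
  · rintro x ⟨d, hd0, hd, rfl⟩
    have h := hgen d hd (NeZero.ne d)
    rwa [S28.jd_eq] at h
  · intro c
    obtain ⟨o, rfl⟩ := hres c
    refine ⟨algebraMap (OK A K) (chart N A K t) o, 1, ?_, ?_⟩
    · rw [map_one]
      exact one_ne_zero
    · rw [map_one, mul_one, rho_algebraMap hG ρ hρ o]
  · rintro x y - - ⟨a₁, s₁, hs₁, h₁⟩ ⟨a₂, s₂, hs₂, h₂⟩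
    refine ⟨a₁ * s₂ + a₂ * s₁, s₁ * s₂, ?_, ?_⟩
    · rw [map_mul]
      exact mul_ne_zero hs₁ hs₂
    · rw [map_add, map_mul, map_mul, map_mul, ← h₁, ← h₂]
      ring
  · rintro x - ⟨a, s, hs, h⟩
    by_cases ha : ρ a = 0
    · have hx0 : x = 0 := by
        rw [ha] at h
        exact (mul_eq_zero.mp h).resolve_right hs
      refine ⟨0, 1, ?_, ?_⟩
      · rw [map_one]
        exact one_ne_zero
      · rw [hx0, inv_zero, zero_mul, map_zero]
    · refine ⟨s, a, ha, ?_⟩
      have hx0 : x ≠ 0 := by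
        rintro rfl
        rw [zero_mul] at h
        exact ha h.symm
      rw [← h, ← mul_assoc, inv_mul_cancel₀ hx0, one_mul]
  · rintro x y - - ⟨a₁, s₁, hs₁, h₁⟩ ⟨a₂, s₂, hs₂, h₂⟩
    refine ⟨a₁ * a₂, s₁ * s₂, ?_, ?_⟩
    · rw [map_mul]
      exact mul_ne_zero hs₁ hs₂
    · rw [map_mul, map_mul, ← h₁, ← h₂]
      ring

/-- **R2, hypothesis form.**  For a chart `R = chart N A K t` with `ChartFacts` and `IgusaAt`
over a discrete valuation ring `O` with `O → k` onto, whose coordinate `t` reduces to `t̄` and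
such that the generators `j̄(q^d)` of `F_k` are quotients of reductions: the Gauss reductions
of the elements of `R` are exactly the elements of `F_k` integral over `k[t̄]`. -/
theorem gRel_mem_chart_iff_of (hG : ModelPlan.GRelStatement)
    (hdvr : IsDiscreteValuationRing (OK A K)) (hres : Function.Surjective (resO A K))
    {t : FK N K} {tb : LaurentSeries (IsLocalRing.ResidueField A)}
    (ht : GRel A ((t : FK N K) : LaurentSeries Qb) tb)
    (hC : ChartFacts N A K (chart N A K t) t) (hI : IgusaAt N A K (chart N A K t))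
    (hgen : ∀ d : ℕ, d ∣ N → d ≠ 0 → ∃ (a s : chart N A K t)
      (sb : LaurentSeries (IsLocalRing.ResidueField A)),
      GRel A (((s : chart N A K t) : FK N K) : LaurentSeries Qb) sb ∧ sb ≠ 0 ∧
      GRel A (((a : chart N A K t) : FK N K) : LaurentSeries Qb)
        (S28.jd (IsLocalRing.ResidueField A) d * sb))
    (b : LaurentSeries (IsLocalRing.ResidueField A)) :
    (∃ x : FK N K, x ∈ chart N A K t ∧ GRel A (x : LaurentSeries Qb) b) ↔
      IsSpFib N A tb b := by
  have := hdvr
  obtain ⟨ρ, hρ, hker, hrange⟩ := hC.red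
  obtain ⟨π, hπ⟩ := IsDiscreteValuationRing.exists_irreducible (OK A K)
  have hcl : IsIntegrallyClosed
      (chart N A K t ⧸ Ideal.span {algebraMap (OK A K) (chart N A K t) π}) :=
    (Nor.norStatement N A K hdvr (chart N A K t) t hC hI π hπ).2
  have hker' : RingHom.ker ρ = Ideal.span {algebraMap (OK A K) (chart N A K t) π} :=
    hker.trans (Nor.piIdeal_eq_span _ hπ)
  have hcomp := rho_comp_eta hG ht ρ hρ
  constructor
  · rintro ⟨x, hx, hxb⟩
    have hbx : b = ρ ⟨x, hx⟩ := (hG A).unique _ _ _ hxb (hρ ⟨x, hx⟩)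
    rw [hbx]
    refine ⟨hrange _, ?_⟩
    obtain ⟨p, hp, hpx⟩ := eta_isIntegralElem t (⟨x, hx⟩ : chart N A K t)
    have h1 : (psi A K tb).IsIntegralElem (ρ ⟨x, hx⟩) := by
      refine ⟨p, hp, ?_⟩
      rw [← hcomp, ← Polynomial.hom_eval₂, hpx, map_zero]
    exact isIntegralElem_of_comp (psi A K tb) _ (theta A K tb) (algebraMap_comp_theta tb) h1
  · rintro ⟨hbF, hbint⟩
    have h1 : (psi A K tb).IsIntegralElem b :=
      isIntegralElem_of_surjective _ (psi A K tb) (theta A K tb) (theta_surjective hres tb)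
        (algebraMap_comp_theta tb) hbint
    have h2 : ρ.IsIntegralElem b :=
      isIntegralElem_of_comp (psi A K tb) ρ (eta t) hcomp h1
    have hgen' : ∀ d : ℕ, d ∣ N → d ≠ 0 → ∃ a s : chart N A K t, ρ s ≠ 0 ∧
        S28.jd (IsLocalRing.ResidueField A) d * ρ s = ρ a := by
      intro d hd hd0
      obtain ⟨a, s, sb, hs, hsb, ha⟩ := hgen d hd hd0
      have e1 : ρ s = sb := (hG A).unique _ _ _ (hρ s) hs
      have e2 : ρ a = S28.jd (IsLocalRing.ResidueField A) d * sb :=
        (hG A).unique _ _ _ (hρ a) ha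
      exact ⟨a, s, by rw [e1]; exact hsb, by rw [e1, e2]⟩
    obtain ⟨a, s, hs, hab⟩ := exists_frac_of_mem hG hres ρ hρ hgen' b hbF
    obtain ⟨x, hx⟩ := exists_eq_of_isIntegrallyClosed_quotient ρ _ hker' b a s hs hab h2
    exact ⟨x.1, x.2, hx ▸ hρ x⟩



/-- The reduction of `1`. -/
theorem gRel_one (hG : ModelPlan.GRelStatement) (A : ValuationSubring Qb) :
    GRel A (1 : LaurentSeries Qb) 1 := by
  have h := (hG A).of_int (1 : LaurentSeries A)
  rwa [map_one, map_one] at h

/-- The reduction of `j⁻¹ ^ n`. -/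
theorem gRel_jK_inv_pow (hG : ModelPlan.GRelStatement) (N : ℕ) [NeZero N]
    (A : ValuationSubring Qb) (K : IntermediateField ℚ Qb) (n : ℕ) :
    GRel A ((((jK N K)⁻¹ ^ n : FK N K) : FK N K) : LaurentSeries Qb)
      ((jqModC (IsLocalRing.ResidueField A))⁻¹ ^ n) := by
  induction n with
  | zero =>
    rw [pow_zero, pow_zero]
    exact gRel_one hG A
  | succ n ih =>
    rw [pow_succ, pow_succ]
    exact (hG A).mul _ _ _ _ ih
      ((hG A).inv _ _ (JNot.gRel_jK hG N A K) (JNot.jqModC_ne_zero _))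

/-- The generators `j̄(q^d)` are reductions of elements of the chart `j ≠ ∞`. -/
theorem hgen_R0 (hG : ModelPlan.GRelStatement) (N : ℕ) [NeZero N] (ℓ : ℕ) [Fact ℓ.Prime]
    (A : ValuationSubring Qb) (K : IntermediateField ℚ Qb) :
    ∀ d : ℕ, d ∣ N → d ≠ 0 → ∃ (a s : chart N A K (jK N K))
      (sb : LaurentSeries (IsLocalRing.ResidueField A)),
      GRel A (((s : chart N A K (jK N K)) : FK N K) : LaurentSeries Qb) sb ∧ sb ≠ 0 ∧
      GRel A (((a : chart N A K (jK N K)) : FK N K) : LaurentSeries Qb)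
        (S28.jd (IsLocalRing.ResidueField A) d * sb) := by
  intro d hd hd0
  refine ⟨⟨ratEmb N K ⟨S28.jd ℚ d, ModelBasicCore.jd_mem_fullQ N hd hd0⟩,
    ModelBasicCore.ratEmb_jd_mem_R0 N ℓ A K hd hd0⟩, 1, 1, gRel_one hG A, one_ne_zero, ?_⟩
  rw [mul_one]
  show GRel A ((ratEmb N K ⟨S28.jd ℚ d, ModelBasicCore.jd_mem_fullQ N hd hd0⟩ : FK N K) :
    LaurentSeries Qb) _
  rw [ModelBasicCore.coe_ratEmb_jd N K hd hd0]
  have h := (hG A).of_int (S28.jd A d)
  rwa [S28.coeffMap_jd, S28.coeffMap_jd] at h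

/-- The generators `j̄(q^d)` are quotients of reductions of elements of the chart `j ≠ 0`. -/
theorem hgen_Rinf (hG : ModelPlan.GRelStatement) (N : ℕ) [NeZero N] (ℓ : ℕ) [Fact ℓ.Prime]
    (A : ValuationSubring Qb) (K : IntermediateField ℚ Qb) :
    ∀ d : ℕ, d ∣ N → d ≠ 0 → ∃ (a s : chart N A K (jK N K)⁻¹)
      (sb : LaurentSeries (IsLocalRing.ResidueField A)),
      GRel A (((s : chart N A K (jK N K)⁻¹) : FK N K) : LaurentSeries Qb) sb ∧ sb ≠ 0 ∧
      GRel A (((a : chart N A K (jK N K)⁻¹) : FK N K) : LaurentSeries Qb)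
        (S28.jd (IsLocalRing.ResidueField A) d * sb) := by
  intro d hd hd0
  obtain ⟨n, hn⟩ := ModelBasicCore.glue0 N ℓ A K _
    (ModelBasicCore.ratEmb_jd_mem_R0 N ℓ A K hd hd0)
  refine ⟨⟨_, hn⟩, ⟨(jK N K)⁻¹ ^ n, pow_mem (ModelBasicCore.jK_inv_mem_Rinf N ℓ A K) n⟩,
    (jqModC (IsLocalRing.ResidueField A))⁻¹ ^ n, gRel_jK_inv_pow hG N A K n,
    pow_ne_zero _ (inv_ne_zero (JNot.jqModC_ne_zero _)), ?_⟩
  have h1 : GRel A ((ratEmb N K ⟨S28.jd ℚ d, ModelBasicCore.jd_mem_fullQ N hd hd0⟩ : FK N K) :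
      LaurentSeries Qb) (S28.jd (IsLocalRing.ResidueField A) d) := by
    rw [ModelBasicCore.coe_ratEmb_jd N K hd hd0]
    have h := (hG A).of_int (S28.jd A d)
    rwa [S28.coeffMap_jd, S28.coeffMap_jd] at h
  exact (hG A).mul _ _ _ _ h1 (gRel_jK_inv_pow hG N A K n)

end Chart

/-- **Row R2 [SpFib].**  For every good level `K`, the Gauss reductions of the elements of the
chart `chart N A K t` (`t = j` or `t = j⁻¹`) are exactly the elements of
`F_k = modularFunctionFieldFullC k N` which are integral over `k[t̄]`: the reduction of the chart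
is the integral closure `B_t̄` of `k[t̄]` in `F_k`, independently of `K`. -/
theorem gRel_mem_chart_iff (N : ℕ) [NeZero N] (ℓ : ℕ) [Fact ℓ.Prime] (hℓN : ¬ ℓ ∣ N)
    (A : ValuationSubring Qb) (hA : A.LiesOverPrime ℓ) (K : IntermediateField ℚ Qb)
    (hB : BaseFacts ℓ A K) (t : FK N K) (tb : LaurentSeries (IsLocalRing.ResidueField A))
    (ht : (t = jK N K ∧ tb = jqModC (IsLocalRing.ResidueField A)) ∨
      (t = (jK N K)⁻¹ ∧ tb = (jqModC (IsLocalRing.ResidueField A))⁻¹))
    (b : LaurentSeries (IsLocalRing.ResidueField A)) :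
    (∃ x : FK N K, x ∈ chart N A K t ∧ GRel A (x : LaurentSeries Qb) b) ↔
      IsSpFib N A tb b := by
  have hG := GRel.gRelStatement
  have hM := ModelAll.modelStatement N ℓ hℓN A hA K hB
  have hI := IgusaStmt.igusaStatement N ℓ hℓN A hA K hB hM
  have hres := ChartVert.resO_surjective_of ℓ A K hB
  rcases ht with ⟨rfl, rfl⟩ | ⟨rfl, rfl⟩
  · exact gRel_mem_chart_iff_of hG hB.dvr hres (JNot.gRel_jK hG N A K) hM.c0 hI.1
      (hgen_R0 hG N ℓ A K) b
  · have h1 := gRel_jK_inv_pow hG N A K 1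
    rw [pow_one, pow_one] at h1
    exact gRel_mem_chart_iff_of hG hB.dvr hres h1 hM.cInf hI.2 (hgen_Rinf hG N ℓ A K) b



end Fermat.Agent.S37.SpFibB
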