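import Mathlib
import Fermat.Agent.S37.R0Loc
import Fermat.Agent.S37.R0SurjB
import Fermat.Agent.S37.SpFib
import Fermat.Agent.S37.SpFibB

/-!
# S37 block [R0], leaf [Surj] via the special-fibre route (R2 + R3b) — closer (helper55)

`surjStatement N ℓ : R0.SurjStatement N ℓ` — the reduction `ρ : SQ N A Q → O_Q` maps every good
level `SQK N A Q K` onto `O_Q`.  Assembly of three landed files:

* `SpFibB.gRel_mem_chart_iff` (row R2, helper55): the Gauss reduction of the level-`K` chart is
  the integral closure `B_t̄` of `k[t̄]` in `F_k`;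
* `SpFib.exists_chart_frac_of` (row R3b, helper9): `O_Q` is the localisation of `B_t̄`, hence
  every `d ∈ O_Q` is a quotient of reductions of chart elements with denominator a unit at `Q`;
* `R0SurjB.exists_tb`, `R0SurjB.surj_of_chart_frac` (helper19): the glue to `SQ`, `SQK`.
-/

set_option autoImplicit false

namespace Fermat.Agent.S37.R0SurjR2

open ModularCurve AlgebraicCurve Fermat.Agent.S18 Fermat.Agent.S18.Arith Fermat.Agent.S37.R0

set_option synthInstance.maxHeartbeats 400000

/-- Row R2 in the packaged form consumed by `SpFib.exists_chart_frac_of`. -/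
theorem r2Statement (N : ℕ) [NeZero N] (ℓ : ℕ) [Fact ℓ.Prime] : SpFib.R2Statement N ℓ :=
  fun hℓN A hA K hB t tb ht b => SpFibB.gRel_mem_chart_iff N ℓ hℓN A hA K hB t tb ht b

/-- **[Surj]** the leaf of `R0Loc.lean`: the reduction maps every good level onto `O_Q`. -/
theorem surjStatement (N ℓ : ℕ) [NeZero N] : R0.SurjStatement N ℓ := by
  intro hℓ hℓN A hA Q ρ hρ K hB d
  have : Fact ℓ.Prime := ⟨hℓ⟩
  obtain ⟨tb, ht, htQ⟩ := R0SurjB.exists_tb N A Q K
  have hcf := (SpFib.exists_chart_frac_of N A ℓ (r2Statement N ℓ) hℓN hA K hB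
    (tQK N A Q K) tb ht Q htQ).2
  exact R0SurjB.surj_of_chart_frac N A Q K ρ hρ hcf d

end Fermat.Agent.S37.R0SurjR2
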