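/-
S37 block [R0], row R8 [Total] (A-owner: helper79) — R0Total.lean.

`R0Part.TotalStatement N ℓ`: every place `P` of `F̄ = modularFunctionFieldBar N` reduces to a
place `Q` of `F_k = modularFunctionFieldFullC k N` (`k` the residue field of `A`).

Construction.  Let `t ∈ {j, j⁻¹}` be the chart coordinate with `t(P) ∈ A` (`PMCover.cover`).
* `ρ_A : chartA N A t → F_k` the Gauss reduction (`PMChartA.exists_rhoA`);
* `e = res ∘ ev_P : chartA N A t → k` (values at `P` lie in `A`:
  `PMCover.exists_valAt_of_mem_chartA`); it kills `ker ρ_A` (`PMChartA.residue_val_eq_of_gRel`);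
* the image of `ρ_A` contains `k` and `t̄` and is integral over `k[t̄]`; `F_k / k(t̄)` is finite
  separable (`S18.SepDeg`), so the integral closure `B` of `k[t̄]` in `F_k` is a Dedekind domain
  with fraction field `F_k`; a maximal ideal of `B` above `ker e` (lying over) is the place `Q`
  (`exists_place_of_point`, generic).
-/
import Mathlib
import Fermat.Agent.S37.PMDefs
import Fermat.Agent.S37.PMCover
import Fermat.Agent.S37.PMChartA
import Fermat.Agent.S37.R0Part
import Fermat.Agent.S18.ConstK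
import Fermat.Agent.S18.SepDegSep
import Fermat.Agent.S18.JNot
import Fermat.Agent.S24.RamSum
import Fermat.Agent.S24.Principal

set_option autoImplicit false

noncomputable section

namespace Fermat.Agent.S37.R0Total

open AlgebraicCurve IntermediateField IsDedekindDomain
open scoped IntermediateField.algebraAdjoinAdjoin

/-! ### A `K`-point of an integral model is a place (generic) -/

section Generic

variable {K F C : Type*} [Field K] [Field F] [Algebra K F] [CommRing C]

open Fermat.Agent.S24 Fermat.Agent.S37.PM in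
/-- **A `K`-point of an integral model is a place.**  `F / K(t)` finite separable, `t`
transcendental; `ρ : C → F` a ring homomorphism whose image contains the constants and `t` and is
integral over `K[t]`; `e : C → K` a ring homomorphism killing `ker ρ` and compatible with the
constants.  Then there is a place `Q` of `F / K` at which every `ρ x` is regular with value
`e x`. -/
theorem exists_place_of_point {t : F} (ht : Transcendental K t)
    [FiniteDimensional K⟮t⟯ F] [Algebra.IsSeparable K⟮t⟯ F]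
    (ρ : C →+* F) (e : C →+* K)
    (hker : ∀ x, ρ x = 0 → e x = 0)
    (hint : ∀ x, IsIntegral (↥(Algebra.adjoin K {t})) (ρ x))
    (hconst : ∀ c : K, ∃ x : C, ρ x = algebraMap K F c ∧ e x = c)
    (htC : ∃ x : C, ρ x = t) :
    ∃ Q : Place K F, ∀ x : C, ValAt Q (ρ x) (e x) := by
  have hPID := RamSum.isPrincipalIdealRing_adjoin t ht
  have hD : IsDedekindDomain (RamSum.B K t) :=
    integralClosure.isDedekindDomain (↥(Algebra.adjoin K {t})) K⟮t⟯ F
  have hFr : IsFractionRing (RamSum.B K t) F :=
    integralClosure.isFractionRing_of_finite_extension K⟮t⟯ F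
  -- the image of `ρ` contains `K[t]`
  have hrange : ∀ a ∈ Algebra.adjoin K {t}, ∃ x : C, ρ x = a := by
    intro a ha
    induction ha using Algebra.adjoin_induction with
    | mem a ha =>
      obtain ⟨x, hx⟩ := htC
      exact ⟨x, by rw [hx]; exact (Set.mem_singleton_iff.mp ha).symm⟩
    | algebraMap r =>
      obtain ⟨x, hx, -⟩ := hconst r
      exact ⟨x, hx⟩
    | add a b _ _ iha ihb =>
      obtain ⟨x, hx⟩ := iha
      obtain ⟨y, hy⟩ := ihb
      exact ⟨x + y, by rw [map_add, hx, hy]⟩
    | mul a b _ _ iha ihb =>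
      obtain ⟨x, hx⟩ := iha
      obtain ⟨y, hy⟩ := ihb
      exact ⟨x * y, by rw [map_mul, hx, hy]⟩
  -- `ρ` with values in the integral closure `B` of `K[t]`
  let ρ' : C →+* RamSum.B K t :=
    ρ.codRestrict (integralClosure (↥(Algebra.adjoin K {t})) F) hint
  have hρ' : ∀ x, ((ρ' x : RamSum.B K t) : F) = ρ x := fun x => rfl
  letI : Algebra C (RamSum.B K t) := ρ'.toAlgebra
  have halg : algebraMap C (RamSum.B K t) = ρ' := rfl
  have hInt : Algebra.IsIntegral C (RamSum.B K t) := by
    refine ⟨fun y => ?_⟩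
    have hy : IsIntegral (↥(Algebra.adjoin K {t})) y :=
      Algebra.IsIntegral.isIntegral y
    obtain ⟨p₀, hp₀, hp₀y⟩ := hy
    have hl : p₀.map (algebraMap (↥(Algebra.adjoin K {t})) (RamSum.B K t)) ∈
        Polynomial.lifts ρ' := by
      rw [Polynomial.lifts_iff_coeff_lifts]
      intro n
      rw [Polynomial.coeff_map]
      obtain ⟨x, hx⟩ := hrange _ (p₀.coeff n).2
      exact ⟨x, Subtype.ext hx⟩
    obtain ⟨q, hq, -, hqm⟩ := Polynomial.lifts_and_natDegree_eq_and_monic hl (hp₀.map _)
    refine ⟨q, hqm, ?_⟩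
    rw [halg, Polynomial.eval₂_eq_eval_map, hq, Polynomial.eval_map]
    exact hp₀y
  -- the maximal ideal `ker e` and a maximal ideal of `B` above it
  have hsurj : Function.Surjective e := fun c => by
    obtain ⟨x, -, hx⟩ := hconst c
    exact ⟨x, hx⟩
  haveI hPmax : (RingHom.ker e).IsMaximal := RingHom.ker_isMaximal_of_surjective e hsurj
  have hle : RingHom.ker (algebraMap C (RamSum.B K t)) ≤ RingHom.ker e := by
    intro x hx
    rw [RingHom.mem_ker] at hx ⊢
    refine hker x ?_
    rw [← hρ', ← halg, hx]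
    rfl
  obtain ⟨M, hMmax, hMc⟩ := Ideal.exists_ideal_over_maximal_of_isIntegral (RingHom.ker e) hle
  have hmem : ∀ z : C, e z = 0 → ρ' z ∈ M := by
    intro z hz
    have h1 : z ∈ M.comap (algebraMap C (RamSum.B K t)) := by
      rw [hMc, RingHom.mem_ker]
      exact hz
    exact h1
  have hMne : M ≠ ⊥ := by
    rintro rfl
    obtain ⟨xt, hxt⟩ := htC
    obtain ⟨xc, hxc, hexc⟩ := hconst (e xt)
    have h1 := hmem (xt - xc) (by rw [map_sub, hexc, sub_self])
    rw [Ideal.mem_bot] at h1
    have h2 : ρ (xt - xc) = 0 := by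
      rw [← hρ', h1]
      rfl
    rw [map_sub, hxt, hxc, sub_eq_zero] at h2
    exact ht (h2 ▸ isAlgebraic_algebraMap (e xt))
  let w : HeightOneSpectrum (RamSum.B K t) := ⟨M, hMmax.isPrime, hMne⟩
  refine ⟨Place.ofHeightOneSpectrum (K := K) (F := F) w, fun x => ?_⟩
  obtain ⟨xc, hxc, hexc⟩ := hconst (e x)
  have h1 : ρ' (x - xc) ∈ w.asIdeal := hmem (x - xc) (by rw [map_sub, hexc, sub_self])
  have h2 : ρ x - algebraMap K F (e x) = algebraMap (RamSum.B K t) F (ρ' (x - xc)) := by
    rw [← hxc, ← map_sub]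
    rfl
  show ρ x - algebraMap K F (e x) ∈
    (Place.ofHeightOneSpectrum (K := K) (F := F) w).toValuationSubring.nonunits
  rw [Place.ofHeightOneSpectrum_toValuationSubring, h2, ValuationSubring.mem_nonunits_iff,
    ← (Valuation.isEquiv_valuation_valuationSubring (w.valuation F)).lt_one_iff_lt_one,
    HeightOneSpectrum.valuation_lt_one_iff_mem]
  exact h1

end Generic

/-! ### The reduced modular function field: `F_k / k(t̄)` for `t̄ = j̄, j̄⁻¹` -/

section ModularK

open ModularCurve Fermat.Agent.S18 Fermat.Agent.S24 Fermat.Agent.S37.PM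

set_option synthInstance.maxHeartbeats 400000

/-- A `k`-point of a model of `F_k` which is integral over `k[t̄]`, `t̄ = j̄` or `j̄⁻¹`, is a
place of `F_k` (`k` algebraically closed of characteristic `ℓ`). -/
theorem exists_place_of_point_full (k : Type) [Field k] (N : ℕ) [NeZero N] (ℓ : ℕ)
    [Fact ℓ.Prime] [CharP k ℓ] [IsAlgClosed k] {C : Type*} [CommRing C]
    (tb : ↥(modularFunctionFieldFullC k N))
    (htb : tb = SepDeg.jb k N ∨ tb = (SepDeg.jb k N)⁻¹)
    (ρ : C →+* ↥(modularFunctionFieldFullC k N)) (e : C →+* k)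
    (hker : ∀ x, ρ x = 0 → e x = 0)
    (hint : ∀ x, IsIntegral (↥(Algebra.adjoin k {tb})) (ρ x))
    (hconst : ∀ c : k, ∃ x : C, ρ x = algebraMap k ↥(modularFunctionFieldFullC k N) c ∧ e x = c)
    (htC : ∃ x : C, ρ x = tb) :
    ∃ Q : Place k ↥(modularFunctionFieldFullC k N), ∀ x : C, ValAt Q (ρ x) (e x) := by
  have hfd := SepDeg.finiteDimensional_full k N
  have hsep := SepDeg.isSeparable_full k ℓ N
  have htr := ConstK.transcendental_jb k N
  rcases htb with rfl | rfl
  · exact exists_place_of_point htr ρ e hker hint hconst htC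
  · have := ConstK.finiteDimensional_of_eq (principal_adjoin_inv (K := k) (SepDeg.jb k N))
    have := ConstK.isSeparable_of_eq (principal_adjoin_inv (K := k) (SepDeg.jb k N))
    exact exists_place_of_point (principal_transcendental_inv htr) ρ e hker hint hconst htC

end ModularK

/-! ### The reduction point of a place of `F̄` -/

section Model

open ModularCurve ModularCurve.IgusaScheme HahnSeries
open Fermat.Agent.S18 Fermat.Agent.S18.Arith Fermat.Agent.S18.ModelPlan
open Fermat.Agent.S37.PM hiding Qb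

set_option synthInstance.maxHeartbeats 400000

section Basics

variable (N : ℕ) (A : ValuationSubring Qb)

theorem AT_le_chartA (t : modularFunctionFieldBar N) : AT N A t ≤ chartA N A t := fun s hs =>
  Subalgebra.algebraMap_mem (integralClosure (AT N A t) (modularFunctionFieldBar N)) ⟨s, hs⟩

theorem constA_mem_chartA (t : modularFunctionFieldBar N) (c : A) :
    constA N A c ∈ chartA N A t :=
  AT_le_chartA N A t (Subring.subset_closure (Or.inl ⟨c, rfl⟩))

theorem self_mem_chartA (t : modularFunctionFieldBar N) : t ∈ chartA N A t :=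
  AT_le_chartA N A t (Subring.subset_closure (Or.inr rfl))

/-- Gauss reduction of a constant. -/
theorem gRel_constA (c : A) :
    GRel A ((constA N A c : modularFunctionFieldBar N) : LaurentSeries Qb)
      (algebraMap (IsLocalRing.ResidueField A) (LaurentSeries (IsLocalRing.ResidueField A))
        (IsLocalRing.residue A c)) := by
  have h := (GRel.gRelStatement A).of_int (C c)
  have h1 : coeffMap A.subtype (C c) = (C (c : Qb) : LaurentSeries Qb) := coeffMap_single _ _ _
  have h2 : coeffMap (IsLocalRing.residue A) (C c) =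
      (C (IsLocalRing.residue A c) : LaurentSeries (IsLocalRing.ResidueField A)) :=
    coeffMap_single _ _ _
  rw [h1, h2] at h
  rw [PMChartA.coe_constA, algebraMap_laurentSeries_eq_single]
  exact h

end Basics

variable (N : ℕ) [NeZero N] (ℓ : ℕ) [Fact ℓ.Prime] (A : ValuationSubring Qb)

/-- Gauss reduction of `j`. -/
theorem gRel_jbar :
    GRel A ((jbar N : modularFunctionFieldBar N) : LaurentSeries Qb)
      (jqModC (IsLocalRing.ResidueField A)) := by
  have h := JNot.gRel_jK GRel.gRelStatement N A ⊥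
  rwa [PMChartA.coe_jK] at h

/-- Gauss reduction of `j⁻¹`. -/
theorem gRel_jbar_inv :
    GRel A (((jbar N)⁻¹ : modularFunctionFieldBar N) : LaurentSeries Qb)
      (jqModC (IsLocalRing.ResidueField A))⁻¹ :=
  (GRel.gRelStatement A).inv _ _ (gRel_jbar N A) (JNot.jqModC_ne_zero _)

/-- **The reduction point through one chart.**  If the chart coordinate `t ∈ {j, j⁻¹}` has a
value in `A` at the place `P`, then `P` reduces to a place `Q` of `F_k` through the chart `t`. -/
theorem exists_redTo (hℓN : ¬ ℓ ∣ N) (hA : A.LiesOverPrime ℓ)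
    {t : modularFunctionFieldBar N} (ht : t = jbar N ∨ t = (jbar N)⁻¹)
    (P : Place Qb (modularFunctionFieldBar N)) {c₀ : A} (hP : ValAt P t (c₀ : Qb)) :
    ∃ Q : Place (IsLocalRing.ResidueField A)
        (modularFunctionFieldFullC (IsLocalRing.ResidueField A) N),
      R0Part.RedTo N A t P Q := by
  classical
  have hG : GRelFacts A := GRel.gRelStatement A
  haveI := BaseRes.charP_residueField ℓ A hA
  haveI := BaseRes.isAlgClosed_residueField A
  obtain ⟨ρ, hρ⟩ := PMChartA.exists_rhoA N ℓ A hℓN hA ht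
  -- the reduced coordinate
  have htb : ρ ⟨t, self_mem_chartA N A t⟩ = SepDeg.jb (IsLocalRing.ResidueField A) N ∨
      ρ ⟨t, self_mem_chartA N A t⟩ = (SepDeg.jb (IsLocalRing.ResidueField A) N)⁻¹ := by
    rcases ht with rfl | rfl
    · exact Or.inl (Subtype.ext (hG.unique _ _ _ (hρ ⟨_, self_mem_chartA N A _⟩) (gRel_jbar N A)))
    · exact Or.inr (Subtype.ext
        (hG.unique _ _ _ (hρ ⟨_, self_mem_chartA N A _⟩) (gRel_jbar_inv N A)))
  -- reduction of the constants
  have hρc : ∀ c : A, ρ ⟨constA N A c, constA_mem_chartA N A t c⟩ =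
      algebraMap (IsLocalRing.ResidueField A)
        ↥(modularFunctionFieldFullC (IsLocalRing.ResidueField A) N) (IsLocalRing.residue A c) :=
    fun c => Subtype.ext (hG.unique _ _ _ (hρ ⟨_, constA_mem_chartA N A t c⟩) (gRel_constA N A c))
  -- `ρ` maps `A[t]` into `k[t̄]`
  have hAT : ∀ a ∈ AT N A t, ∃ ha : a ∈ chartA N A t,
      ρ ⟨a, ha⟩ ∈ Algebra.adjoin (IsLocalRing.ResidueField A) {ρ ⟨t, self_mem_chartA N A t⟩} := by
    intro a ha
    induction ha using Subring.closure_induction with
    | mem a ha =>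
      rcases ha with ⟨c, rfl⟩ | rfl
      · exact ⟨constA_mem_chartA N A t c, by rw [hρc]; exact Subalgebra.algebraMap_mem _ _⟩
      · exact ⟨self_mem_chartA N A _, Algebra.self_mem_adjoin_singleton _ _⟩
    | zero =>
      exact ⟨Subring.zero_mem _, by
        rw [show (⟨0, Subring.zero_mem _⟩ : ↥(chartA N A t)) = 0 from rfl, map_zero]
        exact Subalgebra.zero_mem _⟩
    | one =>
      exact ⟨Subring.one_mem _, by
        rw [show (⟨1, Subring.one_mem _⟩ : ↥(chartA N A t)) = 1 from rfl, map_one]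
        exact Subalgebra.one_mem _⟩
    | add a b _ _ iha ihb =>
      obtain ⟨ha, ha'⟩ := iha
      obtain ⟨hb, hb'⟩ := ihb
      exact ⟨Subring.add_mem _ ha hb, by
        rw [show (⟨a + b, Subring.add_mem _ ha hb⟩ : ↥(chartA N A t)) = ⟨a, ha⟩ + ⟨b, hb⟩ from rfl,
          map_add]
        exact Subalgebra.add_mem _ ha' hb'⟩
    | neg a _ iha =>
      obtain ⟨ha, ha'⟩ := iha
      exact ⟨Subring.neg_mem _ ha, by
        rw [show (⟨-a, Subring.neg_mem _ ha⟩ : ↥(chartA N A t)) = -⟨a, ha⟩ from rfl, map_neg]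
        exact Subalgebra.neg_mem _ ha'⟩
    | mul a b _ _ iha ihb =>
      obtain ⟨ha, ha'⟩ := iha
      obtain ⟨hb, hb'⟩ := ihb
      exact ⟨Subring.mul_mem _ ha hb, by
        rw [show (⟨a * b, Subring.mul_mem _ ha hb⟩ : ↥(chartA N A t)) = ⟨a, ha⟩ * ⟨b, hb⟩ from rfl,
          map_mul]
        exact Subalgebra.mul_mem _ ha' hb'⟩
  -- integrality of the reductions over `k[t̄]`
  have hint : ∀ x : ↥(chartA N A t),
      IsIntegral (↥(Algebra.adjoin (IsLocalRing.ResidueField A)
        {ρ ⟨t, self_mem_chartA N A t⟩})) (ρ x) := by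
    intro x
    let φ : ↥(AT N A t) →+*
        ↥(Algebra.adjoin (IsLocalRing.ResidueField A) {ρ ⟨t, self_mem_chartA N A t⟩}) :=
      (ρ.comp (Subring.inclusion (AT_le_chartA N A t))).codRestrict _ (fun a => by
        obtain ⟨ha, ha'⟩ := hAT a a.2
        exact ha')
    have hx : IsIntegral ↥(AT N A t) (x : modularFunctionFieldBar N) := x.2
    obtain ⟨p, hp, hpx⟩ := hx
    have h0 : Polynomial.eval₂ (Subring.inclusion (AT_le_chartA N A t)) x p = 0 := by
      apply Subtype.ext
      have h1 := Polynomial.hom_eval₂ p (Subring.inclusion (AT_le_chartA N A t))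
        (chartA N A t).subtype x
      rw [Subring.coe_subtype] at h1
      rw [h1]
      exact hpx
    refine ⟨p.map φ, hp.map φ, ?_⟩
    rw [Polynomial.eval₂_map]
    have h2 := Polynomial.hom_eval₂ p (Subring.inclusion (AT_le_chartA N A t)) ρ x
    rw [h0, map_zero] at h2
    rw [h2]
    rfl
  -- the values at `P`
  have hval : ∀ x ∈ chartA N A t, ∃ c : A, ValAt P x (c : Qb) :=
    PMCover.exists_valAt_of_mem_chartA N A P t c₀ hP
  have hle : chartA N A t ≤ P.toValuationSubring.toSubring := fun x hx => by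
    obtain ⟨c, hc⟩ := hval x hx
    exact PMCover.valAt_mem P hc
  let ev' : ↥(chartA N A t) →+* Qb := (PMCover.ev N P).comp (Subring.inclusion hle)
  have hev : ∀ x : ↥(chartA N A t), ValAt P (x : modularFunctionFieldBar N) (ev' x) :=
    fun x => PMCover.valAt_ev N P ⟨x, hle x.2⟩
  have hevA : ∀ x : ↥(chartA N A t), ev' x ∈ A := fun x => by
    obtain ⟨c, hc⟩ := hval x x.2
    rw [PMCover.valAt_unique P (hev x) hc]
    exact c.2
  let e₀ : ↥(chartA N A t) →+* A := ev'.codRestrict A hevA
  have he₀ : ∀ x : ↥(chartA N A t), ValAt P (x : modularFunctionFieldBar N) ((e₀ x : A) : Qb) :=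
    hev
  let e : ↥(chartA N A t) →+* IsLocalRing.ResidueField A := (IsLocalRing.residue A).comp e₀
  -- `e` kills the kernel of `ρ`
  have hker : ∀ x, ρ x = 0 → e x = 0 := by
    intro x hx
    have hb : GRel A (((x : modularFunctionFieldBar N)) : LaurentSeries Qb) 0 := by
      have h := hρ x
      rwa [hx] at h
    have hb' : GRel A (((0 : modularFunctionFieldBar N)) : LaurentSeries Qb) 0 :=
      ModelRed.gRel_zero hG
    have h := PMChartA.residue_val_eq_of_gRel N ℓ A hℓN hA ht P hP x.2 (Subring.zero_mem _) hb hb'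
      (he₀ x) (a' := 0) (PMCover.valAt_zero P)
    rw [map_zero] at h
    exact h
  -- constants
  have hconst : ∀ c : IsLocalRing.ResidueField A, ∃ x : ↥(chartA N A t),
      ρ x = algebraMap (IsLocalRing.ResidueField A)
        ↥(modularFunctionFieldFullC (IsLocalRing.ResidueField A) N) c ∧ e x = c := by
    intro cb
    obtain ⟨c, rfl⟩ := IsLocalRing.residue_surjective cb
    refine ⟨⟨constA N A c, constA_mem_chartA N A t c⟩, hρc c, ?_⟩
    have h1 : e₀ ⟨constA N A c, constA_mem_chartA N A t c⟩ = c :=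
      Subtype.ext (PMCover.valAt_unique P (he₀ ⟨constA N A c, constA_mem_chartA N A t c⟩)
        (PMCover.valAt_algebraMap P (c : Qb)))
    show IsLocalRing.residue A (e₀ ⟨constA N A c, constA_mem_chartA N A t c⟩) = _
    rw [h1]
  obtain ⟨Q, hQ⟩ := exists_place_of_point_full (IsLocalRing.ResidueField A) N ℓ
    (ρ ⟨t, self_mem_chartA N A t⟩) htb ρ e hker hint hconst ⟨_, rfl⟩
  refine ⟨Q, fun x hx b hb => ?_⟩
  have hbe : b = ((ρ ⟨x, hx⟩ : modularFunctionFieldFullC (IsLocalRing.ResidueField A) N) :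
      LaurentSeries (IsLocalRing.ResidueField A)) := hG.unique _ _ _ hb (hρ ⟨x, hx⟩)
  subst hbe
  exact ⟨(ρ ⟨x, hx⟩).2, e₀ ⟨x, hx⟩, he₀ ⟨x, hx⟩, hQ ⟨x, hx⟩⟩

end Model

/-- **[R8]** every place of `F̄` reduces to a place of `F_k`. -/
theorem totalStatement (N ℓ : ℕ) [NeZero N] : R0Part.TotalStatement N ℓ := by
  intro hℓ hℓN A hA P
  haveI : Fact ℓ.Prime := ⟨hℓ⟩
  rcases Fermat.Agent.S37.PMCover.cover N A P with h0 | hcusp
  · obtain ⟨c₀, h0⟩ := h0
    obtain ⟨Q, hQ⟩ := exists_redTo N ℓ A hℓN hA (Or.inl rfl) P h0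
    exact ⟨Q, Or.inl hQ⟩
  · obtain ⟨c₀, -, h0⟩ := id hcusp
    obtain ⟨Q, hQ⟩ := exists_redTo N ℓ A hℓN hA (Or.inr rfl) P h0
    exact ⟨Q, Or.inr ⟨hcusp, hQ⟩⟩

end Fermat.Agent.S37.R0Total
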