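/-
S37, block [R0], row (M6) SEPARATION (owner: helper57).

Abstract part (Mathlib + Prelude `Place` + `PMDefs.ValAt`).  A *chart datum* consists of subrings
`R ≤ S` of `F`, a ring hom `𝔯 : R →+* D` into a local ring (Gauss reduction followed by the
inclusion into the local ring of a point `Q` of the special fibre), such that `R` contains the
constants of `A` and `S` contains the inverses of the elements of `R` with unit reduction
(model: `S = ConsLoc.locSubring R 𝔯`).  A place `P` of `F / L` is *centred on `S`* if every
element of `S` is regular at `P` with value in `A` (`R0.Pts`, `Cons.Pts` unfolded).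

* `isUnit_rho_iff`  : for `x ∈ R` with value `c ∈ A` at such a place: `IsUnit (𝔯 x) ↔ IsUnit c`;
* `false_of_sep`    : two points of the same chart which are separated by an element of `R`
                      have disjoint sets of places;
* `false_of_inv`    : two points of different charts `R ∋ x`, `R' ∋ x⁻¹` such that `x⁻¹` reduces
                      to a nonunit at the second point have disjoint sets of places.
-/
import Mathlib
import Fermat.Agent.S37.PMDefs

set_option autoImplicit false

open AlgebraicCurve

namespace Fermat.Agent.S37.R0Sep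

open Fermat.Agent.S37

variable {L F : Type*} [Field L] [Field F] [Algebra L F]

/-! ### Values at a place -/

/-- The valuation of a nonzero constant at a place is `1`. -/
theorem valuation_const (P : Place L F) {c : L} (hc : c ≠ 0) :
    P.toValuationSubring.valuation (algebraMap L F c) = 1 := by
  have h1 : P.toValuationSubring.valuation (algebraMap L F c) ≤ 1 :=
    (ValuationSubring.valuation_le_one_iff _ _).mpr (P.algebraMap_mem' c)
  have h2 : P.toValuationSubring.valuation (algebraMap L F c⁻¹) ≤ 1 :=
    (ValuationSubring.valuation_le_one_iff _ _).mpr (P.algebraMap_mem' c⁻¹)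
  have h3 : P.toValuationSubring.valuation (algebraMap L F c) *
      P.toValuationSubring.valuation (algebraMap L F c⁻¹) = 1 := by
    rw [← map_mul, ← map_mul, mul_inv_cancel₀ hc, map_one, map_one]
  rcases h1.lt_or_eq with h | h
  · exfalso
    have : P.toValuationSubring.valuation (algebraMap L F c) *
        P.toValuationSubring.valuation (algebraMap L F c⁻¹) < 1 := by
      calc _ ≤ P.toValuationSubring.valuation (algebraMap L F c) * 1 := by gcongr
        _ = P.toValuationSubring.valuation (algebraMap L F c) := mul_one _
        _ < 1 := h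
    rw [h3] at this
    exact lt_irrefl _ this
  · exact h

/-- A constant lying in the maximal ideal of a place is zero. -/
theorem const_eq_zero_of_mem_nonunits (P : Place L F) {c : L}
    (h : algebraMap L F c ∈ P.toValuationSubring.nonunits) : c = 0 := by
  by_contra hc
  rw [ValuationSubring.mem_nonunits_iff, valuation_const P hc] at h
  exact lt_irrefl _ h

/-- `ValAt` in terms of the valuation. -/
theorem valAt_iff (P : Place L F) (f : F) (c : L) :
    PM.ValAt P f c ↔ P.toValuationSubring.valuation (f - algebraMap L F c) < 1 :=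
  ValuationSubring.mem_nonunits_iff _

/-- An element with a value at `P` is regular at `P`. -/
theorem valuation_le_one_of_valAt (P : Place L F) {f : F} {c : L} (h : PM.ValAt P f c) :
    P.toValuationSubring.valuation f ≤ 1 := by
  rw [valAt_iff] at h
  have h1 : P.toValuationSubring.valuation (algebraMap L F c) ≤ 1 :=
    (ValuationSubring.valuation_le_one_iff _ _).mpr (P.algebraMap_mem' c)
  have h2 : f = (f - algebraMap L F c) + algebraMap L F c := by ring
  rw [h2]
  exact (Valuation.map_add _ _ _).trans (max_le h.le h1)

/-- The values of `x` and `x⁻¹` at a place are inverse to each other. -/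
theorem value_mul_value_inv (P : Place L F) {x : F} (hx : x ≠ 0) {c c' : L}
    (hc : PM.ValAt P x c) (hc' : PM.ValAt P x⁻¹ c') : c * c' = 1 := by
  have h1 := valuation_le_one_of_valAt P hc'
  have h2 : P.toValuationSubring.valuation (algebraMap L F c) ≤ 1 :=
    (ValuationSubring.valuation_le_one_iff _ _).mpr (P.algebraMap_mem' c)
  rw [valAt_iff] at hc hc'
  have e : algebraMap L F (1 - c * c') =
      (x - algebraMap L F c) * x⁻¹ + algebraMap L F c * (x⁻¹ - algebraMap L F c') := by
    rw [map_sub, map_one, map_mul]
    field_simp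
    ring
  have h3 : P.toValuationSubring.valuation ((x - algebraMap L F c) * x⁻¹) < 1 := by
    rw [map_mul]
    calc _ ≤ P.toValuationSubring.valuation (x - algebraMap L F c) * 1 := by gcongr
      _ = P.toValuationSubring.valuation (x - algebraMap L F c) := mul_one _
      _ < 1 := hc
  have h4 : P.toValuationSubring.valuation
      (algebraMap L F c * (x⁻¹ - algebraMap L F c')) < 1 := by
    rw [map_mul]
    calc _ ≤ 1 * P.toValuationSubring.valuation (x⁻¹ - algebraMap L F c') := by gcongr
      _ = P.toValuationSubring.valuation (x⁻¹ - algebraMap L F c') := one_mul _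
      _ < 1 := hc'
  have h5 : algebraMap L F (1 - c * c') ∈ P.toValuationSubring.nonunits := by
    rw [ValuationSubring.mem_nonunits_iff, e]
    exact lt_of_le_of_lt (Valuation.map_add _ _ _) (max_lt h3 h4)
  have := const_eq_zero_of_mem_nonunits P h5
  linear_combination -this

/-! ### The unit criterion -/

section Datum

variable (A : ValuationSubring L) {R S : Subring F} {D : Type*} [CommRing D] [IsLocalRing D]

/-- **(S1) Unit criterion.**  Let `P` be a place centred on `S`, where `S` contains the
inverses of the elements of `R` with unit reduction.  Then an element `x ∈ R` with value `c ∈ A`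
at `P` has unit reduction if and only if `c` is a unit of `A`. -/
theorem isUnit_rho_iff (𝔯 : R →+* D)
    (hconst : ∀ c : A, algebraMap L F (c : L) ∈ R)
    (hinv : ∀ x : R, IsUnit (𝔯 x) → (x : F)⁻¹ ∈ S)
    (P : Place L F) (hP : ∀ x ∈ S, ∃ c : A, PM.ValAt P x (c : L))
    (x : R) (c : A) (hc : PM.ValAt P (x : F) (c : L)) : IsUnit (𝔯 x) ↔ IsUnit c := by
  constructor
  · intro hu
    have hx0 : (x : F) ≠ 0 := by
      intro h0
      have : x = 0 := Subtype.ext h0
      rw [this, map_zero] at hu
      exact not_isUnit_zero hu
    obtain ⟨c', hc'⟩ := hP _ (hinv x hu)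
    have h := value_mul_value_inv P hx0 hc hc'
    exact IsUnit.of_mul_eq_one c' (Subtype.ext h)
  · intro hu
    by_contra hnu
    obtain ⟨d, hd⟩ := hu.exists_right_inv
    -- the constant `c` as an element of `R`
    let cR : R := ⟨algebraMap L F (c : L), hconst c⟩
    let dR : R := ⟨algebraMap L F (d : L), hconst d⟩
    have hcd : cR * dR = 1 := by
      apply Subtype.ext
      show algebraMap L F (c : L) * algebraMap L F (d : L) = 1
      rw [← map_mul]
      have : (c : L) * (d : L) = 1 := congrArg Subtype.val hd
      rw [this, map_one]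
    have hcu : IsUnit (𝔯 cR) := IsUnit.of_mul_eq_one (𝔯 dR) (by rw [← map_mul, hcd, map_one])
    have hyu : IsUnit (𝔯 (x - cR)) := by
      by_contra h
      have h1 : 𝔯 x - 𝔯 (x - cR) ∈ nonunits D :=
        (IsLocalRing.maximalIdeal D).sub_mem hnu h
      rw [map_sub, sub_sub_cancel] at h1
      exact h1 hcu
    have hy0 : ((x - cR : R) : F) ≠ 0 := by
      intro h0
      have : x - cR = 0 := Subtype.ext h0
      rw [this, map_zero] at hyu
      exact not_isUnit_zero hyu
    obtain ⟨c'', hc''⟩ := hP _ (hinv (x - cR) hyu)
    have h1 := valuation_le_one_of_valAt P hc''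
    have h2 : P.toValuationSubring.valuation ((x - cR : R) : F) < 1 := by
      rw [valAt_iff] at hc
      exact hc
    have h3 : P.toValuationSubring.valuation ((x - cR : R) : F) *
        P.toValuationSubring.valuation (((x - cR : R) : F))⁻¹ = 1 := by
      rw [← map_mul, mul_inv_cancel₀ hy0, map_one]
    have h4 : P.toValuationSubring.valuation ((x - cR : R) : F) *
        P.toValuationSubring.valuation (((x - cR : R) : F))⁻¹ < 1 := by
      calc _ ≤ P.toValuationSubring.valuation ((x - cR : R) : F) * 1 := by gcongr
        _ = P.toValuationSubring.valuation ((x - cR : R) : F) := mul_one _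
        _ < 1 := h2
    rw [h3] at h4
    exact lt_irrefl _ h4

/-- **(S2) Separation inside one chart.**  If `x ∈ R` has nonunit reduction at the first point
and unit reduction at the second point, no place is centred at both points. -/
theorem false_of_sep {S' : Subring F} {D' : Type*} [CommRing D'] [IsLocalRing D']
    (hRS : R ≤ S) (𝔯 : R →+* D) (hconst : ∀ c : A, algebraMap L F (c : L) ∈ R)
    (hinv : ∀ x : R, IsUnit (𝔯 x) → (x : F)⁻¹ ∈ S)
    (𝔯' : R →+* D') (hinv' : ∀ x : R, IsUnit (𝔯' x) → (x : F)⁻¹ ∈ S')
    (x : R) (hx : ¬ IsUnit (𝔯 x)) (hx' : IsUnit (𝔯' x))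
    (P : Place L F) (hP : ∀ y ∈ S, ∃ c : A, PM.ValAt P y (c : L))
    (hP' : ∀ y ∈ S', ∃ c : A, PM.ValAt P y (c : L)) : False := by
  obtain ⟨c, hc⟩ := hP _ (hRS x.2)
  have h1 := isUnit_rho_iff A 𝔯 hconst hinv P hP x c hc
  have h2 := isUnit_rho_iff A 𝔯' hconst hinv' P hP' x c hc
  exact hx (h1.mpr (h2.mp hx'))

/-- **(S3) Separation of two charts.**  If `x ∈ R`, `x⁻¹ ∈ R'` and `x⁻¹` has nonunit reduction
at the point of the second chart, no place is centred at both points. -/
theorem false_of_inv {R' S' : Subring F} {D' : Type*} [CommRing D'] [IsLocalRing D']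
    (hRS : R ≤ S) (hRS' : R' ≤ S') (𝔯' : R' →+* D')
    (hconst' : ∀ c : A, algebraMap L F (c : L) ∈ R')
    (hinv' : ∀ x : R', IsUnit (𝔯' x) → (x : F)⁻¹ ∈ S')
    (x : F) (hx0 : x ≠ 0) (hx : x ∈ R) (hx' : x⁻¹ ∈ R') (hnu : ¬ IsUnit (𝔯' ⟨x⁻¹, hx'⟩))
    (P : Place L F) (hP : ∀ y ∈ S, ∃ c : A, PM.ValAt P y (c : L))
    (hP' : ∀ y ∈ S', ∃ c : A, PM.ValAt P y (c : L)) : False := by
  obtain ⟨c, hc⟩ := hP _ (hRS hx)
  obtain ⟨c', hc'⟩ := hP' _ (hRS' hx')
  have h := value_mul_value_inv P hx0 hc hc'
  have hu : IsUnit c' := IsUnit.of_mul_eq_one c (Subtype.ext (by rw [mul_comm]; exact h))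
  exact hnu ((isUnit_rho_iff A 𝔯' hconst' hinv' P hP' ⟨x⁻¹, hx'⟩ c' hc').mpr hu)

end Datum

end Fermat.Agent.S37.R0Sep
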