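/-
S37 block [R0], row R9 [Unique] — R0UniqueB.lean (helper72; B-copy, A = helper43).

The leaf `R0Part.UniqueStatement N ℓ` (the reduction point of a place of `F̄` is unique),
reduced to the *fraction property* of the reduced chart rings
`B_t = PMChi.redRange N A t = ρ_A (chartA N A t)`, `t ∈ {j, j⁻¹}`, at the places of `F_k`
(rows R2 + R3b, "special fibre": `B_t` is the integral closure of `k[t̄]` in `F_k`, hence every
`d ∈ O_Q` is `a / s` with `a, s ∈ B_t`, `s` a unit at `Q`).

* `le_of_redTo`       : same chart, `FracAt Q` ⇒ `O_Q ≤ O_Q'`;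
* `eq_of_redTo`       : same chart, `FracAt Q`, `FracAt Q'` ⇒ `Q = Q'`;
* `false_of_mixed`    : a place cannot reduce through the chart `j` and reduce to a cusp;
* `uniqueStatement_of_frac` : `UniqueStatement` from the fraction property;
* `fracAt_tQ`         : the fraction property at `Q` for the chart `tQ N A Q` follows from the
                        leaf `R0.SurjStatement` (the Gauss reduction `ρ : SQ → O_Q` is onto):
                        `d = ρ (x / s)` gives `d * red s = red x`;
* `uniqueStatement_of_surj` : **`R0.SurjStatement N ℓ → R0Part.UniqueStatement N ℓ`** — so [R9]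
                        needs NO input beyond the leaves of the conservation half (no separate
                        normality / Dedekind argument: the normality of the special fibre is
                        already encoded in the surjectivity of `ρ` onto the DVR `O_Q`).
-/
import Fermat.Agent.S37.R0Part
import Fermat.Agent.S37.R0Sep
import Fermat.Agent.S37.R0Loc
import Fermat.Agent.S37.R0Rho

set_option autoImplicit false

noncomputable section

namespace Fermat.Agent.S37.R0UniqueB

open ModularCurve AlgebraicCurve HahnSeries Fermat.Agent.S37.PM Fermat.Agent.S18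

set_option synthInstance.maxHeartbeats 400000

section Defs

variable (N : ℕ) (A : ValuationSubring Qb)

/-- The *fraction property* of the reduced chart ring `B_t = redRange N A t` at the place `Q`
of `F_k`: every function regular at `Q` is a quotient `a / s` of two elements of `B_t` with
`s` a unit at `Q`. -/
def FracAt (t : modularFunctionFieldBar N)
    (Q : Place (IsLocalRing.ResidueField A)
      (modularFunctionFieldFullC (IsLocalRing.ResidueField A) N)) : Prop :=
  ∀ d ∈ Q.toValuationSubring, ∃ a ∈ PMChi.redRange N A t, ∃ s ∈ PMChi.redRange N A t,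
    s ∉ Q.toValuationSubring.nonunits ∧ d * s = a

/-- `jbar N ≠ 0`. -/
theorem jbar_ne_zero : jbar N ≠ 0 := by
  intro h
  have h1 : coeffEmb Qb jq = 0 := congrArg Subtype.val h
  exact jq_ne_zero ((map_eq_zero (coeffEmb Qb)).mp h1)

end Defs

section Same

variable {N : ℕ} {A : ValuationSubring Qb}

/-- A function with a nonzero value at a place is a unit there. -/
theorem valuation_eq_one_of_valAt {K F : Type*} [Field K] [Field F] [Algebra K F]
    (v : Place K F) {f : F} {c : K} (h : ValAt v f c) (hc : c ≠ 0) :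
    v.toValuationSubring.valuation f = 1 := by
  have h1 : v.toValuationSubring.valuation f ≤ 1 :=
    (ValuationSubring.valuation_le_one_iff _ _).mpr (PMCover.valAt_mem v h)
  rcases h1.lt_or_eq with hlt | heq
  · exfalso
    have h0 : ValAt v f 0 :=
      (PMCover.valAt_zero_iff v).mpr ((ValuationSubring.mem_nonunits_iff _).mpr hlt)
    exact hc (PMCover.valAt_unique v h h0)
  · exact heq

/-- **Same chart, one inclusion.**  If `P` reduces to `Q` and to `Q'` through the chart with
coordinate `t`, and `O_Q` is a ring of fractions of the reduced chart ring, then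
`O_Q ≤ O_Q'`. -/
theorem le_of_redTo {t : modularFunctionFieldBar N}
    {P : Place Qb (modularFunctionFieldBar N)}
    {Q Q' : Place (IsLocalRing.ResidueField A)
      (modularFunctionFieldFullC (IsLocalRing.ResidueField A) N)}
    (h : R0Part.RedTo N A t P Q) (h' : R0Part.RedTo N A t P Q') (hfrac : FracAt N A t Q) :
    Q.toValuationSubring ≤ Q'.toValuationSubring := by
  intro d hd
  obtain ⟨a, ⟨x, hx, hxa⟩, s, ⟨y, hy, hys⟩, hsu, hds⟩ := hfrac d hd
  -- `a` is regular at `Q'`
  obtain ⟨_, c, -, hcQ'⟩ := h' x hx _ hxa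
  have haQ' : a ∈ Q'.toValuationSubring := PMCover.valAt_mem Q' hcQ'
  -- `s` has the same value at `Q` and `Q'`
  obtain ⟨_, c₁, hc₁P, hc₁Q⟩ := h y hy _ hys
  obtain ⟨_, c₂, hc₂P, hc₂Q'⟩ := h' y hy _ hys
  have hcc : c₁ = c₂ := Subtype.ext (PMCover.valAt_unique P hc₁P hc₂P)
  rw [← hcc] at hc₂Q'
  have hne : IsLocalRing.residue A c₁ ≠ 0 := by
    intro h0
    rw [h0] at hc₁Q
    exact hsu ((PMCover.valAt_zero_iff Q).mp hc₁Q)
  have hsv : Q'.toValuationSubring.valuation s = 1 := valuation_eq_one_of_valAt Q' hc₂Q' hne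
  have hs0 : s ≠ 0 := by
    intro h0
    rw [h0, map_zero] at hsv
    exact zero_ne_one hsv
  have hd' : d = a * s⁻¹ := by
    rw [← hds, mul_assoc, mul_inv_cancel₀ hs0, mul_one]
  rw [← ValuationSubring.valuation_le_one_iff, hd', map_mul, map_inv₀, hsv, inv_one, mul_one]
  exact (ValuationSubring.valuation_le_one_iff _ _).mpr haQ'

/-- **Same chart.**  If `P` reduces to `Q` and to `Q'` through the chart with coordinate `t`
and both local rings are rings of fractions of the reduced chart ring, then `Q = Q'`. -/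
theorem eq_of_redTo {t : modularFunctionFieldBar N}
    {P : Place Qb (modularFunctionFieldBar N)}
    {Q Q' : Place (IsLocalRing.ResidueField A)
      (modularFunctionFieldFullC (IsLocalRing.ResidueField A) N)}
    (h : R0Part.RedTo N A t P Q) (h' : R0Part.RedTo N A t P Q')
    (hfrac : FracAt N A t Q) (hfrac' : FracAt N A t Q') : Q = Q' :=
  Place.ext (le_antisymm (le_of_redTo h h' hfrac) (le_of_redTo h' h hfrac'))

end Same

section Mixed

variable (N : ℕ) [NeZero N] (ℓ : ℕ) [Fact ℓ.Prime] (A : ValuationSubring Qb)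

/-- **Mixed charts are impossible.**  A place which reduces through the chart `j ≠ ∞` does not
reduce to a cusp: `j` has a value `c ∈ A` and `j⁻¹` a value `c' ∈ 𝔪_A`, but `c * c' = 1`. -/
theorem false_of_mixed (hℓN : ¬ ℓ ∣ N) (hA : A.LiesOverPrime ℓ)
    {P : Place Qb (modularFunctionFieldBar N)}
    {Q : Place (IsLocalRing.ResidueField A)
      (modularFunctionFieldFullC (IsLocalRing.ResidueField A) N)}
    (h : R0Part.RedTo N A (jbar N) P Q) (hc : InCusp N A P) : False := by
  obtain ⟨b, hb, -⟩ := PMChartA.exists_gRel N ℓ A hℓN hA (t := jbar N) (Or.inl rfl)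
    (PMChi.t_mem_chartA N A (jbar N))
  obtain ⟨_, c, hcP, -⟩ := h (jbar N) (PMChi.t_mem_chartA N A (jbar N)) b hb
  obtain ⟨c', hc'm, hc'P⟩ := hc
  have hmul : (c : Qb) * (c' : Qb) = 1 :=
    R0Sep.value_mul_value_inv P (jbar_ne_zero N) hcP hc'P
  have hu : IsUnit c' := IsUnit.of_mul_eq_one c (Subtype.ext (by rw [mul_comm]; exact hmul))
  exact hc'm hu

end Mixed

section Statement

variable (N ℓ : ℕ) [NeZero N]

/-- **[R9] from the fraction property** of the reduced chart rings at the reduction points. -/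
theorem uniqueStatement_of_frac
    (hfrac0 : ℓ.Prime → ¬ ℓ ∣ N → ∀ A : ValuationSubring Qb, A.LiesOverPrime ℓ →
      ∀ (P : Place Qb (modularFunctionFieldBar N))
        (Q : Place (IsLocalRing.ResidueField A)
          (modularFunctionFieldFullC (IsLocalRing.ResidueField A) N)),
        R0Part.RedTo N A (jbar N) P Q → FracAt N A (jbar N) Q)
    (hfracInf : ℓ.Prime → ¬ ℓ ∣ N → ∀ A : ValuationSubring Qb, A.LiesOverPrime ℓ →
      ∀ (P : Place Qb (modularFunctionFieldBar N))
        (Q : Place (IsLocalRing.ResidueField A)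
          (modularFunctionFieldFullC (IsLocalRing.ResidueField A) N)),
        InCusp N A P → R0Part.RedTo N A (jbar N)⁻¹ P Q → FracAt N A (jbar N)⁻¹ Q) :
    R0Part.UniqueStatement N ℓ := by
  intro hℓ hℓN A hA P Q Q' h h'
  have : Fact ℓ.Prime := ⟨hℓ⟩
  rcases h with h | ⟨hc, h⟩
  · rcases h' with h' | ⟨hc', h'⟩
    · exact eq_of_redTo h h' (hfrac0 hℓ hℓN A hA P Q h) (hfrac0 hℓ hℓN A hA P Q' h')
    · exact (false_of_mixed N ℓ A hℓN hA h hc').elim
  · rcases h' with h' | ⟨hc', h'⟩
    · exact (false_of_mixed N ℓ A hℓN hA h' hc).elim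
    · exact eq_of_redTo h h' (hfracInf hℓ hℓN A hA P Q hc h)
        (hfracInf hℓ hℓN A hA P Q' hc' h')

end Statement

/-! ### The fraction property from the surjectivity of the Gauss reduction -/

section Surj

variable (N ℓ : ℕ) [NeZero N]

/-- **The fraction property at `Q` for the chart `tQ N A Q`**, from `R0.SurjStatement`:
`d = ρ f` with `f * s = x`, `x, s` in the chart, `red s = β` a unit at `Q`; then
`d * β = red x`. -/
theorem fracAt_tQ (hsurj : R0.SurjStatement N ℓ) (hℓ : ℓ.Prime) (hℓN : ¬ ℓ ∣ N)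
    (A : ValuationSubring Qb) (hA : A.LiesOverPrime ℓ)
    (Q : Place (IsLocalRing.ResidueField A)
      (modularFunctionFieldFullC (IsLocalRing.ResidueField A) N)) :
    FracAt N A (R0.tQ N A Q) Q := by
  have : Fact ℓ.Prime := ⟨hℓ⟩
  obtain ⟨ρ, hρ⟩ := R0Rho.exists_rho N ℓ A Q hℓN hA
  obtain ⟨K, -, hK⟩ := Base.baseStatement ℓ A hA ∅
  intro d hd
  obtain ⟨f, -, hf⟩ := hsurj hℓ hℓN A hA Q ρ hρ K hK ⟨d, hd⟩
  obtain ⟨x, s, hx, hs, ⟨β, hβ, hu⟩, hfs⟩ := f.2
  have hfd : R0.Red N A (f : modularFunctionFieldBar N) d := by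
    have h1 := hρ f
    rw [hf] at h1
    exact h1
  have hprod : R0.Red N A ((f : modularFunctionFieldBar N) * s) (d * β) := hfd.mul hβ
  rw [hfs] at hprod
  refine ⟨d * β, ⟨x, hx, hprod⟩, β, ⟨s, hs, hβ⟩, ?_, rfl⟩
  rw [ValuationSubring.mem_nonunits_iff]
  unfold R0.UnitAt at hu
  rw [hu]
  exact lt_irrefl _

omit [NeZero N] in
variable {N} in
/-- A place reducing through the chart `j ≠ ∞` reduces to a point with chart coordinate `j`. -/
theorem tQ_eq_of_redTo {A : ValuationSubring Qb} {P : Place Qb (modularFunctionFieldBar N)}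
    {Q : Place (IsLocalRing.ResidueField A)
      (modularFunctionFieldFullC (IsLocalRing.ResidueField A) N)}
    (h : R0Part.RedTo N A (jbar N) P Q) : R0.tQ N A Q = jbar N := by
  obtain ⟨_, c, -, hcQ⟩ := h (jbar N) (PMChi.t_mem_chartA N A (jbar N)) _ (R0Rho.red_jbar N A)
  have hj : R0.jk N A ∈ Q.toValuationSubring := PMCover.valAt_mem Q hcQ
  unfold R0.tQ
  rw [if_pos hj]

omit [NeZero N] in
variable {N} in
/-- A place reducing to a cusp through the chart `j ≠ 0` reduces to a point with chart
coordinate `j⁻¹`. -/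
theorem tQ_eq_of_redTo_inv {A : ValuationSubring Qb} {P : Place Qb (modularFunctionFieldBar N)}
    {Q : Place (IsLocalRing.ResidueField A)
      (modularFunctionFieldFullC (IsLocalRing.ResidueField A) N)}
    (hc : InCusp N A P) (h : R0Part.RedTo N A (jbar N)⁻¹ P Q) : R0.tQ N A Q = (jbar N)⁻¹ := by
  obtain ⟨c', hc'm, hc'P⟩ := hc
  obtain ⟨_, c, hcP, hcQ⟩ := h (jbar N)⁻¹ (PMChi.t_mem_chartA N A (jbar N)⁻¹) _
    (R0Rho.red_jbar_inv N A)
  have hcc : c = c' := Subtype.ext (PMCover.valAt_unique P hcP hc'P)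
  have hres : IsLocalRing.residue A c = 0 := by
    rw [hcc, IsLocalRing.residue_eq_zero_iff]
    exact hc'm
  rw [hres] at hcQ
  have hnu : (R0.jk N A)⁻¹ ∈ Q.toValuationSubring.nonunits := (PMCover.valAt_zero_iff Q).mp hcQ
  have hj : R0.jk N A ∉ Q.toValuationSubring := by
    intro hj
    rw [ValuationSubring.mem_nonunits_iff, map_inv₀] at hnu
    have h1 : Q.toValuationSubring.valuation (R0.jk N A) ≤ 1 :=
      (ValuationSubring.valuation_le_one_iff _ _).mpr hj
    have h0 : Q.toValuationSubring.valuation (R0.jk N A) ≠ 0 :=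
      (Valuation.ne_zero_iff _).mpr (R0Rho.jk_ne_zero N A)
    have h2 : (1 : _) ≤ (Q.toValuationSubring.valuation (R0.jk N A))⁻¹ :=
      (one_le_inv₀ (zero_lt_iff.mpr h0)).mpr h1
    exact (not_lt.mpr h2) hnu
  unfold R0.tQ
  rw [if_neg hj]

/-- **[R9] from [Surj].**  The reduction point of a place of `F̄` is unique, given only the leaf
`R0.SurjStatement` of the conservation half. -/
theorem uniqueStatement_of_surj (hsurj : R0.SurjStatement N ℓ) : R0Part.UniqueStatement N ℓ := by
  refine uniqueStatement_of_frac N ℓ ?_ ?_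
  · intro hℓ hℓN A hA P Q h
    have e := tQ_eq_of_redTo h
    have hf := fracAt_tQ N ℓ hsurj hℓ hℓN A hA Q
    rw [e] at hf
    exact hf
  · intro hℓ hℓN A hA P Q hc h
    have e := tQ_eq_of_redTo_inv hc h
    have hf := fracAt_tQ N ℓ hsurj hℓ hℓN A hA Q
    rw [e] at hf
    exact hf

end Surj

end Fermat.Agent.S37.R0UniqueB
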