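/-
S37 block [W-norm], B-copy (owner: helper41; statements of captain helper33, skeleton #1514):
the norm from `F̄_{Nℓ}` down to `F̄_N` ALONG `β` (`β f = f(q^ℓ)`) of an element `α y = y(q)`, as a
`q`-series:
   `(N_β (α y))(q^ℓ) = y(q^{ℓ²}) · ∏_{i < ℓ} y(ζ^i q)`,   `ζ` a primitive `ℓ`-th root of unity.

Proof.  `[F̄_{Nℓ} : β F̄_N] = ℓ + 1` (`W.finrankAlong_heckeBetaBar`, helper127).  The `ℓ + 1`
embeddings of `F̄_{Nℓ}` over `β F̄_N` into an algebraic closure `Ω` of `ℚ̄((q))` are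
`f ↦ rotHom (ζ^i) f` (`i < ℓ`; they fix the series in `q^ℓ`) and `f ↦ qExpand ℓ (w f)` (`w` the
Atkin–Lehner swap).  They are pairwise distinct on `j(q)` (coefficient of `q⁻¹`), so they are all
the embeddings, and the norm is the product of the conjugates.
-/
import Mathlib
import Fermat.Prelude.Def_ModularCurve_HeckeOperator
import Fermat.Agent.S24.Rot
import Fermat.Agent.S24.AnDefs
import Fermat.Agent.S37.W.Degree

set_option autoImplicit false

open ModularCurve AlgebraicCurve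

namespace Fermat.Agent.S37.ALNormB

open Fermat.Agent.S24 (rotHom Kb FN jF)

/-- The norm is the product over ANY injective family of embeddings of the right cardinality. -/
theorem algebraMap_norm_eq_prod_of_injective {F F' E ι : Type*} [Field F] [Field F'] [Field E]
    [Algebra F F'] [Algebra F E] [FiniteDimensional F F'] [Algebra.IsSeparable F F']
    [IsAlgClosed E] [Fintype ι] (e : ι → (F' →ₐ[F] E)) (he : Function.Injective e)
    (hcard : Fintype.card ι = Module.finrank F F') (x : F') :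
    algebraMap F E (Algebra.norm F x) = ∏ i, e i x := by
  classical
  rw [Algebra.norm_eq_prod_embeddings F E x]
  have hbij : Function.Bijective e := by
    rw [Fintype.bijective_iff_injective_and_card]
    exact ⟨he, by rw [hcard, AlgHom.card]⟩
  exact (Fintype.prod_bijective e hbij _ _ (fun _ => rfl)).symm

/-- The rotation by an `ℓ`-th root of unity fixes the series in `q ^ ℓ`. -/
theorem rotHom_qExpand {k : Type*} [Field k] (ξ : k) (hξ : ξ ≠ 0) (ℓ : ℕ) [NeZero ℓ]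
    (h : ξ ^ ℓ = 1) (x : LaurentSeries k) : rotHom ξ hξ (qExpand k ℓ x) = qExpand k ℓ x := by
  ext n
  rw [Fermat.Agent.S24.rotHom_coeff]
  by_cases hn : (ℓ : ℤ) ∣ n
  · obtain ⟨m, rfl⟩ := hn
    rw [zpow_mul, zpow_natCast, h, one_zpow, one_mul]
  · rw [qExpand_coeff_of_not_dvd ℓ x hn, mul_zero]

/-- The algebraic closure of `ℚ̄((q))`. -/
abbrev Om : Type := AlgebraicClosure (LaurentSeries Kb)

theorem norm_along_beta_aux (N ℓ : ℕ) [NeZero N] [NeZero ℓ] [NeZero (ℓ * ℓ)] (hℓ : ℓ.Prime)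
    (hℓN : ¬ ℓ ∣ N) (w : FN (N * ℓ) ≃ₐ[Kb] FN (N * ℓ))
    (hwα : ∀ y : FN N, w (heckeAlphaBar Kb N ℓ y) = heckeBetaBar Kb N ℓ y)
    (hwβ : ∀ y : FN N, w (heckeBetaBar Kb N ℓ y) = heckeAlphaBar Kb N ℓ y)
    (ζ : Kb) (hζ : IsPrimitiveRoot ζ ℓ) (y : FN N) :
    letI := algebraAlong (heckeBetaBar Kb N ℓ)
    qExpand Kb ℓ ((Algebra.norm (FN N) (heckeAlphaBar Kb N ℓ y) : FN N) : LaurentSeries Kb) =
      qExpand Kb (ℓ * ℓ) (y : LaurentSeries Kb) *
        ∏ i ∈ Finset.range ℓ,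
          rotHom (ζ ^ i) (pow_ne_zero i (hζ.ne_zero hℓ.ne_zero)) (y : LaurentSeries Kb) := by
  let _ : Algebra (FN N) (FN (N * ℓ)) := algebraAlong (heckeBetaBar Kb N ℓ)
  let ι : LaurentSeries Kb →+* Om := algebraMap (LaurentSeries Kb) Om
  have hι : Function.Injective ι := (algebraMap (LaurentSeries Kb) Om).injective
  let v : FN (N * ℓ) →+* LaurentSeries Kb := (modularFunctionFieldBar (N * ℓ)).val.toRingHom
  let _ : Algebra (FN N) Om := (ι.comp (v.comp (heckeBetaBar Kb N ℓ).toRingHom)).toAlgebra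
  have hfr : Module.finrank (FN N) (FN (N * ℓ)) = ℓ + 1 :=
    W.finrankAlong_heckeBetaBar N ℓ hℓ hℓN
  have : FiniteDimensional (FN N) (FN (N * ℓ)) :=
    Module.finite_of_finrank_pos (by rw [hfr]; omega)
  have : Algebra.IsSeparable (FN N) (FN (N * ℓ)) := inferInstance
  have hζ0 : ζ ≠ 0 := hζ.ne_zero hℓ.ne_zero
  have hζi : ∀ i : ℕ, (ζ ^ i) ^ ℓ = 1 := fun i => by
    rw [← pow_mul, mul_comm, pow_mul, hζ.pow_eq_one, one_pow]
  -- the `ℓ + 1` embeddings
  let σ : Option (Fin ℓ) → (FN (N * ℓ) →ₐ[FN N] Om) := fun o =>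
    match o with
    | some i =>
      { toRingHom := ι.comp ((rotHom (ζ ^ (i : ℕ)) (pow_ne_zero _ hζ0)).toRingHom.comp v)
        commutes' := fun x => by
          show ι (rotHom (ζ ^ (i : ℕ)) (pow_ne_zero _ hζ0) (qExpand Kb ℓ (x : LaurentSeries Kb)))
            = ι (qExpand Kb ℓ (x : LaurentSeries Kb))
          rw [rotHom_qExpand _ _ ℓ (hζi i)] }
    | none =>
      { toRingHom := ι.comp ((qExpand Kb ℓ).comp (v.comp (w : FN (N * ℓ) →+* FN (N * ℓ))))
        commutes' := fun x => by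
          show ι (qExpand Kb ℓ ((w (heckeBetaBar Kb N ℓ x) : FN (N * ℓ)) : LaurentSeries Kb))
            = ι (qExpand Kb ℓ (x : LaurentSeries Kb))
          rw [hwβ, coe_heckeAlphaBar] }
  have hσs : ∀ (i : Fin ℓ) (z : FN (N * ℓ)),
      σ (some i) z = ι (rotHom (ζ ^ (i : ℕ)) (pow_ne_zero _ hζ0) (z : LaurentSeries Kb)) :=
    fun _ _ => rfl
  have hσn : ∀ z : FN (N * ℓ),
      σ none z = ι (qExpand Kb ℓ ((w z : FN (N * ℓ)) : LaurentSeries Kb)) := fun _ => rfl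
  -- the test element `j`
  have hJ : ((jF (N * ℓ) : FN (N * ℓ)) : LaurentSeries Kb).coeff (-1) = 1 := by
    rw [Fermat.Agent.S24.coe_jF, coeffEmb_coeff, coeff_jq_neg_one, map_one]
  have hwJ : ((w (jF (N * ℓ)) : FN (N * ℓ)) : LaurentSeries Kb)
      = qExpand Kb ℓ ((jF N : FN N) : LaurentSeries Kb) := by
    rw [← W.heckeAlphaBar_jF N ℓ, hwα, coe_heckeBetaBar]
  have hσinj : Function.Injective σ := by
    intro o o' h
    have hz := DFunLike.congr_fun h (jF (N * ℓ))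
    rcases o with _ | i <;> rcases o' with _ | i'
    · rfl
    · exfalso
      rw [hσn, hσs] at hz
      have h1 := congrArg (fun s : LaurentSeries Kb => s.coeff (-1)) (hι hz)
      simp only [Fermat.Agent.S24.rotHom_coeff, hJ, mul_one] at h1
      rw [hwJ, qExpand_qExpand, qExpand_coeff_of_not_dvd] at h1
      · exact zpow_ne_zero _ (pow_ne_zero _ hζ0) h1.symm
      · intro hdvd
        have h2 : ((ℓ * ℓ : ℕ) : ℤ) ∣ 1 := (dvd_neg).mp hdvd
        have h3 : (ℓ * ℓ : ℕ) ∣ 1 := Int.natCast_dvd_natCast.mp (by simpa using h2)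
        have h4 := Nat.le_of_dvd one_pos h3
        nlinarith [hℓ.two_le]
    · exfalso
      rw [hσn, hσs] at hz
      have h1 := congrArg (fun s : LaurentSeries Kb => s.coeff (-1)) (hι hz)
      simp only [Fermat.Agent.S24.rotHom_coeff, hJ, mul_one] at h1
      rw [hwJ, qExpand_qExpand, qExpand_coeff_of_not_dvd] at h1
      · exact zpow_ne_zero _ (pow_ne_zero _ hζ0) h1
      · intro hdvd
        have h2 : ((ℓ * ℓ : ℕ) : ℤ) ∣ 1 := (dvd_neg).mp hdvd
        have h3 : (ℓ * ℓ : ℕ) ∣ 1 := Int.natCast_dvd_natCast.mp (by simpa using h2)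
        have h4 := Nat.le_of_dvd one_pos h3
        nlinarith [hℓ.two_le]
    · rw [hσs, hσs] at hz
      have h1 := congrArg (fun s : LaurentSeries Kb => s.coeff (-1)) (hι hz)
      simp only [Fermat.Agent.S24.rotHom_coeff, hJ, mul_one] at h1
      have h2 : ζ ^ (i : ℕ) = ζ ^ (i' : ℕ) := by
        have := congrArg (fun t : Kb => t⁻¹) h1
        simpa using this
      have h3 : (i : ℕ) = (i' : ℕ) := hζ.pow_inj i.2 i'.2 h2
      exact congrArg some (Fin.ext h3)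
  have hcard : Fintype.card (Option (Fin ℓ)) = Module.finrank (FN N) (FN (N * ℓ)) := by
    rw [hfr, Fintype.card_option, Fintype.card_fin]
  have hnorm := algebraMap_norm_eq_prod_of_injective σ hσinj hcard (heckeAlphaBar Kb N ℓ y)
  have hL : algebraMap (FN N) Om (Algebra.norm (FN N) (heckeAlphaBar Kb N ℓ y))
      = ι (qExpand Kb ℓ ((Algebra.norm (FN N) (heckeAlphaBar Kb N ℓ y) : FN N) :
          LaurentSeries Kb)) := rfl
  rw [hL, Fintype.prod_option, hσn, hwα, coe_heckeBetaBar, qExpand_qExpand] at hnorm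
  simp only [hσs, coe_heckeAlphaBar] at hnorm
  rw [Fin.prod_univ_eq_prod_range
    (fun i : ℕ => ι (rotHom (ζ ^ i) (pow_ne_zero i hζ0) (y : LaurentSeries Kb))) ℓ,
    ← map_prod, ← map_mul] at hnorm
  exact hι hnorm

set_option linter.unusedVariables false in
/-- Degree along `β`. -/
theorem finrank_along_beta (N ℓ : ℕ) [NeZero N] (hℓ : ℓ.Prime) (hℓN : ¬ ℓ ∣ N)
    (w : haveI : NeZero ℓ := ⟨hℓ.ne_zero⟩;
      modularFunctionFieldBar (N * ℓ) ≃ₐ[AlgebraicClosure ℚ] modularFunctionFieldBar (N * ℓ))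
    (hwα : haveI : NeZero ℓ := ⟨hℓ.ne_zero⟩; ∀ y : modularFunctionFieldBar N,
      w (heckeAlphaBar (AlgebraicClosure ℚ) N ℓ y) = heckeBetaBar (AlgebraicClosure ℚ) N ℓ y) :
    haveI : NeZero ℓ := ⟨hℓ.ne_zero⟩
    letI := algebraAlong (heckeBetaBar (AlgebraicClosure ℚ) N ℓ)
    Module.finrank (modularFunctionFieldBar N) (modularFunctionFieldBar (N * ℓ)) = ℓ + 1 := by
  have : NeZero ℓ := ⟨hℓ.ne_zero⟩
  exact W.finrankAlong_heckeBetaBar N ℓ hℓ hℓN

/-- **Norm formula along `β`.** -/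
theorem norm_along_beta (N ℓ : ℕ) [NeZero N] (hℓ : ℓ.Prime) (hℓN : ¬ ℓ ∣ N)
    (w : haveI : NeZero ℓ := ⟨hℓ.ne_zero⟩;
      modularFunctionFieldBar (N * ℓ) ≃ₐ[AlgebraicClosure ℚ] modularFunctionFieldBar (N * ℓ))
    (hwα : haveI : NeZero ℓ := ⟨hℓ.ne_zero⟩; ∀ y : modularFunctionFieldBar N,
      w (heckeAlphaBar (AlgebraicClosure ℚ) N ℓ y) = heckeBetaBar (AlgebraicClosure ℚ) N ℓ y)
    (hwβ : haveI : NeZero ℓ := ⟨hℓ.ne_zero⟩; ∀ y : modularFunctionFieldBar N,
      w (heckeBetaBar (AlgebraicClosure ℚ) N ℓ y) = heckeAlphaBar (AlgebraicClosure ℚ) N ℓ y)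
    (ζ : AlgebraicClosure ℚ) (hζ : IsPrimitiveRoot ζ ℓ) (y : modularFunctionFieldBar N) :
    haveI : NeZero ℓ := ⟨hℓ.ne_zero⟩
    haveI : NeZero (ℓ * ℓ) := ⟨mul_ne_zero hℓ.ne_zero hℓ.ne_zero⟩
    letI := algebraAlong (heckeBetaBar (AlgebraicClosure ℚ) N ℓ)
    qExpand (AlgebraicClosure ℚ) ℓ
        ((Algebra.norm (modularFunctionFieldBar N)
          (heckeAlphaBar (AlgebraicClosure ℚ) N ℓ y) : modularFunctionFieldBar N) :
            LaurentSeries (AlgebraicClosure ℚ)) =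
      qExpand (AlgebraicClosure ℚ) (ℓ * ℓ) (y : LaurentSeries (AlgebraicClosure ℚ)) *
        ∏ i ∈ Finset.range ℓ,
          Fermat.Agent.S24.rotHom (ζ ^ i) (pow_ne_zero i (hζ.ne_zero hℓ.ne_zero))
            (y : LaurentSeries (AlgebraicClosure ℚ)) := by
  have : NeZero ℓ := ⟨hℓ.ne_zero⟩
  have : NeZero (ℓ * ℓ) := ⟨mul_ne_zero hℓ.ne_zero hℓ.ne_zero⟩
  exact norm_along_beta_aux N ℓ hℓ hℓN w hwα hwβ ζ hζ y

end Fermat.Agent.S37.ALNormB
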