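/-
S37 block [W] (captain: helper33; prover: helper127): the Atkin–Lehner swap `w_ℓ` of the function
field of `X₀(Nℓ)` over `ℚ̄`, `gcd(ℓ, N) = 1`:  `w(j(q^d)) = j(q^{dℓ})`, `w(j(q^{dℓ})) = j(q^d)` for
`d ∣ N`, i.e. `w ∘ α = β` and `w ∘ β = α` for the two degeneracy maps.

Proof (S24 bridge): `γ₀ := !![a, b; N, ℓ] ∈ SL(2, ℤ)` with `a ℓ - b N = 1`, and
`W τ := γ₀ • (ℓ τ)` on the upper half plane.  For `d ∣ N` and `m m' = ℓ`:
  `d m · W τ = γ • (d m' τ)`, `γ = !![a m, b d; N / d, m']`   (so `j(d m · W τ) = j(d m' τ)`).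
Hence a polynomial relation among the `j(e τ)`, `e ∣ N ℓ`, is preserved by the swap
`d m ↔ d m'`; transfer to the formal side with `Fermat.Agent.S24.bridge_iff` and build the map
with `Fermat.Agent.S24.exists_algHom_of_eq_zero_iff` / `algHom_ext_genFam` (S24/EmbFormal.lean).
(The prime case is also in `S37/W/ALHecke.lean`; this file treats any `ℓ` coprime to `N`.)
-/
import Mathlib
import Fermat.Prelude.Def_ModularCurve_HeckeOperator
import Fermat.Agent.S24.Bridge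
import Fermat.Agent.S24.EmbFormal
import Fermat.Agent.S37.W.ALHecke

set_option autoImplicit false

open ModularCurve

namespace Fermat.Agent.S37.AL

open UpperHalfPlane
open Fermat.Agent.S24 Fermat.Agent.S23 Fermat.Agent.LevelOne Fermat.Agent.S37.W
open scoped MatrixGroups

/-! ### Generic recipe: an involutive swap of the generators realised by a point map -/

section Recipe

variable (M : ℕ) [NeZero M] (s : ↥M.divisors → ↥M.divisors)

theorem aeval_jAtFam_rename (w : ℍ → ℍ) (hw : ∀ e z, jAtFam M (s e) z = jAtFam M e (w z))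
    (P : MvPolynomial ↥M.divisors (AlgebraicClosure ℚ))
    (h : MvPolynomial.aeval (jAtFam M) P = 0) :
    MvPolynomial.aeval (jAtFam M) (MvPolynomial.rename s P) = 0 := by
  funext z
  rw [MvPolynomial.aeval_rename, aeval_fun_apply]
  have h1 : (fun i => (jAtFam M ∘ s) i z) = fun i => jAtFam M i (w z) := by
    funext i
    exact hw i z
  rw [h1, ← aeval_fun_apply, h]
  rfl

theorem aeval_jAtFam_rename_iff (hs : ∀ e, s (s e) = e) (w : ℍ → ℍ)
    (hw : ∀ e z, jAtFam M (s e) z = jAtFam M e (w z))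
    (P : MvPolynomial ↥M.divisors (AlgebraicClosure ℚ)) :
    MvPolynomial.aeval (jAtFam M) (MvPolynomial.rename s P) = 0 ↔
      MvPolynomial.aeval (jAtFam M) P = 0 := by
  constructor
  · intro h
    have h2 := aeval_jAtFam_rename M s w hw _ h
    rw [MvPolynomial.rename_rename] at h2
    have : s ∘ s = id := funext hs
    rwa [this, MvPolynomial.rename_id_apply] at h2
  · exact aeval_jAtFam_rename M s w hw P

/-- **Recipe.** An involution `s` of the divisors of `M` which is realised on the analytic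
generators by a point map `w` (`j(s(e) z) = j(e · w z)`) induces an involutive `ℚ̄`-automorphism of
the function field with `j(q^e) ↦ j(q^{s e})`. -/
theorem exists_algEquiv_of_swap (hs : ∀ e, s (s e) = e) (w : ℍ → ℍ)
    (hw : ∀ e z, jAtFam M (s e) z = jAtFam M e (w z)) :
    ∃ ι : ↥(modularFunctionFieldBar M) ≃ₐ[AlgebraicClosure ℚ] ↥(modularFunctionFieldBar M),
      (∀ x, ι (ι x) = x) ∧ ∀ e, ι (genFam M e) = genFam M (s e) := by
  have hψ : ∀ P : MvPolynomial ↥M.divisors (AlgebraicClosure ℚ),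
      MvPolynomial.aeval (fun e => genFam M (s e)) P = 0 ↔
        MvPolynomial.aeval (JFam M) P = 0 := by
    intro P
    have h1 : MvPolynomial.aeval (fun e => genFam M (s e)) P
        = MvPolynomial.aeval (genFam M) (MvPolynomial.rename s P) := by
      rw [MvPolynomial.aeval_rename]; rfl
    rw [h1, aeval_genFam_eq_zero_iff, bridge_iff, aeval_jAtFam_rename_iff M s hs w hw,
      ← bridge_iff]
  obtain ⟨ι, -, hι⟩ := exists_algHom_of_eq_zero_iff (N := M)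
    (MvPolynomial.aeval (fun e => genFam M (s e))) hψ
  have hι' : ∀ e, ι (genFam M e) = genFam M (s e) := fun e => by
    rw [hι, MvPolynomial.aeval_X]
  have hinv : ι.comp ι = AlgHom.id _ _ := by
    apply algHom_ext_genFam
    intro e
    rw [AlgHom.comp_apply, hι', hι', hs, AlgHom.id_apply]
  refine ⟨AlgEquiv.ofAlgHom ι ι hinv hinv, fun x => ?_, hι'⟩
  show ι (ι x) = x
  have := congrArg (fun f => f x) hinv
  simpa using this

end Recipe

/-! ### The point map -/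

section Point

theorem mulN_congr {a b : ℕ} [NeZero a] [NeZero b] (h : a = b) (z : ℍ) : mulN a z = mulN b z := by
  subst h; rfl

/-- `d m · γ₀ (m m' z) = γ (d m' z)` for `γ₀ = !![a, b; d n, m m']`, `γ = !![a m, b d; n, m']`. -/
theorem mulN_smul_mulN_eq_gen (d n m m' : ℕ) [NeZero (m * m')] [NeZero (d * m)]
    [NeZero (d * m')] (γ₀ γ : SL(2, ℤ)) (a b : ℤ)
    (h₀ : (γ₀ : Matrix (Fin 2) (Fin 2) ℤ) = !![a, b; ((d * n : ℕ) : ℤ), ((m * m' : ℕ) : ℤ)])
    (h : (γ : Matrix (Fin 2) (Fin 2) ℤ) = !![a * m, b * d; (n : ℤ), (m' : ℤ)]) (z : ℍ) :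
    mulN (d * m) (γ₀ • mulN (m * m') z) = γ • mulN (d * m') z := by
  have e00 : (γ₀ 0 0 : ℤ) = a := by
    have := congrFun (congrFun h₀ 0) 0; simpa using this
  have e01 : (γ₀ 0 1 : ℤ) = b := by
    have := congrFun (congrFun h₀ 0) 1; simpa using this
  have e10 : (γ₀ 1 0 : ℤ) = ((d * n : ℕ) : ℤ) := by
    have := congrFun (congrFun h₀ 1) 0; simpa using this
  have e11 : (γ₀ 1 1 : ℤ) = ((m * m' : ℕ) : ℤ) := by
    have := congrFun (congrFun h₀ 1) 1; simpa using this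
  have f00 : (γ 0 0 : ℤ) = a * m := by
    have := congrFun (congrFun h 0) 0; simpa using this
  have f01 : (γ 0 1 : ℤ) = b * d := by
    have := congrFun (congrFun h 0) 1; simpa using this
  have f10 : (γ 1 0 : ℤ) = n := by
    have := congrFun (congrFun h 1) 0; simpa using this
  have f11 : (γ 1 1 : ℤ) = m' := by
    have := congrFun (congrFun h 1) 1; simpa using this
  have hden0 : denom γ₀ (mulN (m * m') z) ≠ 0 := denom_ne_zero _ _
  have hden1 : denom γ (mulN (d * m') z) ≠ 0 := denom_ne_zero _ _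
  rw [ModularGroup.denom_apply] at hden0 hden1
  apply UpperHalfPlane.ext
  rw [coe_mulN, UpperHalfPlane.coe_specialLinearGroup_apply,
    UpperHalfPlane.coe_specialLinearGroup_apply]
  simp only [algebraMap_int_eq, Int.coe_castRingHom, Complex.ofReal_intCast]
  rw [e10, e11, coe_mulN] at hden0
  rw [f10, f11, coe_mulN] at hden1
  rw [e00, e01, e10, e11, f00, f01, f10, f11, coe_mulN, coe_mulN]
  rw [mul_div_assoc', div_eq_div_iff hden0 hden1]
  push_cast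
  ring

end Point

/-! ### The swap on the divisors of `N ℓ` for coprime `N`, `ℓ` -/

section Swap

variable (N ℓ : ℕ) [NeZero N] [NeZero ℓ]

/-- The swap `d m ↦ d (ℓ / m)` (`d ∣ N`, `m ∣ ℓ`) on the divisors of `N ℓ`. -/
def swapC : ↥(N * ℓ).divisors → ↥(N * ℓ).divisors := fun e =>
  ⟨Nat.gcd (e : ℕ) N * (ℓ / Nat.gcd (e : ℕ) ℓ), Nat.mem_divisors.mpr
    ⟨Nat.mul_dvd_mul (Nat.gcd_dvd_right _ _) (Nat.div_dvd_of_dvd (Nat.gcd_dvd_right _ _)),
      NeZero.ne (N * ℓ)⟩⟩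

theorem coe_swapC (e : ↥(N * ℓ).divisors) :
    ((swapC N ℓ e : ↥(N * ℓ).divisors) : ℕ) = Nat.gcd (e : ℕ) N * (ℓ / Nat.gcd (e : ℕ) ℓ) := rfl

theorem coe_eq_gcd_mul_gcd (hcop : Nat.Coprime ℓ N) (e : ↥(N * ℓ).divisors) :
    (e : ℕ) = Nat.gcd (e : ℕ) N * Nat.gcd (e : ℕ) ℓ := by
  have h1 : Nat.gcd (e : ℕ) (N * ℓ) = (e : ℕ) := Nat.gcd_eq_left (Nat.dvd_of_mem_divisors e.2)
  rw [← Nat.Coprime.gcd_mul (e : ℕ) hcop.symm, h1]

theorem gcd_swapC_left (hcop : Nat.Coprime ℓ N) (e : ↥(N * ℓ).divisors) :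
    Nat.gcd ((swapC N ℓ e : ↥(N * ℓ).divisors) : ℕ) N = Nat.gcd (e : ℕ) N := by
  rw [coe_swapC]
  have h1 : Nat.Coprime (ℓ / Nat.gcd (e : ℕ) ℓ) N :=
    Nat.Coprime.coprime_dvd_left (Nat.div_dvd_of_dvd (Nat.gcd_dvd_right _ _)) hcop
  rw [Nat.Coprime.gcd_mul_right_cancel _ h1]
  exact Nat.gcd_eq_left (Nat.gcd_dvd_right _ _)

theorem gcd_swapC_right (hcop : Nat.Coprime ℓ N) (e : ↥(N * ℓ).divisors) :
    Nat.gcd ((swapC N ℓ e : ↥(N * ℓ).divisors) : ℕ) ℓ = ℓ / Nat.gcd (e : ℕ) ℓ := by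
  rw [coe_swapC]
  have h1 : Nat.Coprime (Nat.gcd (e : ℕ) N) ℓ :=
    Nat.Coprime.coprime_dvd_left (Nat.gcd_dvd_right _ _) hcop.symm
  rw [Nat.Coprime.gcd_mul_left_cancel _ h1]
  exact Nat.gcd_eq_left (Nat.div_dvd_of_dvd (Nat.gcd_dvd_right _ _))

theorem swapC_swapC (hcop : Nat.Coprime ℓ N) (e : ↥(N * ℓ).divisors) :
    swapC N ℓ (swapC N ℓ e) = e := by
  apply Subtype.ext
  rw [coe_swapC, gcd_swapC_left N ℓ hcop, gcd_swapC_right N ℓ hcop,
    Nat.div_div_self (Nat.gcd_dvd_right _ _) (NeZero.ne ℓ)]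
  exact (coe_eq_gcd_mul_gcd N ℓ hcop e).symm

theorem swapC_divLow (hcop : Nat.Coprime ℓ N) (d : ↥N.divisors) :
    swapC N ℓ (divLow N ℓ d) = divHigh N ℓ d := by
  apply Subtype.ext
  rw [coe_swapC, coe_divLow, coe_divHigh]
  have hd : (d : ℕ) ∣ N := Nat.dvd_of_mem_divisors d.2
  have h1 : Nat.gcd (d : ℕ) ℓ = 1 := Nat.Coprime.coprime_dvd_left hd hcop.symm
  rw [h1, Nat.div_one, Nat.gcd_eq_left hd]

theorem swapC_divHigh (hcop : Nat.Coprime ℓ N) (d : ↥N.divisors) :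
    swapC N ℓ (divHigh N ℓ d) = divLow N ℓ d := by
  apply Subtype.ext
  rw [coe_swapC, coe_divLow, coe_divHigh]
  have hd : (d : ℕ) ∣ N := Nat.dvd_of_mem_divisors d.2
  rw [Nat.Coprime.gcd_mul_right_cancel _ hcop, Nat.gcd_eq_left hd, Nat.gcd_mul_left_left,
    Nat.div_self (Nat.pos_of_ne_zero (NeZero.ne ℓ)), mul_one]

/-- The swap is realised on the analytic generators by the Atkin–Lehner substitution. -/
theorem exists_jAtFam_swapC (hcop : Nat.Coprime ℓ N) :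
    ∃ w : ℍ → ℍ, ∀ (e : ↥(N * ℓ).divisors) (z : ℍ),
      jAtFam (N * ℓ) (swapC N ℓ e) z = jAtFam (N * ℓ) e (w z) := by
  obtain ⟨γ₀, -, -, -, a, b, h₀, -⟩ := exists_atkinLehner_matrices N ℓ hcop
  have hdet : a * ℓ - b * N = 1 := by
    have := γ₀.det_coe
    rw [h₀, Matrix.det_fin_two_of] at this
    exact this
  refine ⟨fun z => γ₀ • mulN ℓ z, fun e z => ?_⟩
  set d := Nat.gcd (e : ℕ) N with hd
  set m := Nat.gcd (e : ℕ) ℓ with hm
  have hdN : d ∣ N := Nat.gcd_dvd_right _ _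
  have hmℓ : m ∣ ℓ := Nat.gcd_dvd_right _ _
  obtain ⟨n, hn⟩ := hdN
  obtain ⟨m', hm'⟩ := hmℓ
  have hd0 : d ≠ 0 := fun h0 => NeZero.ne N (by rw [hn, h0, zero_mul])
  have hm0 : m ≠ 0 := fun h0 => NeZero.ne ℓ (by rw [hm', h0, zero_mul])
  have hm'0 : m' ≠ 0 := fun h0 => NeZero.ne ℓ (by rw [hm', h0, mul_zero])
  haveI : NeZero (m * m') := ⟨Nat.mul_ne_zero hm0 hm'0⟩
  haveI : NeZero (d * m) := ⟨Nat.mul_ne_zero hd0 hm0⟩
  haveI : NeZero (d * m') := ⟨Nat.mul_ne_zero hd0 hm'0⟩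
  have he : (e : ℕ) = d * m := coe_eq_gcd_mul_gcd N ℓ hcop e
  have hse : ((swapC N ℓ e : ↥(N * ℓ).divisors) : ℕ) = d * m' := by
    rw [coe_swapC, ← hd, ← hm, hm', Nat.mul_div_cancel_left _ (Nat.pos_of_ne_zero hm0)]
  have hdet' : Matrix.det !![a * m, b * d; (n : ℤ), (m' : ℤ)] = 1 := by
    rw [Matrix.det_fin_two_of]
    have h1 : (ℓ : ℤ) = m * m' := by rw [hm']; push_cast; ring
    have h2 : (N : ℤ) = d * n := by rw [hn]; push_cast; ring
    rw [h1, h2] at hdet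
    linarith
  let γ : SL(2, ℤ) := ⟨!![a * m, b * d; (n : ℤ), (m' : ℤ)], hdet'⟩
  have h₀' : (γ₀ : Matrix (Fin 2) (Fin 2) ℤ)
      = !![a, b; ((d * n : ℕ) : ℤ), ((m * m' : ℕ) : ℤ)] := by
    rw [h₀, ← hn, ← hm']
  show jAt ((swapC N ℓ e : ↥(N * ℓ).divisors) : ℕ) z = jAt (e : ℕ) (γ₀ • mulN ℓ z)
  rw [jAt_congr hse, jAt_congr he, jAt_apply, jAt_apply, mulN_congr hm' z,
    mulN_smul_mulN_eq_gen d n m m' γ₀ γ a b h₀' rfl z, jFun_smul]

end Swap

/-- **Atkin–Lehner swap.** -/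
theorem exists_atkinLehner (N ℓ : ℕ) [NeZero N] [NeZero ℓ] (hℓN : Nat.Coprime ℓ N) :
    ∃ w : modularFunctionFieldBar (N * ℓ) ≃ₐ[AlgebraicClosure ℚ] modularFunctionFieldBar (N * ℓ),
      (∀ y : modularFunctionFieldBar N,
        w (heckeAlphaBar (AlgebraicClosure ℚ) N ℓ y) = heckeBetaBar (AlgebraicClosure ℚ) N ℓ y) ∧
      (∀ y : modularFunctionFieldBar N,
        w (heckeBetaBar (AlgebraicClosure ℚ) N ℓ y) = heckeAlphaBar (AlgebraicClosure ℚ) N ℓ y) := by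
  obtain ⟨p, hp⟩ := exists_jAtFam_swapC N ℓ hℓN
  obtain ⟨w, -, hw⟩ := exists_algEquiv_of_swap (N * ℓ) (swapC N ℓ) (swapC_swapC N ℓ hℓN) p hp
  have h1 : (w : ↥(modularFunctionFieldBar (N * ℓ)) →ₐ[AlgebraicClosure ℚ]
        ↥(modularFunctionFieldBar (N * ℓ))).comp (heckeAlphaBar (AlgebraicClosure ℚ) N ℓ)
      = heckeBetaBar (AlgebraicClosure ℚ) N ℓ := by
    apply algHom_ext_genFam
    intro d
    rw [AlgHom.comp_apply, heckeAlphaBar_genFam, heckeBetaBar_genFam]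
    show w (genFam (N * ℓ) (divLow N ℓ d)) = _
    rw [hw, swapC_divLow N ℓ hℓN]
  have h2 : (w : ↥(modularFunctionFieldBar (N * ℓ)) →ₐ[AlgebraicClosure ℚ]
        ↥(modularFunctionFieldBar (N * ℓ))).comp (heckeBetaBar (AlgebraicClosure ℚ) N ℓ)
      = heckeAlphaBar (AlgebraicClosure ℚ) N ℓ := by
    apply algHom_ext_genFam
    intro d
    rw [AlgHom.comp_apply, heckeAlphaBar_genFam, heckeBetaBar_genFam]
    show w (genFam (N * ℓ) (divHigh N ℓ d)) = _
    rw [hw, swapC_divHigh N ℓ hℓN]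
  exact ⟨w, fun y => congrArg (fun f => f y) h1, fun y => congrArg (fun f => f y) h2⟩

end Fermat.Agent.S37.AL
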