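/-
S37 block [ES], leaf (e) (owner: helper2): CHART STABILITY of the Hecke correspondence.

Let `w` be a place of `F̄_{Nℓ}`, `u = w|β` (restriction along `β f = f(q^ℓ)`) and `u' = w|α`
(restriction along the inclusion `α`).  The points of `T_ℓ u = α_* β^* u` are exactly such `u'`.
Then, for a valuation subring `A ⊂ ℚ̄`:

* `u` in the chart `j ≠ ∞` over `A`  ⟹  `u'` in the chart `j ≠ ∞` over `A`   (`inChart0_alpha`);
* `u` reduces to a cusp               ⟹  `u'` reduces to a cusp               (`inCusp_alpha`);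

and symmetrically with `α` and `β` exchanged (`inChart0_beta`, `inCusp_beta`).

Proof: `j(q)` and `j(q^ℓ)` are roots of the modular polynomial `Φ_ℓ ∈ ℤ[Y][X]` (monic in `X`)
in both orders (`S28.HeckeData.root`, `root'`); evaluate at the place `w`.
-/
import Mathlib
import Fermat.Prelude.Def_ModularCurve_HeckeOperator
import Fermat.Prelude.Thm_ModularCurve_coeff_jqModC_neg_one
import Fermat.Agent.S28.HeckeMain
import Fermat.Agent.S24.TranscJ
import Fermat.Agent.S24.AnDegree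
import Fermat.Agent.S37.NormValAlong
import Fermat.Agent.S37.PMDefs

set_option autoImplicit false
set_option linter.style.haveILetI false

namespace Fermat.Agent.S37.ChartStab

open ModularCurve AlgebraicCurve HahnSeries Polynomial
open Fermat.Agent.S28

/-! ### Generic part: a valuation subring with values in a subfield of constants -/

section Generic

variable {K F : Type*} [Field K] [Field F] [Algebra K F] (O : ValuationSubring F)

theorem eq_zero_of_algebraMap_mem_nonunits (hK : ∀ a : K, algebraMap K F a ∈ O) {c : K}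
    (h : algebraMap K F c ∈ O.nonunits) : c = 0 := by
  by_contra hc
  rcases O.mem_nonunits_iff_or.mp h with h0 | h1
  · exact hc ((map_eq_zero (algebraMap K F)).mp h0)
  · exact h1 (by rw [← map_inv₀]; exact hK _)

theorem mem_of_mem_nonunits {x : F} (h : x ∈ O.nonunits) : x ∈ O :=
  (ValuationSubring.mem_nonunits_iff_exists_mem_maximalIdeal.mp h).1

theorem mul_mem_nonunits {x y : F} (hx : x ∈ O.nonunits) (hy : y ∈ O) : x * y ∈ O.nonunits := by
  rw [O.mem_nonunits_iff] at hx ⊢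
  rw [map_mul]
  have hy' : O.valuation y ≤ 1 := (O.valuation_le_one_iff y).mpr hy
  exact lt_of_le_of_lt (mul_le_of_le_one_right' hy') hx

theorem mem_of_sub_mem_nonunits (hK : ∀ a : K, algebraMap K F a ∈ O) {x : F} {c : K}
    (h : x - algebraMap K F c ∈ O.nonunits) : x ∈ O := by
  have h1 := add_mem (mem_of_mem_nonunits O h) (hK c)
  rwa [sub_add_cancel] at h1

/-- Values are unique. -/
theorem value_unique (hK : ∀ a : K, algebraMap K F a ∈ O) {x : F} {c₁ c₂ : K}
    (h₁ : x - algebraMap K F c₁ ∈ O.nonunits) (h₂ : x - algebraMap K F c₂ ∈ O.nonunits) :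
    c₁ = c₂ := by
  have h : algebraMap K F (c₂ - c₁) ∈ O.nonunits := by
    have h3 := O.nonunits.sub_mem h₁ h₂
    have e : x - algebraMap K F c₁ - (x - algebraMap K F c₂) = algebraMap K F (c₂ - c₁) := by
      rw [map_sub]; ring
    rwa [e] at h3
  exact (sub_eq_zero.mp (eq_zero_of_algebraMap_mem_nonunits O hK h)).symm

/-- A unit of `O` with a nonzero value: the inverse has the inverse value. -/
theorem inv_sub_mem_nonunits (hK : ∀ a : K, algebraMap K F a ∈ O) {x : F} {c : K} (hc : c ≠ 0)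
    (h : x - algebraMap K F c ∈ O.nonunits) :
    x⁻¹ ∈ O ∧ x⁻¹ - algebraMap K F c⁻¹ ∈ O.nonunits := by
  have hcF : algebraMap K F c ≠ 0 := (map_ne_zero (algebraMap K F)).mpr hc
  have hxO : x ∈ O := mem_of_sub_mem_nonunits O hK h
  have hxn : x ∉ O.nonunits := by
    intro hx
    have h3 := O.nonunits.sub_mem hx h
    rw [sub_sub_cancel] at h3
    exact hc (eq_zero_of_algebraMap_mem_nonunits O hK h3)
  have hx0 : x ≠ 0 := fun h0 => hxn (h0 ▸ O.nonunits.zero_mem)
  have hxinv : x⁻¹ ∈ O := by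
    by_contra hcon
    exact hxn (O.mem_nonunits_iff_or.mpr (Or.inr hcon))
  refine ⟨hxinv, ?_⟩
  have e : x⁻¹ - algebraMap K F c⁻¹ = -((x - algebraMap K F c) * (x⁻¹ * algebraMap K F c⁻¹)) := by
    rw [map_inv₀]
    field_simp
    ring
  rw [e]
  exact O.nonunits.neg_mem (mul_mem_nonunits O h (mul_mem hxinv (hK _)))

variable {Φ : Polynomial (Polynomial ℤ)}

/-- Integrality: a root `x` of the monic `Φ(X, y)` with `y ∈ O` lies in `O`. -/
theorem mem_of_root (hΦ : Φ.Monic) {x y : F} (hy : y ∈ O) (h : (PhiAt Φ y).eval x = 0) :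
    x ∈ O := by
  have hint : IsIntegral O x := by
    refine ⟨PhiAt Φ (⟨y, hy⟩ : O), PhiAt_monic hΦ _, ?_⟩
    rw [← Polynomial.eval_map, PhiAt_map]
    exact h
  obtain ⟨z, rfl⟩ := (IsIntegrallyClosed.isIntegral_iff (R := O) (K := F)).mp hint
  exact z.2

/-- The values of a pair `(x, y)` with `Φ(x, y) = 0` satisfy `Φ(a, c) = 0`. -/
theorem eval_values_eq_zero (hK : ∀ a : K, algebraMap K F a ∈ O) {x y : F} {a c : K}
    (hx : x - algebraMap K F a ∈ O.nonunits) (hy : y - algebraMap K F c ∈ O.nonunits)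
    (h : (PhiAt Φ y).eval x = 0) : (PhiAt Φ c).eval a = 0 := by
  have hxO : x ∈ O := mem_of_sub_mem_nonunits O hK hx
  have hyO : y ∈ O := mem_of_sub_mem_nonunits O hK hy
  let ι : K →+* O := (algebraMap K F).codRestrict O.toSubring hK
  let res : O →+* IsLocalRing.ResidueField O := IsLocalRing.residue O
  have hres : ∀ (z : F) (hz : z ∈ O) (b : K), z - algebraMap K F b ∈ O.nonunits →
      res ⟨z, hz⟩ = res (ι b) := by
    intro z hz b hzb
    rw [← sub_eq_zero, ← map_sub]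
    refine (IsLocalRing.residue_eq_zero_iff _).mpr ?_
    exact ValuationSubring.coe_mem_nonunits_iff.mp hzb
  have h1 : (PhiAt Φ (⟨y, hyO⟩ : O)).eval ⟨x, hxO⟩ = 0 := by
    apply Subtype.ext
    have h2 := map_eval_PhiAt O.subtype Φ ⟨y, hyO⟩ ⟨x, hxO⟩
    exact h2.trans h
  have h2 := map_eval_PhiAt res Φ ⟨y, hyO⟩ ⟨x, hxO⟩
  rw [h1, map_zero, hres x hxO a hx, hres y hyO c hy] at h2
  have h3 := map_eval_PhiAt (res.comp ι) Φ c a
  exact (map_eq_zero_iff (res.comp ι) (RingHom.injective _)).mp (h3.trans h2.symm)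

/-- **Chart stability, generic form.**  If `Φ(x, y) = 0` (`Φ` monic in `X`), `x` and `y` have
values `a`, `c` at `O` and `c` lies in the valuation subring `A` of `K`, then `a ∈ A`. -/
theorem value_mem_of_root (A : ValuationSubring K) (hK : ∀ a : K, algebraMap K F a ∈ O)
    (hΦ : Φ.Monic) {x y : F} {a c : K}
    (hx : x - algebraMap K F a ∈ O.nonunits) (hy : y - algebraMap K F c ∈ O.nonunits)
    (h : (PhiAt Φ y).eval x = 0) (hc : c ∈ A) : a ∈ A := by
  have h0 := eval_values_eq_zero O hK hx hy h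
  have hint : IsIntegral A a := by
    refine ⟨PhiAt Φ (⟨c, hc⟩ : A), PhiAt_monic hΦ _, ?_⟩
    rw [← Polynomial.eval_map, PhiAt_map]
    exact h0
  obtain ⟨z, rfl⟩ := (IsIntegrallyClosed.isIntegral_iff (R := A) (K := K)).mp hint
  exact z.2

/-- Regular case: a value of `y` in `A` gives a value of `x` in `A`. -/
theorem exists_value_mem (A : ValuationSubring K) (hK : ∀ a : K, algebraMap K F a ∈ O)
    (hval : ∀ z ∈ O, ∃ b : K, z - algebraMap K F b ∈ O.nonunits)
    (hΦ : Φ.Monic) {x y : F} (h : (PhiAt Φ y).eval x = 0) {c : K}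
    (hy : y - algebraMap K F c ∈ O.nonunits) (hc : c ∈ A) :
    ∃ a : K, a ∈ A ∧ x - algebraMap K F a ∈ O.nonunits := by
  have hxO : x ∈ O := mem_of_root O hΦ (mem_of_sub_mem_nonunits O hK hy) h
  obtain ⟨a, ha⟩ := hval x hxO
  exact ⟨a, value_mem_of_root O A hK hΦ ha hy h hc, ha⟩

/-- Cusp case: if `y⁻¹` has a value in the maximal ideal of `A`, so does `x⁻¹`. -/
theorem exists_inv_value_mem (A : ValuationSubring K) (hK : ∀ a : K, algebraMap K F a ∈ O)
    (hval : ∀ z ∈ O, ∃ b : K, z - algebraMap K F b ∈ O.nonunits)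
    (hΦ : Φ.Monic) {x y : F} (hy0 : y ≠ 0)
    (hxy : (PhiAt Φ y).eval x = 0) (hyx : (PhiAt Φ x).eval y = 0) {c : K}
    (hy : y⁻¹ - algebraMap K F c ∈ O.nonunits) (hc : c ∈ A.nonunits) :
    ∃ a : K, a ∈ A.nonunits ∧ x⁻¹ - algebraMap K F a ∈ O.nonunits := by
  by_cases hc0 : c = 0
  · -- `y` has a pole, hence so has `x`
    subst hc0
    rw [map_zero, sub_zero] at hy
    have hyO : y ∉ O := by
      rcases O.mem_nonunits_iff_or.mp hy with h0 | h1
      · exact absurd (inv_eq_zero.mp h0) hy0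
      · rwa [inv_inv] at h1
    have hxO : x ∉ O := fun hx => hyO (mem_of_root O hΦ hx hyx)
    refine ⟨0, A.nonunits.zero_mem, ?_⟩
    rw [map_zero, sub_zero]
    exact O.mem_nonunits_iff_or.mpr (Or.inr (by rwa [inv_inv]))
  · -- `y` is regular with value `c⁻¹ ∉ A`
    obtain ⟨hyO, hyv⟩ := inv_sub_mem_nonunits O hK hc0 hy
    rw [inv_inv] at hyO hyv
    have hcA : c⁻¹ ∉ A := by
      rcases A.mem_nonunits_iff_or.mp hc with h0 | h1
      · exact absurd h0 hc0
      · exact h1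
    have hxO : x ∈ O := mem_of_root O hΦ hyO hxy
    obtain ⟨a, ha⟩ := hval x hxO
    have haA : a ∉ A := fun haA => hcA (value_mem_of_root O A hK hΦ hyv ha hyx haA)
    have ha0 : a ≠ 0 := fun h0 => haA (h0 ▸ A.zero_mem)
    refine ⟨a⁻¹, A.mem_nonunits_iff_or.mpr (Or.inr (by rwa [inv_inv])), ?_⟩
    exact (inv_sub_mem_nonunits O hK ha0 ha).2

/-- Membership in the maximal ideal is transported by `comap`. -/
theorem mem_nonunits_comap {F₀ : Type*} [Field F₀] (f : F₀ →+* F) (x : F₀) :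
    x ∈ (O.comap f).nonunits ↔ f x ∈ O.nonunits := by
  rw [ValuationSubring.mem_nonunits_iff_or, ValuationSubring.mem_nonunits_iff_or,
    ValuationSubring.mem_comap, map_inv₀, map_eq_zero]

end Generic

/-! ### Values along a restricted place -/

section Along

variable {K F F' : Type*} [Field K] [Field F] [Field F'] [Algebra K F] [Algebra K F']

/-- `f` has value `c` at the restriction of `w` along `φ` iff `φ f` has value `c` at `w`. -/
theorem valAt_restrictAlong (φ : F →ₐ[K] F') (hφ : φ.toRingHom.IsIntegral) (w : Place K F')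
    (f : F) (c : K) : PM.ValAt (w.restrictAlong φ hφ) f c ↔ PM.ValAt w (φ f) c := by
  letI := algebraAlong φ
  haveI := isScalarTower_along φ
  haveI := isIntegral_along φ hφ
  show f - algebraMap K F c ∈ (w.toValuationSubring.comap (algebraMap F F')).nonunits ↔
    φ f - algebraMap K F' c ∈ w.toValuationSubring.nonunits
  rw [mem_nonunits_comap]
  have e : algebraMap F F' (f - algebraMap K F c) = φ f - algebraMap K F' c := by
    show φ (f - algebraMap K F c) = φ f - algebraMap K F' c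
    rw [map_sub, AlgHom.commutes]
  rw [e]

end Along

/-! ### The modular part -/

section Modular

set_option synthInstance.maxHeartbeats 400000

open Fermat.Agent.S37.PM

variable (N ℓ : ℕ) [NeZero N] [NeZero ℓ]

omit [NeZero N] in
theorem coe_jbar :
    ((jbar N : modularFunctionFieldBar N) : LaurentSeries Qb) = jd Qb 1 := by
  show coeffEmb Qb jq = jd Qb 1
  rw [← jd_rat_one, coeffEmb, coeffMap_jd]

theorem coe_alpha_jbar :
    ((heckeAlphaBar Qb N ℓ (jbar N) : modularFunctionFieldBar (N * ℓ)) : LaurentSeries Qb)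
      = jd Qb 1 := by
  rw [coe_heckeAlphaBar, coe_jbar]

omit [NeZero N] in
theorem coe_beta_jbar :
    ((heckeBetaBar Qb N ℓ (jbar N) : modularFunctionFieldBar (N * ℓ)) : LaurentSeries Qb)
      = jd Qb ℓ := by
  rw [coe_heckeBetaBar, coe_jbar, jd_one, jd_eq]

omit [NeZero N] in
theorem jbar_ne_zero : jbar N ≠ 0 := by
  intro h
  have h1 : ((jbar N : modularFunctionFieldBar N) : LaurentSeries Qb).coeff (-1 : ℤ) = 1 := by
    rw [coe_jbar, jd_one]
    exact ModularCurve.coeff_jqModC_neg_one Qb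
  rw [h] at h1
  simp at h1

variable {ℓ}

/-- `Φ(j(q^ℓ), j(q)) = 0` in `F̄_{Nℓ}`. -/
theorem root_beta_alpha (D : HeckeData ℓ) :
    (PhiAt D.Φ (heckeAlphaBar Qb N ℓ (jbar N))).eval (heckeBetaBar Qb N ℓ (jbar N)) = 0 := by
  have h0 : (PhiAt D.Φ (jd Qb 1)).eval (jd Qb ℓ) = 0 := by
    have h := map_eval_PhiAt (coeffMap (Int.castRingHom Qb)) D.Φ (jd ℤ 1) (jd ℤ ℓ)
    rw [D.root, map_zero, coeffMap_jd, coeffMap_jd] at h
    exact h.symm
  have h1 := map_eval_PhiAt (algebraMap (modularFunctionFieldBar (N * ℓ)) (LaurentSeries Qb))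
    D.Φ (heckeAlphaBar Qb N ℓ (jbar N)) (heckeBetaBar Qb N ℓ (jbar N))
  have e1 : algebraMap (modularFunctionFieldBar (N * ℓ)) (LaurentSeries Qb)
      (heckeAlphaBar Qb N ℓ (jbar N)) = jd Qb 1 := coe_alpha_jbar N ℓ
  have e2 : algebraMap (modularFunctionFieldBar (N * ℓ)) (LaurentSeries Qb)
      (heckeBetaBar Qb N ℓ (jbar N)) = jd Qb ℓ := coe_beta_jbar N ℓ
  rw [e1, e2, h0] at h1
  exact (map_eq_zero_iff _ (algebraMap (modularFunctionFieldBar (N * ℓ))
    (LaurentSeries Qb)).injective).mp h1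

/-- `Φ(j(q), j(q^ℓ)) = 0` in `F̄_{Nℓ}`. -/
theorem root_alpha_beta (D : HeckeData ℓ) :
    (PhiAt D.Φ (heckeBetaBar Qb N ℓ (jbar N))).eval (heckeAlphaBar Qb N ℓ (jbar N)) = 0 := by
  have h0 : (PhiAt D.Φ (jd Qb ℓ)).eval (jd Qb 1) = 0 := by
    have h := map_eval_PhiAt (coeffMap (Int.castRingHom Qb)) D.Φ (jd ℤ ℓ) (jd ℤ 1)
    rw [D.root', map_zero, coeffMap_jd, coeffMap_jd] at h
    exact h.symm
  have h1 := map_eval_PhiAt (algebraMap (modularFunctionFieldBar (N * ℓ)) (LaurentSeries Qb))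
    D.Φ (heckeBetaBar Qb N ℓ (jbar N)) (heckeAlphaBar Qb N ℓ (jbar N))
  have e1 : algebraMap (modularFunctionFieldBar (N * ℓ)) (LaurentSeries Qb)
      (heckeAlphaBar Qb N ℓ (jbar N)) = jd Qb 1 := coe_alpha_jbar N ℓ
  have e2 : algebraMap (modularFunctionFieldBar (N * ℓ)) (LaurentSeries Qb)
      (heckeBetaBar Qb N ℓ (jbar N)) = jd Qb ℓ := coe_beta_jbar N ℓ
  rw [e1, e2, h0] at h1
  exact (map_eq_zero_iff _ (algebraMap (modularFunctionFieldBar (N * ℓ))
    (LaurentSeries Qb)).injective).mp h1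

variable (ℓ)

/-- Every element regular at a place of `F̄_{Nℓ}` has a value in `ℚ̄`. -/
theorem exists_value_level (w : Place Qb (modularFunctionFieldBar (N * ℓ))) :
    ∀ z ∈ w.toValuationSubring, ∃ b : Qb,
      z - algebraMap Qb (modularFunctionFieldBar (N * ℓ)) b ∈ w.toValuationSubring.nonunits := by
  haveI : NeZero (N * ℓ) := ⟨mul_ne_zero (NeZero.ne N) (NeZero.ne ℓ)⟩
  have hF : Fermat.Agent.S24.IsFF1 Qb (modularFunctionFieldBar (N * ℓ)) :=
    ⟨Fermat.Agent.S24.jF (N * ℓ), Fermat.Agent.S24.transcendental_jF (N * ℓ),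
      Fermat.Agent.S24.finiteDimensional_jF (N * ℓ)⟩
  exact NormVal.exists_value hF w

variable {ℓ}

/-- **Chart stability** (`j ≠ ∞`): from `w|β` to `w|α`. -/
theorem inChart0_alpha (hℓ : ℓ.Prime) (A : ValuationSubring Qb)
    (hα : HeckeAlphaBarIntegral Qb N ℓ) (hβ : HeckeBetaBarIntegral Qb N ℓ)
    (w : Place Qb (modularFunctionFieldBar (N * ℓ)))
    (h : InChart0 N A (w.restrictAlong (heckeBetaBar Qb N ℓ) hβ)) :
    InChart0 N A (w.restrictAlong (heckeAlphaBar Qb N ℓ) hα) := by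
  obtain ⟨D⟩ := exists_heckeData ℓ hℓ
  obtain ⟨c, hc⟩ := h
  have hc' := (valAt_restrictAlong (heckeBetaBar Qb N ℓ) hβ w _ _).mp hc
  obtain ⟨a, haA, ha⟩ := exists_value_mem w.toValuationSubring A w.algebraMap_mem'
    (exists_value_level N ℓ w) D.monic (root_alpha_beta N D) hc' c.2
  exact ⟨⟨a, haA⟩, (valAt_restrictAlong (heckeAlphaBar Qb N ℓ) hα w _ _).mpr ha⟩

/-- **Chart stability** (`j ≠ ∞`): from `w|α` to `w|β`. -/
theorem inChart0_beta (hℓ : ℓ.Prime) (A : ValuationSubring Qb)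
    (hα : HeckeAlphaBarIntegral Qb N ℓ) (hβ : HeckeBetaBarIntegral Qb N ℓ)
    (w : Place Qb (modularFunctionFieldBar (N * ℓ)))
    (h : InChart0 N A (w.restrictAlong (heckeAlphaBar Qb N ℓ) hα)) :
    InChart0 N A (w.restrictAlong (heckeBetaBar Qb N ℓ) hβ) := by
  obtain ⟨D⟩ := exists_heckeData ℓ hℓ
  obtain ⟨c, hc⟩ := h
  have hc' := (valAt_restrictAlong (heckeAlphaBar Qb N ℓ) hα w _ _).mp hc
  obtain ⟨a, haA, ha⟩ := exists_value_mem w.toValuationSubring A w.algebraMap_mem'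
    (exists_value_level N ℓ w) D.monic (root_beta_alpha N D) hc' c.2
  exact ⟨⟨a, haA⟩, (valAt_restrictAlong (heckeBetaBar Qb N ℓ) hβ w _ _).mpr ha⟩

/-- **Chart stability** (cusps): from `w|β` to `w|α`. -/
theorem inCusp_alpha (hℓ : ℓ.Prime) (A : ValuationSubring Qb)
    (hα : HeckeAlphaBarIntegral Qb N ℓ) (hβ : HeckeBetaBarIntegral Qb N ℓ)
    (w : Place Qb (modularFunctionFieldBar (N * ℓ)))
    (h : InCusp N A (w.restrictAlong (heckeBetaBar Qb N ℓ) hβ)) :
    InCusp N A (w.restrictAlong (heckeAlphaBar Qb N ℓ) hα) := by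
  obtain ⟨D⟩ := exists_heckeData ℓ hℓ
  obtain ⟨c, hcm, hc⟩ := h
  have hc' := (valAt_restrictAlong (heckeBetaBar Qb N ℓ) hβ w _ _).mp hc
  rw [map_inv₀] at hc'
  have hy0 : heckeBetaBar Qb N ℓ (jbar N) ≠ 0 :=
    (map_ne_zero (heckeBetaBar Qb N ℓ)).mpr (jbar_ne_zero N)
  obtain ⟨a, haA, ha⟩ := exists_inv_value_mem w.toValuationSubring A w.algebraMap_mem'
    (exists_value_level N ℓ w) D.monic hy0 (root_alpha_beta N D) (root_beta_alpha N D) hc'
    (ValuationSubring.coe_mem_nonunits_iff.mpr hcm)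
  have haA' : a ∈ A := ValuationSubring.nonunits_subset haA
  refine ⟨⟨a, haA'⟩, ValuationSubring.coe_mem_nonunits_iff.mp haA, ?_⟩
  refine (valAt_restrictAlong (heckeAlphaBar Qb N ℓ) hα w _ _).mpr ?_
  rw [map_inv₀]
  exact ha

/-- **Chart stability** (cusps): from `w|α` to `w|β`. -/
theorem inCusp_beta (hℓ : ℓ.Prime) (A : ValuationSubring Qb)
    (hα : HeckeAlphaBarIntegral Qb N ℓ) (hβ : HeckeBetaBarIntegral Qb N ℓ)
    (w : Place Qb (modularFunctionFieldBar (N * ℓ)))
    (h : InCusp N A (w.restrictAlong (heckeAlphaBar Qb N ℓ) hα)) :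
    InCusp N A (w.restrictAlong (heckeBetaBar Qb N ℓ) hβ) := by
  obtain ⟨D⟩ := exists_heckeData ℓ hℓ
  obtain ⟨c, hcm, hc⟩ := h
  have hc' := (valAt_restrictAlong (heckeAlphaBar Qb N ℓ) hα w _ _).mp hc
  rw [map_inv₀] at hc'
  have hy0 : heckeAlphaBar Qb N ℓ (jbar N) ≠ 0 :=
    (map_ne_zero (heckeAlphaBar Qb N ℓ)).mpr (jbar_ne_zero N)
  obtain ⟨a, haA, ha⟩ := exists_inv_value_mem w.toValuationSubring A w.algebraMap_mem'
    (exists_value_level N ℓ w) D.monic hy0 (root_beta_alpha N D) (root_alpha_beta N D) hc'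
    (ValuationSubring.coe_mem_nonunits_iff.mpr hcm)
  have haA' : a ∈ A := ValuationSubring.nonunits_subset haA
  refine ⟨⟨a, haA'⟩, ValuationSubring.coe_mem_nonunits_iff.mp haA, ?_⟩
  refine (valAt_restrictAlong (heckeBetaBar Qb N ℓ) hβ w _ _).mpr ?_
  rw [map_inv₀]
  exact ha

/-! ### The points of `T_ℓ u` -/

section Support

variable (hα : HeckeAlphaBarIntegral Qb N ℓ) (hβ : HeckeBetaBarIntegral Qb N ℓ)
variable [HasPrincipalDivisors Qb (laurentBaseChange Qb (modularFunctionFieldFull (N * ℓ)))]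

/-- Every point `u'` of `T_ℓ u = α_* β^* u` is `w|α` for a place `w` of `F̄_{Nℓ}` with
`w|β = u`. -/
theorem exists_place_of_heckeDivBar_ne_zero (u u' : Place Qb (modularFunctionFieldBar N))
    (h : heckeDivBar hα hβ (Finsupp.single u 1) u' ≠ 0) :
    ∃ w : Place Qb (modularFunctionFieldBar (N * ℓ)),
      w.restrictAlong (heckeBetaBar Qb N ℓ) hβ = u ∧
        w.restrictAlong (heckeAlphaBar Qb N ℓ) hα = u' := by
  classical
  have hα' : (heckeAlphaBar Qb N ℓ).toRingHom.IsIntegral := hα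
  have hβ' : (heckeBetaBar Qb N ℓ).toRingHom.IsIntegral := hβ
  by_contra hcon
  apply h
  have e : heckeDivBar hα hβ (Finsupp.single u 1) =
      Divisor.pushforwardAlong (heckeAlphaBar Qb N ℓ) hα'
        (Divisor.pullbackAlong (heckeBetaBar Qb N ℓ) hβ' (Finsupp.single u 1)) := rfl
  rw [e, Divisor.pullbackAlong_single, map_sum, Finsupp.finsetSum_apply]
  refine Finset.sum_eq_zero fun W hW => ?_
  rw [Divisor.pushforwardAlong_single, Finsupp.single_apply, if_neg]
  intro hW'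
  exact hcon ⟨W, Place.mem_fiberAlong.mp hW, hW'⟩

/-- **Chart stability of `T_ℓ`** (`j ≠ ∞`): all points of `T_ℓ u` are in the chart `j ≠ ∞`
over `A` if `u` is. -/
theorem inChart0_of_heckeDivBar_ne_zero (hℓ : ℓ.Prime) (A : ValuationSubring Qb)
    (u u' : Place Qb (modularFunctionFieldBar N)) (hu : InChart0 N A u)
    (h : heckeDivBar hα hβ (Finsupp.single u 1) u' ≠ 0) : InChart0 N A u' := by
  obtain ⟨w, rfl, rfl⟩ := exists_place_of_heckeDivBar_ne_zero N hα hβ u u' h
  exact inChart0_alpha N hℓ A hα hβ w hu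

/-- **Chart stability of `T_ℓ`** (cusps): all points of `T_ℓ u` reduce to cusps if `u` does. -/
theorem inCusp_of_heckeDivBar_ne_zero (hℓ : ℓ.Prime) (A : ValuationSubring Qb)
    (u u' : Place Qb (modularFunctionFieldBar N)) (hu : InCusp N A u)
    (h : heckeDivBar hα hβ (Finsupp.single u 1) u' ≠ 0) : InCusp N A u' := by
  obtain ⟨w, rfl, rfl⟩ := exists_place_of_heckeDivBar_ne_zero N hα hβ u u' h
  exact inCusp_alpha N hℓ A hα hβ w hu

end Support

end Modular

end Fermat.Agent.S37.ChartStab
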