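/-
S37, block [R0] — ConsExtra.lean (helper15): two more lemmas of the abstract conservation core
(requested by the [R0] glue, board #1655):

* (X1) `Setting.isUnit_retraction_iff`: for a retraction `ε`, `ε x` is a unit of `A` iff `ρ x`
  is a unit of `D`;
* (X2) `Setting.exists_const_mul`: every nonzero `x : S` is `const c * x'` with `c ≠ 0` a
  constant and `ρ x' ≠ 0` (`π`-adic stripping at a level).
-/
import Mathlib
import Fermat.Agent.S37.ConsCore

set_option autoImplicit false

namespace Fermat.Agent.S37.Cons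

variable {L : Type*} [Field L] {A : ValuationSubring L}
variable {F : Type*} [Field F] [Algebra L F]
variable {S : Subring F}
variable {D : Type*} [CommRing D] [IsDomain D] [IsDiscreteValuationRing D]
variable {ρ : S →+* D} {T : S}

/-- **(X1)** For a retraction `ε`: `ε x` is a unit of `A` iff `ρ x` is a unit of `D`. -/
theorem Setting.isUnit_retraction_iff (h : Setting A S ρ T) {ε : S →+* A}
    (hε : h.IsRetraction ε) (x : S) : IsUnit (ε x) ↔ IsUnit (ρ x) := by
  constructor
  · intro hu
    by_contra hx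
    have h1 : IsUnit (ρ (x - h.const (ε x))) := by
      rw [map_sub]
      by_contra hcon
      have h2 : ρ x - ρ (h.const (ε x)) ∈ IsLocalRing.maximalIdeal D :=
        (IsLocalRing.mem_maximalIdeal _).mpr hcon
      have h3 : ρ x ∈ IsLocalRing.maximalIdeal D := (IsLocalRing.mem_maximalIdeal _).mpr hx
      have h4 : ρ (h.const (ε x)) ∈ IsLocalRing.maximalIdeal D := by
        have h5 : ρ (h.const (ε x)) = ρ x - (ρ x - ρ (h.const (ε x))) := by ring
        rw [h5]
        exact Ideal.sub_mem _ h3 h2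
      exact (IsLocalRing.mem_maximalIdeal _).mp h4 (h.isUnit_rho_const hu)
    have h6 := (h.isUnit_of_isUnit_rho h1).map ε
    rw [map_sub, hε, sub_self] at h6
    exact not_isUnit_zero h6
  · intro hu
    exact (h.isUnit_of_isUnit_rho hu).map ε

/-- **(X2)** `π`-adic stripping: every nonzero `x : S` is `const c * x'` with `c ≠ 0` and
`ρ x' ≠ 0`. -/
theorem Setting.exists_const_mul (h : Setting A S ρ T) {x : S} (hx : x ≠ 0) :
    ∃ (c : A) (x' : S), c ≠ 0 ∧ x = h.const c * x' ∧ ρ x' ≠ 0 := by
  obtain ⟨S', π, hl, hs⟩ := h.hdir {(x : F)} (by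
    intro w hw
    rw [Finset.coe_singleton, Set.mem_singleton_iff] at hw
    rw [hw]
    exact x.2)
  have hxS : (x : F) ∈ S' := hs (by simp)
  have hloc : IsLocalRing S' := hl.isLocalRing
  have hnoeth : IsNoetherianRing S' := hl.noeth
  have hp : hl.incl ⟨algebraMap L F (π : L), hl.pi_mem⟩ = h.const π := Subtype.ext rfl
  have hpu : ¬ IsUnit (⟨algebraMap L F (π : L), hl.pi_mem⟩ : S') := by
    rw [hl.isUnit_iff, hp, hl.rho_pi (h.const π) rfl]
    exact not_isUnit_zero
  have hx0 : (⟨(x : F), hxS⟩ : S') ≠ 0 := by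
    intro h0
    exact hx (Subtype.ext (congrArg (fun w : S' => (w : F)) h0))
  obtain ⟨n, y, hy, hyn⟩ := exists_eq_pow_mul_of_noeth _ hpu hx0
  refine ⟨π ^ n, hl.incl y, pow_ne_zero n hl.pi_ne, ?_, ?_⟩
  · have h1 := congrArg hl.incl hy
    rw [map_mul, map_pow, hp] at h1
    rw [map_pow, ← h1]
    exact Subtype.ext rfl
  · intro h0
    apply hyn
    obtain ⟨z, hzS, hz⟩ := hl.ker (hl.incl y) y.2 h0
    rw [Ideal.mem_span_singleton']
    exact ⟨⟨z, hzS⟩, Subtype.ext (by rw [mul_comm]; exact hz.symm)⟩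

end Fermat.Agent.S37.Cons
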