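/-
S37 — [R0] conservation core, level-wise kernel lemma (helper48).  Mathlib-only.

`R` a noetherian ring with a surjection `ρ : R → D` onto a discrete valuation ring, kernel `π R`,
such that every element with unit reduction is a unit (so `R` is local with maximal ideal
`(π, τ)` for any `τ` whose reduction is a uniformizer of `D`).  Let `ε : R → B` be a ring
homomorphism into a domain with `ε τ = 0`, `ε π ≠ 0`, `ε π` not a unit.  Then `ker ε = τ R`.

(Model: `R` = a level of the local ring of the chart at a closed point of the special fibre,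
`ε` = evaluation at a point of the generic fibre, `τ = T - ε T`.)

Proof.  For `x ∈ ker ε` write `ρ x = u ϖ^k` (`ϖ = ρ τ`), lift `u` to a unit `y`; then
`x = y τ^k + π x₁`, and `k ≥ 1` (else `ε y = -ε π · ε x₁` would make `ε π` a unit), so
`ε x₁ = 0` and `x ∈ τ R + π ker ε`.  Iterating, `x ∈ ⋂ₙ (τ R + πⁿ R) = τ R` by Krull's
intersection theorem (`π` lies in the Jacobson radical).
-/
import Mathlib

set_option autoImplicit false

namespace Fermat.Agent.S37.ConsKer

variable {R D B : Type*} [CommRing R] [IsNoetherianRing R] [CommRing D] [IsDomain D]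
  [IsDiscreteValuationRing D] [CommRing B] [IsDomain B]

omit [IsNoetherianRing R] in
/-- One step: `x ∈ ker ε` is `π x₁` modulo `τ`, with `x₁ ∈ ker ε`. -/
theorem exists_sub_mul_mem (ρ : R →+* D) (hρ : Function.Surjective ρ) (π τ : R)
    (hker : RingHom.ker ρ = Ideal.span {π}) (hunit : ∀ x : R, IsUnit (ρ x) → IsUnit x)
    (hτ : Irreducible (ρ τ)) (ε : R →+* B) (hετ : ε τ = 0) (hεπ : ¬ IsUnit (ε π))
    (hεπ0 : ε π ≠ 0) (x : R) (hx : ε x = 0) :
    ∃ x₁ : R, ε x₁ = 0 ∧ x - π * x₁ ∈ Ideal.span {τ} := by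
  have hmemker : ∀ z : R, ρ z = 0 → ∃ z₁ : R, z = π * z₁ := by
    intro z hz
    have h1 : z ∈ RingHom.ker ρ := hz
    rw [hker, Ideal.mem_span_singleton] at h1
    exact h1
  by_cases hρx : ρ x = 0
  · obtain ⟨x₁, rfl⟩ := hmemker x hρx
    refine ⟨x₁, ?_, by rw [sub_self]; exact Ideal.zero_mem _⟩
    rw [map_mul] at hx
    exact (mul_eq_zero.mp hx).resolve_left hεπ0
  · obtain ⟨k, u, hu⟩ := IsDiscreteValuationRing.eq_unit_mul_pow_irreducible hρx hτ
    obtain ⟨y, hy⟩ := hρ (u : D)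
    have hyu : IsUnit y := hunit y (by rw [hy]; exact u.isUnit)
    have h1 : ρ (x - y * τ ^ k) = 0 := by
      rw [map_sub, map_mul, map_pow, hy, hu, sub_self]
    obtain ⟨x₁, hx₁⟩ := hmemker _ h1
    have hxeq : x = y * τ ^ k + π * x₁ := by rw [← hx₁]; ring
    have hk : k ≠ 0 := by
      rintro rfl
      rw [pow_zero, mul_one] at hxeq
      rw [hxeq, map_add, map_mul] at hx
      have h2 : ε π * (-ε x₁) = ε y := by linear_combination -hx
      exact hεπ (isUnit_of_mul_isUnit_left (h2 ▸ hyu.map ε))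
    refine ⟨x₁, ?_, ?_⟩
    · rw [hxeq, map_add, map_mul, map_pow, hετ, zero_pow hk, mul_zero, zero_add, map_mul] at hx
      exact (mul_eq_zero.mp hx).resolve_left hεπ0
    · rw [hxeq, add_sub_cancel_right, Ideal.mem_span_singleton]
      exact Dvd.dvd.mul_left (dvd_pow_self τ hk) y

/-- **The kernel of an evaluation is generated by `τ`.** -/
theorem ker_eq_span (ρ : R →+* D) (hρ : Function.Surjective ρ) (π τ : R)
    (hker : RingHom.ker ρ = Ideal.span {π}) (hunit : ∀ x : R, IsUnit (ρ x) → IsUnit x)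
    (hτ : Irreducible (ρ τ)) (ε : R →+* B) (hετ : ε τ = 0) (hεπ : ¬ IsUnit (ε π))
    (hεπ0 : ε π ≠ 0) : RingHom.ker ε = Ideal.span {τ} := by
  apply le_antisymm
  · intro x hx
    -- `x ∈ τ R + πⁿ R` for all `n`
    have hstep : ∀ n : ℕ, ∃ xn : R, ε xn = 0 ∧ x - π ^ n * xn ∈ Ideal.span {τ} := by
      intro n
      induction n with
      | zero => exact ⟨x, hx, by rw [pow_zero, one_mul, sub_self]; exact Ideal.zero_mem _⟩
      | succ n ih =>
        obtain ⟨xn, hxn, hmem⟩ := ih
        obtain ⟨x₁, hx₁, hmem₁⟩ :=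
          exists_sub_mul_mem ρ hρ π τ hker hunit hτ ε hετ hεπ hεπ0 xn hxn
        refine ⟨x₁, hx₁, ?_⟩
        have h2 : x - π ^ (n + 1) * x₁ = (x - π ^ n * xn) + π ^ n * (xn - π * x₁) := by ring
        rw [h2]
        exact Ideal.add_mem _ hmem (Ideal.mul_mem_left _ _ hmem₁)
    -- `π` lies in the Jacobson radical
    have hjac : Ideal.span {π} ≤ Ideal.jacobson (⊥ : Ideal R) := by
      rw [← hker]
      intro z hz
      rw [Ideal.mem_jacobson_bot]
      intro y
      apply hunit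
      have hz' : ρ z = 0 := hz
      rw [map_add, map_mul, hz', zero_mul, zero_add, map_one]
      exact isUnit_one
    have hkrull := Ideal.iInf_pow_smul_eq_bot_of_le_jacobson (M := R ⧸ Ideal.span {τ})
      (Ideal.span {π}) hjac
    have hmk : (Ideal.Quotient.mk (Ideal.span {τ}) x) ∈
        (⨅ i : ℕ, Ideal.span {π} ^ i • (⊤ : Submodule R (R ⧸ Ideal.span {τ}))) := by
      rw [Submodule.mem_iInf]
      intro n
      obtain ⟨xn, -, hmem⟩ := hstep n
      have h3 : Ideal.Quotient.mk (Ideal.span {τ}) x =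
          π ^ n • Ideal.Quotient.mk (Ideal.span {τ}) xn := by
        rw [Algebra.smul_def, Ideal.Quotient.algebraMap_eq, ← map_mul]
        exact Ideal.Quotient.eq.mpr hmem
      rw [h3]
      exact Submodule.smul_mem_smul (Ideal.pow_mem_pow (Ideal.mem_span_singleton_self π) n)
        Submodule.mem_top
    rw [hkrull, Submodule.mem_bot] at hmk
    exact Ideal.Quotient.eq_zero_iff_mem.mp hmk
  · rw [Ideal.span_singleton_le_iff_mem]
    exact hετ

/-- Normal form at an evaluation: `x = τ ^ n * x'` with `ε x' ≠ 0`. -/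
theorem exists_eq_pow_mul [IsDomain R] (ρ : R →+* D) (hρ : Function.Surjective ρ) (π τ : R)
    (hker : RingHom.ker ρ = Ideal.span {π}) (hunit : ∀ x : R, IsUnit (ρ x) → IsUnit x)
    (hτ : Irreducible (ρ τ)) (ε : R →+* B) (hετ : ε τ = 0) (hεπ : ¬ IsUnit (ε π))
    (hεπ0 : ε π ≠ 0) (x : R) (hx : x ≠ 0) :
    ∃ (n : ℕ) (x' : R), x = τ ^ n * x' ∧ ε x' ≠ 0 := by
  have hτu : ¬ IsUnit τ := fun h => hτ.not_isUnit (h.map ρ)
  obtain ⟨n, x', hndvd, hxeq⟩ := WfDvdMonoid.max_power_factor' hx hτu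
  refine ⟨n, x', hxeq, fun h0 => hndvd ?_⟩
  have h1 : x' ∈ RingHom.ker ε := h0
  rw [ker_eq_span ρ hρ π τ hker hunit hτ ε hετ hεπ hεπ0, Ideal.mem_span_singleton] at h1
  exact h1

end Fermat.Agent.S37.ConsKer
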