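/-
S37, block [R0] — ConsLoc.lean (helper19): the abstract half of the MODEL-FACING INSTANTIATION of
the conservation core `ConsDefs.lean` / `ConsCore.lean` (helper15).

Given a subring `R ≤ F` ("the chart over `A`"), a ring hom `𝔯 : R →+* D` into a discrete valuation
ring ("Gauss reduction, followed by the inclusion into the local ring `O_Q` of a point `Q` of the
special fibre"), we form inside `F` the localisation

    `locSubring R 𝔯 = {a / s | a, s ∈ R, 𝔯 s a unit}`

with its reduction `locRho R 𝔯 : locSubring R 𝔯 →+* D`, and show that chart-level data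
(`ChartData`: levels `R' ≤ R` which are noetherian, on which `𝔯` is "locally onto" `D` with kernel
`π R'`, ...) give the `Cons.Setting` of the conservation core.  No localisation types appear on
the consumer side.
-/
import Mathlib
import Fermat.Prelude.Def_AlgebraicCurve_DivisorClassGroup
import Fermat.Agent.S37.ConsDefs

set_option autoImplicit false
set_option linter.unusedSectionVars false

namespace Fermat.Agent.S37.ConsLoc

open Fermat.Agent.S37.Cons

variable {L : Type*} [Field L] (A : ValuationSubring L)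
variable {F : Type*} [Field F] [Algebra L F]
variable {D : Type*} [CommRing D]
variable (R : Subring F) (𝔯 : R →+* D)

/-! ### The localisation as a subring of `F` -/

/-- The localisation of `R` at the elements with unit reduction, as a subring of `F`. -/
def locSubring : Subring F where
  carrier := {x | ∃ a s : R, IsUnit (𝔯 s) ∧ x * (s : F) = a}
  mul_mem' := by
    rintro x y ⟨a, s, hs, hx⟩ ⟨b, t, ht, hy⟩
    refine ⟨a * b, s * t, by rw [map_mul]; exact hs.mul ht, ?_⟩
    rw [Subring.coe_mul, Subring.coe_mul, ← hx, ← hy]; ring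
  one_mem' := ⟨1, 1, by rw [map_one]; exact isUnit_one, by rw [Subring.coe_one, mul_one]⟩
  add_mem' := by
    rintro x y ⟨a, s, hs, hx⟩ ⟨b, t, ht, hy⟩
    refine ⟨a * t + b * s, s * t, by rw [map_mul]; exact hs.mul ht, ?_⟩
    rw [Subring.coe_add, Subring.coe_mul, Subring.coe_mul, Subring.coe_mul, ← hx, ← hy]; ring
  zero_mem' := ⟨0, 1, by rw [map_one]; exact isUnit_one, by rw [Subring.coe_zero, zero_mul]⟩
  neg_mem' := by
    rintro x ⟨a, s, hs, hx⟩
    refine ⟨-a, s, hs, ?_⟩
    rw [Subring.coe_neg, ← hx]; ring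

variable {R 𝔯}

theorem mem_locSubring {x : F} :
    x ∈ locSubring R 𝔯 ↔ ∃ a s : R, IsUnit (𝔯 s) ∧ x * (s : F) = a := Iff.rfl

variable (R 𝔯) in
theorem le_locSubring : R ≤ locSubring R 𝔯 := fun x hx =>
  ⟨⟨x, hx⟩, 1, by rw [map_one]; exact isUnit_one, by rw [Subring.coe_one, mul_one]⟩

/-- The numerator chosen for an element of the localisation. -/
noncomputable def num (x : locSubring R 𝔯) : R := x.2.choose

/-- The denominator chosen for an element of the localisation. -/
noncomputable def den (x : locSubring R 𝔯) : R := x.2.choose_spec.choose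

theorem isUnit_den (x : locSubring R 𝔯) : IsUnit (𝔯 (den x)) := x.2.choose_spec.choose_spec.1

theorem mul_den (x : locSubring R 𝔯) : (x : F) * (den x : F) = num x :=
  x.2.choose_spec.choose_spec.2

/-- The underlying function of the reduction of the localisation. -/
noncomputable def rhoFun (x : locSubring R 𝔯) : D :=
  𝔯 (num x) * ((isUnit_den x).unit⁻¹ : Dˣ)

/-- Characterisation of `rhoFun`. -/
theorem rhoFun_mul (x : locSubring R 𝔯) {a s : R} (h : (x : F) * (s : F) = a) :
    rhoFun x * 𝔯 s = 𝔯 a := by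
  have h1 : num x * s = a * den x := by
    apply Subtype.ext
    rw [Subring.coe_mul, Subring.coe_mul, ← mul_den x, ← h]; ring
  have h2 : 𝔯 (num x) * 𝔯 s = 𝔯 a * 𝔯 (den x) := by rw [← map_mul, h1, map_mul]
  have h3 : 𝔯 (den x) * (((isUnit_den x).unit⁻¹ : Dˣ) : D) = 1 := by
    have := (isUnit_den x).unit.mul_inv
    rwa [IsUnit.unit_spec] at this
  calc rhoFun x * 𝔯 s = 𝔯 (num x) * 𝔯 s * ((isUnit_den x).unit⁻¹ : Dˣ) := by
        rw [rhoFun]; ring
    _ = 𝔯 a * (𝔯 (den x) * ((isUnit_den x).unit⁻¹ : Dˣ)) := by rw [h2]; ring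
    _ = 𝔯 a := by rw [h3, mul_one]

theorem rhoFun_eq_of_mul (x : locSubring R 𝔯) {a s : R} (hs : IsUnit (𝔯 s))
    (h : (x : F) * (s : F) = a) {d : D} (hd : d * 𝔯 s = 𝔯 a) : rhoFun x = d :=
  hs.mul_left_injective ((rhoFun_mul x h).trans hd.symm)

variable (R 𝔯) in
/-- The reduction of the localisation: `a / s ↦ 𝔯 a / 𝔯 s`. -/
noncomputable def locRho : locSubring R 𝔯 →+* D where
  toFun := rhoFun
  map_one' := by
    refine rhoFun_eq_of_mul (R := R) (𝔯 := 𝔯) 1 (a := 1) (s := 1)
      (by rw [map_one]; exact isUnit_one) (by simp) (by simp)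
  map_mul' x y := by
    refine rhoFun_eq_of_mul (x * y) (a := num x * num y) (s := den x * den y)
      (by rw [map_mul]; exact (isUnit_den x).mul (isUnit_den y)) ?_ ?_
    · rw [Subring.coe_mul, Subring.coe_mul, Subring.coe_mul, ← mul_den x, ← mul_den y]; ring
    · rw [map_mul, map_mul, ← rhoFun_mul x (mul_den x), ← rhoFun_mul y (mul_den y)]; ring
  map_zero' := by
    refine rhoFun_eq_of_mul (R := R) (𝔯 := 𝔯) 0 (a := 0) (s := 1)
      (by rw [map_one]; exact isUnit_one) (by simp) (by simp)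
  map_add' x y := by
    refine rhoFun_eq_of_mul (x + y) (a := num x * den y + num y * den x) (s := den x * den y)
      (by rw [map_mul]; exact (isUnit_den x).mul (isUnit_den y)) ?_ ?_
    · rw [Subring.coe_add, Subring.coe_add, Subring.coe_mul, Subring.coe_mul, Subring.coe_mul,
        ← mul_den x, ← mul_den y]; ring
    · rw [map_add, map_mul, map_mul, map_mul, ← rhoFun_mul x (mul_den x),
        ← rhoFun_mul y (mul_den y)]; ring

/-- **Characterisation of `locRho`**: `locRho (a / s) * 𝔯 s = 𝔯 a`. -/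
theorem locRho_mul (x : locSubring R 𝔯) {a s : R} (h : (x : F) * (s : F) = a) :
    locRho R 𝔯 x * 𝔯 s = 𝔯 a := rhoFun_mul x h

theorem locRho_eq_of_mul (x : locSubring R 𝔯) {a s : R} (hs : IsUnit (𝔯 s))
    (h : (x : F) * (s : F) = a) {d : D} (hd : d * 𝔯 s = 𝔯 a) : locRho R 𝔯 x = d :=
  rhoFun_eq_of_mul x hs h hd

/-- On `R` the reduction of the localisation is `𝔯`. -/
theorem locRho_of_mem (x : locSubring R 𝔯) (a : R) (h : (x : F) = a) : locRho R 𝔯 x = 𝔯 a :=
  locRho_eq_of_mul x (a := a) (s := 1) (d := 𝔯 a) (by rw [map_one]; exact isUnit_one)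
    (by rw [Subring.coe_one, mul_one, h]) (by rw [map_one, mul_one])

theorem isUnit_locRho_iff (x : locSubring R 𝔯) {a s : R} (hs : IsUnit (𝔯 s))
    (h : (x : F) * (s : F) = a) : IsUnit (locRho R 𝔯 x) ↔ IsUnit (𝔯 a) := by
  rw [← locRho_mul x h]
  exact ⟨fun hx => hx.mul hs, fun hx => (IsUnit.mul_iff.mp hx).1⟩

/-! ### Levels -/

/-- The localisation of a sub-chart `R' ≤ R` at its elements with unit reduction. -/
def levelSubring (R' : Subring F) : Subring F where
  carrier := {x | ∃ a s : R, (a : F) ∈ R' ∧ (s : F) ∈ R' ∧ IsUnit (𝔯 s) ∧ x * (s : F) = a}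
  mul_mem' := by
    rintro x y ⟨a, s, ha, hs', hs, hx⟩ ⟨b, t, hb, ht', ht, hy⟩
    refine ⟨a * b, s * t, R'.mul_mem ha hb, R'.mul_mem hs' ht',
      by rw [map_mul]; exact hs.mul ht, ?_⟩
    rw [Subring.coe_mul, Subring.coe_mul, ← hx, ← hy]; ring
  one_mem' := ⟨1, 1, R'.one_mem, R'.one_mem, by rw [map_one]; exact isUnit_one,
    by rw [Subring.coe_one, mul_one]⟩
  add_mem' := by
    rintro x y ⟨a, s, ha, hs', hs, hx⟩ ⟨b, t, hb, ht', ht, hy⟩
    refine ⟨a * t + b * s, s * t, R'.add_mem (R'.mul_mem ha ht') (R'.mul_mem hb hs'),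
      R'.mul_mem hs' ht', by rw [map_mul]; exact hs.mul ht, ?_⟩
    rw [Subring.coe_add, Subring.coe_mul, Subring.coe_mul, Subring.coe_mul, ← hx, ← hy]; ring
  zero_mem' := ⟨0, 1, R'.zero_mem, R'.one_mem, by rw [map_one]; exact isUnit_one,
    by rw [Subring.coe_zero, zero_mul]⟩
  neg_mem' := by
    rintro x ⟨a, s, ha, hs', hs, hx⟩
    refine ⟨-a, s, R'.neg_mem ha, hs', hs, ?_⟩
    rw [Subring.coe_neg, ← hx]; ring

theorem mem_levelSubring {R' : Subring F} {x : F} :
    x ∈ levelSubring (𝔯 := 𝔯) R' ↔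
      ∃ a s : R, (a : F) ∈ R' ∧ (s : F) ∈ R' ∧ IsUnit (𝔯 s) ∧ x * (s : F) = a := Iff.rfl

theorem levelSubring_le (R' : Subring F) : levelSubring (𝔯 := 𝔯) R' ≤ locSubring R 𝔯 := by
  rintro x ⟨a, s, -, -, hs, hx⟩
  exact ⟨a, s, hs, hx⟩

theorem le_levelSubring {R' : Subring F} (h : R' ≤ R) : R' ≤ levelSubring (𝔯 := 𝔯) R' :=
  fun x hx => ⟨⟨x, h hx⟩, 1, hx, R'.one_mem, by rw [map_one]; exact isUnit_one,
    by rw [Subring.coe_one, mul_one]⟩

variable (R 𝔯) in
/-- A *chart level*: the `R`-level version of `Cons.IsLevel`.  Model: `R` the chart over `A`,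
`R'` the chart over `O_K = A ∩ K`, `π` a uniformizer of `O_K`. -/
structure ChartLevel (T : R) (R' : Subring F) (π : A) : Prop where
  le : R' ≤ R
  noeth : IsNoetherianRing R'
  pi_ne : π ≠ 0
  pi_nonunit : ¬ IsUnit π
  pi_mem : algebraMap L F (π : L) ∈ R'
  T_mem : (T : F) ∈ R'
  rho_pi : ∀ x : R, (x : F) = algebraMap L F (π : L) → 𝔯 x = 0
  /-- `𝔯` is onto `D` after localisation -/
  surj : ∀ d : D, ∃ a s : R, (a : F) ∈ R' ∧ (s : F) ∈ R' ∧ IsUnit (𝔯 s) ∧ d * 𝔯 s = 𝔯 a
  /-- the kernel of `𝔯` on `R'` is `π R'` -/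
  ker : ∀ x : R, (x : F) ∈ R' → 𝔯 x = 0 → ∃ y ∈ R', (x : F) = algebraMap L F (π : L) * y
  /-- nonzero constants in the fraction field of `R'` are `unit * π ^ m` -/
  const : ∀ c : A, c ≠ 0 →
    (∃ a s : R, (a : F) ∈ R' ∧ (s : F) ∈ R' ∧ (s : F) ≠ 0 ∧
      algebraMap L F (c : L) * (s : F) = a) →
    ∃ (m : ℕ) (u : A), IsUnit u ∧ algebraMap L F (u : L) ∈ R' ∧ c = u * π ^ m

variable (R 𝔯) in
/-- **Chart data at a point of the special fibre**: what the model has to provide. -/
structure ChartData (T : R) : Prop where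
  /-- `R` contains the constants of `A` -/
  hA : ∀ c : A, algebraMap L F (c : L) ∈ R
  /-- `𝔯 T` is a uniformizer of `D` -/
  hT : Irreducible (𝔯 T)
  /-- every finite subset of `R` lies in a chart level -/
  hdir : ∀ s : Finset F, (↑s : Set F) ⊆ R →
    ∃ (R' : Subring F) (π : A), ChartLevel A R 𝔯 T R' π ∧ (↑s : Set F) ⊆ R'
  /-- transcendence degree one, in the form: modulo any nonzero `a`, every `x` is algebraic
  over `A` -/
  halg : ∀ a x : F, a ≠ 0 → ∃ g : Polynomial A, g ≠ 0 ∧
    ∃ b ∈ Subring.closure (Set.range ((algebraMap L F).comp A.subtype) ∪ {a, x}),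
      g.eval₂ ((algebraMap L F).comp A.subtype) x = a * b

variable [Nontrivial D]

theorem coe_ne_zero_of_isUnit {s : R} (hs : IsUnit (𝔯 s)) : (s : F) ≠ 0 := by
  intro h0
  have : s = 0 := Subtype.ext h0
  rw [this, map_zero] at hs
  exact not_isUnit_zero hs

/-- Elements of the localisation with unit reduction are invertible in it. -/
theorem inv_mem_locSubring (x : locSubring R 𝔯) (hx : IsUnit (locRho R 𝔯 x)) :
    (x : F)⁻¹ ∈ locSubring R 𝔯 := by
  obtain ⟨a, s, hs, h⟩ := x.2
  have ha : IsUnit (𝔯 a) := (isUnit_locRho_iff x hs h).mp hx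
  have ha0 : (a : F) ≠ 0 := coe_ne_zero_of_isUnit ha
  have hx0 : (x : F) ≠ 0 := by
    intro h0
    rw [h0, zero_mul] at h
    exact ha0 h.symm
  refine ⟨s, a, ha, ?_⟩
  rw [← h]
  field_simp

/-- The localisation of a noetherian sub-chart is noetherian. -/
theorem isNoetherianRing_levelSubring {R' : Subring F} (h : R' ≤ R) [IsNoetherianRing R'] :
    IsNoetherianRing (levelSubring (𝔯 := 𝔯) R') := by
  rw [isNoetherianRing_iff_ideal_fg]
  intro I
  let ι : R' →+* levelSubring (𝔯 := 𝔯) R' := Subring.inclusion (le_levelSubring h)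
  have hJ : (I.comap ι).FG := (isNoetherianRing_iff_ideal_fg R').mp inferInstance _
  have hI : I = (I.comap ι).map ι := by
    refine le_antisymm ?_ Ideal.map_comap_le
    rintro ⟨x, a, s, ha, hs', hs, hx⟩ hxI
    have hs0 : (s : F) ≠ 0 := coe_ne_zero_of_isUnit hs
    -- `y = s⁻¹`
    have hy : (s : F)⁻¹ ∈ levelSubring (𝔯 := 𝔯) R' :=
      ⟨1, s, R'.one_mem, hs', hs, by rw [Subring.coe_one, inv_mul_cancel₀ hs0]⟩
    have e : (⟨x, a, s, ha, hs', hs, hx⟩ : levelSubring (𝔯 := 𝔯) R')
        = ι ⟨(a : F), ha⟩ * ⟨(s : F)⁻¹, hy⟩ := by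
      apply Subtype.ext
      show x = (a : F) * (s : F)⁻¹
      rw [← hx]; field_simp
    have haJ : (⟨(a : F), ha⟩ : R') ∈ I.comap ι := by
      rw [Ideal.mem_comap]
      have e2 : ι ⟨(a : F), ha⟩ = ⟨x, a, s, ha, hs', hs, hx⟩ * ι ⟨(s : F), hs'⟩ := by
        apply Subtype.ext
        show (a : F) = x * (s : F)
        rw [hx]
      rw [e2]
      exact I.mul_mem_right _ hxI
    rw [e]
    exact Ideal.mul_mem_right _ _ (Ideal.mem_map_of_mem ι haJ)
  rw [hI]
  exact hJ.map ι

variable {A}

/-- A chart level gives a level of the localisation. -/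
theorem isLevel_of_chartLevel {T : R} {R' : Subring F} {π : A}
    (h : ChartLevel A R 𝔯 T R' π) :
    IsLevel A (locSubring R 𝔯) (locRho R 𝔯) ⟨T, le_locSubring R 𝔯 T.2⟩
      (levelSubring (𝔯 := 𝔯) R') π where
  le := levelSubring_le R'
  noeth := by
    have := h.noeth
    exact isNoetherianRing_levelSubring h.le
  pi_ne := h.pi_ne
  pi_nonunit := h.pi_nonunit
  pi_mem := le_levelSubring h.le h.pi_mem
  T_mem := le_levelSubring h.le h.T_mem
  rho_pi := by
    intro x hx
    have hπR : algebraMap L F (π : L) ∈ R := h.le h.pi_mem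
    rw [locRho_of_mem x ⟨_, hπR⟩ hx]
    exact h.rho_pi _ rfl
  surj := by
    intro d
    obtain ⟨a, s, ha, hs', hs, hd⟩ := h.surj d
    have hs0 : (s : F) ≠ 0 := coe_ne_zero_of_isUnit hs
    have hmem : (a : F) * (s : F)⁻¹ * (s : F) = a := by field_simp
    refine ⟨⟨(a : F) * (s : F)⁻¹, a, s, hs, hmem⟩, ⟨a, s, ha, hs', hs, hmem⟩, ?_⟩
    exact locRho_eq_of_mul _ hs hmem hd
  ker := by
    rintro x ⟨a, s, ha, hs', hs, hx⟩ hρ
    have hs0 : (s : F) ≠ 0 := coe_ne_zero_of_isUnit hs
    have h0 : 𝔯 a = 0 := by rw [← locRho_mul x hx, hρ, zero_mul]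
    obtain ⟨y, hy, hay⟩ := h.ker a ha h0
    refine ⟨y * (s : F)⁻¹, ⟨⟨y, h.le hy⟩, s, hy, hs', hs, by field_simp⟩, ?_⟩
    have : (x : F) = (a : F) * (s : F)⁻¹ := by rw [← hx]; field_simp
    rw [this, hay]; ring
  unit := by
    rintro x ⟨a, s, ha, hs', hs, hx⟩ hu
    have hau : IsUnit (𝔯 a) := (isUnit_locRho_iff x hs hx).mp hu
    have ha0 : (a : F) ≠ 0 := coe_ne_zero_of_isUnit hau
    have hx0 : (x : F) ≠ 0 := by
      intro h0
      rw [h0, zero_mul] at hx
      exact ha0 hx.symm
    refine ⟨s, a, hs', ha, hau, ?_⟩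
    rw [← hx]
    field_simp
  const := by
    rintro c hc ⟨a, s, ha, hs', hs, hx⟩
    obtain ⟨m, u, hu, huR, hcu⟩ := h.const c hc ⟨a, s, ha, hs', coe_ne_zero_of_isUnit hs, hx⟩
    exact ⟨m, u, hu, le_levelSubring h.le huR, hcu⟩

/-- **Chart data give the setting of the conservation core.** -/
theorem setting_of_chartData {T : R} (h : ChartData A R 𝔯 T) :
    Setting A (locSubring R 𝔯) (locRho R 𝔯) ⟨T, le_locSubring R 𝔯 T.2⟩ where
  hA := fun c => le_locSubring R 𝔯 (h.hA c)
  hT := by
    have e : locRho R 𝔯 ⟨(T : F), le_locSubring R 𝔯 T.2⟩ = 𝔯 T := locRho_of_mem _ T rfl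
    rw [e]
    exact h.hT
  hdir := by
    classical
    intro s hs
    -- choose numerators and denominators
    have hch : ∀ x : F, x ∈ s → ∃ a t : R, IsUnit (𝔯 t) ∧ x * (t : F) = a := fun x hx => hs hx
    choose! a t ht hat using hch
    obtain ⟨R', π, hlev, hsub⟩ := h.hdir (s.image (fun x => (a x : F)) ∪ s.image (fun x => (t x : F)))
      (by
        intro y hy
        rw [Finset.coe_union, Finset.coe_image, Finset.coe_image] at hy
        rcases hy with ⟨x, -, rfl⟩ | ⟨x, -, rfl⟩
        · exact (a x).2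
        · exact (t x).2)
    refine ⟨levelSubring (𝔯 := 𝔯) R', π, isLevel_of_chartLevel hlev, ?_⟩
    intro x hx
    have hx' : x ∈ s := hx
    refine ⟨a x, t x, hsub ?_, hsub ?_, ht x hx', hat x hx'⟩
    · rw [Finset.coe_union]
      exact Or.inl (Finset.mem_coe.mpr (Finset.mem_image_of_mem _ hx'))
    · rw [Finset.coe_union]
      exact Or.inr (Finset.mem_coe.mpr (Finset.mem_image_of_mem _ hx'))
  halg := by
    intro a x ha
    have ha' : (a : F) ≠ 0 := fun h0 => ha (Subtype.ext h0)
    obtain ⟨g, hg, b, hb, hgb⟩ := h.halg (a : F) (x : F) ha'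
    have hbS : b ∈ locSubring R 𝔯 := by
      refine (Subring.closure_le (t := locSubring R 𝔯)).mpr ?_ hb
      rintro y (⟨c, rfl⟩ | hy)
      · exact le_locSubring R 𝔯 (h.hA c)
      · rcases hy with rfl | rfl
        · exact a.2
        · exact x.2
    exact ⟨g, hg, ⟨b, hbS⟩, hgb⟩

/-- Interoperability: the `halg` field of `ChartData` (an `F`-level statement) from the
`Cons.Setting.halg`-shaped statement for all subrings containing the constants. -/
theorem halg_of_forall_subring (A : ValuationSubring L)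
    (H : ∀ S : Subring F, (∀ c : A, algebraMap L F (c : L) ∈ S) → ∀ a x : S, a ≠ 0 →
      ∃ g : Polynomial A, g ≠ 0 ∧ ∃ b : S,
        g.eval₂ ((algebraMap L F).comp A.subtype) (x : F) = (a : F) * (b : F)) :
    ∀ a x : F, a ≠ 0 → ∃ g : Polynomial A, g ≠ 0 ∧
      ∃ b ∈ Subring.closure (Set.range ((algebraMap L F).comp A.subtype) ∪ {a, x}),
        g.eval₂ ((algebraMap L F).comp A.subtype) x = a * b := by
  intro a x ha
  set S : Subring F := Subring.closure (Set.range ((algebraMap L F).comp A.subtype) ∪ {a, x})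
    with hS
  have hAS : ∀ c : A, algebraMap L F (c : L) ∈ S := fun c =>
    Subring.subset_closure (Or.inl ⟨c, rfl⟩)
  have haS : a ∈ S := Subring.subset_closure (Or.inr (Or.inl rfl))
  have hxS : x ∈ S := Subring.subset_closure (Or.inr (Or.inr rfl))
  obtain ⟨g, hg, b, hb⟩ := H S hAS ⟨a, haS⟩ ⟨x, hxS⟩ (fun h0 => ha (congrArg Subtype.val h0))
  exact ⟨g, hg, b, b.2, hb⟩


/-- Fractions: if `F = Frac R` then `F = Frac (locSubring R 𝔯)`. -/
theorem hfrac_locSubring (hfrac : ∀ f : F, ∃ x y : R, y ≠ 0 ∧ f * (y : F) = x) :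
    ∀ f : F, ∃ x y : locSubring R 𝔯, y ≠ 0 ∧ f * (y : F) = x := by
  intro f
  obtain ⟨x, y, hy, hf⟩ := hfrac f
  refine ⟨⟨x, le_locSubring R 𝔯 x.2⟩, ⟨y, le_locSubring R 𝔯 y.2⟩, ?_, hf⟩
  intro h0
  have h1 : (y : F) = 0 := congrArg Subtype.val h0
  exact hy (Subtype.ext h1)

/-! ### The places through the point: `Cons.Pts` of the localisation in terms of the chart -/

section Places

open AlgebraicCurve

/-- A nonzero constant has valuation one at every place. -/
theorem valuation_const_eq_one (P : Place L F) {c : L} (hc : c ≠ 0) :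
    P.toValuationSubring.valuation (algebraMap L F c) = 1 := by
  have h1 : P.toValuationSubring.valuation (algebraMap L F c) ≤ 1 :=
    (ValuationSubring.valuation_le_one_iff _ _).mpr (P.algebraMap_mem' c)
  have h2 : P.toValuationSubring.valuation (algebraMap L F c⁻¹) ≤ 1 :=
    (ValuationSubring.valuation_le_one_iff _ _).mpr (P.algebraMap_mem' c⁻¹)
  have h3 : P.toValuationSubring.valuation (algebraMap L F c) *
      P.toValuationSubring.valuation (algebraMap L F c⁻¹) = 1 := by
    rw [← map_mul, ← map_mul, mul_inv_cancel₀ hc, map_one, map_one]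
  refine le_antisymm h1 ?_
  by_contra hlt
  rw [not_le] at hlt
  have h0 : P.toValuationSubring.valuation (algebraMap L F c) ≠ 0 := by
    intro h0
    rw [h0, zero_mul] at h3
    exact zero_ne_one h3
  have : P.toValuationSubring.valuation (algebraMap L F c) *
      P.toValuationSubring.valuation (algebraMap L F c⁻¹) < 1 := by
    calc P.toValuationSubring.valuation (algebraMap L F c) *
          P.toValuationSubring.valuation (algebraMap L F c⁻¹)
        ≤ P.toValuationSubring.valuation (algebraMap L F c) * 1 := by gcongr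
      _ < 1 := by rw [mul_one]; exact hlt
  rw [h3] at this
  exact lt_irrefl _ this

/-- A constant in the maximal ideal of a place is zero. -/
theorem const_eq_zero_of_mem_nonunits (P : Place L F) {c : L}
    (hc : algebraMap L F c ∈ P.toValuationSubring.nonunits) : c = 0 := by
  by_contra h0
  have h1 := valuation_const_eq_one P h0
  have h2 : P.toValuationSubring.valuation (algebraMap L F c) < 1 := hc
  rw [h1] at h2
  exact lt_irrefl _ h2

/-- **The places of `Cons.Pts A (locSubring R 𝔯)` in terms of the chart `R`**: every element of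
the localisation is regular at `P` with a value in `A` iff every element of `R` is, and the
elements of `R` with unit reduction have unit values (i.e. the `k`-point of `R` defined by `P`
is the point at which we localise).  The left-hand side is `P ∈ Cons.Pts A (locSubring R 𝔯)`
by definition. -/
theorem forall_mem_locSubring_iff (P : Place L F) :
    (∀ x ∈ locSubring R 𝔯, ∃ c : A,
        x - algebraMap L F (c : L) ∈ P.toValuationSubring.nonunits) ↔
      (∀ x : R, ∃ c : A, (x : F) - algebraMap L F (c : L) ∈ P.toValuationSubring.nonunits) ∧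
      ∀ (x : R) (c : A), (x : F) - algebraMap L F (c : L) ∈ P.toValuationSubring.nonunits →
        IsUnit (𝔯 x) → IsUnit c := by
  set v := P.toValuationSubring.valuation with hv
  have hmem : ∀ y : F, y ∈ P.toValuationSubring.nonunits ↔ v y < 1 := fun y => Iff.rfl
  constructor
  · intro h
    refine ⟨fun x => h x (le_locSubring R 𝔯 x.2), ?_⟩
    intro x c hxc hu
    -- `x⁻¹` lies in the localisation, hence has a value `c'`
    have hu' : IsUnit (locRho R 𝔯 ⟨(x : F), le_locSubring R 𝔯 x.2⟩) := by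
      rw [locRho_of_mem _ x rfl]; exact hu
    obtain ⟨c', hc'⟩ := h _ (inv_mem_locSubring ⟨(x : F), le_locSubring R 𝔯 x.2⟩ hu')
    have hx0 : (x : F) ≠ 0 := coe_ne_zero_of_isUnit hu
    have hc'V : algebraMap L F (c' : L) ∈ P.toValuationSubring := P.algebraMap_mem' _
    have hxinvV : (x : F)⁻¹ ∈ P.toValuationSubring := by
      have := add_mem (P.toValuationSubring.nonunits_subset hc') hc'V
      simpa using this
    -- `1 - c c' = (x - c) x⁻¹ + c (x⁻¹ - c')` lies in the maximal ideal
    have e : algebraMap L F (1 - (c : L) * (c' : L))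
        = ((x : F) - algebraMap L F (c : L)) * (x : F)⁻¹
          + algebraMap L F (c : L) * ((x : F)⁻¹ - algebraMap L F (c' : L)) := by
      rw [map_sub, map_one, map_mul]
      field_simp
      ring
    have h1 : v (((x : F) - algebraMap L F (c : L)) * (x : F)⁻¹) < 1 := by
      rw [map_mul]
      have hx1 : v ((x : F)⁻¹) ≤ 1 := (ValuationSubring.valuation_le_one_iff _ _).mpr hxinvV
      calc v ((x : F) - algebraMap L F (c : L)) * v ((x : F)⁻¹)
          ≤ v ((x : F) - algebraMap L F (c : L)) * 1 := by gcongr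
        _ < 1 := by rw [mul_one]; exact (hmem _).mp hxc
    have h2 : v (algebraMap L F (c : L) * ((x : F)⁻¹ - algebraMap L F (c' : L))) < 1 := by
      rw [map_mul]
      have hc1 : v (algebraMap L F (c : L)) ≤ 1 :=
        (ValuationSubring.valuation_le_one_iff _ _).mpr (P.algebraMap_mem' _)
      calc v (algebraMap L F (c : L)) * v ((x : F)⁻¹ - algebraMap L F (c' : L))
          ≤ 1 * v ((x : F)⁻¹ - algebraMap L F (c' : L)) := by gcongr
        _ < 1 := by rw [one_mul]; exact (hmem _).mp hc'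
    have h3 : algebraMap L F (1 - (c : L) * (c' : L)) ∈ P.toValuationSubring.nonunits := by
      rw [hmem, e]
      exact Valuation.map_add_lt _ h1 h2
    have h4 : (c : L) * (c' : L) = 1 := by
      have := const_eq_zero_of_mem_nonunits P h3
      exact (sub_eq_zero.mp this).symm
    exact IsUnit.of_mul_eq_one c' (Subtype.ext h4)
  · rintro ⟨h1, h2⟩ x ⟨a, s, hs, hx⟩
    obtain ⟨ca, hca⟩ := h1 a
    obtain ⟨cs, hcs⟩ := h1 s
    have hcsu : IsUnit cs := h2 s cs hcs hs
    obtain ⟨u, rfl⟩ := hcsu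
    have hu0 : ((u : A) : L) ≠ 0 := by
      intro h0
      have : ((u : A) : L) * ((u⁻¹ : Aˣ) : A) = 1 := by
        have := congrArg Subtype.val u.mul_inv
        exact this
      rw [h0, zero_mul] at this
      exact zero_ne_one this
    have hs0 : (s : F) ≠ 0 := coe_ne_zero_of_isUnit hs
    have hvu : v (algebraMap L F ((u : A) : L)) = 1 := valuation_const_eq_one P hu0
    have hvs : v (s : F) = 1 := by
      have e : (s : F) = ((s : F) - algebraMap L F ((u : A) : L)) + algebraMap L F ((u : A) : L) := by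
        ring
      rw [e, Valuation.map_add_eq_of_lt_right]
      · exact hvu
      · rw [hvu]; exact (hmem _).mp hcs
    refine ⟨ca * ((u⁻¹ : Aˣ) : A), ?_⟩
    rw [hmem]
    have hcoe : algebraMap L F (((ca * ((u⁻¹ : Aˣ) : A) : A)) : L)
        = algebraMap L F (ca : L) * (algebraMap L F ((u : A) : L))⁻¹ := by
      have h1 : (((u⁻¹ : Aˣ) : A) : L) = (((u : A)) : L)⁻¹ := by
        have := congrArg Subtype.val u.mul_inv
        exact (eq_inv_of_mul_eq_one_right this)
      rw [← map_inv₀, ← map_mul, ← h1]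
      rfl
    have hu0F : algebraMap L F ((u : A) : L) ≠ 0 := by
      intro h0
      rw [h0, map_zero] at hvu
      exact zero_ne_one hvu
    have key : (x - algebraMap L F (((ca * ((u⁻¹ : Aˣ) : A) : A)) : L)) *
        ((s : F) * algebraMap L F ((u : A) : L))
        = ((a : F) - algebraMap L F (ca : L)) * algebraMap L F ((u : A) : L)
          - algebraMap L F (ca : L) * ((s : F) - algebraMap L F ((u : A) : L)) := by
      rw [hcoe, ← hx]
      field_simp
      ring
    have hv1 : v (((a : F) - algebraMap L F (ca : L)) * algebraMap L F ((u : A) : L)) < 1 := by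
      rw [map_mul, hvu, mul_one]; exact (hmem _).mp hca
    have hv2 : v (algebraMap L F (ca : L) * ((s : F) - algebraMap L F ((u : A) : L))) < 1 := by
      rw [map_mul]
      have hc1 : v (algebraMap L F (ca : L)) ≤ 1 :=
        (ValuationSubring.valuation_le_one_iff _ _).mpr (P.algebraMap_mem' _)
      calc v (algebraMap L F (ca : L)) * v ((s : F) - algebraMap L F ((u : A) : L))
          ≤ 1 * v ((s : F) - algebraMap L F ((u : A) : L)) := by gcongr
        _ < 1 := by rw [one_mul]; exact (hmem _).mp hcs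
    have hv3 := Valuation.map_sub_lt v hv1 hv2
    rw [← key, map_mul, map_mul, hvs, hvu, mul_one, mul_one] at hv3
    exact hv3

end Places

end Fermat.Agent.S37.ConsLoc
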