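/-
S37, block [R0], leaf (3) "local count" — ConsNum.lean (helper52): the ABSTRACT CORE of the
count at one closed point of a regular arithmetic surface, in the "all zeros are rational" form.
Mathlib-only.

Setting.  `S` a local ring with maximal ideal `(π, t)` (model: the localisation of a chart
`chart N A K t` at a closed point `n ∋ π` of the special fibre; `π` a uniformizer of the base
discrete valuation ring, `t` the Igusa parameter).  A prime element `p` of `S` is *rational* if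
`(π, p)` is again the maximal ideal (model: `S / (p)` is the base ring `O`, i.e. the horizontal
divisor `p = 0` is a section through the closed point).

* `exists_unit_dvd_sub` (CN1): for a rational `p`, `p ≡ δ t (mod π)` with `δ` a unit.
* `span_eq_of_le_sup` (CN1'): a prime ideal `𝔮 ∌ π` with `𝔪 ≤ 𝔮 ⊔ (π)` is principal,
  generated by a rational element (Nakayama).
* `exists_unit_dvd_sub_pow` (CN2): if every prime factor of `a` is associated to one of
  finitely many pairwise non-associated rational primes `τ v`, `v ∈ 𝒱`, then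
  `a ≡ w t ^ (∑ v ∈ 𝒱, multiplicity (τ v) a) (mod π)` with `w` a unit.
* `associated_map_pow` (CN3): the same after a ring hom `ρ` killing `π`
  (model: reduction to the local ring `O_Q` of the special fibre): `ρ a ~ (ρ t) ^ ∑ …`.
-/
import Mathlib

set_option autoImplicit false

namespace Fermat.Agent.S37.ConsNum

open IsLocalRing

section Local

variable {S : Type*} [CommRing S] [IsLocalRing S]

/-- **(CN1)** Two systems of parameters `(π, t)`, `(π, p)` of a local ring: `p ≡ δ t (mod π)`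
with `δ` a unit. -/
theorem exists_unit_dvd_sub (π t p : S) (ht : maximalIdeal S = Ideal.span {π, t})
    (hp : maximalIdeal S = Ideal.span {π, p}) : ∃ δ : S, IsUnit δ ∧ π ∣ p - δ * t := by
  have htm : t ∈ maximalIdeal S := by rw [ht]; exact Ideal.subset_span (by simp)
  have hpm : p ∈ maximalIdeal S := by rw [hp]; exact Ideal.subset_span (by simp)
  obtain ⟨α, β, hαβ⟩ := Ideal.mem_span_pair.mp (hp ▸ htm)
  obtain ⟨γ, δ, hγδ⟩ := Ideal.mem_span_pair.mp (ht ▸ hpm)
  by_cases hδ : IsUnit δ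
  · exact ⟨δ, hδ, γ, by rw [← hγδ]; ring⟩
  · have hu : IsUnit (1 - β * δ) :=
      IsLocalRing.isUnit_one_sub_self_of_mem_nonunits _ (mul_mem_nonunits_right hδ)
    obtain ⟨u, hu'⟩ := hu
    have h1 : t * (1 - β * δ) = (α + β * γ) * π := by
      linear_combination (-1 : S) * hαβ - β * hγδ
    have h2 : π ∣ t := by
      refine ⟨(α + β * γ) * ((u⁻¹ : Sˣ) : S), ?_⟩
      have h3 : t = t * (1 - β * δ) * ((u⁻¹ : Sˣ) : S) := by
        rw [← hu', mul_assoc, Units.mul_inv, mul_one]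
      rw [h3, h1]; ring
    obtain ⟨c, hc⟩ := h2
    refine ⟨1, isUnit_one, γ + δ * c - c, ?_⟩
    rw [← hγδ, hc]; ring

/-- **(CN1')** In a noetherian local ring with maximal ideal `(π, t)`, a prime ideal `𝔮 ∌ π`
with `𝔪 ≤ 𝔮 ⊔ (π)` is principal, generated by some `p = t - π r`, and `(π, p)` is again the
maximal ideal (Nakayama). -/
theorem exists_span_eq_of_le_sup [IsNoetherianRing S] (π t : S)
    (ht : maximalIdeal S = Ideal.span {π, t}) (𝔮 : Ideal S) (h𝔮 : 𝔮.IsPrime) (hπ : π ∉ 𝔮)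
    (hle : maximalIdeal S ≤ 𝔮 ⊔ Ideal.span {π}) :
    ∃ p r : S, p = t - π * r ∧ 𝔮 = Ideal.span {p} ∧ maximalIdeal S = Ideal.span {π, p} := by
  have htm : t ∈ maximalIdeal S := by rw [ht]; exact Ideal.subset_span (by simp)
  have hπm : π ∈ maximalIdeal S := by rw [ht]; exact Ideal.subset_span (by simp)
  obtain ⟨x', hx', y, hy, hxy⟩ := Submodule.mem_sup.mp (hle htm)
  obtain ⟨r, rfl⟩ := Ideal.mem_span_singleton'.mp hy
  have hx'eq : x' = t - π * r := by rw [← hxy]; ring
  have hmax : maximalIdeal S = Ideal.span {π, x'} := by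
    rw [ht]
    apply le_antisymm
    · rw [Ideal.span_le]
      rintro z (rfl | rfl)
      · exact Ideal.subset_span (by simp)
      · rw [SetLike.mem_coe, Ideal.mem_span_pair]
        exact ⟨r, 1, by rw [← hxy]; ring⟩
    · rw [Ideal.span_le]
      rintro z (rfl | rfl)
      · exact Ideal.subset_span (by simp)
      · rw [SetLike.mem_coe, Ideal.mem_span_pair]
        exact ⟨-r, 1, by rw [hx'eq]; ring⟩
  have h𝔮le : 𝔮 ≤ maximalIdeal S := le_maximalIdeal h𝔮.ne_top
  have key : 𝔮 ≤ Ideal.span {x'} ⊔ maximalIdeal S • 𝔮 := by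
    intro z hz
    obtain ⟨α, β, hαβ⟩ := Ideal.mem_span_pair.mp (hmax ▸ h𝔮le hz)
    have hαπ : α * π ∈ 𝔮 := by
      have h1 : α * π = z - β * x' := by rw [← hαβ]; ring
      rw [h1]
      exact 𝔮.sub_mem hz (𝔮.mul_mem_left _ hx')
    have hα : α ∈ 𝔮 := (h𝔮.mem_or_mem hαπ).resolve_right hπ
    rw [← hαβ, add_comm]
    refine Submodule.add_mem_sup (Ideal.mem_span_singleton'.mpr ⟨β, rfl⟩) ?_
    rw [mul_comm α π, ← smul_eq_mul]
    exact Submodule.smul_mem_smul hπm hα
  have hle' : 𝔮 ≤ Ideal.span {x'} :=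
    Submodule.le_of_le_smul_of_le_jacobson_bot (IsNoetherian.noetherian 𝔮)
      (maximalIdeal_le_jacobson ⊥) key
  exact ⟨x', r, hx'eq, le_antisymm hle' ((Ideal.span_singleton_le_iff_mem 𝔮).mpr hx'), hmax⟩

end Local

section UFD

variable {S : Type*} [CommRing S] [IsDomain S] [IsLocalRing S] [UniqueFactorizationMonoid S]

/-- **(CN2)** Let `(π, t)` be the maximal ideal of the local UFD `S`, and let `τ v`, `v ∈ 𝒱`, be
finitely many pairwise non-associated *rational* primes (`(π, τ v) = 𝔪`).  If every prime factor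
of `a ≠ 0` is associated to some `τ v`, then `a ≡ w t ^ (∑ v ∈ 𝒱, multiplicity (τ v) a)` modulo
`π`, with `w` a unit. -/
theorem exists_unit_dvd_sub_pow {ι : Type*} (π t : S) (ht : maximalIdeal S = Ideal.span {π, t})
    (𝒱 : Finset ι) (τ : ι → S) (hτ : ∀ v ∈ 𝒱, Prime (τ v))
    (hinj : ∀ v ∈ 𝒱, ∀ w ∈ 𝒱, Associated (τ v) (τ w) → v = w)
    (hrat : ∀ v ∈ 𝒱, maximalIdeal S = Ideal.span {π, τ v})
    (a : S) (ha : a ≠ 0) (hall : ∀ p : S, Prime p → p ∣ a → ∃ v ∈ 𝒱, Associated p (τ v)) :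
    ∃ w : S, IsUnit w ∧ π ∣ a - w * t ^ (∑ v ∈ 𝒱, multiplicity (τ v) a) := by
  classical
  revert ha hall
  refine UniqueFactorizationMonoid.induction_on_prime a ?_ ?_ ?_
  · intro h0; exact absurd rfl h0
  · intro x hx _ _
    have h0 : ∑ v ∈ 𝒱, multiplicity (τ v) x = 0 := by
      apply Finset.sum_eq_zero
      intro v hv
      rw [multiplicity_eq_zero]
      intro hdvd
      exact (hτ v hv).not_isUnit (isUnit_of_dvd_unit hdvd hx)
    refine ⟨x, hx, ?_⟩
    rw [h0, pow_zero, mul_one, sub_self]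
    exact dvd_zero π
  · intro b p hb hp ih _ hall
    obtain ⟨w, hw, c, hc⟩ := ih hb (fun p' hp' hdvd => hall p' hp' (hdvd.mul_left p))
    obtain ⟨v₀, hv₀, hass⟩ := hall p hp (dvd_mul_right p b)
    obtain ⟨δ, hδ, d, hd⟩ := exists_unit_dvd_sub π t (τ v₀) ht (hrat v₀ hv₀)
    obtain ⟨u, hu⟩ := hass
    have hpb : p * b ≠ 0 := mul_ne_zero hp.ne_zero hb
    have hsum : ∑ v ∈ 𝒱, multiplicity (τ v) (p * b) =
        ∑ v ∈ 𝒱, multiplicity (τ v) b + 1 := by
      have h1 : ∀ v ∈ 𝒱, multiplicity (τ v) (p * b) =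
          multiplicity (τ v) b + (if v = v₀ then 1 else 0) := by
        intro v hv
        rw [multiplicity_mul (hτ v hv) (FiniteMultiplicity.of_prime_left (hτ v hv) hpb),
          add_comm]
        congr 1
        split_ifs with hvv
        · subst hvv
          rw [multiplicity_eq_of_associated_right (⟨u, hu⟩ : Associated p (τ v)),
            multiplicity_self]
        · rw [multiplicity_eq_zero]
          intro hdvd
          apply hvv
          apply hinj v hv v₀ hv₀
          exact ((hτ v hv).associated_of_dvd hp hdvd).trans ⟨u, hu⟩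
      rw [Finset.sum_congr rfl h1, Finset.sum_add_distrib, Finset.sum_ite_eq' 𝒱 v₀, if_pos hv₀]
    refine ⟨((u⁻¹ : Sˣ) : S) * δ * w, (((u⁻¹).isUnit.mul hδ).mul hw), ?_⟩
    rw [hsum, pow_succ]
    have hp' : p = τ v₀ * ((u⁻¹ : Sˣ) : S) := by
      rw [← hu, mul_assoc, Units.mul_inv, mul_one]
    refine ⟨((u⁻¹ : Sˣ) : S) * (d * b + δ * t * c), ?_⟩
    have e1 : τ v₀ = δ * t + π * d := by rw [← hd]; ring
    have e2 : b = w * t ^ (∑ v ∈ 𝒱, multiplicity (τ v) b) + π * c := by rw [← hc]; ring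
    rw [hp']
    linear_combination (((u⁻¹ : Sˣ) : S) * b) * e1 + (((u⁻¹ : Sˣ) : S) * δ * t) * e2

/-- **(CN3)** The count after reduction: for a ring hom `ρ` killing `π`,
`ρ a ~ (ρ t) ^ (∑ v ∈ 𝒱, multiplicity (τ v) a)`. -/
theorem associated_map_pow {ι : Type*} {D : Type*} [CommRing D] (ρ : S →+* D) (π t : S)
    (hρ : ρ π = 0) (ht : maximalIdeal S = Ideal.span {π, t})
    (𝒱 : Finset ι) (τ : ι → S) (hτ : ∀ v ∈ 𝒱, Prime (τ v))
    (hinj : ∀ v ∈ 𝒱, ∀ w ∈ 𝒱, Associated (τ v) (τ w) → v = w)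
    (hrat : ∀ v ∈ 𝒱, maximalIdeal S = Ideal.span {π, τ v})
    (a : S) (ha : a ≠ 0) (hall : ∀ p : S, Prime p → p ∣ a → ∃ v ∈ 𝒱, Associated p (τ v)) :
    Associated (ρ a) (ρ t ^ (∑ v ∈ 𝒱, multiplicity (τ v) a)) := by
  obtain ⟨w, hw, c, hc⟩ := exists_unit_dvd_sub_pow π t ht 𝒱 τ hτ hinj hrat a ha hall
  have h1 : a = w * t ^ (∑ v ∈ 𝒱, multiplicity (τ v) a) + π * c := by rw [← hc]; ring
  have h2 : ρ a = ρ w * ρ t ^ (∑ v ∈ 𝒱, multiplicity (τ v) a) := by
    conv_lhs => rw [h1]
    rw [map_add, map_mul, map_mul, map_pow, hρ, zero_mul, add_zero]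
  rw [h2]
  exact associated_unit_mul_left _ _ (hw.map ρ)

end UFD

end Fermat.Agent.S37.ConsNum
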