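/-
S37 — Plan.lean (captain: helper33).  BINDING plan of the reduction datum: `Prop`-valued block
statements and the compiled glue

    PMStatement ∧ EQStatement ∧ ESStatement  ⟹  RedDatum   (`redDatum_of_blocks`)
    RedDatum + S18 + [H] + [Frob∃]           ⟹  S37        (`S37Core.specializationExists_of_leaves`)

Blocks:
* [PM]  `PMStatement N ℓ`  existence of a place map `r` with `PM.PlaceMapAPI N A r`
        (built on the S18 / T4 smooth model; conservation of number);
* [EQ]  `EQStatement N`    decomposition-group equivariance of any `r` with the API;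
* [ES]  `ESStatement N ℓ`  Eichler–Shimura congruence on divisors for any `r` with the API.
-/
import Fermat.Agent.S37.Core
import Fermat.Agent.S37.PMDefs

set_option autoImplicit false

open ModularCurve AlgebraicCurve HahnSeries

namespace Fermat.Agent.S37.Plan

open Fermat.Agent.S37Core Fermat.Agent.S37.PM

noncomputable section

set_option synthInstance.maxHeartbeats 400000

/-- **Block [PM]**: a place map with the API exists at every `(ℓ, A)`, `ℓ ∤ N`. -/
def PMStatement (N ℓ : ℕ) [NeZero N] : Prop :=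
  ℓ.Prime → ¬ ℓ ∣ N → ∀ A : ValuationSubring (AlgebraicClosure ℚ), A.LiesOverPrime ℓ →
    ∃ r : Place (AlgebraicClosure ℚ) (modularFunctionFieldBar N) →
        Place (IsLocalRing.ResidueField A)
          (modularFunctionFieldFullC (IsLocalRing.ResidueField A) N),
      PlaceMapAPI N A r

/-- **Block [EQ]**: a place map with the API is equivariant for the decomposition group
(acting on places of `F̄` through the coefficients, and on places of `F_k` through the
coefficientwise action of the induced automorphism of the residue field). -/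
def EQStatement (N ℓ : ℕ) [NeZero N] : Prop :=
  ℓ.Prime → ¬ ℓ ∣ N → ∀ A : ValuationSubring (AlgebraicClosure ℚ), A.LiesOverPrime ℓ →
    ∀ r : Place (AlgebraicClosure ℚ) (modularFunctionFieldBar N) →
        Place (IsLocalRing.ResidueField A)
          (modularFunctionFieldFullC (IsLocalRing.ResidueField A) N),
      PlaceMapAPI N A r →
      ∀ (g : A.decompositionSubgroup ℚ)
        (u : Place (AlgebraicClosure ℚ) (modularFunctionFieldBar N)),
        r (arithmeticGalois (modularFunctionFieldFull N) (g : GQ) • u) = decompSL A N g • r u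

/-- **Block [ES]**: the Eichler–Shimura congruence on divisors,
`r_* (T_ℓ u) = Fr (r u) + ℓ · Fr⁻¹ (r u)`, for a place map with the API. -/
def ESStatement (N ℓ : ℕ) [NeZero N] [NeZero ℓ] : Prop :=
  ℓ.Prime → ¬ ℓ ∣ N → HeckeInputsAlong (AlgebraicClosure ℚ) N ℓ →
    ∀ A : ValuationSubring (AlgebraicClosure ℚ), A.LiesOverPrime ℓ →
    ∀ r : Place (AlgebraicClosure ℚ) (modularFunctionFieldBar N) →
        Place (IsLocalRing.ResidueField A)
          (modularFunctionFieldFullC (IsLocalRing.ResidueField A) N),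
      PlaceMapAPI N A r →
      ∀ (φ : GQ) (hφ : A.IsFrobeniusAt φ ℓ)
        (hα : HeckeAlphaBarIntegral (AlgebraicClosure ℚ) N ℓ)
        (hβ : HeckeBetaBarIntegral (AlgebraicClosure ℚ) N ℓ)
        [HasPrincipalDivisors (AlgebraicClosure ℚ)
          (laurentBaseChange (AlgebraicClosure ℚ) (modularFunctionFieldFull (N * ℓ)))]
        (u : Place (AlgebraicClosure ℚ) (modularFunctionFieldBar N)),
        Finsupp.mapDomain r (heckeDivBar hα hβ (Finsupp.single u 1)) =
          Finsupp.single (decompSL A N ⟨φ, hφ.mem_decompositionSubgroup⟩ • r u) 1 +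
            Finsupp.single ((decompSL A N ⟨φ, hφ.mem_decompositionSubgroup⟩)⁻¹ • r u) (ℓ : ℤ)

/-- **Glue**: the three blocks give the reduction datum of `S37/Core.lean`. -/
theorem redDatum_of_blocks (N ℓ : ℕ) [NeZero N] [NeZero ℓ] (hℓ : ℓ.Prime) (hℓN : ¬ ℓ ∣ N)
    (hH : HeckeInputsAlong (AlgebraicClosure ℚ) N ℓ)
    (hPM : PMStatement N ℓ) (hEQ : EQStatement N ℓ) (hES : ESStatement N ℓ)
    (A : ValuationSubring (AlgebraicClosure ℚ)) (hA : A.LiesOverPrime ℓ) : RedDatum A N ℓ := by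
  obtain ⟨r, hr⟩ := hPM hℓ hℓN A hA
  refine ⟨r, hr.isRed, hr.gen, hEQ hℓ hℓN A hA r hr, ?_⟩
  intro φ hφ hα hβ _ u
  exact hES hℓ hℓN hH A hA r hr φ hφ hα hβ u

/-- **S37 from its blocks** (frozen conclusion). -/
theorem specializationExists_of_blocks (N p : ℕ) [NeZero N]
    (hcomm : HeckeOperatorsCommuteBar N)
    (hS18 : S18Statement N)
    (hH : ∀ ℓ : ℕ, (hℓ : ℓ.Prime) → ¬ ℓ ∣ N →
      haveI : NeZero ℓ := ⟨hℓ.ne_zero⟩; HeckeInputsAlong (AlgebraicClosure ℚ) N ℓ)
    (hF : ∀ ℓ : ℕ, ℓ.Prime → ∀ A : ValuationSubring (AlgebraicClosure ℚ), A.LiesOverPrime ℓ →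
      ∃ φ : GQ, A.IsFrobeniusAt φ ℓ)
    (hPM : ∀ ℓ : ℕ, PMStatement N ℓ)
    (hEQ : ∀ ℓ : ℕ, EQStatement N ℓ)
    (hES : ∀ ℓ : ℕ, (hℓ : ℓ.Prime) → haveI : NeZero ℓ := ⟨hℓ.ne_zero⟩; ESStatement N ℓ) :
    letI := heckeModuleBar N
    ∀ (_ : SMulCommClass (AlgebraicClosure ℚ ≃ₐ[ℚ] AlgebraicClosure ℚ) HeckeAlg (JZero N)),
      SpecializationExists (K := ℚ) (L := AlgebraicClosure ℚ) N p (JZero N) := by
  refine specializationExists_of_leaves N p hcomm hS18 ?_ hF ?_
  · intro ℓ hℓ hℓNp
    exact hH ℓ hℓ (fun h => hℓNp (Dvd.dvd.mul_right h p))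
  · intro ℓ hℓ hℓNp A hA
    have hℓN : ¬ ℓ ∣ N := fun h => hℓNp (Dvd.dvd.mul_right h p)
    have : NeZero ℓ := ⟨hℓ.ne_zero⟩
    exact redDatum_of_blocks N ℓ hℓ hℓN (hH ℓ hℓ hℓN) (hPM ℓ) (hEQ ℓ) (hES ℓ hℓ) A hA

end

end Fermat.Agent.S37.Plan
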