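/-
S37 — EQ.lean (helper54): block [EQ] of `S37/Plan.lean`.

A place map `r` with the API `PM.PlaceMapAPI` is equivariant for the decomposition group of `A`:
`r (g • u) = decompSL A N g • r u`.

Proof.  Let `u` be a place of `F̄` in the chart `j ≠ ∞` (the cusp case is identical with `j⁻¹`).
Then `g • u` is in the same chart.  For `x` in the chart ring with `A`-integral `q`-expansion `X`:
* `EvalRed` at `g • u` gives a value `c₁` of `x` at `g • u` with `X̄(r (g • u)) = res c₁`;
* `EvalRed` at `u`, applied to `g⁻¹ x` (again in the chart ring, with `q`-expansion `g⁻¹ X`),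
  gives a value `c₂` of `g⁻¹ x` at `u` with `(g⁻¹ X)‾ (r u) = res c₂`; transporting along `g`:
  `x` has value `g c₂` at `g • u` (so `c₁ = g c₂`) and `X̄` has value `ḡ (res c₂) = res c₁` at
  `decompSL g • r u`.
So both places of `F_k` give the same values to all reduced chart functions, and `sep0` applies.
-/
import Fermat.Agent.S37.Plan

set_option autoImplicit false

open ModularCurve AlgebraicCurve HahnSeries

namespace Fermat.Agent.S37.EQ

open Fermat.Agent.S37Core Fermat.Agent.S37.PM

noncomputable section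

/-! ### Generic lemmas on values at places -/

section Generic

open scoped Pointwise

variable {K F : Type*} [Field K] [Field F] [Algebra K F]

/-- Membership in the non-units of a valuation subring, without valuations. -/
theorem mem_nonunits_iff_inv_notMem (V : ValuationSubring F) (x : F) :
    x ∈ V.nonunits ↔ x = 0 ∨ x⁻¹ ∉ V := by
  rw [ValuationSubring.mem_nonunits_iff]
  rcases eq_or_ne x 0 with rfl | hx
  · simp
  · rw [← ValuationSubring.valuation_le_one_iff, map_inv₀, not_le]
    have h0 : V.valuation x ≠ 0 := (Valuation.ne_zero_iff _).mpr hx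
    constructor
    · intro h
      exact Or.inr ((one_lt_inv₀ (zero_lt_iff.mpr h0)).mpr h)
    · rintro (h | h)
      · exact absurd h hx
      · exact (one_lt_inv₀ (zero_lt_iff.mpr h0)).mp h

/-- Non-units of a translated valuation subring. -/
theorem mem_nonunits_smul_iff (g : SemilinearAut K F) (V : ValuationSubring F) (x : F) :
    x ∈ (g • V : ValuationSubring F).nonunits ↔ g⁻¹ • x ∈ V.nonunits := by
  rw [mem_nonunits_iff_inv_notMem, mem_nonunits_iff_inv_notMem,
    ValuationSubring.mem_pointwise_smul_iff_inv_smul_mem, smul_inv'', smul_eq_zero_iff_eq]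

/-- Transport of a value along a semilinear automorphism. -/
theorem valAt_smul (g : SemilinearAut K F) {v : Place K F} {f : F} {c : K} (h : ValAt v f c) :
    ValAt (g • v) (g • f) (SemilinearAut.baseAut g c) := by
  unfold ValAt at h ⊢
  rw [SemilinearAut.smul_toValuationSubring, mem_nonunits_smul_iff, smul_sub, inv_smul_smul,
    SemilinearAut.smul_algebraMap, SemilinearAut.baseAut_inv, RingEquiv.symm_apply_apply]
  exact h

/-- The value of a function at a place is unique. -/
theorem valAt_unique {v : Place K F} {f : F} {c c' : K} (h : ValAt v f c) (h' : ValAt v f c') :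
    c = c' := by
  by_contra hne
  unfold ValAt at h h'
  rw [ValuationSubring.mem_nonunits_iff] at h h'
  have hd : c - c' ≠ 0 := sub_ne_zero.mpr hne
  have h1 : v.toValuationSubring.valuation (algebraMap K F (c - c')) < 1 := by
    have := Valuation.map_sub_lt _ h' h
    rwa [show f - algebraMap K F c' - (f - algebraMap K F c) = algebraMap K F (c - c') by
      rw [map_sub]; ring] at this
  have h2 : algebraMap K F (c - c') ∈ v.toValuationSubring.nonunits :=
    (ValuationSubring.mem_nonunits_iff _).mpr h1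
  rw [mem_nonunits_iff_inv_notMem] at h2
  rcases h2 with h2 | h2
  · exact hd ((map_eq_zero _).mp h2)
  · apply h2
    rw [← map_inv₀]
    exact v.algebraMap_mem' _

end Generic


/-! ### The decomposition group acting on `A`, on `A((q))` and on the charts -/

section Modular

set_option synthInstance.maxHeartbeats 400000

variable {A : ValuationSubring (AlgebraicClosure ℚ)} {N : ℕ}

/-- The ring endomorphism of `A` induced by an element of the decomposition group. -/
def actA (g : A.decompositionSubgroup ℚ) : A →+* A :=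
  MulSemiringAction.toRingHom (A.decompositionSubgroup ℚ) A g

theorem coe_actA (g : A.decompositionSubgroup ℚ) (a : A) :
    ((actA g a : A) : AlgebraicClosure ℚ) = (g : AlgebraicClosure ℚ ≃ₐ[ℚ] AlgebraicClosure ℚ) a :=
  rfl

theorem subtype_comp_actA (g : A.decompositionSubgroup ℚ) :
    A.subtype.comp (actA g) =
      ((g : AlgebraicClosure ℚ ≃ₐ[ℚ] AlgebraicClosure ℚ) :
        AlgebraicClosure ℚ →+* AlgebraicClosure ℚ).comp A.subtype :=
  RingHom.ext fun _ => rfl

theorem residue_comp_actA (g : A.decompositionSubgroup ℚ) :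
    (IsLocalRing.residue A).comp (actA g) =
      ((resAut A g : IsLocalRing.ResidueField A ≃+* IsLocalRing.ResidueField A) :
        IsLocalRing.ResidueField A →+* IsLocalRing.ResidueField A).comp (IsLocalRing.residue A) :=
  RingHom.ext fun a => IsLocalRing.ResidueField.residue_smul _ g a

theorem actA_mem_maximalIdeal (g : A.decompositionSubgroup ℚ) {a : A}
    (ha : a ∈ IsLocalRing.maximalIdeal A) : actA g a ∈ IsLocalRing.maximalIdeal A := by
  rw [IsLocalRing.mem_maximalIdeal, mem_nonunits_iff] at ha ⊢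
  intro h
  apply ha
  have h2 := h.map (actA g⁻¹)
  have h3 : actA g⁻¹ (actA g a) = a := inv_smul_smul g a
  rwa [h3] at h2

/-- The coefficientwise action on `A((q))` is compatible with the inclusion into `ℚ̄((q))`. -/
theorem coeffMap_subtype_actA (g : A.decompositionSubgroup ℚ) (X : LaurentSeries A) :
    coeffMap A.subtype (coeffMap (actA g) X) =
      coeffMap ((g : AlgebraicClosure ℚ ≃ₐ[ℚ] AlgebraicClosure ℚ) :
        AlgebraicClosure ℚ →+* AlgebraicClosure ℚ) (coeffMap A.subtype X) := by
  rw [coeffMap_coeffMap, coeffMap_coeffMap, subtype_comp_actA]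

/-- The coefficientwise action on `A((q))` is compatible with reduction. -/
theorem coeffMap_residue_actA (g : A.decompositionSubgroup ℚ) (X : LaurentSeries A) :
    coeffMap (IsLocalRing.residue A) (coeffMap (actA g) X) =
      coeffMap ((resAut A g : IsLocalRing.ResidueField A ≃+* IsLocalRing.ResidueField A) :
        IsLocalRing.ResidueField A →+* IsLocalRing.ResidueField A)
        (coeffMap (IsLocalRing.residue A) X) := by
  rw [coeffMap_coeffMap, coeffMap_coeffMap, residue_comp_actA]

theorem coeffMap_subtype_injective :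
    Function.Injective (coeffMap A.subtype :
      LaurentSeries A → LaurentSeries (AlgebraicClosure ℚ)) := by
  intro X Y h
  ext n
  have := congrArg (fun Z : LaurentSeries (AlgebraicClosure ℚ) => Z.coeff n) h
  simpa using this

variable (N) in
/-- The semilinear automorphism of `F̄` attached to `σ ∈ Gal(ℚ̄/ℚ)`. -/
abbrev gal (σ : AlgebraicClosure ℚ ≃ₐ[ℚ] AlgebraicClosure ℚ) :
    SemilinearAut (AlgebraicClosure ℚ) (modularFunctionFieldBar N) :=
  arithmeticGalois (modularFunctionFieldFull N) σ

theorem gal_smul_jbar (σ : AlgebraicClosure ℚ ≃ₐ[ℚ] AlgebraicClosure ℚ) :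
    gal N σ • jbar N = jbar N :=
  Subtype.ext (coeffMap_coeffEmb σ jq)

theorem gal_smul_constA (g : A.decompositionSubgroup ℚ) (a : A) :
    gal N (g : AlgebraicClosure ℚ ≃ₐ[ℚ] AlgebraicClosure ℚ) • constA N A a
      = constA N A (actA g a) :=
  SemilinearAut.smul_algebraMap _ _

theorem gal_smul_mem_AT (g : A.decompositionSubgroup ℚ) {t x : modularFunctionFieldBar N}
    (hx : x ∈ AT N A t) :
    gal N (g : AlgebraicClosure ℚ ≃ₐ[ℚ] AlgebraicClosure ℚ) • x
      ∈ AT N A (gal N (g : AlgebraicClosure ℚ ≃ₐ[ℚ] AlgebraicClosure ℚ) • t) := by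
  unfold AT at hx ⊢
  induction hx using Subring.closure_induction with
  | mem y hy =>
    rcases hy with ⟨a, rfl⟩ | rfl
    · rw [gal_smul_constA]
      exact Subring.subset_closure (Or.inl ⟨_, rfl⟩)
    · exact Subring.subset_closure (Or.inr rfl)
  | zero => rw [smul_zero]; exact Subring.zero_mem _
  | one => rw [smul_one]; exact Subring.one_mem _
  | add y z _ _ hy hz => rw [smul_add]; exact Subring.add_mem _ hy hz
  | neg y _ hy => rw [smul_neg]; exact Subring.neg_mem _ hy
  | mul y z _ _ hy hz => rw [smul_mul']; exact Subring.mul_mem _ hy hz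

theorem gal_smul_mem_chartA (g : A.decompositionSubgroup ℚ) {t x : modularFunctionFieldBar N}
    (hx : x ∈ chartA N A t) :
    gal N (g : AlgebraicClosure ℚ ≃ₐ[ℚ] AlgebraicClosure ℚ) • x
      ∈ chartA N A (gal N (g : AlgebraicClosure ℚ ≃ₐ[ℚ] AlgebraicClosure ℚ) • t) := by
  set G := gal N (g : AlgebraicClosure ℚ ≃ₐ[ℚ] AlgebraicClosure ℚ) with hG
  have hx' : IsIntegral (AT N A t) x := hx
  show IsIntegral (AT N A (G • t)) (G • x)
  let ψ : modularFunctionFieldBar N →+* modularFunctionFieldBar N :=
    (SemilinearAut.toRingAut G : modularFunctionFieldBar N →+* modularFunctionFieldBar N)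
  let φ : AT N A t →+* AT N A (G • t) :=
    ψ.restrict (AT N A t) (AT N A (G • t)) (fun y hy => gal_smul_mem_AT g hy)
  exact IsIntegral.map_of_comp_eq φ ψ (RingHom.ext fun _ => rfl) hx'

theorem gal_smul_mem_RA0 (g : A.decompositionSubgroup ℚ) {x : modularFunctionFieldBar N}
    (hx : x ∈ RA0 N A) :
    gal N (g : AlgebraicClosure ℚ ≃ₐ[ℚ] AlgebraicClosure ℚ) • x ∈ RA0 N A := by
  have h := gal_smul_mem_chartA g hx
  rwa [gal_smul_jbar] at h

theorem gal_smul_mem_RAinf (g : A.decompositionSubgroup ℚ) {x : modularFunctionFieldBar N}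
    (hx : x ∈ RAinf N A) :
    gal N (g : AlgebraicClosure ℚ ≃ₐ[ℚ] AlgebraicClosure ℚ) • x ∈ RAinf N A := by
  have h := gal_smul_mem_chartA g hx
  rwa [smul_inv'', gal_smul_jbar] at h

theorem inChart0_smul (g : A.decompositionSubgroup ℚ)
    {P : Place (AlgebraicClosure ℚ) (modularFunctionFieldBar N)} (hP : InChart0 N A P) :
    InChart0 N A (gal N (g : AlgebraicClosure ℚ ≃ₐ[ℚ] AlgebraicClosure ℚ) • P) := by
  obtain ⟨c, hc⟩ := hP
  refine ⟨actA g c, ?_⟩
  have h := valAt_smul (gal N (g : AlgebraicClosure ℚ ≃ₐ[ℚ] AlgebraicClosure ℚ)) hc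
  rwa [gal_smul_jbar] at h

theorem inCusp_smul (g : A.decompositionSubgroup ℚ)
    {P : Place (AlgebraicClosure ℚ) (modularFunctionFieldBar N)} (hP : InCusp N A P) :
    InCusp N A (gal N (g : AlgebraicClosure ℚ ≃ₐ[ℚ] AlgebraicClosure ℚ) • P) := by
  obtain ⟨c, hcm, hc⟩ := hP
  refine ⟨actA g c, actA_mem_maximalIdeal g hcm, ?_⟩
  have h := valAt_smul (gal N (g : AlgebraicClosure ℚ ≃ₐ[ℚ] AlgebraicClosure ℚ)) hc
  rwa [smul_inv'', gal_smul_jbar] at h

/-! ### Equivariance -/

set_option maxHeartbeats 1600000 in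
/-- The equivariance at a place `u`, from `EvalRed` at `u` and at `g • u` on a chart ring `R`
stable under `g⁻¹` whose reduced functions separate the places of `F_k`. -/
theorem eq_of_evalRed
    (r : Place (AlgebraicClosure ℚ) (modularFunctionFieldBar N) →
      Place (IsLocalRing.ResidueField A) (modularFunctionFieldFullC (IsLocalRing.ResidueField A) N))
    (R : Subring (modularFunctionFieldBar N)) (g : A.decompositionSubgroup ℚ)
    (hR : ∀ x ∈ R,
      gal N ((g⁻¹ : A.decompositionSubgroup ℚ) :
        AlgebraicClosure ℚ ≃ₐ[ℚ] AlgebraicClosure ℚ) • x ∈ R)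
    (hsep : SeparatesPlaces N A R)
    (u : Place (AlgebraicClosure ℚ) (modularFunctionFieldBar N))
    (h1 : EvalRed N A r R (gal N (g : AlgebraicClosure ℚ ≃ₐ[ℚ] AlgebraicClosure ℚ) • u))
    (h2 : EvalRed N A r R u) :
    r (gal N (g : AlgebraicClosure ℚ ≃ₐ[ℚ] AlgebraicClosure ℚ) • u) = decompSL A N g • r u := by
  apply hsep
  intro x hx X hk hX
  obtain ⟨c₁, X₁, hk₁, hX₁, hv₁, hr₁⟩ := h1 x hx
  obtain rfl : X₁ = X := coeffMap_subtype_injective (hX₁.trans hX.symm)
  obtain ⟨c₂, X₂, hk₂, hX₂, hv₂, hr₂⟩ := h2 _ (hR x hx)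
  -- the `q`-expansion of `g⁻¹ x`
  have hX₂' : X₂ = coeffMap (actA g⁻¹) X₁ := by
    apply coeffMap_subtype_injective
    rw [hX₂, coeffMap_subtype_actA, hX]
    rfl
  subst hX₂'
  -- the value of `x` at `g • u`
  have hv : ValAt (gal N (g : AlgebraicClosure ℚ ≃ₐ[ℚ] AlgebraicClosure ℚ) • u) x
      ((actA g c₂ : A) : AlgebraicClosure ℚ) := by
    have h := valAt_smul (gal N (g : AlgebraicClosure ℚ ≃ₐ[ℚ] AlgebraicClosure ℚ)) hv₂
    have e : gal N (g : AlgebraicClosure ℚ ≃ₐ[ℚ] AlgebraicClosure ℚ) •
        gal N ((g⁻¹ : A.decompositionSubgroup ℚ) :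
          AlgebraicClosure ℚ ≃ₐ[ℚ] AlgebraicClosure ℚ) • x = x := by
      rw [← mul_smul, ← map_mul]
      have : (g : AlgebraicClosure ℚ ≃ₐ[ℚ] AlgebraicClosure ℚ) *
          ((g⁻¹ : A.decompositionSubgroup ℚ) :
            AlgebraicClosure ℚ ≃ₐ[ℚ] AlgebraicClosure ℚ) = 1 := by
        rw [← Subgroup.coe_mul, mul_inv_cancel, Subgroup.coe_one]
      rw [this, map_one, one_smul]
    rw [e] at h
    exact h
  have hc : c₁ = actA g c₂ := Subtype.ext (valAt_unique hv₁ hv)
  -- the value of the reduction at `decompSL g • r u`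
  have hr : ValAt (decompSL A N g • r u)
      (⟨coeffMap (IsLocalRing.residue A) X₁, hk⟩ :
        modularFunctionFieldFullC (IsLocalRing.ResidueField A) N)
      (IsLocalRing.residue A c₁) := by
    have h := valAt_smul (decompSL A N g) hr₂
    have e1 : decompSL A N g •
        (⟨coeffMap (IsLocalRing.residue A) (coeffMap (actA g⁻¹) X₁), hk₂⟩ :
          modularFunctionFieldFullC (IsLocalRing.ResidueField A) N)
        = ⟨coeffMap (IsLocalRing.residue A) X₁, hk⟩ := by
      apply Subtype.ext
      show coeffMap ((resAut A g : IsLocalRing.ResidueField A ≃+* IsLocalRing.ResidueField A) :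
          IsLocalRing.ResidueField A →+* IsLocalRing.ResidueField A)
          (coeffMap (IsLocalRing.residue A) (coeffMap (actA g⁻¹) X₁))
        = coeffMap (IsLocalRing.residue A) X₁
      rw [← coeffMap_residue_actA, coeffMap_coeffMap (actA g) (actA g⁻¹)]
      have : (actA g).comp (actA g⁻¹) = RingHom.id A :=
        RingHom.ext fun a => smul_inv_smul g a
      rw [this, coeffMap_id]
    have e2 : SemilinearAut.baseAut (decompSL A N g) (IsLocalRing.residue A c₂)
        = IsLocalRing.residue A c₁ := by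
      rw [hc]
      rfl
    rw [e1, e2] at h
    exact h
  exact ⟨IsLocalRing.residue A c₁, hr₁, hr⟩

/-- **Block [EQ]**: a place map with the API is equivariant for the decomposition group. -/
theorem eqStatement (N ℓ : ℕ) [NeZero N] : Plan.EQStatement N ℓ := by
  intro _ _ A _ r hr g u
  rcases hr.cover u with hu | hu
  · exact eq_of_evalRed r (RA0 N A) g (fun x hx => gal_smul_mem_RA0 g⁻¹ hx) hr.sep0 u
      (hr.red0 _ (inChart0_smul g hu)) (hr.red0 u hu)
  · exact eq_of_evalRed r (RAinf N A) g (fun x hx => gal_smul_mem_RAinf g⁻¹ hx) hr.sepInf u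
      (hr.redInf _ (inCusp_smul g hu)) (hr.redInf u hu)

end Modular

end

end Fermat.Agent.S37.EQ
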