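/-
S37 block [H] (owner: helper53): the norm formula `∑_{w ∣ v} ord_w f = ord_v (N f)` at a place
`v` of `F` attached to a height-one prime of a Dedekind domain `R ⊆ F`.
-/
import Mathlib
import Fermat.Prelude.Def_AlgebraicCurve_DivisorPushPull
import Fermat.Agent.S24.PlacesDedekind
import Fermat.Agent.S37.HIDed
import Fermat.Agent.S37.HIInertia
import Fermat.Agent.S37.HIPlaces

set_option autoImplicit false

open AlgebraicCurve IsDedekindDomain

namespace Fermat.Agent.S37.HI

variable {K F F' : Type*} [Field K] [Field F] [Field F'] [Algebra K F] [Algebra K F']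
  [Algebra F F'] [IsScalarTower K F F'] [FiniteDimensional F F']
variable {R S : Type*} [CommRing R] [IsDedekindDomain R] [CommRing S] [IsDedekindDomain S]
  [Algebra K R] [Algebra R F] [IsScalarTower K R F] [IsFractionRing R F]
  [Algebra K S] [Algebra S F'] [IsScalarTower K S F'] [IsFractionRing S F']
  [Algebra R S] [Algebra R F'] [IsScalarTower R F F'] [IsScalarTower R S F']
  [IsScalarTower K R S] [IsIntegralClosure S R F'] [Module.Finite R S]
  [Module.IsTorsionFree R S] [PerfectField (FractionRing R)]

omit [IsScalarTower K R S] [IsIntegralClosure S R F'] [Module.IsTorsionFree R S]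
  [PerfectField (FractionRing R)] in
/-- Re-indexing of a finite sum over the places of `F'` above the place attached to `P` by the
height-one primes of `S` above `P`. -/
theorem HINormDed_finsum_places_eq_finsum_primes (P : HeightOneSpectrum R) (g : F') :
    ∑ᶠ (w : Place K F') (_ : w.restrict F = Place.ofHeightOneSpectrum (K := K) (F := F) P),
        w.ord g
      = ∑ᶠ (Q : HeightOneSpectrum S) (_ : Q.asIdeal.under R = P.asIdeal),
          (Place.ofHeightOneSpectrum (K := K) (F := F') Q).ord g := by
  have hset := setOf_restrict_eq (K := K) (F := F) (F' := F') (S := S) P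
  have hinj : Set.InjOn
      (fun Q : HeightOneSpectrum S => Place.ofHeightOneSpectrum (K := K) (F := F') Q)
      {Q : HeightOneSpectrum S | Q.asIdeal.under R = P.asIdeal} :=
    (Fermat.Agent.S24.ofHeightOneSpectrum_injective (K := K) (F := F') (R := S)).injOn
  calc ∑ᶠ (w : Place K F')
          (_ : w.restrict F = Place.ofHeightOneSpectrum (K := K) (F := F) P), w.ord g
      = ∑ᶠ w ∈ {w : Place K F' |
          w.restrict F = Place.ofHeightOneSpectrum (K := K) (F := F) P}, w.ord g := rfl
    _ = ∑ᶠ w ∈ (fun Q : HeightOneSpectrum S =>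
          Place.ofHeightOneSpectrum (K := K) (F := F') Q) ''
            {Q : HeightOneSpectrum S | Q.asIdeal.under R = P.asIdeal}, w.ord g := by
        rw [hset]
    _ = ∑ᶠ Q ∈ {Q : HeightOneSpectrum S | Q.asIdeal.under R = P.asIdeal},
          (Place.ofHeightOneSpectrum (K := K) (F := F') Q).ord g :=
        finsum_mem_image hinj
    _ = _ := rfl

/-- Norm formula at the place attached to `P`, for elements of `S`. -/
theorem finsum_ord_eq_ord_norm_of_mem
    (hres : ∀ Q : HeightOneSpectrum S, Function.Surjective (algebraMap K (S ⧸ Q.asIdeal)))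
    (P : HeightOneSpectrum R) (x : S) (hx : x ≠ 0) :
    ∑ᶠ (w : Place K F') (_ : w.restrict F = Place.ofHeightOneSpectrum (K := K) (F := F) P),
        w.ord (algebraMap S F' x)
      = (Place.ofHeightOneSpectrum (K := K) (F := F) P).ord
          (Algebra.norm F (algebraMap S F' x)) := by
  rw [HINormDed_finsum_places_eq_finsum_primes (K := K) (F := F) (F' := F') (S := S) P]
  -- the right-hand side, through the integral norm
  have hnorm : Algebra.norm F (algebraMap S F' x) = algebraMap R F (Algebra.intNorm R S x) :=
    (Algebra.algebraMap_intNorm (A := R) (K := F) (L := F') (B := S) x).symm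
  rw [hnorm, Fermat.Agent.S24.ord_ofHeightOneSpectrum (K := K) (F := F) P,
    HeightOneSpectrum.valuation_of_algebraMap, log_intValuation_intNorm P x hx]
  -- compare the two sums term by term
  refine finsum_mem_congr rfl ?_
  intro Q hQ
  have hQ' : Q.asIdeal.under R = P.asIdeal := hQ
  have hbot : Q.asIdeal.under R ≠ ⊥ := by
    rw [hQ']
    exact P.ne_bot
  rw [Fermat.Agent.S24.ord_ofHeightOneSpectrum (K := K) (F := F') Q,
    HeightOneSpectrum.valuation_of_algebraMap,
    inertiaDeg_eq_one_of_surjective (K := K) (R := R) Q hbot (hres Q)]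
  simp

/-- Norm formula at the place attached to `P`. -/
theorem finsum_ord_eq_ord_norm
    (hres : ∀ Q : HeightOneSpectrum S, Function.Surjective (algebraMap K (S ⧸ Q.asIdeal)))
    (P : HeightOneSpectrum R) (f : F') (hf : f ≠ 0) :
    ∑ᶠ (w : Place K F') (_ : w.restrict F = Place.ofHeightOneSpectrum (K := K) (F := F) P),
        w.ord f
      = (Place.ofHeightOneSpectrum (K := K) (F := F) P).ord (Algebra.norm F f) := by
  obtain ⟨a, b, hb, rfl⟩ := IsFractionRing.div_surjective (A := S) f
  have hb0 : b ≠ 0 := nonZeroDivisors.ne_zero hb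
  have hbF : algebraMap S F' b ≠ 0 := by
    intro h
    exact hb0 ((IsFractionRing.injective S F') (by rw [h, map_zero]))
  have haF : algebraMap S F' a ≠ 0 := by
    intro h
    apply hf
    rw [h, zero_div]
  have ha0 : a ≠ 0 := by
    rintro rfl
    exact haF (map_zero _)
  have hfin : {w : Place K F' |
      w.restrict F = Place.ofHeightOneSpectrum (K := K) (F := F) P}.Finite := by
    rw [setOf_restrict_eq (K := K) (F := F) (F' := F') (S := S) P]
    exact (finite_setOf_under_eq (R := R) (S := S) P).image _
  have hNa : Algebra.norm F (algebraMap S F' a) ≠ 0 := Algebra.norm_ne_zero_iff.mpr haF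
  have hNb : Algebra.norm F (algebraMap S F' b) ≠ 0 := Algebra.norm_ne_zero_iff.mpr hbF
  have hord : ∀ w : Place K F', w.ord (algebraMap S F' a / algebraMap S F' b)
      = w.ord (algebraMap S F' a) - w.ord (algebraMap S F' b) := by
    intro w
    rw [div_eq_mul_inv, w.ord_mul haF (inv_ne_zero hbF), w.ord_inv, sub_eq_add_neg]
  have hNdiv : Algebra.norm F (algebraMap S F' a / algebraMap S F' b)
      = Algebra.norm F (algebraMap S F' a) / Algebra.norm F (algebraMap S F' b) := by
    rw [eq_div_iff hNb, ← map_mul, div_mul_cancel₀ _ hbF]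
  calc ∑ᶠ (w : Place K F')
          (_ : w.restrict F = Place.ofHeightOneSpectrum (K := K) (F := F) P),
          w.ord (algebraMap S F' a / algebraMap S F' b)
      = ∑ᶠ (w : Place K F')
          (_ : w.restrict F = Place.ofHeightOneSpectrum (K := K) (F := F) P),
          (w.ord (algebraMap S F' a) - w.ord (algebraMap S F' b)) := by
        refine finsum_congr fun w => ?_
        rw [hord w]
    _ = ∑ᶠ (w : Place K F')
          (_ : w.restrict F = Place.ofHeightOneSpectrum (K := K) (F := F) P),
            w.ord (algebraMap S F' a)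
        - ∑ᶠ (w : Place K F')
          (_ : w.restrict F = Place.ofHeightOneSpectrum (K := K) (F := F) P),
            w.ord (algebraMap S F' b) :=
        finsum_mem_sub_distrib _ _ hfin
    _ = (Place.ofHeightOneSpectrum (K := K) (F := F) P).ord
            (Algebra.norm F (algebraMap S F' a))
        - (Place.ofHeightOneSpectrum (K := K) (F := F) P).ord
            (Algebra.norm F (algebraMap S F' b)) := by
        rw [finsum_ord_eq_ord_norm_of_mem hres P a ha0, finsum_ord_eq_ord_norm_of_mem hres P b hb0]
    _ = (Place.ofHeightOneSpectrum (K := K) (F := F) P).ord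
          (Algebra.norm F (algebraMap S F' a / algebraMap S F' b)) := by
        rw [hNdiv, div_eq_mul_inv, Place.ord_mul _ hNa (inv_ne_zero hNb), Place.ord_inv,
          sub_eq_add_neg]

end Fermat.Agent.S37.HI
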