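/-
S37 — [PM] leaf (helper48): integral Laurent series.

`O` a discrete valuation ring, `φ : O →+* L` an injective homomorphism into a field.
If `x ∈ L((q))` is a quotient `a / b` of two Laurent series with coefficients in `O` and `x` is
integral over `O((q))`, then `x` has coefficients in `O`.

(`O((q))` is integrally closed in its fraction field, but NOT in `L((q))`: the hypothesis
`x · b = a` cannot be dropped, e.g. `x = √(1 + q)` over `ℤ_(2)`.)

Proof.  Let `p` be monic of degree `d` with `p(x) = 0`.  Reducing modulo `p` shows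
`b^d · f(x) ∈ O((q))` for every `f ∈ O((q))[X]`.  If some coefficient of `x` is not in `O`, let
`m` be the first such index and `z = x - Y`, `Y ∈ O((q))` the part of `x` below `m`; then
`b^d · z^n ∈ O((q))` for all `n`, and comparing leading coefficients
`lc(b)^d · x_m^n ∈ O` for all `n`, which forces `x_m ∈ O` (a discrete valuation ring is
completely integrally closed).
-/
import Mathlib
import Fermat.Prelude.Def_ModularCurve_LaurentCoeff

set_option autoImplicit false

namespace Fermat.Agent.S37.IntLaurent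

open ModularCurve

variable {O L : Type*} [CommRing O] [IsDomain O] [IsDiscreteValuationRing O] [Field L]

/-- A discrete valuation ring is completely integrally closed (form used below). -/
theorem mem_range_of_forall_pow (φ : O →+* L) (hφ : Function.Injective φ) (β : O) (hβ : β ≠ 0)
    (ξ : L) (h : ∀ n : ℕ, ∃ c : O, φ β * ξ ^ n = φ c) : ∃ c : O, ξ = φ c := by
  have hφβ : φ β ≠ 0 := fun h0 => hβ (hφ (by rw [h0, map_zero]))
  obtain ⟨c₁, hc₁⟩ := h 1
  rw [pow_one] at hc₁
  have hdvd : β ∣ c₁ → ∃ c : O, ξ = φ c := by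
    rintro ⟨c, rfl⟩
    refine ⟨c, ?_⟩
    rw [map_mul] at hc₁
    exact mul_left_cancel₀ hφβ hc₁
  rcases ValuationRing.dvd_total β c₁ with h1 | ⟨w, hw⟩
  · exact hdvd h1
  · by_cases hwu : IsUnit w
    · obtain ⟨u, rfl⟩ := hwu
      exact hdvd ⟨(↑u⁻¹ : O), by rw [hw, mul_assoc, Units.mul_inv, mul_one]⟩
    · exfalso
      have hc₁0 : φ c₁ ≠ 0 := by
        intro h0
        apply hφβ
        rw [hw, map_mul, h0, zero_mul]
      have hwξ : φ w * ξ = 1 := by
        have h2 : φ c₁ * (φ w * ξ) = φ c₁ * 1 := by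
          rw [mul_one, ← mul_assoc, ← map_mul, ← hw, hc₁]
        exact mul_left_cancel₀ hc₁0 h2
      obtain ⟨n, hn⟩ := FiniteMultiplicity.of_not_isUnit hwu hβ
      obtain ⟨c, hc⟩ := h (n + 1)
      apply hn
      refine ⟨c, hφ ?_⟩
      rw [map_mul, map_pow, mul_comm, ← hc]
      have h3 : φ β * ξ ^ (n + 1) * φ w ^ (n + 1) = φ β * (φ w * ξ) ^ (n + 1) := by ring
      rw [h3, hwξ, one_pow, mul_one]

omit [IsDomain O] [IsDiscreteValuationRing O] in
theorem coeffMap_injective (φ : O →+* L) (hφ : Function.Injective φ) :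
    Function.Injective (coeffMap φ) := by
  intro x y h
  ext n
  apply hφ
  have h1 := congrArg (fun z : LaurentSeries L => z.coeff n) h
  simpa using h1

omit [IsDomain O] [IsDiscreteValuationRing O] in
/-- Denominators of the ring `O((q))[x]` are bounded by `b ^ d`. -/
theorem exists_mul_eval₂_eq (φ : O →+* L) (x : LaurentSeries L) (a b : LaurentSeries O)
    (hab : x * coeffMap φ b = coeffMap φ a) (p : Polynomial (LaurentSeries O)) (hp : p.Monic)
    (hpx : p.eval₂ (coeffMap φ) x = 0) (f : Polynomial (LaurentSeries O)) :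
    ∃ W : LaurentSeries O,
      coeffMap φ b ^ p.natDegree * f.eval₂ (coeffMap φ) x = coeffMap φ W := by
  have hp1 : p ≠ 1 := by
    rintro rfl
    rw [Polynomial.eval₂_one] at hpx
    exact one_ne_zero hpx
  have h1 : f.eval₂ (coeffMap φ) x = (f %ₘ p).eval₂ (coeffMap φ) x :=
    (Polynomial.eval₂_modByMonic_eq_self_of_root hpx).symm
  have h2 := Polynomial.eval₂_eq_sum_range' (coeffMap φ)
    (Polynomial.natDegree_modByMonic_lt f hp hp1) x
  refine ⟨∑ i ∈ Finset.range p.natDegree, (f %ₘ p).coeff i * b ^ (p.natDegree - i) * a ^ i, ?_⟩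
  rw [h1, h2, Finset.mul_sum, map_sum]
  refine Finset.sum_congr rfl fun i hi => ?_
  have hi' : i ≤ p.natDegree := (Finset.mem_range.mp hi).le
  rw [map_mul, map_mul, map_pow, map_pow, ← hab]
  have h3 : coeffMap φ b ^ p.natDegree =
      coeffMap φ b ^ (p.natDegree - i) * coeffMap φ b ^ i := by
    rw [← pow_add, Nat.sub_add_cancel hi']
  rw [h3]
  ring

omit [IsDomain O] [IsDiscreteValuationRing O] in
/-- A Laurent series over `L` all of whose coefficients lie in the image of `φ` comes from a
Laurent series over `O`. -/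
theorem exists_of_coeff_mem_range (φ : O →+* L) (hφ : Function.Injective φ)
    (x : LaurentSeries L) (h : ∀ n, x.coeff n ∈ φ.range) :
    ∃ X : LaurentSeries O, coeffMap φ X = x := by
  choose y hy using h
  have hsupp : BddBelow (Function.support y) := by
    refine ⟨x.order, fun n hn => ?_⟩
    apply HahnSeries.order_le_of_coeff_ne_zero
    intro h0
    apply hn
    apply hφ
    rw [hy, h0, map_zero]
  refine ⟨HahnSeries.ofSuppBddBelow y hsupp, ?_⟩
  ext n
  rw [coeffMap_coeff, HahnSeries.coeff_ofSuppBddBelow, hy]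

/-- **Integral Laurent series.** -/
theorem exists_coeffMap_eq_of_isIntegralElem (φ : O →+* L) (hφ : Function.Injective φ)
    (x : LaurentSeries L) (a b : LaurentSeries O) (hb : b ≠ 0)
    (hab : x * coeffMap φ b = coeffMap φ a) (hx : (coeffMap φ).IsIntegralElem x) :
    ∃ X : LaurentSeries O, coeffMap φ X = x := by
  classical
  obtain ⟨p, hp, hpx⟩ := hx
  apply exists_of_coeff_mem_range φ hφ
  by_contra hcon
  -- the first bad index
  let S : Set ℤ := {n | x.coeff n ∉ φ.range}
  have hS : S.Nonempty := by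
    by_contra hne
    apply hcon
    intro n
    by_contra hn
    exact hne ⟨n, hn⟩
  have hSsub : S ⊆ x.support := by
    intro n hn
    rw [HahnSeries.mem_support]
    intro h0
    exact hn ⟨0, by rw [map_zero, h0]⟩
  have hwf : S.IsWF := x.isWF_support.mono hSsub
  set m := hwf.min hS with hm_def
  have hm : x.coeff m ∉ φ.range := hwf.min_mem hS
  have hlt : ∀ n, n < m → x.coeff n ∈ φ.range := by
    intro n hn
    by_contra h
    exact hwf.not_lt_min hS h hn
  -- the part of `x` below `m`
  let t : ℤ → L := fun n => if n < m then x.coeff n else 0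
  have ht : ∀ n, t n ∈ φ.range := by
    intro n
    by_cases hn : n < m
    · simp only [t, if_pos hn]
      exact hlt n hn
    · simp only [t, if_neg hn]
      exact ⟨0, map_zero φ⟩
  have htsupp : BddBelow (Function.support t) := by
    refine ⟨x.order, fun n hn => ?_⟩
    apply HahnSeries.order_le_of_coeff_ne_zero
    intro h0
    apply hn
    by_cases hnm : n < m
    · simp only [t, if_pos hnm]
      exact h0
    · simp only [t, if_neg hnm]
  obtain ⟨Y, hY⟩ := exists_of_coeff_mem_range φ hφ (HahnSeries.ofSuppBddBelow t htsupp)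
    (fun n => by rw [HahnSeries.coeff_ofSuppBddBelow]; exact ht n)
  set z : LaurentSeries L := x - coeffMap φ Y with hz
  have hzcoeff : ∀ n, z.coeff n = if n < m then 0 else x.coeff n := by
    intro n
    rw [hz, hY, HahnSeries.coeff_sub, HahnSeries.coeff_ofSuppBddBelow]
    by_cases hn : n < m
    · simp only [t, if_pos hn, sub_self]
    · simp only [t, if_neg hn, sub_zero]
  have hzm : z.coeff m = x.coeff m := by
    rw [hzcoeff, if_neg (lt_irrefl m)]
  have hxm0 : x.coeff m ≠ 0 := fun h0 => hm ⟨0, by rw [map_zero, h0]⟩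
  have hz0 : z ≠ 0 := by
    intro h0
    rw [h0, HahnSeries.coeff_zero] at hzm
    exact hxm0 hzm.symm
  have hzord : z.order = m := by
    apply le_antisymm
    · exact HahnSeries.order_le_of_coeff_ne_zero (by rw [hzm]; exact hxm0)
    · by_contra hlt'
      have h1 : z.coeff z.order = 0 := by
        rw [hzcoeff, if_pos (not_le.mp hlt')]
      exact hz0 (HahnSeries.coeff_order_eq_zero.mp h1)
  have hzlc : z.leadingCoeff = x.coeff m := by
    rw [HahnSeries.leadingCoeff_eq, hzord, hzm]
  -- the denominator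
  set B : LaurentSeries L := coeffMap φ b with hB
  have hB0 : B ≠ 0 := fun h0 => hb (coeffMap_injective φ hφ (by rw [← hB, h0, map_zero]))
  have hBlc : B.leadingCoeff = φ (b.coeff B.order) := by
    rw [HahnSeries.leadingCoeff_eq, hB, coeffMap_coeff]
  have hβ : b.coeff B.order ^ p.natDegree ≠ 0 := by
    apply pow_ne_zero
    intro h0
    have h1 : B.leadingCoeff = 0 := by rw [hBlc, h0, map_zero]
    exact hB0 (HahnSeries.leadingCoeff_eq_zero.mp h1)
  have hlcpow : ∀ (w : LaurentSeries L) (n : ℕ), (w ^ n).leadingCoeff = w.leadingCoeff ^ n := by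
    intro w n
    induction n with
    | zero => simp
    | succ n ih => rw [pow_succ, HahnSeries.leadingCoeff_mul, ih, pow_succ]
  -- `lc(b)^d * x_m^n ∈ φ(O)` for all `n`
  have hall : ∀ n : ℕ, ∃ c : O, φ (b.coeff B.order ^ p.natDegree) * x.coeff m ^ n = φ c := by
    intro n
    obtain ⟨W, hW⟩ := exists_mul_eval₂_eq φ x a b hab p hp hpx
      ((Polynomial.X - Polynomial.C Y) ^ n)
    rw [Polynomial.eval₂_pow, Polynomial.eval₂_sub, Polynomial.eval₂_X, Polynomial.eval₂_C,
      ← hz, ← hB] at hW
    have h1 : (B ^ p.natDegree * z ^ n).leadingCoeff =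
        φ (b.coeff B.order ^ p.natDegree) * x.coeff m ^ n := by
      rw [HahnSeries.leadingCoeff_mul, hlcpow, hlcpow, hBlc, hzlc, map_pow]
    refine ⟨W.coeff (B ^ p.natDegree * z ^ n).order, ?_⟩
    rw [← h1, HahnSeries.leadingCoeff_eq, hW, coeffMap_coeff]
  obtain ⟨c, hc⟩ := mem_range_of_forall_pow φ hφ _ hβ (x.coeff m) hall
  exact hm ⟨c, hc.symm⟩

end Fermat.Agent.S37.IntLaurent
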