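/-
S37 block [PM] (B-copy of helper48's `IntLaurent` leaf; owner of this file: helper19).

`O((q))` is integrally closed in its own fraction field, in the coefficientwise form needed for
"chart elements have integral `q`-expansions":  if `x ∈ L((q))` is a quotient `a / b` of two series
with coefficients in (the image of) a discrete valuation ring `O ⊆ L` and `x` is integral over
`O((q))`, then `x` has coefficients in `O`.

(The hypothesis `x = a / b` cannot be dropped: `√(9 + q) ∈ ℚ[[q]]` is integral over `ℤ_(3)[[q]]`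
but its coefficient of `q` is `1/6`.)

Proof: "almost integrality" on the lowest bad coefficient.  Mathlib + the prelude `coeffMap` only.
-/
import Mathlib
import Fermat.Prelude.Def_ModularCurve_LaurentCoeff

set_option autoImplicit false

open HahnSeries ModularCurve Polynomial

namespace Fermat.Agent.S37.IntLaurentB

section General

variable {O L : Type*} [CommRing O] [Field L]

/-- Leading coefficient of a power of a Laurent series over a field. -/
theorem leadingCoeff_pow_eq (x : LaurentSeries L) (m : ℕ) :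
    (x ^ m).leadingCoeff = x.leadingCoeff ^ m := by
  induction m with
  | zero => simp
  | succ m ih => rw [pow_succ, HahnSeries.leadingCoeff_mul, ih, pow_succ]

/-- A series all of whose coefficients lie in the range of `φ` is in the range of `coeffMap φ`. -/
theorem exists_coeffMap_eq_of_forall_coeff (φ : O →+* L) (x : LaurentSeries L)
    (h : ∀ i : ℤ, x.coeff i ∈ φ.range) : ∃ X : LaurentSeries O, coeffMap φ X = x := by
  classical
  choose g hg using h
  refine ⟨⟨fun i => if x.coeff i = 0 then 0 else g i, ?_⟩, ?_⟩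
  · refine x.isPWO_support.mono ?_
    intro i hi
    simp only [Function.mem_support, ne_eq] at hi ⊢
    intro h0
    exact hi (if_pos h0)
  · ext i
    rw [coeffMap_coeff]
    show φ (if x.coeff i = 0 then 0 else g i) = x.coeff i
    split_ifs with h0
    · rw [map_zero, h0]
    · exact hg i

/-- Truncation below `i₀` of a series, with coefficients chosen in `O`. -/
theorem exists_trunc (φ : O →+* L) (x : LaurentSeries L) (i₀ : ℤ)
    (h : ∀ i : ℤ, i < i₀ → x.coeff i ∈ φ.range) :
    ∃ T : LaurentSeries O, (∀ i : ℤ, i < i₀ → (coeffMap φ T).coeff i = x.coeff i) ∧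
      ∀ i : ℤ, i₀ ≤ i → (coeffMap φ T).coeff i = 0 := by
  classical
  have h' : ∀ i : ℤ, (if i < i₀ then x.coeff i else 0) ∈ φ.range := by
    intro i
    split_ifs with hi
    · exact h i hi
    · exact ⟨0, map_zero φ⟩
  let y : LaurentSeries L := ⟨fun i => if i < i₀ then x.coeff i else 0, by
    refine x.isPWO_support.mono ?_
    intro i hi
    simp only [Function.mem_support, ne_eq] at hi ⊢
    intro h0
    apply hi
    split_ifs
    · exact h0
    · rfl⟩
  obtain ⟨T, hT⟩ := exists_coeffMap_eq_of_forall_coeff φ y h'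
  refine ⟨T, fun i hi => ?_, fun i hi => ?_⟩
  · rw [hT]
    show (if i < i₀ then x.coeff i else 0) = x.coeff i
    rw [if_pos hi]
  · rw [hT]
    show (if i < i₀ then x.coeff i else 0) = 0
    rw [if_neg (not_lt.mpr hi)]

/-- **Almost integral ⇒ integral, coefficientwise.**  If `D · x ^ m` has coefficients in `O` for
all `m`, for one nonzero `D ∈ O((q))`, and `O ⊆ L` is "completely integrally closed" in the
elementwise form `hcic`, then `x` has coefficients in `O`. -/
theorem coeff_mem_range_of_mul_pow_mem (φ : O →+* L) (hφ : Function.Injective φ)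
    (hcic : ∀ (y : L) (d : O), d ≠ 0 → (∀ m : ℕ, φ d * y ^ m ∈ φ.range) → y ∈ φ.range)
    (x : LaurentSeries L) (D : LaurentSeries O) (hD : D ≠ 0)
    (h : ∀ m : ℕ, coeffMap φ D * x ^ m ∈ (coeffMap φ).range) :
    ∀ i : ℤ, x.coeff i ∈ φ.range := by
  classical
  by_contra hcon
  push Not at hcon
  -- the set of bad indices is well-founded
  have hsub : {i : ℤ | x.coeff i ∉ φ.range} ⊆ x.support := by
    intro i hi
    have hi : x.coeff i ∉ φ.range := hi
    simp only [HahnSeries.mem_support, ne_eq]
    intro h0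
    exact hi ⟨0, by rw [map_zero, h0]⟩
  have hwf : {i : ℤ | x.coeff i ∉ φ.range}.IsWF := x.isWF_support.mono hsub
  have hne : {i : ℤ | x.coeff i ∉ φ.range}.Nonempty := hcon
  set i₀ := hwf.min hne with hi₀
  have hi₀mem : x.coeff i₀ ∉ φ.range := hwf.min_mem hne
  have hlt : ∀ i : ℤ, i < i₀ → x.coeff i ∈ φ.range := by
    intro i hi
    by_contra hbad
    exact absurd (hwf.min_le hne hbad) (not_le.mpr hi)
  obtain ⟨T, hT1, hT2⟩ := exists_trunc φ x i₀ hlt
  set t : LaurentSeries L := coeffMap φ T with ht
  set x₁ : LaurentSeries L := x - t with hx₁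
  have hx₁lt : ∀ i : ℤ, i < i₀ → x₁.coeff i = 0 := by
    intro i hi
    rw [hx₁, HahnSeries.coeff_sub, hT1 i hi, sub_self]
  have hx₁i₀ : x₁.coeff i₀ = x.coeff i₀ := by
    rw [hx₁, HahnSeries.coeff_sub, hT2 i₀ le_rfl, sub_zero]
  have hx0 : x.coeff i₀ ≠ 0 := fun h0 => hi₀mem ⟨0, by rw [map_zero, h0]⟩
  have hx₁ne : x₁ ≠ 0 := by
    intro h0
    rw [h0] at hx₁i₀
    exact hx0 hx₁i₀.symm
  have hord : x₁.order = i₀ := by
    refine le_antisymm (HahnSeries.order_le_of_coeff_ne_zero (by rw [hx₁i₀]; exact hx0)) ?_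
    by_contra hlt'
    have := hx₁lt _ (not_le.mp hlt')
    have h2 : x₁.leadingCoeff = 0 := by rw [HahnSeries.leadingCoeff_eq]; exact this
    exact hx₁ne (HahnSeries.leadingCoeff_eq_zero.mp h2)
  have hlc : x₁.leadingCoeff = x.coeff i₀ := by
    rw [HahnSeries.leadingCoeff_eq, hord, hx₁i₀]
  -- `D · x₁ ^ m` is again integral
  have hS : ∀ m : ℕ, coeffMap φ D * x₁ ^ m ∈ (coeffMap φ).range := by
    intro m
    have hexp : x₁ ^ m = ∑ j ∈ Finset.range (m + 1), x ^ j * (-t) ^ (m - j) * (m.choose j : ℕ) := by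
      rw [hx₁, sub_eq_add_neg, add_pow]
    rw [hexp, Finset.mul_sum]
    refine Subring.sum_mem _ fun j _ => ?_
    have e : coeffMap φ D * (x ^ j * (-t) ^ (m - j) * (m.choose j : ℕ))
        = (coeffMap φ D * x ^ j) * ((-t) ^ (m - j) * (m.choose j : ℕ)) := by ring
    rw [e]
    refine Subring.mul_mem _ (h j) (Subring.mul_mem _ (Subring.pow_mem _ (Subring.neg_mem _ ?_) _)
      (natCast_mem _ _))
    exact ⟨T, rfl⟩
  -- leading coefficients
  set d : LaurentSeries L := coeffMap φ D with hd
  have hdne : d ≠ 0 := by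
    intro h0
    apply hD
    ext i
    have := congrArg (fun z : LaurentSeries L => z.coeff i) h0
    simp only [hd, coeffMap_coeff, HahnSeries.coeff_zero] at this
    rw [HahnSeries.coeff_zero]
    exact hφ (by rw [this, map_zero])
  have hdlc : d.leadingCoeff = φ (D.coeff d.order) := by
    rw [HahnSeries.leadingCoeff_eq, hd, coeffMap_coeff]
  have he : D.coeff d.order ≠ 0 := by
    intro h0
    have : d.leadingCoeff = 0 := by rw [hdlc, h0, map_zero]
    exact hdne (HahnSeries.leadingCoeff_eq_zero.mp this)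
  apply hi₀mem
  refine hcic (x.coeff i₀) (D.coeff d.order) he fun m => ?_
  obtain ⟨Z, hZ⟩ := hS m
  have h1 : (d * x₁ ^ m).leadingCoeff = φ (D.coeff d.order) * x.coeff i₀ ^ m := by
    rw [HahnSeries.leadingCoeff_mul, leadingCoeff_pow_eq, hlc, hdlc]
  rw [← h1, HahnSeries.leadingCoeff_eq, ← hZ, coeffMap_coeff]
  exact ⟨_, rfl⟩

/-- A common denominator for all powers of an integral quotient `x = a / b`. -/
theorem exists_denominator (φ : O →+* L) (hφ : Function.Injective φ)
    (x : LaurentSeries L) (a b : LaurentSeries O) (hb : b ≠ 0)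
    (hab : x * coeffMap φ b = coeffMap φ a)
    (hx : (coeffMap φ).IsIntegralElem x) :
    ∃ D : LaurentSeries O, D ≠ 0 ∧ ∀ m : ℕ, coeffMap φ D * x ^ m ∈ (coeffMap φ).range := by
  classical
  obtain ⟨p, hp, hpx⟩ := hx
  set n := p.natDegree with hn
  have hO : NoZeroDivisors O := hφ.noZeroDivisors φ (map_zero φ) (map_mul φ)
  refine ⟨b ^ n, pow_ne_zero _ hb, ?_⟩
  -- the relation `x ^ n = - ∑_{i < n} p_i x ^ i`
  have hrel : x ^ n = - ∑ i ∈ Finset.range n, coeffMap φ (p.coeff i) * x ^ i := by
    have h1 : ∑ i ∈ Finset.range (n + 1), coeffMap φ (p.coeff i) * x ^ i = 0 := by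
      rw [← Polynomial.eval₂_eq_sum_range]
      exact hpx
    rw [Finset.sum_range_succ, hn, hp.coeff_natDegree, map_one, one_mul] at h1
    rw [← hn] at h1
    rw [eq_neg_iff_add_eq_zero, add_comm]
    exact h1
  intro m
  induction m using Nat.strong_induction_on with
  | _ m ih =>
    rcases lt_or_ge m n with hmn | hmn
    · -- `b ^ n x ^ m = b ^ (n - m) a ^ m`
      refine ⟨b ^ (n - m) * a ^ m, ?_⟩
      rw [map_mul, map_pow, map_pow, ← hab, mul_pow, map_pow]
      have : coeffMap φ b ^ n = coeffMap φ b ^ (n - m) * coeffMap φ b ^ m := by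
        rw [← _root_.pow_add, Nat.sub_add_cancel hmn.le]
      rw [this]
      ring
    · -- reduce the exponent with the integral equation
      have hm : x ^ m = - ∑ i ∈ Finset.range n, coeffMap φ (p.coeff i) * x ^ (m - n + i) := by
        have : x ^ m = x ^ (m - n) * x ^ n := by rw [← _root_.pow_add, Nat.sub_add_cancel hmn]
        rw [this, hrel, mul_neg, Finset.mul_sum]
        congr 1
        refine Finset.sum_congr rfl fun i _ => ?_
        rw [_root_.pow_add]
        ring
      rw [hm, mul_neg, Finset.mul_sum]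
      refine Subring.neg_mem _ (Subring.sum_mem _ fun i hi => ?_)
      have hi' : m - n + i < m := by
        have := Finset.mem_range.mp hi
        omega
      have e : coeffMap φ (b ^ n) * (coeffMap φ (p.coeff i) * x ^ (m - n + i))
          = coeffMap φ (p.coeff i) * (coeffMap φ (b ^ n) * x ^ (m - n + i)) := by ring
      rw [e]
      exact Subring.mul_mem _ ⟨_, rfl⟩ (ih _ hi')

/-- **General form.** -/
theorem exists_coeffMap_eq_of_cic (φ : O →+* L) (hφ : Function.Injective φ)
    (hcic : ∀ (y : L) (d : O), d ≠ 0 → (∀ m : ℕ, φ d * y ^ m ∈ φ.range) → y ∈ φ.range)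
    (x : LaurentSeries L) (a b : LaurentSeries O) (hb : b ≠ 0)
    (hab : x * coeffMap φ b = coeffMap φ a)
    (hx : (coeffMap φ).IsIntegralElem x) :
    ∃ X : LaurentSeries O, coeffMap φ X = x := by
  obtain ⟨D, hD, hDx⟩ := exists_denominator φ hφ x a b hb hab hx
  exact exists_coeffMap_eq_of_forall_coeff φ x
    (coeff_mem_range_of_mul_pow_mem φ hφ hcic x D hD hDx)

end General

section DVR

variable {O L : Type*} [CommRing O] [IsDomain O] [IsDiscreteValuationRing O] [Field L]

/-- A discrete valuation ring is completely integrally closed (fraction-field form). -/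
theorem cic_fractionRing (y : FractionRing O) (d : O) (hd : d ≠ 0)
    (h : ∀ m : ℕ, algebraMap O (FractionRing O) d * y ^ m ∈ (algebraMap O (FractionRing O)).range) :
    y ∈ (algebraMap O (FractionRing O)).range := by
  by_contra hy
  have hy0 : y ≠ 0 := fun h0 => hy ⟨0, by rw [map_zero, h0]⟩
  rcases ValuationRing.isInteger_or_isInteger O y with ⟨z, hz⟩ | ⟨z, hz⟩
  · exact hy ⟨z, hz⟩
  · -- `y⁻¹ = z` with `z` a non-unit
    have hznu : z ∈ IsLocalRing.maximalIdeal O := by
      rw [IsLocalRing.mem_maximalIdeal, mem_nonunits_iff]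
      intro hu
      obtain ⟨u, rfl⟩ := hu
      apply hy
      refine ⟨((u⁻¹ : Oˣ) : O), ?_⟩
      have h1 : algebraMap O (FractionRing O) ((u⁻¹ : Oˣ) : O) * algebraMap O (FractionRing O) (u : O)
          = 1 := by
        rw [← map_mul, Units.inv_mul, map_one]
      rw [hz] at h1
      exact (eq_inv_of_mul_eq_one_left h1).trans (inv_inv y)
    have hmem : ∀ m : ℕ, d ∈ (IsLocalRing.maximalIdeal O) ^ m := by
      intro m
      obtain ⟨o, ho⟩ := h m
      have h2 : d = o * z ^ m := by
        apply IsFractionRing.injective O (FractionRing O)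
        rw [map_mul, map_pow, hz, ho, inv_pow, mul_assoc, mul_inv_cancel₀ (pow_ne_zero m hy0),
          mul_one]
      rw [h2]
      exact Ideal.mul_mem_left _ _ (Ideal.pow_mem_pow hznu m)
    have hbot : (⨅ i : ℕ, (IsLocalRing.maximalIdeal O) ^ i) = ⊥ :=
      Ideal.iInf_pow_eq_bot_of_isLocalRing _ (IsLocalRing.maximalIdeal.isMaximal O).ne_top
    have : d ∈ (⊥ : Ideal O) := by
      rw [← hbot, Ideal.mem_iInf]
      exact hmem
    exact hd ((Ideal.mem_bot).mp this)

/-- A discrete valuation ring is completely integrally closed, for an arbitrary embedding into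
a field. -/
theorem cic_of_injective (φ : O →+* L) (hφ : Function.Injective φ)
    (y : L) (d : O) (hd : d ≠ 0) (h : ∀ m : ℕ, φ d * y ^ m ∈ φ.range) : y ∈ φ.range := by
  let ψ : FractionRing O →+* L := IsFractionRing.lift hφ
  have hψ : ∀ o : O, ψ (algebraMap O (FractionRing O) o) = φ o := fun o =>
    IsFractionRing.lift_algebraMap hφ o
  have hψinj : Function.Injective ψ := ψ.injective
  have hd' : φ d ≠ 0 := fun h0 => hd (hφ (by rw [h0, map_zero]))
  obtain ⟨o₁, ho₁⟩ := h 1
  rw [pow_one] at ho₁
  set y' : FractionRing O :=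
    algebraMap O (FractionRing O) o₁ / algebraMap O (FractionRing O) d with hy'
  have hyy' : ψ y' = y := by
    rw [hy', map_div₀, hψ, hψ, ho₁, mul_div_cancel_left₀ _ hd']
  have h' : ∀ m : ℕ, algebraMap O (FractionRing O) d * y' ^ m ∈
      (algebraMap O (FractionRing O)).range := by
    intro m
    obtain ⟨o, ho⟩ := h m
    refine ⟨o, hψinj ?_⟩
    rw [hψ, ho, map_mul, map_pow, hψ, hyy']
  obtain ⟨z, hz⟩ := cic_fractionRing y' d hd h'
  exact ⟨z, by rw [← hψ, hz, hyy']⟩

/-- **`O((q))` is integrally closed in its fraction field, coefficientwise form** (statement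
verbatim as helper48's `IntLaurent.exists_coeffMap_eq_of_isIntegralElem`). -/
theorem exists_coeffMap_eq_of_isIntegralElem (φ : O →+* L) (hφ : Function.Injective φ)
    (x : LaurentSeries L) (a b : LaurentSeries O) (hb : b ≠ 0)
    (hab : x * coeffMap φ b = coeffMap φ a)
    (hx : (coeffMap φ).IsIntegralElem x) :
    ∃ X : LaurentSeries O, coeffMap φ X = x :=
  exists_coeffMap_eq_of_cic φ hφ (cic_of_injective φ hφ) x a b hb hab hx

end DVR

end Fermat.Agent.S37.IntLaurentB
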