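/-
S37 block [PM] (conservation of number), abstract Mathlib-only core (helper43).

`R` a noetherian ring (a chart ring at a finite level), `n` a maximal ideal of `R` such that
`n R_n = (π, t)` (the Igusa conclusion at the closed point `n`), and `e : R → B` a ring map into
a domain (evaluation at a place `P` centred at `n`) with `e π ≠ 0` and `e t = 0`.  Then locally at
`n` the kernel of `e` is generated by `t`:

    `e y = 0  →  ∃ c ∉ n, ∃ z, c * y = t * z`.

Proof: `ker e ⊆ (t) + π · ker e` locally (apply `e` to `c f = u π + v t`), then Nakayama in `R_n`.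
-/
import Mathlib

set_option autoImplicit false

namespace Fermat.Agent.S37.LocDiv

/-- Nakayama in a noetherian local ring: `I ≤ (t) + (π) I` with `π` in the maximal ideal gives
`I ≤ (t)`. -/
theorem le_span_of_le_span_sup_smul {S : Type*} [CommRing S] [IsLocalRing S]
    [IsNoetherianRing S] (I : Ideal S) (π t : S) (hπ : π ∈ IsLocalRing.maximalIdeal S)
    (h : I ≤ Ideal.span {t} ⊔ Ideal.span {π} • I) : I ≤ Ideal.span {t} :=
  Submodule.le_of_le_smul_of_le_jacobson_bot (IsNoetherian.noetherian I)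
    (((Ideal.span_singleton_le_iff_mem _).2 hπ).trans (IsLocalRing.maximalIdeal_le_jacobson ⊥)) h

/-- The localised kernel of a point `e` centred at `n` is contained in `(t)` when
`n R_n = (π, t)`, `e π ≠ 0`, `e t = 0`. -/
theorem map_ker_le_span {R B : Type*} [CommRing R] [IsNoetherianRing R] [CommRing B] [IsDomain B]
    (π t : R) (n : Ideal R) [n.IsMaximal] (hπn : π ∈ n)
    (hIg : ∀ x ∈ n, ∃ c, c ∉ n ∧ c * x ∈ Ideal.span {π, t})
    (e : R →+* B) (hker : ∀ x, e x = 0 → x ∈ n) (heπ : e π ≠ 0) (het : e t = 0) :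
    (RingHom.ker e).map (algebraMap R (Localization.AtPrime n)) ≤
      Ideal.span {algebraMap R (Localization.AtPrime n) t} := by
  set S := Localization.AtPrime n
  set I' : Ideal S := (RingHom.ker e).map (algebraMap R S) with hI'
  have hπS : algebraMap R S π ∈ IsLocalRing.maximalIdeal S := by
    rw [← Localization.AtPrime.map_eq_maximalIdeal]
    exact Ideal.mem_map_of_mem _ hπn
  refine le_span_of_le_span_sup_smul I' (algebraMap R S π) (algebraMap R S t) hπS ?_
  rw [hI', Ideal.map_le_iff_le_comap]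
  intro f hf
  rw [Ideal.mem_comap]
  have hfe : e f = 0 := hf
  obtain ⟨c, hc, hcf⟩ := hIg f (hker f hfe)
  obtain ⟨u, v, huv⟩ := Ideal.mem_span_pair.1 hcf
  have hu : e u = 0 := by
    have h1 : e u * e π = 0 := by
      have h2 : e (u * π + v * t) = e (c * f) := by rw [huv]
      rw [map_add, map_mul, map_mul, map_mul, het, hfe, mul_zero, mul_zero, add_zero] at h2
      exact h2
    exact (mul_eq_zero.1 h1).resolve_right heπ
  have hcu : IsUnit (algebraMap R S c) :=
    IsLocalization.map_units S (⟨c, hc⟩ : n.primeCompl)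
  have hmem : algebraMap R S c * algebraMap R S f ∈
      Ideal.span {algebraMap R S t} ⊔ Ideal.span {algebraMap R S π} • I' := by
    rw [← map_mul, ← huv, map_add, map_mul, map_mul, add_comm]
    refine Submodule.add_mem_sup ?_ ?_
    · exact Ideal.mul_mem_left _ _ (Ideal.subset_span rfl)
    · rw [mul_comm]
      exact Submodule.smul_mem_smul (Ideal.subset_span rfl) (Ideal.mem_map_of_mem _ hu)
  obtain ⟨w, hw⟩ := hcu.exists_left_inv
  have : algebraMap R S f = w * (algebraMap R S c * algebraMap R S f) := by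
    rw [← mul_assoc, hw, one_mul]
  rw [this]
  exact Ideal.mul_mem_left _ _ hmem

/-- **(LD1) Local division at a point.**  If `n R_n = (π, t)` and `e` is a point centred at `n`
with `e π ≠ 0`, `e t = 0`, then every `y` vanishing at `e` is locally at `n` divisible by `t`. -/
theorem exists_mul_eq_mul_of_eval_eq_zero {R B : Type*} [CommRing R] [IsNoetherianRing R]
    [CommRing B] [IsDomain B] (π t : R) (n : Ideal R) [n.IsMaximal] (hπn : π ∈ n)
    (hIg : ∀ x ∈ n, ∃ c, c ∉ n ∧ c * x ∈ Ideal.span {π, t})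
    (e : R →+* B) (hker : ∀ x, e x = 0 → x ∈ n) (heπ : e π ≠ 0) (het : e t = 0)
    (y : R) (hy : e y = 0) : ∃ c, c ∉ n ∧ ∃ z : R, c * y = t * z := by
  set S := Localization.AtPrime n
  have hmem : algebraMap R S y ∈ Ideal.span {algebraMap R S t} :=
    map_ker_le_span π t n hπn hIg e hker heπ het (Ideal.mem_map_of_mem _ hy)
  obtain ⟨w, hw⟩ := Ideal.mem_span_singleton'.1 hmem
  obtain ⟨⟨z, s⟩, hzs⟩ := IsLocalization.surj n.primeCompl w
  have hzs' : w * algebraMap R S (s : R) = algebraMap R S z := hzs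
  have h1 : algebraMap R S ((s : R) * y) = algebraMap R S (t * z) := by
    rw [map_mul, map_mul, ← hw, ← hzs']
    ring
  obtain ⟨c', hc'⟩ := (IsLocalization.eq_iff_exists n.primeCompl S).1 h1
  refine ⟨(c' : R) * (s : R), ?_, (c' : R) * z, ?_⟩
  · exact fun h => (‹n.IsMaximal›.isPrime.mem_or_mem h).elim c'.2 s.2
  · rw [mul_assoc, hc']
    ring

/-- Changing the second generator by a multiple of the first does not change the Igusa
hypothesis. -/
theorem igusa_sub {R : Type*} [CommRing R] (π t a : R) (n : Ideal R) (ha : π ∣ a)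
    (hIg : ∀ x ∈ n, ∃ c, c ∉ n ∧ c * x ∈ Ideal.span {π, t}) :
    ∀ x ∈ n, ∃ c, c ∉ n ∧ c * x ∈ Ideal.span {π, t - a} := by
  intro x hx
  obtain ⟨c, hc, hcx⟩ := hIg x hx
  refine ⟨c, hc, ?_⟩
  obtain ⟨u, v, huv⟩ := Ideal.mem_span_pair.1 hcx
  obtain ⟨b, rfl⟩ := ha
  rw [Ideal.mem_span_pair]
  exact ⟨u + v * b, v, by rw [← huv]; ring⟩

/-- **(LD1') Local division at a point with value `a`.**  If `n R_n = (π, t)`, `π ∣ a`, and `e`
is a point centred at `n` with `e π ≠ 0`, `e t = e a`, then every `y` vanishing at `e` is locally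
at `n` divisible by `t - a`. -/
theorem exists_mul_eq_sub_mul_of_eval_eq_zero {R B : Type*} [CommRing R] [IsNoetherianRing R]
    [CommRing B] [IsDomain B] (π t a : R) (n : Ideal R) [n.IsMaximal] (hπn : π ∈ n)
    (ha : π ∣ a)
    (hIg : ∀ x ∈ n, ∃ c, c ∉ n ∧ c * x ∈ Ideal.span {π, t})
    (e : R →+* B) (hker : ∀ x, e x = 0 → x ∈ n) (heπ : e π ≠ 0) (het : e t = e a)
    (y : R) (hy : e y = 0) : ∃ c, c ∉ n ∧ ∃ z : R, c * y = (t - a) * z :=
  exists_mul_eq_mul_of_eval_eq_zero π (t - a) n hπn (igusa_sub π t a n ha hIg) e hker heπ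
    (by rw [map_sub, het, sub_self]) y hy

/-- The localised kernel of a point is principal, generated by `t - a`. -/
theorem map_ker_eq_span {R B : Type*} [CommRing R] [IsNoetherianRing R] [CommRing B] [IsDomain B]
    (π t a : R) (n : Ideal R) [n.IsMaximal] (hπn : π ∈ n) (ha : π ∣ a)
    (hIg : ∀ x ∈ n, ∃ c, c ∉ n ∧ c * x ∈ Ideal.span {π, t})
    (e : R →+* B) (hker : ∀ x, e x = 0 → x ∈ n) (heπ : e π ≠ 0) (het : e t = e a) :
    (RingHom.ker e).map (algebraMap R (Localization.AtPrime n)) =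
      Ideal.span {algebraMap R (Localization.AtPrime n) (t - a)} := by
  refine le_antisymm ?_ ?_
  · exact map_ker_le_span π (t - a) n hπn (igusa_sub π t a n ha hIg) e hker heπ
      (by rw [map_sub, het, sub_self])
  · rw [Ideal.span_singleton_le_iff_mem]
    refine Ideal.mem_map_of_mem _ ?_
    rw [RingHom.mem_ker, map_sub, het, sub_self]

/-- If `π` is prime, `π ∤ y` and `y * z = c * π ^ s`, then `y ∣ c`. -/
theorem dvd_of_mul_eq_mul_pow {R : Type*} [CommRing R] [IsDomain R] {π y z c : R}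
    (hπ : Prime π) (hy : ¬ π ∣ y) (s : ℕ) (h : y * z = c * π ^ s) : y ∣ c := by
  have h1 : π ^ s ∣ y * z := ⟨c, by rw [h, mul_comm]⟩
  obtain ⟨z', rfl⟩ := hπ.pow_dvd_of_dvd_mul_left s hy h1
  refine ⟨z', ?_⟩
  have h2 : (y * z') * π ^ s = c * π ^ s := by rw [← h]; ring
  exact (mul_right_cancel₀ (pow_ne_zero s hπ.ne_zero) h2).symm

/-- **Existence of a horizontal prime through a zero of the special fibre.**  If no element
`c * π ^ s` with `c ∉ n` is a multiple of `y`, there is a prime `p ≤ n` containing `y` and not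
containing `π`. -/
theorem exists_prime_le_of_forall_ne {R : Type*} [CommRing R] (n : Ideal R) [n.IsPrime] (π y : R)
    (h : ∀ (c z : R) (s : ℕ), c ∉ n → y * z ≠ c * π ^ s) :
    ∃ p : Ideal R, p.IsPrime ∧ y ∈ p ∧ p ≤ n ∧ π ∉ p := by
  classical
  let M : Submonoid R := n.primeCompl ⊔ Submonoid.powers π
  have hdisj : Disjoint (Ideal.span {y} : Set R) (M : Set R) := by
    rw [Set.disjoint_left]
    intro x hx hxM
    obtain ⟨z, rfl⟩ := Ideal.mem_span_singleton'.1 hx
    obtain ⟨c, hc, _, ⟨s, rfl⟩, hcs⟩ := Submonoid.mem_sup.1 hxM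
    exact h c z s hc (by rw [mul_comm y z]; exact hcs.symm)
  obtain ⟨p, hp, hyp, hpM⟩ := Ideal.exists_le_prime_disjoint (Ideal.span {y}) M hdisj
  refine ⟨p, hp, hyp (Ideal.subset_span rfl), ?_, ?_⟩
  · intro x hx
    by_contra hxn
    exact Set.disjoint_left.1 hpM hx (Submonoid.mem_sup_left (show x ∈ n.primeCompl from hxn))
  · intro hπp
    exact Set.disjoint_left.1 hpM hπp (Submonoid.mem_sup_right (Submonoid.mem_powers π))

end Fermat.Agent.S37.LocDiv
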