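import Mathlib
import Fermat.Prelude.Def_AlgebraicCurve_DivisorClassGroup
import Fermat.Agent.S18.UFD2
import Fermat.Agent.S18.NorLoc

/-!
# S37, block [R0], leaf (3): the local count (conservation of number at one closed point)

Abstract commutative algebra; no modular curves.

Setting: `R` a noetherian domain with fraction field `E`, `K` a field with `K → E`, `π ∈ R` a
prime element which is invertible in `K` (every element of `K` is `x / π ^ k` with `x ∈ R`),
`n ∋ π` a maximal ideal of `R` at which Igusa's statement holds: `n R_n = (π, t)`.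
(Model: `R` a chart of the arithmetic surface over the discrete valuation ring `O`, `K = Frac O`,
`E` the function field of the generic fibre, `n` a closed point of the special fibre.)

A place `v` of `E / K` is *through `n`* (`Thru n v`) if its valuation ring contains `R` and its
centre on `R` is contained in `n`; it is *rational* (`Rational π n v`) if `n ⊆ 𝔭_v + π R`.

* `local_count_frac` : for `y = a / b`, `a, b ∈ R ∖ π R`, and a finite set `𝒱` of rational
  places through `n` containing all zeros and poles of `y` through `n`: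
  `s a = s' t ^ ma + π r`, `s₂ b = s₂' t ^ mb + π r₂` with `s, s', s₂, s₂' ∉ n`, and
  `ma - mb = ∑_{v ∈ 𝒱} ord_v y`.
* `local_count` : the case `b = 1`.

Local forms (for the local ring `S = R_n`, a unique factorisation domain by `UFD2`):
`local_count_local`, `local_count_frac_local`; normal forms `NF π t x k`
(`x ≡ unit · t ^ k mod π`): `exists_nf`, `NF.unique`, `NF.mul`; the place of a prime element
`exists_place_of_prime`; centres: `centre_eq_span`, `exists_eq_span_of_isPrime`,
`eq_of_ord_pos`.
-/

set_option autoImplicit false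

open AlgebraicCurve IsLocalRing IsDedekindDomain

namespace Fermat.Agent.S37.LocalCount

section PlaceBasics

variable {K E : Type*} [Field K] [Field E] [Algebra K E] (v : Place K E)

/-- Elements of the valuation ring of a place have nonnegative order. -/
theorem ord_nonneg_of_mem {x : E} (hx : x ∈ v.toValuationSubring) : 0 ≤ v.ord x := by
  rcases eq_or_ne x 0 with rfl | hx0
  · simp
  · have h1 : v.adicValuation x ≤ 1 := by
      have := v.adicValuation_coe ⟨x, hx⟩
      rw [this]
      exact HeightOneSpectrum.intValuation_le_one _ _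
    have h2 : WithZero.log (v.adicValuation x) ≤ WithZero.log 1 :=
      (WithZero.log_le_log (v.adicValuation_ne_zero hx0) one_ne_zero).mpr h1
    rw [WithZero.log_one] at h2
    unfold Place.ord
    linarith

/-- Nonzero elements of the maximal ideal of a place have positive order. -/
theorem ord_pos_of_mem_nonunits {x : E} (hx0 : x ≠ 0)
    (hx : x ∈ v.toValuationSubring.nonunits) : 0 < v.ord x := by
  obtain ⟨hxm, hmax⟩ := ValuationSubring.mem_nonunits_iff_exists_mem_maximalIdeal.mp hx
  have h1 : v.adicValuation x < 1 := by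
    have := v.adicValuation_coe ⟨x, hxm⟩
    rw [this]
    exact (HeightOneSpectrum.intValuation_lt_one_iff_mem _ _).mpr hmax
  have h2 : WithZero.log (v.adicValuation x) < WithZero.log 1 :=
    (WithZero.log_lt_log (v.adicValuation_ne_zero hx0) one_ne_zero).mpr h1
  rw [WithZero.log_one] at h2
  unfold Place.ord
  linarith

/-- Elements of positive order lie in the maximal ideal. -/
theorem mem_nonunits_of_ord_pos {x : E} (hx : 0 < v.ord x) :
    x ∈ v.toValuationSubring.nonunits := by
  rw [ValuationSubring.mem_nonunits_iff_or]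
  by_contra hcon
  rw [not_or, not_not] at hcon
  have h1 := ord_nonneg_of_mem v hcon.2
  rw [Place.ord_inv] at h1
  linarith

/-- An element which is a unit of the valuation ring has order zero. -/
theorem ord_eq_zero_of_mem_of_inv_mem {x : E} (hx : x ∈ v.toValuationSubring)
    (hx' : x⁻¹ ∈ v.toValuationSubring) : v.ord x = 0 := by
  have h1 := ord_nonneg_of_mem v hx
  have h2 := ord_nonneg_of_mem v hx'
  rw [Place.ord_inv] at h2
  linarith

/-- The maximal ideal of a place absorbs multiplication by the valuation ring. -/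
theorem mul_mem_nonunits {x y : E} (hx : x ∈ v.toValuationSubring)
    (hy : y ∈ v.toValuationSubring.nonunits) : x * y ∈ v.toValuationSubring.nonunits := by
  obtain ⟨hym, hmax⟩ := ValuationSubring.mem_nonunits_iff_exists_mem_maximalIdeal.mp hy
  have h := Ideal.mul_mem_left (maximalIdeal v.toValuationSubring) ⟨x, hx⟩ hmax
  exact ValuationSubring.coe_mem_nonunits_iff.mpr h

/-- An element of the valuation ring outside the maximal ideal is invertible. -/
theorem inv_mem_of_not_mem_nonunits {x : E} (hx : x ∉ v.toValuationSubring.nonunits) :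
    x⁻¹ ∈ v.toValuationSubring := by
  rw [ValuationSubring.mem_nonunits_iff_or, not_or, not_not] at hx
  exact hx.2

end PlaceBasics

section Local

variable {K S E : Type*} [Field K] [CommRing S] [IsDomain S] [IsNoetherianRing S] [IsLocalRing S]
  [Field E] [Algebra K E] [Algebra S E] [IsFractionRing S E]

/-- The centre on `S` of a place whose valuation ring contains `S`. -/
def centre (v : Place K E) (hv : ∀ x : S, algebraMap S E x ∈ v.toValuationSubring) : Ideal S :=
  (maximalIdeal v.toValuationSubring).comap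
    ((algebraMap S E).codRestrict v.toValuationSubring hv)

omit [IsDomain S] [IsNoetherianRing S] [IsLocalRing S] [IsFractionRing S E] in
theorem mem_centre (v : Place K E) (hv : ∀ x : S, algebraMap S E x ∈ v.toValuationSubring)
    (x : S) : x ∈ centre v hv ↔ algebraMap S E x ∈ v.toValuationSubring.nonunits := by
  rw [centre, Ideal.mem_comap, ← ValuationSubring.coe_mem_nonunits_iff]
  rfl

omit [IsDomain S] [IsNoetherianRing S] [IsLocalRing S] [IsFractionRing S E] in
theorem centre_isPrime (v : Place K E) (hv : ∀ x : S, algebraMap S E x ∈ v.toValuationSubring) :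
    (centre v hv).IsPrime :=
  Ideal.comap_isPrime _ _

omit [IsDomain S] [IsFractionRing S E] in
/-- The centre of a place through the closed point which contains `t + π z` is generated by
this element (Nakayama). -/
theorem centre_eq_span (π t : S) (hm : maximalIdeal S = Ideal.span {π, t})
    (v : Place K E) (hv : ∀ x : S, algebraMap S E x ∈ v.toValuationSubring)
    (hπv : algebraMap S E π ∉ v.toValuationSubring.nonunits) (z : S)
    (hz : algebraMap S E (t + π * z) ∈ v.toValuationSubring.nonunits) :
    centre v hv = Ideal.span {t + π * z} := by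
  have hprime : (centre v hv).IsPrime := centre_isPrime v hv
  apply le_antisymm
  · refine Submodule.le_of_le_smul_of_le_jacobson_bot (I := maximalIdeal S)
      (IsNoetherian.noetherian _) ?_ ?_
    · rw [IsLocalRing.jacobson_eq_maximalIdeal ⊥ bot_ne_top]
    · intro x hx
      have hxm : x ∈ maximalIdeal S := by
        rw [mem_maximalIdeal, mem_nonunits_iff]
        intro hu
        exact hprime.ne_top (Ideal.eq_top_of_isUnit_mem _ hx hu)
      rw [hm, Ideal.mem_span_pair] at hxm
      obtain ⟨α, β, hαβ⟩ := hxm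
      have e : x = β * (t + π * z) + π * (α - z * β) := by rw [← hαβ]; ring
      have h1 : π * (α - z * β) ∈ centre v hv := by
        have e' : π * (α - z * β) = x - β * (t + π * z) := by rw [← hαβ]; ring
        rw [e']
        exact Ideal.sub_mem _ hx (Ideal.mul_mem_left _ _ ((mem_centre v hv _).mpr hz))
      have h2 : α - z * β ∈ centre v hv :=
        (hprime.mem_or_mem h1).resolve_left (fun h => hπv ((mem_centre v hv _).mp h))
      rw [e]
      refine Submodule.add_mem_sup (Ideal.mem_span_singleton'.mpr ⟨β, rfl⟩) ?_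
      have hπm : π ∈ maximalIdeal S := by
        rw [hm]; exact Ideal.subset_span (by simp)
      exact Submodule.smul_mem_smul hπm h2
  · rw [Ideal.span_le, Set.singleton_subset_iff]
    exact (mem_centre v hv _).mpr hz


omit [IsLocalRing S] in
/-- The discrete valuation ring `S_(p)` of a prime element `p ∤ π` as a place over `K`; it is
the only place containing `S` with centre `(p)`. -/
theorem exists_place_of_prime (π : S)
    (hK : ∀ c : K, ∃ (x : S) (k : ℕ),
      algebraMap K E c * algebraMap S E π ^ k = algebraMap S E x)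
    (p : S) (hp : Prime p) (hpπ : ¬ p ∣ π) :
    ∃ v : Place K E, (∀ x : S, algebraMap S E x ∈ v.toValuationSubring) ∧
      (∀ x : S, algebraMap S E x ∈ v.toValuationSubring.nonunits ↔ p ∣ x) ∧
      v.ord (algebraMap S E p) = 1 ∧
      ∀ w : Place K E, (∀ x : S, algebraMap S E x ∈ w.toValuationSubring) →
        (∀ x : S, algebraMap S E x ∈ w.toValuationSubring.nonunits ↔ p ∣ x) → w = v := by
  have hinj : Function.Injective (algebraMap S E) := IsFractionRing.injective S E
  have hne0 : ∀ x : S, x ≠ 0 → algebraMap S E x ≠ 0 := fun x hx h0 =>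
    hx (hinj (h0.trans (map_zero _).symm))
  obtain ⟨W, hWdvr, hWS, hWinv, hWfrac⟩ := Fermat.Agent.S18.NorLoc.exists_dvr_of_prime (E := E) p hp
  have hπ0 : π ≠ 0 := fun h => hpπ (h ▸ dvd_zero p)
  have hπinv : (algebraMap S E π)⁻¹ ∈ W := hWinv π hpπ
  have hKW : ∀ c : K, algebraMap K E c ∈ W := by
    intro c
    obtain ⟨x, k, hx⟩ := hK c
    have e : algebraMap K E c = algebraMap S E x * ((algebraMap S E π)⁻¹) ^ k := by
      rw [← hx, inv_pow, mul_assoc, mul_inv_cancel₀ (pow_ne_zero k (hne0 π hπ0)), mul_one]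
    rw [e]
    exact mul_mem (hWS x) (pow_mem hπinv k)
  -- `p⁻¹ ∉ W`
  have hpinv : (algebraMap S E p)⁻¹ ∉ W := by
    intro h
    obtain ⟨a, b, hb, hab⟩ := hWfrac _ h
    apply hb
    refine ⟨a, hinj ?_⟩
    rw [map_mul, ← hab, ← mul_assoc, mul_inv_cancel₀ (hne0 p hp.ne_zero), one_mul]
  have hne : W ≠ ⊤ := by
    intro htop
    apply hpinv
    rw [htop]
    exact ValuationSubring.mem_top _
  have := hWdvr
  let v : Place K E := ⟨W, hKW, hne, inferInstance⟩
  have hvW : v.toValuationSubring = W := rfl
  -- the maximal ideal of `W` meets `S` in `(p)`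
  have hnon : ∀ x : S, algebraMap S E x ∈ W.nonunits ↔ p ∣ x := by
    intro x
    rw [ValuationSubring.mem_nonunits_iff_or]
    constructor
    · intro h
      by_contra hnd
      rcases h with h | h
      · have hx0 : x = 0 := hinj (h.trans (map_zero _).symm)
        exact hnd (hx0 ▸ dvd_zero p)
      · exact h (hWinv x hnd)
    · rintro ⟨y, rfl⟩
      by_cases hy : y = 0
      · left; rw [hy, mul_zero, map_zero]
      · right
        intro h
        apply hpinv
        have e : (algebraMap S E p)⁻¹ = algebraMap S E y * (algebraMap S E (p * y))⁻¹ := by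
          rw [map_mul, mul_inv, mul_comm (algebraMap S E p)⁻¹, ← mul_assoc,
            mul_inv_cancel₀ (hne0 y hy), one_mul]
        rw [e]
        exact mul_mem (hWS y) h
  -- `p` is a uniformizer of `W`
  have hirr : Irreducible (⟨algebraMap S E p, hWS p⟩ : W) := by
    rw [IsDiscreteValuationRing.irreducible_iff_uniformizer]
    apply le_antisymm
    · intro y hy
      have hy' : (y : E) ∈ W.nonunits := ValuationSubring.coe_mem_nonunits_iff.mpr hy
      obtain ⟨a, b, hb, hab⟩ := hWfrac (y : E) y.2
      have hb0 : b ≠ 0 := fun h => hb (h ▸ dvd_zero p)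
      have hpa : p ∣ a := by
        by_contra hpa
        have ha0 : a ≠ 0 := fun h => hpa (h ▸ dvd_zero p)
        have h1 : ((y : E))⁻¹ = algebraMap S E b * (algebraMap S E a)⁻¹ := by
          rw [← hab, mul_inv, mul_comm (y : E)⁻¹, ← mul_assoc,
            mul_inv_cancel₀ (hne0 b hb0), one_mul]
        have h2 : ((y : E))⁻¹ ∈ W := by
          rw [h1]; exact mul_mem (hWS b) (hWinv a hpa)
        rw [ValuationSubring.mem_nonunits_iff_or] at hy'
        rcases hy' with h | h
        · apply ha0
          apply hinj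
          rw [← hab, h, zero_mul, map_zero]
        · exact h h2
      obtain ⟨a', rfl⟩ := hpa
      rw [Ideal.mem_span_singleton']
      refine ⟨⟨algebraMap S E a' * (algebraMap S E b)⁻¹, mul_mem (hWS a') (hWinv b hb)⟩,
        Subtype.ext ?_⟩
      change algebraMap S E a' * (algebraMap S E b)⁻¹ * algebraMap S E p = (y : E)
      rw [map_mul] at hab
      calc algebraMap S E a' * (algebraMap S E b)⁻¹ * algebraMap S E p
          = (algebraMap S E p * algebraMap S E a') * (algebraMap S E b)⁻¹ := by ring
        _ = ((y : E) * algebraMap S E b) * (algebraMap S E b)⁻¹ := by rw [hab]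
        _ = (y : E) := by rw [mul_assoc, mul_inv_cancel₀ (hne0 b hb0), mul_one]
    · rw [Ideal.span_le, Set.singleton_subset_iff]
      exact ValuationSubring.coe_mem_nonunits_iff.mp ((hnon p).mpr dvd_rfl)
  refine ⟨v, hWS, hnon, v.ord_coe_irreducible hirr, ?_⟩
  intro w hw hwp
  apply Place.ext
  rw [hvW]
  apply le_antisymm
  · -- `O_w ≤ W`
    intro x hx
    rcases W.mem_or_inv_mem x with h | h
    · exact h
    · by_cases hx0 : x = 0
      · rw [hx0]; exact W.zero_mem
      obtain ⟨a, b, hb, hab⟩ := hWfrac _ h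
      have hb0 : b ≠ 0 := fun h => hb (h ▸ dvd_zero p)
      by_cases hpa : p ∣ a
      · exfalso
        apply hb
        rw [← hwp]
        have e : algebraMap S E b = x * algebraMap S E a := by
          rw [← hab, ← mul_assoc, mul_inv_cancel₀ hx0, one_mul]
        rw [e]
        exact mul_mem_nonunits w hx ((hwp a).mpr hpa)
      · have e : x = algebraMap S E b * (algebraMap S E a)⁻¹ := by
          have ha0 : a ≠ 0 := fun h => hpa (h ▸ dvd_zero p)
          rw [← hab, mul_inv, inv_inv, mul_comm x, ← mul_assoc,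
            mul_inv_cancel₀ (hne0 b hb0), one_mul]
        rw [e]
        exact mul_mem (hWS b) (hWinv a hpa)
  · -- `W ≤ O_w`
    intro x hx
    obtain ⟨a, b, hb, hab⟩ := hWfrac _ hx
    have hb0 : b ≠ 0 := fun h => hb (h ▸ dvd_zero p)
    have hbw : (algebraMap S E b)⁻¹ ∈ w.toValuationSubring :=
      inv_mem_of_not_mem_nonunits w (fun h => hb ((hwp b).mp h))
    have e : x = algebraMap S E a * (algebraMap S E b)⁻¹ := by
      rw [← hab, mul_assoc, mul_inv_cancel₀ (hne0 b hb0), mul_one]
    rw [e]
    exact mul_mem (hw a) hbw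


omit [IsNoetherianRing S] [IsLocalRing S] [IsDomain S] [IsFractionRing S E] in
/-- `π` is invertible in `K`, hence a unit at every place. -/
theorem pi_not_mem_nonunits (π : S) (hπK : ∃ c : K, algebraMap K E c * algebraMap S E π = 1)
    (v : Place K E) : algebraMap S E π ∉ v.toValuationSubring.nonunits := by
  obtain ⟨c, hc⟩ := hπK
  rw [ValuationSubring.mem_nonunits_iff_or, not_or, not_not]
  refine ⟨fun h0 => ?_, ?_⟩
  · rw [h0, mul_zero] at hc
    exact zero_ne_one hc
  · have e : (algebraMap S E π)⁻¹ = algebraMap K E c := by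
      rw [inv_eq_iff_eq_inv]
      exact (eq_inv_of_mul_eq_one_right hc)
    rw [e]
    exact v.algebraMap_mem' c

/-- **Local count, local form.** `S` a noetherian local domain with maximal ideal `(π, t)`, `π`
prime and invertible in `K`.  Let `𝒱` be a finite set of places of `E = Frac S` over `K` whose
valuation rings contain `S` and whose centres contain an element `t + π z` ("rational" places),
and let `a ∈ S`, `π ∤ a`, be such that every place through `S` at which `a` vanishes belongs to
`𝒱`.  Then `a ≡ unit · t ^ m` modulo `π`, where `m` is the number of zeros of `a` in `𝒱`,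
counted with multiplicity. -/
theorem local_count_local (π t : S) (hπ : Prime π) (hm : maximalIdeal S = Ideal.span {π, t})
    (hπK : ∃ c : K, algebraMap K E c * algebraMap S E π = 1)
    (hK : ∀ c : K, ∃ (x : S) (k : ℕ),
      algebraMap K E c * algebraMap S E π ^ k = algebraMap S E x)
    (𝒱 : Finset (Place K E))
    (h1 : ∀ v ∈ 𝒱, (∀ x : S, algebraMap S E x ∈ v.toValuationSubring) ∧
      ∃ z : S, algebraMap S E (t + π * z) ∈ v.toValuationSubring.nonunits)
    (a : S) (ha : ¬ π ∣ a)
    (h2 : ∀ v : Place K E, (∀ x : S, algebraMap S E x ∈ v.toValuationSubring) →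
      0 < v.ord (algebraMap S E a) → v ∈ 𝒱) :
    ∃ (m : ℕ) (u : Sˣ) (r : S), a = u * t ^ m + π * r ∧
      (m : ℤ) = ∑ v ∈ 𝒱, v.ord (algebraMap S E a) := by
  have hufd : UniqueFactorizationMonoid S :=
    Fermat.Agent.S18.UFD2.ufd_of_maximalIdeal_eq_span_pair π t hπ hm
  have hinj : Function.Injective (algebraMap S E) := IsFractionRing.injective S E
  have hne0 : ∀ x : S, x ≠ 0 → algebraMap S E x ≠ 0 := fun x hx h0 =>
    hx (hinj (h0.trans (map_zero _).symm))
  revert ha h2
  refine UniqueFactorizationMonoid.induction_on_prime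
    (P := fun a : S => ¬ π ∣ a →
      (∀ v : Place K E, (∀ x : S, algebraMap S E x ∈ v.toValuationSubring) →
        0 < v.ord (algebraMap S E a) → v ∈ 𝒱) →
      ∃ (m : ℕ) (u : Sˣ) (r : S), a = u * t ^ m + π * r ∧
        (m : ℤ) = ∑ v ∈ 𝒱, v.ord (algebraMap S E a)) a ?_ ?_ ?_
  · intro h
    exact absurd (dvd_zero π) h
  · intro x hx _ _
    refine ⟨0, hx.unit, 0, by simp, ?_⟩
    rw [Nat.cast_zero, eq_comm]
    refine Finset.sum_eq_zero fun v hv => ?_
    obtain ⟨hvS, -⟩ := h1 v hv
    refine ord_eq_zero_of_mem_of_inv_mem v (hvS x) ?_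
    have e : (algebraMap S E x)⁻¹ = algebraMap S E ((hx.unit⁻¹ : Sˣ) : S) := by
      rw [inv_eq_iff_eq_inv]
      apply eq_inv_of_mul_eq_one_left
      rw [← map_mul]
      have : ((hx.unit⁻¹ : Sˣ) : S) * x = 1 := by
        have := hx.unit.inv_mul
        rwa [IsUnit.unit_spec] at this
      rw [mul_comm, this, map_one]
    rw [e]
    exact hvS _
  · intro a p ha0 hp IH hπpa h2
    have hpπ : ¬ p ∣ π := fun h =>
      hπpa (Dvd.dvd.mul_right ((hp.associated_of_dvd hπ h).symm.dvd) a)
    have hπa : ¬ π ∣ a := fun h => hπpa (Dvd.dvd.mul_left h p)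
    have hpE : algebraMap S E p ≠ 0 := hne0 p hp.ne_zero
    have haE : algebraMap S E a ≠ 0 := hne0 a ha0
    have hord : ∀ v : Place K E, v.ord (algebraMap S E (p * a)) =
        v.ord (algebraMap S E p) + v.ord (algebraMap S E a) := fun v => by
      rw [map_mul, v.ord_mul hpE haE]
    have h2' : ∀ v : Place K E, (∀ x : S, algebraMap S E x ∈ v.toValuationSubring) →
        0 < v.ord (algebraMap S E a) → v ∈ 𝒱 := by
      intro v hvS hva
      refine h2 v hvS ?_
      rw [hord]
      have := ord_nonneg_of_mem v (hvS p)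
      linarith
    obtain ⟨m, u, r, hIH, hsum⟩ := IH hπa h2'
    obtain ⟨vp, hvpS, hvpnon, hvpord, hvpuniq⟩ :=
      exists_place_of_prime (K := K) (E := E) π hK p hp hpπ
    have hvp𝒱 : vp ∈ 𝒱 := by
      refine h2 vp hvpS ?_
      rw [hord, hvpord]
      have := ord_nonneg_of_mem vp (hvpS a)
      linarith
    obtain ⟨-, z, hz⟩ := h1 vp hvp𝒱
    have hcp : centre vp hvpS = Ideal.span {p} := by
      ext x
      rw [mem_centre, hvpnon, Ideal.mem_span_singleton]
    have hcz : centre vp hvpS = Ideal.span {t + π * z} :=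
      centre_eq_span π t hm vp hvpS (pi_not_mem_nonunits π hπK vp) z hz
    have hass : Associated p (t + π * z) := by
      rw [← Ideal.span_singleton_eq_span_singleton, ← hcp, hcz]
    obtain ⟨w, hw⟩ := hass
    have hp' : p = (t + π * z) * ((w⁻¹ : Sˣ) : S) := by
      rw [← hw, mul_assoc, Units.mul_inv, mul_one]
    -- the sum of the orders of `p`
    have hsump : ∑ v ∈ 𝒱, v.ord (algebraMap S E p) = 1 := by
      rw [Finset.sum_eq_single vp, hvpord]
      · intro v hv hne
        by_contra h0
        apply hne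
        obtain ⟨hvS, z', hz'⟩ := h1 v hv
        have hpos : 0 < v.ord (algebraMap S E p) :=
          lt_of_le_of_ne (ord_nonneg_of_mem v (hvS p)) (Ne.symm h0)
        have hpc : p ∈ centre v hvS := (mem_centre v hvS p).mpr (mem_nonunits_of_ord_pos v hpos)
        have hcz' : centre v hvS = Ideal.span {t + π * z'} :=
          centre_eq_span π t hm v hvS (pi_not_mem_nonunits π hπK v) z' hz'
        have hdvd : t + π * z' ∣ p := by
          rw [hcz', Ideal.mem_span_singleton] at hpc
          exact hpc
        have hnu : ¬ IsUnit (t + π * z') := by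
          intro hu
          have h1' : t + π * z' ∈ centre v hvS := (mem_centre v hvS _).mpr hz'
          exact (centre_isPrime v hvS).ne_top (Ideal.eq_top_of_isUnit_mem _ h1' hu)
        have hass' : Associated p (t + π * z') :=
          ((Irreducible.dvd_iff hp.irreducible).mp hdvd).resolve_left hnu
        have hcp' : centre v hvS = Ideal.span {p} := by
          rw [hcz', eq_comm, Ideal.span_singleton_eq_span_singleton]
          exact hass'
        refine hvpuniq v hvS fun x => ?_
        rw [← mem_centre v hvS, hcp', Ideal.mem_span_singleton]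
      · intro h
        exact absurd hvp𝒱 h
    refine ⟨m + 1, w⁻¹ * u, z * ((w⁻¹ : Sˣ) : S) * a + t * ((w⁻¹ : Sˣ) : S) * r, ?_, ?_⟩
    · rw [hp', Units.val_mul]
      linear_combination (t * ((w⁻¹ : Sˣ) : S)) * hIH
    · rw [Finset.sum_congr rfl (fun v _ => hord v), Finset.sum_add_distrib, hsump, ← hsum]
      push_cast
      ring


/-! ### Normal forms modulo `π` -/

/-- `x ≡ unit · t ^ k` modulo `π`. -/
def NF (π t x : S) (k : ℕ) : Prop := ∃ (u : Sˣ) (r : S), x = u * t ^ k + π * r

omit [IsDomain S] [IsNoetherianRing S] [IsLocalRing S] in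
theorem NF.mul {π t x y : S} {k l : ℕ} (hx : NF π t x k) (hy : NF π t y l) :
    NF π t (x * y) (k + l) := by
  obtain ⟨u, r, rfl⟩ := hx
  obtain ⟨u', r', rfl⟩ := hy
  refine ⟨u * u', (u : S) * t ^ k * r' + r * u' * t ^ l + π * r * r', ?_⟩
  rw [Units.val_mul]
  ring

omit [IsDomain S] [IsNoetherianRing S] [IsLocalRing S] in
theorem NF.of_isUnit (π t : S) {x : S} (hx : IsUnit x) : NF π t x 0 :=
  ⟨hx.unit, 0, by simp⟩

omit [IsDomain S] [IsNoetherianRing S] in
theorem NF.lt_absurd {π t x : S} (hπ : Prime π) (hm : maximalIdeal S = Ideal.span {π, t})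
    (hx : ¬ π ∣ x) {k l : ℕ} (hkl : k < l) (h1 : NF π t x k) (h2 : NF π t x l) : False := by
  obtain ⟨u, r, e1⟩ := h1
  obtain ⟨u', r', e2⟩ := h2
  obtain ⟨d, rfl⟩ := Nat.exists_eq_add_of_lt hkl
  have hπm : π ∈ maximalIdeal S := by rw [hm]; exact Ideal.subset_span (by simp)
  have htm : t ∈ maximalIdeal S := by rw [hm]; exact Ideal.subset_span (by simp)
  have key : π ∣ t ^ k * ((u : S) - u' * t ^ (d + 1)) := by
    refine ⟨r' - r, ?_⟩
    have e3 : (u : S) * t ^ k + π * r = u' * t ^ (k + d + 1) + π * r' := e1.symm.trans e2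
    rw [show k + d + 1 = k + (d + 1) by ring, pow_add] at e3
    linear_combination e3
  rcases hπ.dvd_or_dvd key with h | h
  · have hπt : π ∣ t := hπ.dvd_of_dvd_pow h
    apply hx
    rw [e2]
    refine dvd_add (Dvd.dvd.mul_left (dvd_pow hπt (by omega)) _) (dvd_mul_right π r')
  · obtain ⟨w, hw⟩ := h
    have hu : (u : S) ∈ maximalIdeal S := by
      have e4 : (u : S) = u' * t ^ (d + 1) + π * w := by linear_combination hw
      rw [e4]
      refine Ideal.add_mem _ (Ideal.mul_mem_left _ _ (Ideal.pow_mem_of_mem _ htm _ (by omega)))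
        (Ideal.mul_mem_right _ _ hπm)
    exact hu u.isUnit

omit [IsDomain S] [IsNoetherianRing S] in
theorem NF.unique {π t x : S} (hπ : Prime π) (hm : maximalIdeal S = Ideal.span {π, t})
    (hx : ¬ π ∣ x) {k l : ℕ} (h1 : NF π t x k) (h2 : NF π t x l) : k = l := by
  rcases lt_trichotomy k l with h | h | h
  · exact (NF.lt_absurd hπ hm hx h h1 h2).elim
  · exact h
  · exact (NF.lt_absurd hπ hm hx h h2 h1).elim

omit [IsDomain S] in
/-- Every element outside `(π)` has a normal form: `S / π` has principal maximal ideal `(t)`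
and is separated (Krull). -/
theorem exists_nf (π t : S) (hπ : Prime π) (hm : maximalIdeal S = Ideal.span {π, t}) {x : S}
    (hx : ¬ π ∣ x) : ∃ k, NF π t x k := by
  classical
  have hIprime : (Ideal.span {π} : Ideal S).IsPrime :=
    (Ideal.span_singleton_prime hπ.ne_zero).mpr hπ
  have : IsDomain (S ⧸ Ideal.span {π}) := Ideal.Quotient.isDomain _
  have : IsLocalRing (S ⧸ Ideal.span {π}) :=
    IsLocalRing.of_surjective' (Ideal.Quotient.mk (Ideal.span {π})) Ideal.Quotient.mk_surjective
  have hmq := Fermat.Agent.S18.UFD2.maximalIdeal_quotient_eq_span π t hm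
  have hπ0 : Ideal.Quotient.mk (Ideal.span {π}) π = 0 :=
    Ideal.Quotient.eq_zero_iff_mem.mpr (Ideal.mem_span_singleton_self π)
  have hxq : Ideal.Quotient.mk (Ideal.span {π}) x ≠ 0 := fun h =>
    hx (Ideal.mem_span_singleton.mp (Ideal.Quotient.eq_zero_iff_mem.mp h))
  have hkrull : ⨅ i : ℕ, (maximalIdeal (S ⧸ Ideal.span {π})) ^ i = ⊥ :=
    Ideal.iInf_pow_eq_bot_of_isLocalRing _ (maximalIdeal.isMaximal _).ne_top
  have hex : ∃ i : ℕ, Ideal.Quotient.mk (Ideal.span {π}) x ∉
      (maximalIdeal (S ⧸ Ideal.span {π})) ^ i := by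
    by_contra hcon
    apply hxq
    have h1 : Ideal.Quotient.mk (Ideal.span {π}) x ∈
        ⨅ i : ℕ, (maximalIdeal (S ⧸ Ideal.span {π})) ^ i := by
      rw [Ideal.mem_iInf]
      intro i
      by_contra hi
      exact hcon ⟨i, hi⟩
    rwa [hkrull, Ideal.mem_bot] at h1
  have hi₀ := Nat.find_spec hex
  have hi₀pos : Nat.find hex ≠ 0 := by
    intro h0
    apply hi₀
    rw [h0, pow_zero, Ideal.one_eq_top]
    trivial
  obtain ⟨k, hk⟩ := Nat.exists_eq_succ_of_ne_zero hi₀pos
  have hmemk : Ideal.Quotient.mk (Ideal.span {π}) x ∈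
      (maximalIdeal (S ⧸ Ideal.span {π})) ^ k := by
    by_contra h
    exact Nat.find_min hex (by omega : k < Nat.find hex) h
  rw [hmq, Ideal.span_singleton_pow, Ideal.mem_span_singleton'] at hmemk
  obtain ⟨ybar, hy⟩ := hmemk
  obtain ⟨y, rfl⟩ := Ideal.Quotient.mk_surjective ybar
  have hyu : IsUnit y := by
    by_contra hnu
    have hym : y ∈ maximalIdeal S := hnu
    rw [hm, Ideal.mem_span_pair] at hym
    obtain ⟨α, β, hαβ⟩ := hym
    apply hi₀
    rw [hk, hmq, Ideal.span_singleton_pow, Ideal.mem_span_singleton']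
    refine ⟨Ideal.Quotient.mk (Ideal.span {π}) β, ?_⟩
    rw [← hy, ← hαβ, map_add, map_mul, map_mul, hπ0, mul_zero, zero_add, pow_succ]
    ring
  have h1 : x - y * t ^ k ∈ Ideal.span {π} := by
    rw [← Ideal.Quotient.eq_zero_iff_mem, map_sub, map_mul, map_pow, hy, sub_self]
  obtain ⟨r, hr⟩ := Ideal.mem_span_singleton'.mp h1
  refine ⟨k, hyu.unit, r, ?_⟩
  rw [IsUnit.unit_spec]
  linear_combination -hr

omit [IsDomain S] in
/-- Every prime ideal of `S` not containing `π` is principal (Nakayama). -/
theorem exists_eq_span_of_isPrime (π t : S) (hπ : Prime π)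
    (hm : maximalIdeal S = Ideal.span {π, t}) (𝔮 : Ideal S) (h𝔮 : 𝔮.IsPrime) (hπ𝔮 : π ∉ 𝔮) :
    ∃ g : S, 𝔮 = Ideal.span {g} := by
  have hIprime : (Ideal.span {π} : Ideal S).IsPrime :=
    (Ideal.span_singleton_prime hπ.ne_zero).mpr hπ
  have : IsDomain (S ⧸ Ideal.span {π}) := Ideal.Quotient.isDomain _
  have : IsLocalRing (S ⧸ Ideal.span {π}) :=
    IsLocalRing.of_surjective' (Ideal.Quotient.mk (Ideal.span {π})) Ideal.Quotient.mk_surjective
  have : IsPrincipalIdealRing (S ⧸ Ideal.span {π}) :=
    Fermat.Agent.S18.UFD2.isPrincipalIdealRing_of_maximalIdeal_eq_span _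
      (Fermat.Agent.S18.UFD2.maximalIdeal_quotient_eq_span π t hm)
  have hsurj : Function.Surjective (Ideal.Quotient.mk (Ideal.span {π})) :=
    Ideal.Quotient.mk_surjective
  obtain ⟨gbar, hgbar⟩ := (IsPrincipalIdealRing.principal
    (𝔮.map (Ideal.Quotient.mk (Ideal.span {π})))).principal
  have hgmem : gbar ∈ 𝔮.map (Ideal.Quotient.mk (Ideal.span {π})) := by
    rw [hgbar]; exact Submodule.mem_span_singleton_self gbar
  obtain ⟨g, hg, rfl⟩ := (Ideal.mem_map_iff_of_surjective _ hsurj).mp hgmem
  have hle : 𝔮 ≤ Ideal.span {g} ⊔ (Ideal.span {π} : Ideal S) • 𝔮 := by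
    intro y hy
    have hy' : Ideal.Quotient.mk (Ideal.span {π}) y ∈
        𝔮.map (Ideal.Quotient.mk (Ideal.span {π})) := Ideal.mem_map_of_mem _ hy
    rw [hgbar] at hy'
    obtain ⟨abar, ha⟩ := Ideal.mem_span_singleton'.mp hy'
    obtain ⟨a, rfl⟩ := hsurj abar
    have h1 : y - a * g ∈ Ideal.span {π} := by
      rw [← Ideal.Quotient.eq_zero_iff_mem, map_sub, map_mul, ha, sub_self]
    obtain ⟨b, hb⟩ := Ideal.mem_span_singleton'.mp h1
    have hbp : b ∈ 𝔮 := by
      have h2 : b * π ∈ 𝔮 := by
        rw [hb]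
        exact Ideal.sub_mem _ hy (Ideal.mul_mem_left _ _ hg)
      exact (h𝔮.mem_or_mem h2).resolve_right hπ𝔮
    have h3 : y = a * g + π * b := by rw [mul_comm π b, hb]; ring
    rw [h3]
    refine Submodule.add_mem_sup (Ideal.mul_mem_left _ _ (Ideal.mem_span_singleton_self g)) ?_
    rw [smul_eq_mul]
    exact Ideal.mul_mem_mul (Ideal.mem_span_singleton_self π) hbp
  have hπm : (Ideal.span {π} : Ideal S) ≤ Ideal.jacobson ⊥ := by
    rw [IsLocalRing.jacobson_eq_maximalIdeal ⊥ bot_ne_top, hm]
    exact Ideal.span_mono (by simp)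
  have hpg : 𝔮 ≤ Ideal.span {g} :=
    Submodule.le_of_le_smul_of_le_jacobson_bot (IsNoetherian.noetherian 𝔮) hπm hle
  exact ⟨g, le_antisymm hpg ((Ideal.span_singleton_le_iff_mem 𝔮).mpr hg)⟩

omit [IsFractionRing S E] in
/-- A place through `S` at which the prime element `p ∤ π` vanishes is the place of `p`. -/
theorem eq_of_ord_pos (π t : S) (hπ : Prime π) (hm : maximalIdeal S = Ideal.span {π, t})
    (hπK : ∃ c : K, algebraMap K E c * algebraMap S E π = 1) (p : S) (hp : Prime p)
    (vp : Place K E)
    (hvp : ∀ w : Place K E, (∀ x : S, algebraMap S E x ∈ w.toValuationSubring) →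
      (∀ x : S, algebraMap S E x ∈ w.toValuationSubring.nonunits ↔ p ∣ x) → w = vp)
    (v : Place K E) (hvS : ∀ x : S, algebraMap S E x ∈ v.toValuationSubring)
    (hpos : 0 < v.ord (algebraMap S E p)) : v = vp := by
  have hprime : (centre v hvS).IsPrime := centre_isPrime v hvS
  have hπc : π ∉ centre v hvS := fun h =>
    pi_not_mem_nonunits π hπK v ((mem_centre v hvS π).mp h)
  obtain ⟨g, hg⟩ := exists_eq_span_of_isPrime π t hπ hm _ hprime hπc
  have hpc : p ∈ centre v hvS := (mem_centre v hvS p).mpr (mem_nonunits_of_ord_pos v hpos)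
  have hdvd : g ∣ p := by
    rw [hg, Ideal.mem_span_singleton] at hpc
    exact hpc
  have hnu : ¬ IsUnit g := by
    intro hu
    have h1' : g ∈ centre v hvS := by rw [hg]; exact Ideal.mem_span_singleton_self g
    exact hprime.ne_top (Ideal.eq_top_of_isUnit_mem _ h1' hu)
  have hass : Associated p g := ((Irreducible.dvd_iff hp.irreducible).mp hdvd).resolve_left hnu
  have hcp : centre v hvS = Ideal.span {p} := by
    rw [hg, eq_comm, Ideal.span_singleton_eq_span_singleton]
    exact hass
  refine hvp v hvS fun x => ?_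
  rw [← mem_centre v hvS, hcp, Ideal.mem_span_singleton]

/-- **Local count for fractions, local form.**  If every place through `S` at which the
orders of `a` and `b` differ is one of the rational places in `𝒱`, then the difference of the
exponents of the normal forms of `a` and `b` is `∑_{v ∈ 𝒱} (ord_v a - ord_v b)`. -/
theorem local_count_frac_local (π t : S) (hπ : Prime π) (hm : maximalIdeal S = Ideal.span {π, t})
    (hπK : ∃ c : K, algebraMap K E c * algebraMap S E π = 1)
    (hK : ∀ c : K, ∃ (x : S) (k : ℕ),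
      algebraMap K E c * algebraMap S E π ^ k = algebraMap S E x)
    (𝒱 : Finset (Place K E))
    (h1 : ∀ v ∈ 𝒱, (∀ x : S, algebraMap S E x ∈ v.toValuationSubring) ∧
      ∃ z : S, algebraMap S E (t + π * z) ∈ v.toValuationSubring.nonunits)
    (a : S) : ∀ (b : S) (ka kb : ℕ), ¬ π ∣ a → ¬ π ∣ b → NF π t a ka → NF π t b kb →
      (∀ v : Place K E, (∀ x : S, algebraMap S E x ∈ v.toValuationSubring) →
        v.ord (algebraMap S E a) ≠ v.ord (algebraMap S E b) → v ∈ 𝒱) →
      (ka : ℤ) - kb = ∑ v ∈ 𝒱, (v.ord (algebraMap S E a) - v.ord (algebraMap S E b)) := by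
  have hufd : UniqueFactorizationMonoid S :=
    Fermat.Agent.S18.UFD2.ufd_of_maximalIdeal_eq_span_pair π t hπ hm
  have hinj : Function.Injective (algebraMap S E) := IsFractionRing.injective S E
  have hne0 : ∀ x : S, x ≠ 0 → algebraMap S E x ≠ 0 := fun x hx h0 =>
    hx (hinj (h0.trans (map_zero _).symm))
  have hunit : ∀ x : S, IsUnit x → ∀ v ∈ 𝒱, v.ord (algebraMap S E x) = 0 := by
    intro x hx v hv
    obtain ⟨hvS, -⟩ := h1 v hv
    refine ord_eq_zero_of_mem_of_inv_mem v (hvS x) ?_
    have e : (algebraMap S E x)⁻¹ = algebraMap S E ((hx.unit⁻¹ : Sˣ) : S) := by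
      rw [inv_eq_iff_eq_inv]
      apply eq_inv_of_mul_eq_one_left
      rw [← map_mul]
      have : ((hx.unit⁻¹ : Sˣ) : S) * x = 1 := by
        have := hx.unit.inv_mul
        rwa [IsUnit.unit_spec] at this
      rw [mul_comm, this, map_one]
    rw [e]
    exact hvS _
  refine UniqueFactorizationMonoid.induction_on_prime
    (P := fun a : S => ∀ (b : S) (ka kb : ℕ), ¬ π ∣ a → ¬ π ∣ b → NF π t a ka → NF π t b kb →
      (∀ v : Place K E, (∀ x : S, algebraMap S E x ∈ v.toValuationSubring) →
        v.ord (algebraMap S E a) ≠ v.ord (algebraMap S E b) → v ∈ 𝒱) →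
      (ka : ℤ) - kb = ∑ v ∈ 𝒱, (v.ord (algebraMap S E a) - v.ord (algebraMap S E b))) a
    ?_ ?_ ?_
  · intro b ka kb h
    exact absurd (dvd_zero π) h
  · intro x hx b ka kb hπx hπb hNa hNb h2
    have hka : ka = 0 := NF.unique hπ hm hπx hNa (NF.of_isUnit π t hx)
    obtain ⟨m, u, r, hur, hsum⟩ := local_count_local π t hπ hm hπK hK 𝒱 h1 b hπb
      (fun v hvS hpos => h2 v hvS (by
        intro heq
        have hx0 : v.ord (algebraMap S E x) = 0 := by
          refine ord_eq_zero_of_mem_of_inv_mem v (hvS x) ?_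
          have e : (algebraMap S E x)⁻¹ = algebraMap S E ((hx.unit⁻¹ : Sˣ) : S) := by
            rw [inv_eq_iff_eq_inv]
            apply eq_inv_of_mul_eq_one_left
            rw [← map_mul]
            have : ((hx.unit⁻¹ : Sˣ) : S) * x = 1 := by
              have := hx.unit.inv_mul
              rwa [IsUnit.unit_spec] at this
            rw [mul_comm, this, map_one]
          rw [e]
          exact hvS _
        rw [hx0] at heq
        rw [← heq] at hpos
        exact lt_irrefl _ hpos))
    have hkb : kb = m := NF.unique hπ hm hπb hNb ⟨u, r, hur⟩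
    rw [hka, hkb, Finset.sum_sub_distrib, ← hsum, Finset.sum_eq_zero (fun v hv => hunit x hx v hv)]
    push_cast
    ring
  · intro a p ha0 hp IH b ka kb hπpa hπb hNa hNb h2
    have hpπ : ¬ p ∣ π := fun h =>
      hπpa (Dvd.dvd.mul_right ((hp.associated_of_dvd hπ h).symm.dvd) a)
    have hπp : ¬ π ∣ p := fun h => hπpa (Dvd.dvd.mul_right h a)
    have hπa : ¬ π ∣ a := fun h => hπpa (Dvd.dvd.mul_left h p)
    have hb0 : b ≠ 0 := fun h => hπb (h ▸ dvd_zero π)
    have hpE : algebraMap S E p ≠ 0 := hne0 p hp.ne_zero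
    have haE : algebraMap S E a ≠ 0 := hne0 a ha0
    have hord : ∀ v : Place K E, v.ord (algebraMap S E (p * a)) =
        v.ord (algebraMap S E p) + v.ord (algebraMap S E a) := fun v => by
      rw [map_mul, v.ord_mul hpE haE]
    obtain ⟨ka₀, hNa₀⟩ := exists_nf π t hπ hm hπa
    obtain ⟨kp, hNp⟩ := exists_nf π t hπ hm hπp
    have hka : ka = kp + ka₀ := NF.unique hπ hm hπpa hNa (hNp.mul hNa₀)
    obtain ⟨vp, hvpS, hvpnon, hvpord, hvpuniq⟩ :=
      exists_place_of_prime (K := K) (E := E) π hK p hp hpπ
    by_cases hpb : p ∣ b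
    · obtain ⟨b₀, rfl⟩ := hpb
      have hb₀0 : b₀ ≠ 0 := right_ne_zero_of_mul hb0
      have hπb₀ : ¬ π ∣ b₀ := fun h => hπb (Dvd.dvd.mul_left h p)
      have hb₀E : algebraMap S E b₀ ≠ 0 := hne0 b₀ hb₀0
      have hordb : ∀ v : Place K E, v.ord (algebraMap S E (p * b₀)) =
          v.ord (algebraMap S E p) + v.ord (algebraMap S E b₀) := fun v => by
        rw [map_mul, v.ord_mul hpE hb₀E]
      obtain ⟨kb₀, hNb₀⟩ := exists_nf π t hπ hm hπb₀
      have hkb : kb = kp + kb₀ := NF.unique hπ hm hπb hNb (hNp.mul hNb₀)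
      have hIH := IH b₀ ka₀ kb₀ hπa hπb₀ hNa₀ hNb₀ (fun v hvS hne => h2 v hvS (by
        rw [hord, hordb]
        intro heq
        exact hne (add_left_cancel heq)))
      rw [hka, hkb, Finset.sum_congr rfl (fun v _ => by rw [hord v, hordb v])]
      rw [← Finset.sum_congr rfl (fun v _ => by
        show v.ord (algebraMap S E a) - v.ord (algebraMap S E b₀) =
          v.ord (algebraMap S E p) + v.ord (algebraMap S E a) -
            (v.ord (algebraMap S E p) + v.ord (algebraMap S E b₀))
        ring), ← hIH]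
      push_cast
      ring
    · -- `p ∤ b`: the place of `p` is in `𝒱`, hence rational
      have hbvp : vp.ord (algebraMap S E b) = 0 :=
        ord_eq_zero_of_mem_of_inv_mem vp (hvpS b)
          (inv_mem_of_not_mem_nonunits vp (fun h => hpb ((hvpnon b).mp h)))
      have hvp𝒱 : vp ∈ 𝒱 := by
        refine h2 vp hvpS ?_
        rw [hord, hvpord, hbvp]
        have := ord_nonneg_of_mem vp (hvpS a)
        omega
      obtain ⟨-, z, hz⟩ := h1 vp hvp𝒱
      have hcp : centre vp hvpS = Ideal.span {p} := by
        ext x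
        rw [mem_centre, hvpnon, Ideal.mem_span_singleton]
      have hcz : centre vp hvpS = Ideal.span {t + π * z} :=
        centre_eq_span π t hm vp hvpS (pi_not_mem_nonunits π hπK vp) z hz
      have hass : Associated p (t + π * z) := by
        rw [← Ideal.span_singleton_eq_span_singleton, ← hcp, hcz]
      obtain ⟨w, hw⟩ := hass
      have hNp1 : NF π t p 1 := by
        refine ⟨w⁻¹, z * ((w⁻¹ : Sˣ) : S), ?_⟩
        have hp' : p = (t + π * z) * ((w⁻¹ : Sˣ) : S) := by
          rw [← hw, mul_assoc, Units.mul_inv, mul_one]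
        rw [hp']
        ring
      have hkp : kp = 1 := NF.unique hπ hm hπp hNp hNp1
      have hsump : ∑ v ∈ 𝒱, v.ord (algebraMap S E p) = 1 := by
        rw [Finset.sum_eq_single vp, hvpord]
        · intro v hv hne
          by_contra h0
          apply hne
          obtain ⟨hvS, -⟩ := h1 v hv
          have hpos : 0 < v.ord (algebraMap S E p) :=
            lt_of_le_of_ne (ord_nonneg_of_mem v (hvS p)) (Ne.symm h0)
          exact eq_of_ord_pos π t hπ hm hπK p hp vp hvpuniq v hvS hpos
        · intro h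
          exact absurd hvp𝒱 h
      have hIH := IH b ka₀ kb hπa hπb hNa₀ hNb (fun v hvS hne => by
        by_cases h0 : v.ord (algebraMap S E p) = 0
        · refine h2 v hvS ?_
          rw [hord, h0, zero_add]
          exact hne
        · have hpos : 0 < v.ord (algebraMap S E p) :=
            lt_of_le_of_ne (ord_nonneg_of_mem v (hvS p)) (Ne.symm h0)
          rw [eq_of_ord_pos π t hπ hm hπK p hp vp hvpuniq v hvS hpos]
          exact hvp𝒱)
      rw [hka, hkp, Finset.sum_congr rfl (fun v _ => by rw [hord v])]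
      rw [← Finset.sum_congr rfl (fun v _ => by
        show v.ord (algebraMap S E p) + (v.ord (algebraMap S E a) - v.ord (algebraMap S E b)) =
          v.ord (algebraMap S E p) + v.ord (algebraMap S E a) - v.ord (algebraMap S E b)
        ring), Finset.sum_add_distrib, hsump, ← hIH]
      push_cast
      ring

end Local

section Main

variable {K R E : Type*} [Field K] [CommRing R] [IsDomain R] [IsNoetherianRing R] [Field E]
  [Algebra K E] [Algebra R E] [IsFractionRing R E]

/-- The valuation ring of the place `v` contains `R`, and the centre of `v` on `R` is contained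
in `n`. -/
def Thru (n : Ideal R) (v : Place K E) : Prop :=
  (∀ x : R, algebraMap R E x ∈ v.toValuationSubring) ∧
    ∀ x : R, algebraMap R E x ∈ v.toValuationSubring.nonunits → x ∈ n

/-- `n ⊆ 𝔭_v + π R`, where `𝔭_v` is the centre of `v` on `R` (a "rational" horizontal place:
`R / 𝔭_v` is no bigger than the base ring). -/
def Rational (π : R) (n : Ideal R) (v : Place K E) : Prop :=
  ∀ x ∈ n, ∃ y : R, algebraMap R E y ∈ v.toValuationSubring.nonunits ∧ π ∣ x - y

/-- **Local count (conservation of number at one closed point) for a fraction, normal form.**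
`R` a noetherian domain with fraction field `E ⊇ K`, `π ∈ R` a prime element invertible in `K`,
`n ∋ π` a maximal ideal at which Igusa's statement holds with parameter `t`
(`n R_n = (π, t)`).  Let `y = a / b` with `a, b ∈ R ∖ π R`, and let `𝒱` be a finite set of
rational places through `n` containing every place through `n` at which `y` has a zero or a
pole.  Then `s a = s' t ^ ma + π r`, `s₂ b = s₂' t ^ mb + π r₂` with `s, s', s₂, s₂' ∉ n`, and
`ma - mb = ∑_{v ∈ 𝒱} ord_v y`. -/
theorem local_count_frac (π : R) (hπ : Prime π)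
    (hπK : ∃ c : K, algebraMap K E c * algebraMap R E π = 1)
    (hK : ∀ c : K, ∃ (x : R) (k : ℕ),
      algebraMap K E c * algebraMap R E π ^ k = algebraMap R E x)
    (n : Ideal R) (hn : n.IsMaximal) (hπn : π ∈ n) (t : R) (ht : t ∈ n)
    (hIg : ∀ x ∈ n, ∃ c : R, c ∉ n ∧ c * x ∈ Ideal.span {π, t})
    (𝒱 : Finset (Place K E)) (h1 : ∀ v ∈ 𝒱, Thru n v ∧ Rational π n v)
    (y : E) (a b : R) (ha : ¬ π ∣ a) (hb : ¬ π ∣ b)
    (hy : y * algebraMap R E b = algebraMap R E a)
    (h2 : ∀ v : Place K E, Thru n v → v.ord y ≠ 0 → v ∈ 𝒱) :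
    ∃ (ma mb : ℕ) (s s' r s₂ s₂' r₂ : R), s ∉ n ∧ s' ∉ n ∧ s₂ ∉ n ∧ s₂' ∉ n ∧
      s * a = s' * t ^ ma + π * r ∧ s₂ * b = s₂' * t ^ mb + π * r₂ ∧
      (ma : ℤ) - mb = ∑ v ∈ 𝒱, v.ord y := by
  have hinj : Function.Injective (algebraMap R E) := IsFractionRing.injective R E
  have hnp : n.IsPrime := hn.isPrime
  set Rn : Subalgebra R E :=
    Localization.subalgebra.ofField E n.primeCompl n.primeCompl_le_nonZeroDivisors with hRn
  have hmemRn : ∀ x : E, x ∈ Rn ↔
      ∃ (a s : R) (_ : s ∈ n.primeCompl), x = algebraMap R E a * (algebraMap R E s)⁻¹ :=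
    fun x => Iff.rfl
  have hloc : IsLocalization.AtPrime Rn n :=
    Localization.subalgebra.isLocalization_ofField E n.primeCompl n.primeCompl_le_nonZeroDivisors
  have hlocal : IsLocalRing Rn := IsLocalization.AtPrime.isLocalRing Rn n
  have hnoeth : IsNoetherianRing Rn :=
    IsLocalization.isNoetherianRing n.primeCompl Rn inferInstance
  have hfrac : IsFractionRing Rn E :=
    Localization.subalgebra.isFractionRing_ofField E n.primeCompl
      n.primeCompl_le_nonZeroDivisors
  have hval : ∀ x : R, algebraMap Rn E (algebraMap R Rn x) = algebraMap R E x := fun x => rfl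
  -- the maximal ideal of `Rn`
  have hmax : maximalIdeal Rn = Ideal.span {algebraMap R Rn π, algebraMap R Rn t} := by
    rw [← IsLocalization.AtPrime.map_eq_maximalIdeal n Rn]
    apply le_antisymm
    · rw [Ideal.map_le_iff_le_comap]
      intro x hx
      obtain ⟨c, hc, hcx⟩ := hIg x hx
      have hcu : IsUnit (algebraMap R Rn c) :=
        (IsLocalization.AtPrime.isUnit_to_map_iff Rn n c).mpr hc
      rw [Ideal.mem_comap]
      have h1 : algebraMap R Rn (c * x) ∈
          Ideal.span {algebraMap R Rn π, algebraMap R Rn t} := by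
        have := Ideal.mem_map_of_mem (algebraMap R Rn) hcx
        rwa [Ideal.map_span, Set.image_pair] at this
      rw [map_mul] at h1
      exact (Ideal.unit_mul_mem_iff_mem _ hcu).mp h1
    · rw [Ideal.span_le]
      rintro y (rfl | rfl)
      · exact Ideal.mem_map_of_mem _ hπn
      · exact Ideal.mem_map_of_mem _ ht
  -- `π` stays prime in `Rn`, and divisibility by `π` descends
  have hπR : (Ideal.span {π} : Ideal R).IsPrime := (Ideal.span_singleton_prime hπ.ne_zero).mpr hπ
  have hdisj : Disjoint (n.primeCompl : Set R) ((Ideal.span {π} : Ideal R) : Set R) := by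
    rw [Set.disjoint_left]
    intro x hx hx'
    exact hx ((Ideal.span_singleton_le_iff_mem n).mpr hπn hx')
  have hπ0' : algebraMap R Rn π ≠ 0 := by
    intro h0
    have h1 : algebraMap R E π = 0 := by rw [← hval, h0, map_zero]
    exact hπ.ne_zero (hinj (h1.trans (map_zero _).symm))
  have hπ' : Prime (algebraMap R Rn π) := by
    have h2 := IsLocalization.isPrime_of_isPrime_disjoint n.primeCompl Rn _ hπR hdisj
    rw [Ideal.map_span, Set.image_singleton] at h2
    exact (Ideal.span_singleton_prime hπ0').mp h2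
  have hdesc : ∀ x : R, algebraMap R Rn π ∣ algebraMap R Rn x → π ∣ x := by
    intro x hx
    have h1 : algebraMap R Rn x ∈ Ideal.map (algebraMap R Rn) (Ideal.span {π}) := by
      rw [Ideal.map_span, Set.image_singleton]
      exact Ideal.mem_span_singleton.mpr hx
    have h2 : x ∈ (Ideal.map (algebraMap R Rn) (Ideal.span {π})).under R := h1
    rw [IsLocalization.under_map_of_isPrime_disjoint n.primeCompl Rn hπR hdisj] at h2
    exact Ideal.mem_span_singleton.mp h2
  -- places through `n` contain `Rn`
  have hthru : ∀ v : Place K E, Thru n v → ∀ x : Rn, algebraMap Rn E x ∈ v.toValuationSubring := by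
    intro v hv x
    obtain ⟨b, s, hs, hx⟩ := (hmemRn _).mp x.2
    change (x : E) ∈ v.toValuationSubring
    rw [hx]
    exact mul_mem (hv.1 b) (inv_mem_of_not_mem_nonunits v (fun h => hs (hv.2 s h)))
  have hthru' : ∀ v : Place K E, (∀ x : Rn, algebraMap Rn E x ∈ v.toValuationSubring) →
      Thru n v := by
    intro v hv
    refine ⟨fun x => hv (algebraMap R Rn x), fun x hx => ?_⟩
    by_contra hxn
    have hu : IsUnit (algebraMap R Rn x) :=
      (IsLocalization.AtPrime.isUnit_to_map_iff Rn n x).mpr hxn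
    obtain ⟨y, hy⟩ := hu.exists_right_inv
    have hy' : algebraMap R E x * algebraMap Rn E y = 1 := by
      rw [← hval, ← map_mul, hy, map_one]
    rw [ValuationSubring.mem_nonunits_iff_or] at hx
    rcases hx with h0 | h0
    · rw [h0, zero_mul] at hy'
      exact zero_ne_one hy'
    · apply h0
      rw [eq_inv_of_mul_eq_one_left hy'] at *
      rw [inv_inv]
      exact hv y
  -- the local statement
  have h1' : ∀ v ∈ 𝒱, (∀ x : Rn, algebraMap Rn E x ∈ v.toValuationSubring) ∧
      ∃ z : Rn, algebraMap Rn E (algebraMap R Rn t + algebraMap R Rn π * z) ∈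
        v.toValuationSubring.nonunits := by
    intro v hv
    obtain ⟨hT, hRat⟩ := h1 v hv
    refine ⟨hthru v hT, ?_⟩
    obtain ⟨y, hy, w, hw⟩ := hRat t ht
    refine ⟨algebraMap R Rn (-w), ?_⟩
    have e : algebraMap R Rn t + algebraMap R Rn π * algebraMap R Rn (-w) = algebraMap R Rn y := by
      rw [← map_mul, ← map_add]
      congr 1
      linear_combination hw
    rw [e, hval]
    exact hy
  have ha' : ¬ algebraMap R Rn π ∣ algebraMap R Rn a := fun h => ha (hdesc a h)
  have hb' : ¬ algebraMap R Rn π ∣ algebraMap R Rn b := fun h => hb (hdesc b h)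
  have ha0 : algebraMap R E a ≠ 0 := by
    intro h0
    have : a = 0 := hinj (h0.trans (map_zero _).symm)
    exact ha (this ▸ dvd_zero π)
  have hb0 : algebraMap R E b ≠ 0 := by
    intro h0
    have : b = 0 := hinj (h0.trans (map_zero _).symm)
    exact hb (this ▸ dvd_zero π)
  have hy0 : y ≠ 0 := by
    rintro rfl
    rw [zero_mul] at hy
    exact ha0 hy.symm
  have hordy : ∀ v : Place K E,
      v.ord (algebraMap R E a) - v.ord (algebraMap R E b) = v.ord y := by
    intro v
    rw [← hy, v.ord_mul hy0 hb0]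
    ring
  obtain ⟨ka, hNa⟩ := exists_nf (algebraMap R Rn π) (algebraMap R Rn t) hπ' hmax ha'
  obtain ⟨kb, hNb⟩ := exists_nf (algebraMap R Rn π) (algebraMap R Rn t) hπ' hmax hb'
  have hcount := local_count_frac_local (K := K) (S := Rn) (E := E)
    (algebraMap R Rn π) (algebraMap R Rn t) hπ' hmax hπK
    (fun c => by
      obtain ⟨x, k, hx⟩ := hK c
      exact ⟨algebraMap R Rn x, k, hx⟩) 𝒱 h1' (algebraMap R Rn a) (algebraMap R Rn b) ka kb
    ha' hb' hNa hNb
    (fun v hv hne => h2 v (hthru' v hv) (by
      rw [← hordy v]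
      exact sub_ne_zero.mpr hne))
  -- clear denominators in a normal form
  have hclear : ∀ (x : R) (k : ℕ), NF (algebraMap R Rn π) (algebraMap R Rn t) (algebraMap R Rn x) k →
      ∃ s s' r : R, s ∉ n ∧ s' ∉ n ∧ s * x = s' * t ^ k + π * r := by
    rintro x k ⟨u, r, hur⟩
    obtain ⟨a₁, s₁, hs₁, hus⟩ := (hmemRn _).mp (u : Rn).2
    obtain ⟨r₁, s₂, hs₂, hrs⟩ := (hmemRn _).mp r.2
    have hs₁0 : algebraMap R E s₁ ≠ 0 := by
      intro h0
      have : s₁ = 0 := hinj (h0.trans (map_zero _).symm)
      exact hs₁ (this ▸ n.zero_mem)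
    have hs₂0 : algebraMap R E s₂ ≠ 0 := by
      intro h0
      have : s₂ = 0 := hinj (h0.trans (map_zero _).symm)
      exact hs₂ (this ▸ n.zero_mem)
    have hsu : IsUnit (algebraMap R Rn s₁) :=
      (IsLocalization.AtPrime.isUnit_to_map_iff Rn n s₁).mpr hs₁
    have hau : IsUnit (algebraMap R Rn a₁) := by
      have e2 : algebraMap R Rn a₁ = (u : Rn) * algebraMap R Rn s₁ := by
        apply Subtype.ext
        change algebraMap R E a₁ = ((u : Rn) : E) * algebraMap R E s₁
        rw [hus, mul_assoc, inv_mul_cancel₀ hs₁0, mul_one]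
      rw [e2]
      exact u.isUnit.mul hsu
    have han : a₁ ∉ n := (IsLocalization.AtPrime.isUnit_to_map_iff Rn n a₁).mp hau
    refine ⟨s₁ * s₂, s₂ * a₁, s₁ * r₁, ?_, ?_, ?_⟩
    · intro hmem
      rcases hnp.mem_or_mem hmem with h | h
      · exact hs₁ h
      · exact hs₂ h
    · intro hmem
      rcases hnp.mem_or_mem hmem with h | h
      · exact hs₂ h
      · exact han h
    · apply hinj
      have hE : algebraMap R E x = ((u : Rn) : E) * algebraMap R E t ^ k +
          algebraMap R E π * (r : E) := by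
        have := congrArg (algebraMap Rn E) hur
        rw [map_add, map_mul, map_mul, map_pow] at this
        exact this
      rw [hus, hrs] at hE
      simp only [map_mul, map_add, map_pow]
      rw [hE]
      field_simp
  obtain ⟨s, s', r, hs, hs', hsa⟩ := hclear a ka hNa
  obtain ⟨s₂, s₂', r₂, hs₂, hs₂', hsb⟩ := hclear b kb hNb
  refine ⟨ka, kb, s, s', r, s₂, s₂', r₂, hs, hs', hs₂, hs₂', hsa, hsb, ?_⟩
  rw [hcount]
  exact Finset.sum_congr rfl (fun v _ => hordy v)

/-- **Local count (conservation of number at one closed point), normal form**: the case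
`b = 1` of `local_count_frac`.  If every place through `n` at which `a ∈ R ∖ π R` vanishes is
one of the rational places in `𝒱`, then `s a = s' t ^ m + π r` with `s, s' ∉ n` and
`m = ∑_{v ∈ 𝒱} ord_v a`. -/
theorem local_count (π : R) (hπ : Prime π)
    (hπK : ∃ c : K, algebraMap K E c * algebraMap R E π = 1)
    (hK : ∀ c : K, ∃ (x : R) (k : ℕ),
      algebraMap K E c * algebraMap R E π ^ k = algebraMap R E x)
    (n : Ideal R) (hn : n.IsMaximal) (hπn : π ∈ n) (t : R) (ht : t ∈ n)
    (hIg : ∀ x ∈ n, ∃ c : R, c ∉ n ∧ c * x ∈ Ideal.span {π, t})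
    (𝒱 : Finset (Place K E)) (h1 : ∀ v ∈ 𝒱, Thru n v ∧ Rational π n v)
    (a : R) (ha : ¬ π ∣ a)
    (h2 : ∀ v : Place K E, Thru n v → v.ord (algebraMap R E a) ≠ 0 → v ∈ 𝒱) :
    ∃ (m : ℕ) (s s' r : R), s ∉ n ∧ s' ∉ n ∧ s * a = s' * t ^ m + π * r ∧
      (m : ℤ) = ∑ v ∈ 𝒱, v.ord (algebraMap R E a) := by
  have h1π : ¬ π ∣ (1 : R) := fun h => hπ.not_isUnit (isUnit_of_dvd_one h)
  obtain ⟨ma, mb, s, s', r, s₂, s₂', r₂, hs, hs', hs₂, hs₂', hsa, hsb, hsum⟩ :=
    local_count_frac π hπ hπK hK n hn hπn t ht hIg 𝒱 h1 (algebraMap R E a) a 1 ha h1π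
      (by rw [map_one, mul_one]) h2
  have hmb : mb = 0 := by
    by_contra h0
    apply hs₂
    have e : s₂ = s₂' * t ^ mb + π * r₂ := by rw [← hsb, mul_one]
    rw [e]
    exact Ideal.add_mem _ (Ideal.mul_mem_left _ _ (Ideal.pow_mem_of_mem _ ht _ (by omega)))
      (Ideal.mul_mem_right _ _ hπn)
  refine ⟨ma, s, s', r, hs, hs', hsa, ?_⟩
  rw [← hsum, hmb]
  simp

end Main

end Fermat.Agent.S37.LocalCount
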