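/-
S37 — PMPlacesK.lean (helper22): block [R0], row R3 "places of the special fibre".

Places of a function field `F / k` (any characteristic) with a separating coordinate `t`
(`IsSepCoord k t`: `t` transcendental, `F / k(t)` finite separable), in terms of the integral
closure `B_t` of `k[t]` in `F` (a Dedekind domain with fraction field `F`), and the instantiation
for the reduced modular function field `F_k = modularFunctionFieldFullC k N` with `t = j̄`
(chart `j ≠ ∞`) and `t = j̄⁻¹` (chart `j ≠ 0`).

`B_t` never occurs as a type in the exported statements: only the predicate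
`IsIntegral (Algebra.adjoin k {t}) b` on `b : F` and an arbitrary `B : Subalgebra k F`.

* (R3b) `mem_of_isIntegral`, `IsSepCoord.exists_mul_eq`, `IsSepCoord.exists_ord_eq_one`:
        `B_t ⊆ O_Q`, `O_Q` is the localisation of `B_t` at its centre, integral uniformizer;
* (R3c) `IsSepCoord.exists_place_of_algHom`: a `k`-point of a subalgebra `B ∋ t` integral over
        `k[t]` is the evaluation at a place;
* (R3d) `IsSepCoord.eq_of_forall_valAt`: a place is determined by its centre on `B ⊇ B_t`;
* (R3a) `IsSepCoord.exists_valAt`, `IsSepCoord.deg_eq_one` (wrappers of `PMPlacesK2`);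
* modular: `isSepCoord_jk`, `isSepCoord_jk_inv`, `isSpFib_iff`.
-/
import Mathlib
import Fermat.Agent.S37.PMDefs
import Fermat.Agent.S37.PMCover
import Fermat.Agent.S24.RamSum
import Fermat.Agent.S24.PlacesDedekind
import Fermat.Agent.S18.SepDegSep
import Fermat.Agent.S18.ConstK
import Fermat.Agent.S37.PMPlacesK2
import Fermat.Agent.S37.R0LocDefs
import Fermat.Agent.S37.SpFibDefs

set_option autoImplicit false

noncomputable section

namespace Fermat.Agent.S37.PMPlacesK

open AlgebraicCurve IsDedekindDomain IntermediateField Fermat.Agent.S24 Fermat.Agent.S37.PM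
open scoped IntermediateField.algebraAdjoinAdjoin

section Generic

variable {k F : Type*} [Field k] [Field F] [Algebra k F]

/-- `B_t`, the integral closure of `k[t]` in `F`, is a Dedekind domain. -/
theorem isDedekindDomain_B {t : F} (ht : Transcendental k t) [FiniteDimensional k⟮t⟯ F]
    [Algebra.IsSeparable k⟮t⟯ F] : IsDedekindDomain (RamSum.B k t) := by
  have := RamSum.isPrincipalIdealRing_adjoin t ht
  exact integralClosure.isDedekindDomain (↥(Algebra.adjoin k {t})) k⟮t⟯ F

/-- `F` is the fraction field of `B_t`. -/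
theorem isFractionRing_B (t : F) [FiniteDimensional k⟮t⟯ F] : IsFractionRing (RamSum.B k t) F :=
  integralClosure.isFractionRing_of_finite_extension k⟮t⟯ F

/-- `k[t] ⊆ O_v` when `t` is regular at `v`. -/
theorem mem_of_mem_adjoin (v : Place k F) {t : F} (htv : t ∈ v.toValuationSubring) {a : F}
    (ha : a ∈ Algebra.adjoin k {t}) : a ∈ v.toValuationSubring := by
  induction ha using Algebra.adjoin_induction with
  | mem x hx =>
    rw [Set.mem_singleton_iff] at hx
    rw [hx]; exact htv
  | algebraMap c => exact v.algebraMap_mem' c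
  | add x y _ _ hx hy => exact v.toValuationSubring.add_mem _ _ hx hy
  | mul x y _ _ hx hy => exact v.toValuationSubring.mul_mem _ _ hx hy

/-- Elements of `B_t` are regular at every place at which `t` is regular. -/
theorem mem_of_mem_B (v : Place k F) {t : F} (htv : t ∈ v.toValuationSubring)
    (b : RamSum.B k t) : (b : F) ∈ v.toValuationSubring := by
  let ι : ↥(Algebra.adjoin k {t}) →+* v.toValuationSubring :=
    ((Algebra.adjoin k {t}).val.toRingHom).codRestrict v.toValuationSubring.toSubring
      (fun a => mem_of_mem_adjoin v htv a.2)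
  obtain ⟨p, hp, hpb⟩ := b.2
  have hint : IsIntegral v.toValuationSubring (b : F) := by
    refine ⟨p.map ι, hp.map ι, ?_⟩
    rw [Polynomial.eval₂_map]
    exact hpb
  obtain ⟨y, hy⟩ := IsIntegrallyClosed.isIntegral_iff.mp hint
  rw [← hy]
  exact y.2

section Dedekind

variable {R : Type*} [CommRing R] [IsDedekindDomain R] [Algebra k R] [Algebra R F]
  [IsScalarTower k R F] [IsFractionRing R F]

/-- The maximal ideal of the valuation ring of the place attached to `w` meets `R` in `w`. -/
theorem mem_nonunits_iff_mem_asIdeal (w : HeightOneSpectrum R) (r : R) :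
    algebraMap R F r ∈ (Place.ofHeightOneSpectrum (K := k) (F := F) w).toValuationSubring.nonunits
      ↔ r ∈ w.asIdeal := by
  rw [Place.ofHeightOneSpectrum_toValuationSubring, ValuationSubring.mem_nonunits_iff,
    ← w.valuation_lt_one_iff_mem (K := F)]
  exact ((Valuation.isEquiv_valuation_valuationSubring (w.valuation F)).lt_one_iff_lt_one).symm

/-- Elements of `R` are regular at the place attached to `w`. -/
theorem algebraMap_mem_ofHeightOneSpectrum (w : HeightOneSpectrum R) (r : R) :
    algebraMap R F r ∈ (Place.ofHeightOneSpectrum (K := k) (F := F) w).toValuationSubring := by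
  rw [Place.ofHeightOneSpectrum_toValuationSubring, Valuation.mem_valuationSubring_iff]
  exact w.valuation_le_one r

/-- **Separation**: two places of `F` at which every element of the Dedekind domain `R`
(with fraction field `F`) is regular with the same value coincide. -/
theorem eq_of_forall_valAt (v₁ v₂ : Place k F)
    (h : ∀ r : R, ∃ c : k, ValAt v₁ (algebraMap R F r) c ∧ ValAt v₂ (algebraMap R F r) c) :
    v₁ = v₂ := by
  obtain ⟨w₁, hw₁⟩ := exists_ofHeightOneSpectrum_eq (R := R) v₁
    (fun r => by obtain ⟨c, hc, _⟩ := h r; exact PMCover.valAt_mem v₁ hc)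
  obtain ⟨w₂, hw₂⟩ := exists_ofHeightOneSpectrum_eq (R := R) v₂
    (fun r => by obtain ⟨c, _, hc⟩ := h r; exact PMCover.valAt_mem v₂ hc)
  have key : ∀ r : R, r ∈ w₁.asIdeal ↔ r ∈ w₂.asIdeal := by
    intro r
    obtain ⟨c, hc₁, hc₂⟩ := h r
    rw [← mem_nonunits_iff_mem_asIdeal (k := k) (F := F) w₁ r,
      ← mem_nonunits_iff_mem_asIdeal (k := k) (F := F) w₂ r, hw₁, hw₂,
      ← PMCover.valAt_zero_iff, ← PMCover.valAt_zero_iff]
    constructor
    · intro h0
      have : c = 0 := PMCover.valAt_unique v₁ hc₁ h0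
      rw [this] at hc₂
      exact hc₂
    · intro h0
      have : c = 0 := PMCover.valAt_unique v₂ hc₂ h0
      rw [this] at hc₁
      exact hc₁
  have hw : w₁ = w₂ := HeightOneSpectrum.ext (Ideal.ext key)
  rw [← hw₁, ← hw₂, hw]

end Dedekind

/-! ### Separating coordinates -/

/-- `t` is a separating coordinate of the function field `F / k`: `t` is transcendental over
`k` and `F` is finite separable over `k(t)`. -/
structure IsSepCoord (k : Type*) {F : Type*} [Field k] [Field F] [Algebra k F] (t : F) :
    Prop where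
  transcendental : Transcendental k t
  finite : FiniteDimensional k⟮t⟯ F
  separable : Algebra.IsSeparable k⟮t⟯ F

variable {t : F}

theorem IsSepCoord.inv (h : IsSepCoord k t) : IsSepCoord k t⁻¹ := by
  have := h.finite
  have := h.separable
  exact ⟨principal_transcendental_inv h.transcendental,
    Fermat.Agent.S18.ConstK.finiteDimensional_of_eq (principal_adjoin_inv (K := k) t),
    Fermat.Agent.S18.ConstK.isSeparable_of_eq (principal_adjoin_inv (K := k) t)⟩

theorem IsSepCoord.isFF1 (h : IsSepCoord k t) : IsFF1 k F :=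
  ⟨t, h.transcendental, h.finite⟩

/-- `B_t` is a Dedekind domain. -/
theorem IsSepCoord.isDedekindDomain (h : IsSepCoord k t) : IsDedekindDomain (RamSum.B k t) := by
  have := h.finite
  have := h.separable
  exact isDedekindDomain_B h.transcendental

/-- `F = Frac B_t`. -/
theorem IsSepCoord.isFractionRing (h : IsSepCoord k t) : IsFractionRing (RamSum.B k t) F := by
  have := h.finite
  exact isFractionRing_B t

/-- A place at which `t` is regular is the place of a height-one prime of `B_t`. -/
theorem IsSepCoord.exists_heightOne_eq (h : IsSepCoord k t) (Q : Place k F)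
    (htQ : t ∈ Q.toValuationSubring) :
    haveI := h.isDedekindDomain
    haveI := h.isFractionRing
    ∃ w : HeightOneSpectrum (RamSum.B k t),
      Place.ofHeightOneSpectrum (K := k) (F := F) w = Q := by
  have := h.isDedekindDomain
  have := h.isFractionRing
  exact exists_ofHeightOneSpectrum_eq (R := RamSum.B k t) Q (fun r => mem_of_mem_B Q htQ r)

/-- **(R3b)** elements integral over `k[t]` are regular at every place at which `t` is. -/
theorem mem_of_isIntegral (Q : Place k F) (htQ : t ∈ Q.toValuationSubring) {b : F}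
    (hb : IsIntegral (↥(Algebra.adjoin k {t})) b) : b ∈ Q.toValuationSubring :=
  mem_of_mem_B Q htQ ⟨b, hb⟩

/-- **(R3b)** `O_Q` is the localisation of `B_t` at its centre: every element of `O_Q` is a
fraction `x / s` with `x, s` integral over `k[t]` and `s` a unit at `Q`. -/
theorem IsSepCoord.exists_mul_eq (h : IsSepCoord k t) (Q : Place k F)
    (htQ : t ∈ Q.toValuationSubring) {f : F} (hf : f ∈ Q.toValuationSubring) :
    ∃ x s : F, IsIntegral (↥(Algebra.adjoin k {t})) x ∧ IsIntegral (↥(Algebra.adjoin k {t})) s ∧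
      s ∉ Q.toValuationSubring.nonunits ∧ f * s = x := by
  have := h.isDedekindDomain
  have := h.isFractionRing
  obtain ⟨w, hw⟩ := h.exists_heightOne_eq Q htQ
  have hf' : f ∈ (Place.ofHeightOneSpectrum (K := k) (F := F) w).toValuationSubring := by
    rw [hw]; exact hf
  rw [Place.ofHeightOneSpectrum_toValuationSubring, Valuation.mem_valuationSubring_iff] at hf'
  obtain ⟨n, d, hnd⟩ := w.exists_primeCompl_mul_eq_of_integer f hf'
  refine ⟨(n : F), ((d : RamSum.B k t) : F), n.2, (d : RamSum.B k t).2, ?_, hnd⟩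
  rw [← hw]
  intro hmem
  exact d.2 ((mem_nonunits_iff_mem_asIdeal (k := k) (F := F) w d).mp hmem)

/-- **(R3b)** there is a uniformizer at `Q` which is integral over `k[t]`. -/
theorem IsSepCoord.exists_ord_eq_one (h : IsSepCoord k t) (Q : Place k F)
    (htQ : t ∈ Q.toValuationSubring) :
    ∃ τ : F, IsIntegral (↥(Algebra.adjoin k {t})) τ ∧ Q.ord τ = 1 := by
  obtain ⟨π, hπ⟩ := Fermat.Agent.S24.exists_ord_eq_one Q
  have hπmem : π ∈ Q.toValuationSubring := mem_of_ord_nonneg Q (by omega)
  obtain ⟨x, s, hx, hs, hsn, hxs⟩ := h.exists_mul_eq Q htQ hπmem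
  refine ⟨x, hx, ?_⟩
  have hsmem : s ∈ Q.toValuationSubring := mem_of_isIntegral Q htQ hs
  have hπ0 : π ≠ 0 := by
    rintro rfl
    simp at hπ
  have hs0 : s ≠ 0 := by
    rintro rfl
    exact hsn (PMCover.zero_mem_nonunits _)
  have hords : Q.ord s = 0 := by
    have h0 := ord_nonneg_of_mem Q hsmem
    by_contra hne
    have hpos : 0 < Q.ord s := lt_of_le_of_ne h0 (Ne.symm hne)
    have hmax := (ord_pos_iff_mem_maximalIdeal Q ⟨s, hsmem⟩
      (by intro h0'; exact hs0 (congrArg Subtype.val h0'))).mp hpos
    exact hsn (ValuationSubring.mem_nonunits_iff_exists_mem_maximalIdeal.mpr ⟨hsmem, hmax⟩)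
  rw [← hxs, Q.ord_mul hπ0 hs0, hπ, hords, add_zero]

/-- **(R3d)** a place at which `t` is regular is determined by its centre on (any ring
containing) the integral closure `B_t` of `k[t]`. -/
theorem IsSepCoord.eq_of_forall_valAt (h : IsSepCoord k t) (B : Subalgebra k F)
    (hB : ∀ b : F, IsIntegral (↥(Algebra.adjoin k {t})) b → b ∈ B) (Q Q' : Place k F)
    (hval : ∀ b : ↥B, ∃ c : k, ValAt Q (b : F) c ∧ ValAt Q' (b : F) c) : Q = Q' := by
  have := h.isDedekindDomain
  have := h.isFractionRing
  exact _root_.Fermat.Agent.S37.PMPlacesK.eq_of_forall_valAt (R := RamSum.B k t) Q Q' (fun r => hval ⟨(r : F), hB _ r.2⟩)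

/-- **(R3c)** every `k`-point `χ` of a `k`-subalgebra `B ∋ t` of `F`, integral over `k[t]`,
is the evaluation at a place `Q` of `F`. -/
theorem IsSepCoord.exists_place_of_algHom (h : IsSepCoord k t) (B : Subalgebra k F)
    (htB : t ∈ B) (hB : ∀ b ∈ B, IsIntegral (↥(Algebra.adjoin k {t})) b) (χ : ↥B →ₐ[k] k) :
    ∃ Q : Place k F, ∀ b : ↥B, ValAt Q (b : F) (χ b) := by
  classical
  have := h.isDedekindDomain
  have := h.isFractionRing
  -- the inclusion `B → B_t`
  let ι : ↥B →+* RamSum.B k t :=
    { toFun := fun b => ⟨(b : F), hB b b.2⟩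
      map_one' := rfl
      map_mul' := fun _ _ => rfl
      map_zero' := rfl
      map_add' := fun _ _ => rfl }
  have hιcoe : ∀ b : ↥B, ((ι b : RamSum.B k t) : F) = (b : F) := fun _ => rfl
  have hιinj : Function.Injective ι := by
    intro b b' hbb
    exact Subtype.ext (by rw [← hιcoe b, ← hιcoe b', hbb])
  let _ : Algebra ↥B (RamSum.B k t) := ι.toAlgebra
  have halg : ∀ b : ↥B, algebraMap ↥B (RamSum.B k t) b = ι b := fun _ => rfl
  -- `B_t` is integral over `B`
  have hle : Algebra.adjoin k {t} ≤ B := Algebra.adjoin_le (Set.singleton_subset_iff.mpr htB)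
  let j : ↥(Algebra.adjoin k {t}) →+* ↥B := (Subalgebra.inclusion hle).toRingHom
  have : Algebra.IsIntegral ↥B (RamSum.B k t) := by
    refine ⟨fun c => ?_⟩
    obtain ⟨p, hp, hpc⟩ := c.2
    refine ⟨p.map j, hp.map j, ?_⟩
    apply Subtype.val_injective
    have h1 : ((Polynomial.eval₂ (algebraMap ↥B (RamSum.B k t)) c (p.map j) : RamSum.B k t) : F)
        = Polynomial.eval₂ ((algebraMap (RamSum.B k t) F).comp (algebraMap ↥B (RamSum.B k t)))
            (algebraMap (RamSum.B k t) F c) (p.map j) :=
      Polynomial.hom_eval₂ (p.map j) (algebraMap ↥B (RamSum.B k t)) (algebraMap (RamSum.B k t) F) c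
    rw [h1, Polynomial.eval₂_map]
    exact hpc
  -- the kernel of `χ` is a maximal ideal
  have hχsurj : Function.Surjective χ.toRingHom := fun c =>
    ⟨algebraMap k ↥B c, by simp⟩
  have hImax : (RingHom.ker χ.toRingHom).IsMaximal := RingHom.ker_isMaximal_of_surjective _ hχsurj
  have hker : RingHom.ker (algebraMap ↥B (RamSum.B k t)) ≤ RingHom.ker χ.toRingHom := by
    intro b hb
    rw [RingHom.mem_ker, halg] at hb
    have : b = 0 := hιinj (by rw [hb, map_zero])
    rw [this]
    exact Ideal.zero_mem _
  obtain ⟨m, hmmax, hmcomap⟩ :=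
    Ideal.exists_ideal_over_maximal_of_isIntegral (S := RamSum.B k t) (RingHom.ker χ.toRingHom) hker
  -- `m ≠ ⊥`
  have hm0 : m ≠ ⊥ := by
    rintro rfl
    -- then `χ` is injective, so `t` is a constant
    have hχinj : ∀ b : ↥B, χ b = 0 → b = 0 := by
      intro b hb
      have hbker : b ∈ RingHom.ker χ.toRingHom := hb
      rw [← hmcomap, Ideal.mem_comap, Ideal.mem_bot, halg] at hbker
      exact hιinj (by rw [hbker, map_zero])
    have ht0 : (⟨t, htB⟩ : ↥B) - algebraMap k ↥B (χ ⟨t, htB⟩) = 0 :=
      hχinj _ (by rw [map_sub, AlgHom.commutes, Algebra.algebraMap_self_apply, sub_self])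
    have ht1 : t = algebraMap k F (χ ⟨t, htB⟩) := by
      have := congrArg (Subtype.val) ht0
      exact sub_eq_zero.mp this
    exact h.transcendental (ht1 ▸ isAlgebraic_algebraMap _)
  let w : HeightOneSpectrum (RamSum.B k t) := ⟨m, hmmax.isPrime, hm0⟩
  refine ⟨Place.ofHeightOneSpectrum (K := k) (F := F) w, fun b => ?_⟩
  have hmem : b - algebraMap k ↥B (χ b) ∈ RingHom.ker χ.toRingHom := by
    show χ (b - algebraMap k ↥B (χ b)) = 0
    rw [map_sub, AlgHom.commutes, Algebra.algebraMap_self_apply, sub_self]
  rw [← hmcomap, Ideal.mem_comap, halg] at hmem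
  have := (mem_nonunits_iff_mem_asIdeal (k := k) (F := F) w
    (ι (b - algebraMap k ↥B (χ b)))).mpr hmem
  exact this

/-- **(R3a)** over an algebraically closed field every regular function has a value
(helper61's char-free `PMPlacesK2.exists_valAt`). -/
theorem IsSepCoord.exists_valAt [IsAlgClosed k] (h : IsSepCoord k t) (Q : Place k F) {f : F}
    (hf : f ∈ Q.toValuationSubring) : ∃ c : k, ValAt Q f c :=
  PMPlacesK2.exists_valAt h.isFF1 Q f hf

/-- **(R3a)** over an algebraically closed field all places have degree one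
(helper61's char-free `PMPlacesK2.place_deg_eq_one`). -/
theorem IsSepCoord.deg_eq_one [IsAlgClosed k] (h : IsSepCoord k t) (Q : Place k F) :
    Q.deg = 1 :=
  PMPlacesK2.place_deg_eq_one h.isFF1 Q

end Generic

/-! ### Integrality over `k[t]`, inside an intermediate field and inside the ambient field -/

theorem isIntegral_coe_iff {k L : Type*} [Field k] [Field L] [Algebra k L]
    (E : IntermediateField k L) (t b : E) :
    IsIntegral (↥(Algebra.adjoin k {(t : L)})) (b : L) ↔
      IsIntegral (↥(Algebra.adjoin k {t})) b := by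
  classical
  have hae : ∀ q : Polynomial k, Polynomial.aeval (t : L) q = ((Polynomial.aeval t q : E) : L) :=
    fun q => Polynomial.aeval_algHom_apply E.val t q
  have hmem : ∀ x : ↥(Algebra.adjoin k {t}), ((x : E) : L) ∈ Algebra.adjoin k {(t : L)} := by
    rintro ⟨x, hx⟩
    rw [Algebra.adjoin_singleton_eq_range_aeval] at hx
    obtain ⟨q, hq⟩ := hx
    have hq' : Polynomial.aeval t q = x := hq
    show (x : L) ∈ Algebra.adjoin k {(t : L)}
    have hgoal : Polynomial.aeval (t : L) q ∈ Algebra.adjoin k {(t : L)} := by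
      rw [Algebra.adjoin_singleton_eq_range_aeval]
      exact ⟨q, rfl⟩
    rw [hae, hq'] at hgoal
    exact hgoal
  let φ : ↥(Algebra.adjoin k {t}) →+* ↥(Algebra.adjoin k {(t : L)}) :=
    { toFun := fun x => ⟨((x : E) : L), hmem x⟩
      map_one' := rfl
      map_mul' := fun _ _ => rfl
      map_zero' := rfl
      map_add' := fun _ _ => rfl }
  have hφsurj : Function.Surjective φ := by
    rintro ⟨y, hy⟩
    rw [Algebra.adjoin_singleton_eq_range_aeval] at hy
    obtain ⟨q, hq⟩ := hy
    have hq' : Polynomial.aeval (t : L) q = y := hq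
    refine ⟨⟨Polynomial.aeval t q, ?_⟩, Subtype.ext ?_⟩
    · rw [Algebra.adjoin_singleton_eq_range_aeval]
      exact ⟨q, rfl⟩
    · show ((Polynomial.aeval t q : E) : L) = y
      rw [← hq', hae]
  have hcomp : (algebraMap ↥(Algebra.adjoin k {(t : L)}) L).comp φ =
      (algebraMap E L).comp (algebraMap ↥(Algebra.adjoin k {t}) E) := rfl
  constructor
  · rintro ⟨p₂, hp₂, hev⟩
    obtain ⟨p, hp, -, hpm⟩ := Polynomial.lifts_and_natDegree_eq_and_monic (f := φ)
      ((Polynomial.mem_lifts _).mpr (Polynomial.map_surjective φ hφsurj p₂)) hp₂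
    refine ⟨p, hpm, ?_⟩
    apply (algebraMap E L).injective
    rw [map_zero, Polynomial.hom_eval₂, ← hcomp, ← Polynomial.eval₂_map, hp]
    exact hev
  · rintro ⟨p, hp, hev⟩
    refine ⟨p.map φ, hp.map φ, ?_⟩
    rw [Polynomial.eval₂_map, hcomp]
    have h1 := Polynomial.hom_eval₂ p (algebraMap ↥(Algebra.adjoin k {t}) E) (algebraMap E L) b
    rw [hev, map_zero] at h1
    exact h1.symm

/-! ### The reduced modular function field -/

section Modular

open ModularCurve HahnSeries

set_option synthInstance.maxHeartbeats 400000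

variable (N ℓ : ℕ) [NeZero N]

/-- `j̄` is a separating coordinate of `F_k`. -/
theorem isSepCoord_jk (hℓ : ℓ.Prime) (A : ValuationSubring Qb) (hA : A.LiesOverPrime ℓ) :
    IsSepCoord (IsLocalRing.ResidueField A) (R0.jk N A) := by
  have : Fact ℓ.Prime := ⟨hℓ⟩
  have := Fermat.Agent.S18.BaseRes.charP_residueField ℓ A hA
  have := Fermat.Agent.S18.BaseRes.isAlgClosed_residueField A
  exact ⟨Fermat.Agent.S18.ConstK.transcendental_jb (IsLocalRing.ResidueField A) N,
    Fermat.Agent.S18.SepDeg.finiteDimensional_full (IsLocalRing.ResidueField A) N,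
    Fermat.Agent.S18.SepDeg.isSeparable_full (IsLocalRing.ResidueField A) ℓ N⟩

/-- `j̄⁻¹` is a separating coordinate of `F_k`. -/
theorem isSepCoord_jk_inv (hℓ : ℓ.Prime) (A : ValuationSubring Qb) (hA : A.LiesOverPrime ℓ) :
    IsSepCoord (IsLocalRing.ResidueField A) (R0.jk N A)⁻¹ :=
  (isSepCoord_jk N ℓ hℓ A hA).inv

omit [NeZero N] in
/-- Bridge to `SpFib.IsSpFib` (integrality inside `k((q))`). -/
theorem isSpFib_iff (A : ValuationSubring Qb)
    (t b : modularFunctionFieldFullC (IsLocalRing.ResidueField A) N) :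
    SpFib.IsSpFib N A (t : LaurentSeries (IsLocalRing.ResidueField A))
        (b : LaurentSeries (IsLocalRing.ResidueField A)) ↔
      IsIntegral (↥(Algebra.adjoin (IsLocalRing.ResidueField A) {t})) b :=
  ⟨fun h => (isIntegral_coe_iff _ t b).mp h.2, fun h => ⟨b.2, (isIntegral_coe_iff _ t b).mpr h⟩⟩

end Modular

end Fermat.Agent.S37.PMPlacesK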