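/-
S37 — PMUnif.lean (helper76), block [R0]/[PM]: POINTS OF THE SPECIAL FIBRE OF A CHART, directly
from the Igusa property (`S18.Arith.IgusaAt`), with no normality of the special fibre and no
place theory of `F_k`.

Mathlib-only cores:
* `unif_core`   a local parameter at a closed point is characterised by the order of its
                reduction: `ρ : R → F`, `w` an order function, `ρ π = 0`,
                `n = {x | ρ x = 0 ∨ 0 < w (ρ x)}`, `n·R_n = (π, t₁)` (Igusa).  If `Frac (ρ R)`
                contains an element of order `1`, then `w (ρ t₁) = 1` and EVERY `t ∈ n` with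
                `w (ρ t) = 1` satisfies `n·R_n = (π, t)` (uniformity in the level).
* `surj_core`   in the same situation every `f ∈ Frac (ρ R)` with `w f ≥ 0` is `ρ a / ρ s`,
                `s ∉ n`.
* `isMaximal_ker_of_integral`, `exists_poly_of_mem`, `map_mem_of_isIntegral`,
  `isIntegral_adjoin_subalgebra`   a point of the special fibre of a ring integral over `O[t]`
                is maximal and (residue field of `O` algebraically closed) `k`-rational.

Model forms (vocabulary of `S18/ArithPlan`):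
* `unif_fin`, `surj_fin`, `hU_of_frac`   the cores for a chart `R` over `O = A ∩ K`;
* `exists_frac_R0`, `exists_frac_Rinf`   `F_k = Frac (ρ R0) = Frac (ρ Rinf)`;
* `chart_point`  for a chart with `ChartFacts` + `IgusaAt`, `K` with `BaseFacts`, and a place
                `Q` of `F_k` at which the reduced coordinate is regular: `ρ R ⊆ O_Q`, every
                `f ∈ O_Q` is `ρ a / ρ s` with `ρ s` a unit at `Q`, and every `y ∈ R` is
                congruent to a constant modulo the point.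
-/
import Mathlib
import Fermat.Agent.S18.ArithPlan
import Fermat.Agent.S18.ModelPlan
import Fermat.Agent.S18.ModelBasicCore
import Fermat.Agent.S18.ModelRed
import Fermat.Agent.S18.ResOK
import Fermat.Agent.S24.PlaceBasic

set_option autoImplicit false

namespace Fermat.Agent.S37.PMUnif

section Core

variable {R F : Type*} [CommRing R] [Field F]

/-- Orders of elements of `R` are multiples of the order of the Igusa parameter `t₁`. -/
theorem exists_mul_eq_of_igusa (ρ : R →+* F) (w : F → ℤ)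
    (hw : ∀ f g : F, f ≠ 0 → g ≠ 0 → w (f * g) = w f + w g)
    (hw0 : ∀ x : R, 0 ≤ w (ρ x))
    (π : R) (hπ : ρ π = 0)
    (n : Ideal R) (hn : ∀ x : R, x ∈ n ↔ ρ x = 0 ∨ 0 < w (ρ x))
    (t₁ : R) (ht₁ : ρ t₁ ≠ 0) (he : 0 < w (ρ t₁))
    (hI : ∀ x ∈ n, ∃ c : R, c ∉ n ∧ c * x ∈ Ideal.span {π, t₁}) :
    ∀ (m : ℕ) (x : R), ρ x ≠ 0 → w (ρ x) = m → ∃ j : ℕ, (m : ℤ) = j * w (ρ t₁) := by
  intro m
  induction m using Nat.strong_induction_on with
  | _ m ih =>
    intro x hx hm
    by_cases hxn : x ∈ n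
    · obtain ⟨c, hc, hcx⟩ := hI x hxn
      rw [Ideal.mem_span_pair] at hcx
      obtain ⟨r, s, hrs⟩ := hcx
      have hc' : ρ c ≠ 0 ∧ ¬ 0 < w (ρ c) := by
        rw [hn] at hc
        push Not at hc
        exact ⟨hc.1, not_lt.mpr hc.2⟩
      have hwc : w (ρ c) = 0 := le_antisymm (not_lt.mp hc'.2) (hw0 c)
      have h1 : ρ c * ρ x = ρ s * ρ t₁ := by
        have := congrArg ρ hrs
        rw [map_add, map_mul, map_mul, hπ, mul_zero, zero_add, map_mul] at this
        exact this.symm
      have hs : ρ s ≠ 0 := by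
        intro h0
        rw [h0, zero_mul] at h1
        exact mul_ne_zero hc'.1 hx h1
      have h2 : w (ρ c) + w (ρ x) = w (ρ s) + w (ρ t₁) := by
        rw [← hw _ _ hc'.1 hx, ← hw _ _ hs ht₁, h1]
      have hs0 := hw0 s
      obtain ⟨m', hm'⟩ := Int.eq_ofNat_of_zero_le hs0
      have hlt : m' < m := by
        have : (m' : ℤ) < m := by omega
        exact_mod_cast this
      obtain ⟨j, hj⟩ := ih m' hlt s hs hm'
      refine ⟨j + 1, ?_⟩
      push_cast
      rw [add_mul, one_mul, ← hj]
      omega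
    · refine ⟨0, ?_⟩
      rw [hn] at hxn
      push Not at hxn
      have := hw0 x
      push_cast
      rw [zero_mul]
      omega

/-- **Abstract core of the uniform parameter.** -/
theorem unif_core (ρ : R →+* F) (w : F → ℤ)
    (hw : ∀ f g : F, f ≠ 0 → g ≠ 0 → w (f * g) = w f + w g)
    (hw0 : ∀ x : R, 0 ≤ w (ρ x))
    (π : R) (hπ : ρ π = 0)
    (n : Ideal R) (hn : ∀ x : R, x ∈ n ↔ ρ x = 0 ∨ 0 < w (ρ x))
    (t₁ : R) (ht₁ : t₁ ∈ n)
    (hI : ∀ x ∈ n, ∃ c : R, c ∉ n ∧ c * x ∈ Ideal.span {π, t₁})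
    (hU : ∃ a b : R, ρ a ≠ 0 ∧ ρ b ≠ 0 ∧ w (ρ a) = w (ρ b) + 1) :
    (ρ t₁ ≠ 0 ∧ w (ρ t₁) = 1) ∧
      ∀ t ∈ n, ρ t ≠ 0 → w (ρ t) = 1 →
        ∀ x ∈ n, ∃ c : R, c ∉ n ∧ c * x ∈ Ideal.span {π, t} := by
  obtain ⟨a, b, ha, hb, hab⟩ := hU
  have hnot : ∀ c : R, c ∉ n → ρ c ≠ 0 ∧ w (ρ c) = 0 := by
    intro c hc
    rw [hn] at hc
    push Not at hc
    exact ⟨hc.1, le_antisymm hc.2 (hw0 c)⟩
  -- `ρ t₁ ≠ 0`
  have ht₁0 : ρ t₁ ≠ 0 := by
    intro h0
    have hker : ∀ x ∈ n, ρ x = 0 := by
      intro x hx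
      obtain ⟨c, hc, hcx⟩ := hI x hx
      rw [Ideal.mem_span_pair] at hcx
      obtain ⟨r, s, hrs⟩ := hcx
      have := congrArg ρ hrs
      rw [map_add, map_mul, map_mul, hπ, h0, mul_zero, mul_zero, zero_add, map_mul] at this
      rcases mul_eq_zero.mp this.symm with h | h
      · exact absurd h (hnot c hc).1
      · exact h
    have hz : ∀ x : R, ρ x ≠ 0 → w (ρ x) = 0 := by
      intro x hx
      exact (hnot x (fun hxn => hx (hker x hxn))).2
    rw [hz a ha, hz b hb] at hab
    omega
  have he : 0 < w (ρ t₁) := by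
    rcases (hn t₁).mp ht₁ with h | h
    · exact absurd h ht₁0
    · exact h
  have hmult := exists_mul_eq_of_igusa ρ w hw hw0 π hπ n hn t₁ ht₁0 he hI
  obtain ⟨ma, hma⟩ := Int.eq_ofNat_of_zero_le (hw0 a)
  obtain ⟨mb, hmb⟩ := Int.eq_ofNat_of_zero_le (hw0 b)
  obtain ⟨ja, hja⟩ := hmult ma a ha hma
  obtain ⟨jb, hjb⟩ := hmult mb b hb hmb
  have he1 : w (ρ t₁) = 1 := by
    have h1 : ((ja : ℤ) - jb) * w (ρ t₁) = 1 := by
      rw [sub_mul, ← hja, ← hjb, ← hma, ← hmb, hab]
      ring
    have h2 : w (ρ t₁) ∣ 1 := Dvd.intro_left _ h1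
    exact Int.eq_one_of_dvd_one he.le h2
  refine ⟨⟨ht₁0, he1⟩, ?_⟩
  intro t ht ht0 hwt x hx
  obtain ⟨c, hc, hct⟩ := hI t ht
  rw [Ideal.mem_span_pair] at hct
  obtain ⟨r, s, hrs⟩ := hct
  have h1 : ρ c * ρ t = ρ s * ρ t₁ := by
    have := congrArg ρ hrs
    rw [map_add, map_mul, map_mul, hπ, mul_zero, zero_add, map_mul] at this
    exact this.symm
  have hs : ρ s ≠ 0 := by
    intro h0
    rw [h0, zero_mul] at h1
    exact mul_ne_zero (hnot c hc).1 ht0 h1
  have h2 : w (ρ c) + w (ρ t) = w (ρ s) + w (ρ t₁) := by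
    rw [← hw _ _ (hnot c hc).1 ht0, ← hw _ _ hs ht₁0, h1]
  have hws : w (ρ s) = 0 := by
    rw [(hnot c hc).2, hwt, he1] at h2
    omega
  have hsn : s ∉ n := by
    rw [hn]
    push Not
    exact ⟨hs, hws.le⟩
  obtain ⟨c', hc', hcx⟩ := hI x hx
  rw [Ideal.mem_span_pair] at hcx
  obtain ⟨r', s', hrs'⟩ := hcx
  refine ⟨s * c', ?_, ?_⟩
  · rw [hn]
    push Not
    rw [map_mul]
    refine ⟨mul_ne_zero hs (hnot c' hc').1, ?_⟩
    rw [hw _ _ hs (hnot c' hc').1, hws, (hnot c' hc').2, add_zero]
  · rw [Ideal.mem_span_pair]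
    refine ⟨s * r' - s' * r, s' * c, ?_⟩
    have e1 : s * t₁ = c * t - r * π := by rw [← hrs]; ring
    calc (s * r' - s' * r) * π + s' * c * t
        = s * (r' * π) + s' * (c * t - r * π) := by ring
      _ = s * (r' * π) + s' * (s * t₁) := by rw [e1]
      _ = s * (r' * π + s' * t₁) := by ring
      _ = s * c' * x := by rw [hrs']; ring

/-- **Abstract core of surjectivity**: with the Igusa property at `n`, every element of
`Frac (ρ R)` of order `≥ 0` is a quotient `ρ a / ρ s` with `s ∉ n`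
(the localisation of `ρ R` at the image of `n` is the whole valuation ring). -/
theorem surj_core (ρ : R →+* F) (w : F → ℤ)
    (hw : ∀ f g : F, f ≠ 0 → g ≠ 0 → w (f * g) = w f + w g)
    (hw0 : ∀ x : R, 0 ≤ w (ρ x))
    (π : R) (hπ : ρ π = 0)
    (n : Ideal R) (hn : ∀ x : R, x ∈ n ↔ ρ x = 0 ∨ 0 < w (ρ x))
    (t₁ : R) (ht₁ : t₁ ∈ n) (hI : ∀ x ∈ n, ∃ c : R, c ∉ n ∧ c * x ∈ Ideal.span {π, t₁})
    (f : F) (hf : f ≠ 0) (hf0 : 0 ≤ w f)
    (hfrac : ∃ a b : R, ρ b ≠ 0 ∧ f * ρ b = ρ a) :
    ∃ a s : R, s ∉ n ∧ f * ρ s = ρ a := by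
  have hnot : ∀ c : R, c ∉ n → ρ c ≠ 0 ∧ w (ρ c) = 0 := by
    intro c hc
    rw [hn] at hc
    push Not at hc
    exact ⟨hc.1, le_antisymm hc.2 (hw0 c)⟩
  have key : ∀ (m : ℕ) (a b : R), ρ b ≠ 0 → f * ρ b = ρ a → w (ρ b) = m →
      ∃ a s : R, s ∉ n ∧ f * ρ s = ρ a := by
    intro m
    induction m using Nat.strong_induction_on with
    | _ m ih =>
      intro a b hb hab hm
      by_cases hbn : b ∈ n
      · have ha0 : ρ a ≠ 0 := by
          rw [← hab]
          exact mul_ne_zero hf hb
        have hwb : 0 < w (ρ b) := by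
          rcases (hn b).mp hbn with h | h
          · exact absurd h hb
          · exact h
        have han : a ∈ n := by
          rw [hn]
          right
          rw [← hab, hw _ _ hf hb]
          omega
        obtain ⟨c, hc, hcb⟩ := hI b hbn
        obtain ⟨c', hc', hca⟩ := hI a han
        rw [Ideal.mem_span_pair] at hcb hca
        obtain ⟨r, s₁, hrs⟩ := hcb
        obtain ⟨r', s₁', hrs'⟩ := hca
        have h1 : ρ c * ρ b = ρ s₁ * ρ t₁ := by
          have := congrArg ρ hrs
          rw [map_add, map_mul, map_mul, hπ, mul_zero, zero_add, map_mul] at this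
          exact this.symm
        have h1' : ρ c' * ρ a = ρ s₁' * ρ t₁ := by
          have := congrArg ρ hrs'
          rw [map_add, map_mul, map_mul, hπ, mul_zero, zero_add, map_mul] at this
          exact this.symm
        have hne : ρ s₁ * ρ t₁ ≠ 0 := by
          rw [← h1]
          exact mul_ne_zero (hnot c hc).1 hb
        have hs₁ : ρ s₁ ≠ 0 := left_ne_zero_of_mul hne
        have ht₁0 : ρ t₁ ≠ 0 := right_ne_zero_of_mul hne
        have hwt : 0 < w (ρ t₁) := by
          rcases (hn t₁).mp ht₁ with h | h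
          · exact absurd h ht₁0
          · exact h
        have hs₁' : ρ s₁' ≠ 0 := by
          intro h0
          rw [h0, zero_mul] at h1'
          exact mul_ne_zero (hnot c' hc').1 ha0 h1'
        have h2 : w (ρ c) + w (ρ b) = w (ρ s₁) + w (ρ t₁) := by
          rw [← hw _ _ (hnot c hc).1 hb, ← hw _ _ hs₁ ht₁0, h1]
        rw [(hnot c hc).2, zero_add] at h2
        -- the new denominator `s₁ * c'`
        have hb' : ρ (s₁ * c') ≠ 0 := by
          rw [map_mul]
          exact mul_ne_zero hs₁ (hnot c' hc').1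
        have hab' : f * ρ (s₁ * c') = ρ (s₁' * c) := by
          have e : f * ρ (s₁ * c') * ρ t₁ = ρ (s₁' * c) * ρ t₁ := by
            rw [map_mul, map_mul]
            calc f * (ρ s₁ * ρ c') * ρ t₁ = ρ c' * (f * (ρ s₁ * ρ t₁)) := by ring
              _ = ρ c' * (f * (ρ c * ρ b)) := by rw [h1]
              _ = ρ c * (ρ c' * (f * ρ b)) := by ring
              _ = ρ c * (ρ c' * ρ a) := by rw [hab]
              _ = ρ c * (ρ s₁' * ρ t₁) := by rw [h1']
              _ = ρ s₁' * ρ c * ρ t₁ := by ring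
          exact mul_right_cancel₀ ht₁0 e
        have hwb' : w (ρ (s₁ * c')) = w (ρ s₁) := by
          rw [map_mul, hw _ _ hs₁ (hnot c' hc').1, (hnot c' hc').2, add_zero]
        obtain ⟨m', hm'⟩ := Int.eq_ofNat_of_zero_le (hw0 (s₁ * c'))
        have hlt : m' < m := by
          have : (m' : ℤ) < m := by
            rw [← hm', hwb', ← hm]
            omega
          exact_mod_cast this
        exact ih m' hlt (s₁' * c) (s₁ * c') hb' hab' hm'
      · exact ⟨a, b, hbn, hab⟩
  obtain ⟨a, b, hb, hab⟩ := hfrac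
  obtain ⟨m, hm⟩ := Int.eq_ofNat_of_zero_le (hw0 b)
  exact key m a b hb hab hm

end Core

/-! ### Points of the special fibre are maximal (Mathlib only) -/

section Max

open Polynomial

/-- A root `z ≠ 0` of a nonzero polynomial over a domain, lying in an ideal `I`: some nonzero
coefficient of the polynomial lies in `I` (the lowest one). -/
theorem exists_coeff_mem_of_eval_eq_zero {D : Type*} [CommRing D] [IsDomain D] (I : Ideal D)
    (z : D) (hz0 : z ≠ 0) (hzI : z ∈ I) :
    ∀ (n : ℕ) (g : D[X]), g.natDegree ≤ n → g ≠ 0 → g.eval z = 0 →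
      ∃ i : ℕ, g.coeff i ≠ 0 ∧ g.coeff i ∈ I := by
  intro n
  induction n with
  | zero =>
    intro g hdeg hg hev
    exfalso
    rw [Nat.le_zero] at hdeg
    rw [Polynomial.eq_C_of_natDegree_eq_zero hdeg, eval_C] at hev
    apply hg
    rw [Polynomial.eq_C_of_natDegree_eq_zero hdeg, hev, C_0]
  | succ n ih =>
    intro g hdeg hg hev
    by_cases h0 : g.coeff 0 = 0
    · have hg' : g = g.divX * X := by
        conv_lhs => rw [← Polynomial.divX_mul_X_add g, h0, C_0, add_zero]
      have hd0 : g.divX ≠ 0 := by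
        intro h
        apply hg
        rw [hg', h, zero_mul]
      have hev' : g.divX.eval z = 0 := by
        rw [hg', eval_mul, eval_X] at hev
        rcases mul_eq_zero.mp hev with h | h
        · exact h
        · exact absurd h hz0
      have hdeg' : g.divX.natDegree ≤ n := by
        rw [Polynomial.natDegree_divX_eq_natDegree_tsub_one]
        omega
      obtain ⟨i, hi, hiI⟩ := ih g.divX hdeg' hd0 hev'
      rw [Polynomial.coeff_divX] at hi hiI
      exact ⟨i + 1, hi, hiI⟩
    · refine ⟨0, h0, ?_⟩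
      have h1 : g.eval z = g.divX.eval z * z + g.coeff 0 := by
        conv_lhs => rw [← Polynomial.divX_mul_X_add g]
        rw [eval_add, eval_mul, eval_X, eval_C]
      rw [hev] at h1
      have h2 : g.coeff 0 = -(g.divX.eval z) * z := by
        linear_combination -h1
      rw [h2]
      exact I.mul_mem_left _ hzI

/-- Images of `O[t]` under a ring hom into a valuation subring containing the images of `O`
and `t`; integral elements follow. -/
theorem map_mem_of_isIntegral {O R F : Type*} [CommRing O] [CommRing R] [Algebra O R] [Field F]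
    (V : ValuationSubring F) (φ : R →+* F) (hφO : ∀ c : O, φ (algebraMap O R c) ∈ V)
    (t : R) (ht : φ t ∈ V) (x : R) (hx : IsIntegral (Algebra.adjoin O {t}) x) : φ x ∈ V := by
  have hB : ∀ b ∈ Algebra.adjoin O {t}, φ b ∈ V := by
    intro b hb
    induction hb using Algebra.adjoin_induction with
    | mem z hz =>
      rw [Set.mem_singleton_iff] at hz
      rw [hz]
      exact ht
    | algebraMap c => exact hφO c
    | add a b _ _ ha hb => rw [map_add]; exact V.add_mem _ _ ha hb
    | mul a b _ _ ha hb => rw [map_mul]; exact V.mul_mem _ _ ha hb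
  let g : Algebra.adjoin O {t} →+* V :=
    (φ.comp (algebraMap (Algebra.adjoin O {t}) R)).codRestrict V (fun b => hB b b.2)
  have h1 : IsIntegral V (φ x) :=
    IsIntegral.map_of_comp_eq g φ (by ext b; rfl) hx
  obtain ⟨y, hy⟩ := IsIntegrallyClosed.isIntegral_iff.mp h1
  rw [← hy]
  exact y.2

/-- The lowest nonvanishing reduced coefficient of an integrality equation. -/
theorem exists_poly_of_mem {O R D : Type*} [CommRing O] [IsLocalRing O] [CommRing R]
    [Algebra O R] [CommRing D] [IsDomain D] (I : Ideal D) (φ : R →+* D)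
    (hφO : ∀ a ∈ IsLocalRing.maximalIdeal O, φ (algebraMap O R a) = 0) (t y : R)
    (hy : IsIntegral (Algebra.adjoin O {t}) y) (hy0 : φ y ≠ 0) (hyI : φ y ∈ I) :
    ∃ P : O[X], P.map (IsLocalRing.residue O) ≠ 0 ∧ φ (aeval t P) ∈ I := by
  obtain ⟨p, hp, hpy⟩ := hy
  set g : D[X] := p.map (φ.comp (algebraMap (Algebra.adjoin O {t}) R)) with hg
  have hgm : g.Monic := hp.map _
  have hgev : g.eval (φ y) = 0 := by
    rw [hg, eval_map, ← Polynomial.hom_eval₂, hpy, map_zero]
  obtain ⟨i, hi, hiI⟩ := exists_coeff_mem_of_eval_eq_zero I (φ y) hy0 hyI g.natDegree g le_rfl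
    hgm.ne_zero hgev
  rw [hg, coeff_map] at hi hiI
  have hb : ((p.coeff i : Algebra.adjoin O {t}) : R) ∈ (aeval (R := O) t).range := by
    rw [← Algebra.adjoin_singleton_eq_range_aeval]
    exact (p.coeff i).2
  obtain ⟨P, hP⟩ := hb
  refine ⟨P, ?_, ?_⟩
  · intro h0
    apply hi
    have hP' : aeval t P = ((p.coeff i : Algebra.adjoin O {t}) : R) := hP
    show φ ((p.coeff i : Algebra.adjoin O {t}) : R) = 0
    rw [← hP', aeval_def, eval₂_eq_sum_range, map_sum]
    refine Finset.sum_eq_zero fun j _ => ?_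
    have hj : P.coeff j ∈ IsLocalRing.maximalIdeal O := by
      rw [← IsLocalRing.residue_eq_zero_iff, ← coeff_map, h0, coeff_zero]
    rw [map_mul, hφO _ hj, zero_mul]
  · have hP' : aeval t P = ((p.coeff i : Algebra.adjoin O {t}) : R) := hP
    rw [hP']
    exact hiI

/-- **Maximality of a point of the special fibre.**  `R` integral over `O[t]`, `ψ : R → κ` a
ring hom to a field killing `𝔪_O`, such that `ψ t` is algebraic over the residue field of `O`
(witness `P`).  Then `ker ψ` is maximal; and if the residue field of `O` is algebraically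
closed, every element of `R` is congruent to a constant modulo `ker ψ`. -/
theorem isMaximal_ker_of_integral {O R κ : Type*} [CommRing O] [IsLocalRing O] [CommRing R]
    [Algebra O R] [Field κ] (ψ : R →+* κ)
    (hψO : ∀ a ∈ IsLocalRing.maximalIdeal O, ψ (algebraMap O R a) = 0) (t : R)
    (hint : ∀ x : R, IsIntegral (Algebra.adjoin O {t}) x) (P : O[X])
    (hP : P.map (IsLocalRing.residue O) ≠ 0) (hPt : ψ (aeval t P) = 0) :
    (RingHom.ker ψ).IsMaximal ∧
      (IsAlgClosed (IsLocalRing.ResidueField O) →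
        ∀ y : R, ∃ c : O, ψ y = ψ (algebraMap O R c)) := by
  let f₀ : IsLocalRing.ResidueField O →+* κ :=
    Ideal.Quotient.lift (IsLocalRing.maximalIdeal O) (ψ.comp (algebraMap O R)) hψO
  let _ : Algebra (IsLocalRing.ResidueField O) κ := f₀.toAlgebra
  have hf₀ : ∀ c : O, algebraMap (IsLocalRing.ResidueField O) κ (IsLocalRing.residue O c) =
      ψ (algebraMap O R c) := fun c => rfl
  have hcomp : (algebraMap (IsLocalRing.ResidueField O) κ).comp (IsLocalRing.residue O) =
      ψ.comp (algebraMap O R) := RingHom.ext hf₀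
  -- `ψ t` is integral over the residue field
  have hτ : IsIntegral (IsLocalRing.ResidueField O) (ψ t) := by
    refine IsAlgebraic.isIntegral ⟨P.map (IsLocalRing.residue O), hP, ?_⟩
    rw [aeval_def, eval₂_map, hcomp, ← Polynomial.hom_eval₂, ← aeval_def, hPt]
  -- images of `O[t]` are integral
  have hB : ∀ b ∈ Algebra.adjoin O {t},
      ψ b ∈ integralClosure (IsLocalRing.ResidueField O) κ := by
    intro b hb
    induction hb using Algebra.adjoin_induction with
    | mem z hz =>
      rw [Set.mem_singleton_iff] at hz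
      rw [hz]
      exact hτ
    | algebraMap c =>
      rw [← hf₀]
      exact Subalgebra.algebraMap_mem _ _
    | add a b _ _ ha hb => rw [map_add]; exact Subalgebra.add_mem _ ha hb
    | mul a b _ _ ha hb => rw [map_mul]; exact Subalgebra.mul_mem _ ha hb
  have hall : ∀ y : R, IsIntegral (IsLocalRing.ResidueField O) (ψ y) := by
    intro y
    let g : Algebra.adjoin O {t} →+* integralClosure (IsLocalRing.ResidueField O) κ :=
      (ψ.comp (algebraMap (Algebra.adjoin O {t}) R)).codRestrict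
        (integralClosure (IsLocalRing.ResidueField O) κ) (fun b => hB b b.2)
    have h1 : IsIntegral (integralClosure (IsLocalRing.ResidueField O) κ) (ψ y) :=
      IsIntegral.map_of_comp_eq g ψ (by ext b; rfl) (hint y)
    exact isIntegral_trans _ h1
  refine ⟨?_, ?_⟩
  · -- maximality
    let A' : Subalgebra (IsLocalRing.ResidueField O) κ :=
      { ψ.range with
        algebraMap_mem' := by
          intro c
          obtain ⟨c', rfl⟩ := IsLocalRing.residue_surjective c
          exact ⟨algebraMap O R c', (hf₀ c').symm⟩ }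
    rw [Ideal.isMaximal_iff]
    refine ⟨?_, ?_⟩
    · rw [RingHom.mem_ker, map_one]
      exact one_ne_zero
    · intro J x hJ hx hxJ
      rw [RingHom.mem_ker] at hx
      have hxA : ψ x ∈ A' := ⟨x, rfl⟩
      have hinv : (ψ x)⁻¹ ∈ A' :=
        Subalgebra.inv_mem_of_algebraic A' (x := (⟨ψ x, hxA⟩ : A')) (hall x).isAlgebraic
      obtain ⟨z, hz⟩ := hinv
      have hker : x * z - 1 ∈ RingHom.ker ψ := by
        rw [RingHom.mem_ker, map_sub, map_mul, map_one, hz, mul_inv_cancel₀ hx, sub_self]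
      have h1 : (1 : R) = x * z - (x * z - 1) := by ring
      rw [h1]
      exact J.sub_mem (J.mul_mem_right z hxJ) (hJ hker)
  · intro hac y
    have hy := hall y
    have hdeg : (minpoly (IsLocalRing.ResidueField O) (ψ y)).degree = 1 :=
      IsAlgClosed.degree_eq_one_of_irreducible _ (minpoly.irreducible hy)
    obtain ⟨c₀, hc₀⟩ := minpoly.mem_range_of_degree_eq_one _ _ hdeg
    obtain ⟨c, rfl⟩ := IsLocalRing.residue_surjective c₀
    exact ⟨c, by rw [← hc₀, hf₀]⟩

/-- Integrality over `O[t]` inside a subalgebra `R ∋ t`, read inside `R`. -/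
theorem isIntegral_adjoin_subalgebra {O E : Type*} [CommRing O] [CommRing E] [Algebra O E]
    (R : Subalgebra O E) (t : E) (ht : t ∈ R) (x : R)
    (hx : IsIntegral (Algebra.adjoin O {t}) (x : E)) :
    IsIntegral (Algebra.adjoin O {(⟨t, ht⟩ : R)}) x := by
  have hBR : Algebra.adjoin O {t} ≤ R := Algebra.adjoin_le (Set.singleton_subset_iff.mpr ht)
  have hmem : ∀ b ∈ Algebra.adjoin O {t}, ∀ h : b ∈ R,
      (⟨b, h⟩ : R) ∈ Algebra.adjoin O {(⟨t, ht⟩ : R)} := by
    intro b hb
    induction hb using Algebra.adjoin_induction with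
    | mem z hz =>
      intro h
      rw [Set.mem_singleton_iff] at hz
      subst hz
      exact Algebra.subset_adjoin (Set.mem_singleton _)
    | algebraMap c =>
      intro h
      exact Subalgebra.algebraMap_mem _ c
    | add a b ha hb iha ihb =>
      intro h
      have := Subalgebra.add_mem _ (iha (hBR ha)) (ihb (hBR hb))
      exact this
    | mul a b ha hb iha ihb =>
      intro h
      have := Subalgebra.mul_mem _ (iha (hBR ha)) (ihb (hBR hb))
      exact this
  let g : Algebra.adjoin O {t} →+* Algebra.adjoin O {(⟨t, ht⟩ : R)} :=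
    { toFun := fun b => ⟨⟨(b : E), hBR b.2⟩, hmem b b.2 (hBR b.2)⟩
      map_one' := rfl
      map_mul' := fun _ _ => rfl
      map_zero' := rfl
      map_add' := fun _ _ => rfl }
  obtain ⟨p, hp, hpx⟩ := hx
  refine ⟨p.map g, hp.map g, ?_⟩
  apply Subtype.val_injective
  have h1 : (R.val : R →+* E) (Polynomial.eval₂ (algebraMap (Algebra.adjoin O {(⟨t, ht⟩ : R)}) R) x
      (p.map g)) = Polynomial.eval₂ (algebraMap (Algebra.adjoin O {t}) E) (x : E) p := by
    rw [Polynomial.eval₂_map, Polynomial.hom_eval₂]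
    rfl
  exact h1.trans hpx

end Max

/-! ### Finite level: a chart of the S18 model over `O = A ∩ K` -/

section Fin

open ModularCurve AlgebraicCurve HahnSeries Fermat.Agent.S18.Arith

set_option synthInstance.maxHeartbeats 400000

/-- The maximal ideal of a place in terms of `ord`. -/
theorem mem_nonunits_iff {K F : Type*} [Field K] [Field F] [Algebra K F] (v : Place K F) (x : F) :
    x ∈ v.toValuationSubring.nonunits ↔ x = 0 ∨ 0 < v.ord x := by
  rw [ValuationSubring.mem_nonunits_iff_exists_mem_maximalIdeal]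
  constructor
  · rintro ⟨hx, hmax⟩
    by_cases h0 : x = 0
    · exact Or.inl h0
    · right
      have hne : (⟨x, hx⟩ : v.toValuationSubring) ≠ 0 := fun h => h0 (congrArg Subtype.val h)
      exact (Fermat.Agent.S24.ord_pos_iff_mem_maximalIdeal v ⟨x, hx⟩ hne).mpr hmax
  · rintro (rfl | hpos)
    · exact ⟨zero_mem _, by
        have : (⟨0, zero_mem _⟩ : v.toValuationSubring) = 0 := rfl
        rw [this]
        exact Ideal.zero_mem _⟩
    · have hx : x ∈ v.toValuationSubring := Fermat.Agent.S24.mem_of_ord_nonneg v hpos.le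
      have hne : (⟨x, hx⟩ : v.toValuationSubring) ≠ 0 := by
        intro h
        have h0 : x = 0 := congrArg Subtype.val h
        rw [h0, Place.ord_zero] at hpos
        exact lt_irrefl _ hpos
      exact ⟨hx, (Fermat.Agent.S24.ord_pos_iff_mem_maximalIdeal v ⟨x, hx⟩ hne).mp hpos⟩

variable {N : ℕ} [NeZero N] {A : ValuationSubring Qb} {K : IntermediateField ℚ Qb}

omit [NeZero N] in
/-- **Uniform local parameter, finite level.**  `R` a chart over `O = A ∩ K` with the Igusa
property, `ρ : R → F_k` its reduction, `Q` a place of `F_k` on the chart (`ρ R ⊆ O_Q`) and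
`n = ρ⁻¹ 𝔪_Q` the corresponding closed point.  If `Frac (ρ R)` contains an element of order `1`
at `Q` (hypothesis `hU`; automatic when `ρ R` generates `F_k`), then
* some `t ∈ n` has `ord_Q (ρ t) = 1`, and
* EVERY `t ∈ n` with `ord_Q (ρ t) = 1` is a local parameter: `n·R_n = (π, t)`. -/
theorem unif_fin (R : Subalgebra (OK A K) (FK N K)) (hIg : IgusaAt N A K R)
    (π : OK A K) (hπ : Irreducible π)
    (ρ : R →+* LaurentSeries (IsLocalRing.ResidueField A))
    (hρπ : ρ (algebraMap (OK A K) R π) = 0)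
    (hρk : ∀ x : R, ρ x ∈ modularFunctionFieldFullC (IsLocalRing.ResidueField A) N)
    (Q : Place (IsLocalRing.ResidueField A)
      (modularFunctionFieldFullC (IsLocalRing.ResidueField A) N))
    (hQ : ∀ x : R, (⟨ρ x, hρk x⟩ : modularFunctionFieldFullC (IsLocalRing.ResidueField A) N) ∈
      Q.toValuationSubring)
    (n : Ideal R) (hmax : n.IsMaximal)
    (hn : ∀ x : R, x ∈ n ↔
      (⟨ρ x, hρk x⟩ : modularFunctionFieldFullC (IsLocalRing.ResidueField A) N) ∈
        Q.toValuationSubring.nonunits)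
    (hU : ∃ a b : R, ρ a ≠ 0 ∧ ρ b ≠ 0 ∧
      Q.ord (⟨ρ a, hρk a⟩ : modularFunctionFieldFullC (IsLocalRing.ResidueField A) N) =
        Q.ord (⟨ρ b, hρk b⟩ : modularFunctionFieldFullC (IsLocalRing.ResidueField A) N) + 1) :
    (∃ t ∈ n,
      Q.ord (⟨ρ t, hρk t⟩ : modularFunctionFieldFullC (IsLocalRing.ResidueField A) N) = 1) ∧
    ∀ t ∈ n,
      Q.ord (⟨ρ t, hρk t⟩ : modularFunctionFieldFullC (IsLocalRing.ResidueField A) N) = 1 →
      ∀ x ∈ n, ∃ c : R, c ∉ n ∧ c * x ∈ Ideal.span {algebraMap (OK A K) R π, t} := by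
  -- the reduction with values in `F_k`
  let ρ' : R →+* modularFunctionFieldFullC (IsLocalRing.ResidueField A) N :=
    ρ.codRestrict (modularFunctionFieldFullC (IsLocalRing.ResidueField A) N).toSubring hρk
  have hρ' : ∀ x : R, ρ' x = ⟨ρ x, hρk x⟩ := fun x => rfl
  have hz : ∀ x : R, ρ' x = 0 ↔ ρ x = 0 := by
    intro x
    rw [hρ']
    constructor
    · intro h
      exact congrArg Subtype.val h
    · intro h
      exact Subtype.ext h
  have hπn : algebraMap (OK A K) R π ∈ n := by
    rw [hn]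
    have : (⟨ρ (algebraMap (OK A K) R π), hρk _⟩ :
        modularFunctionFieldFullC (IsLocalRing.ResidueField A) N) = 0 := Subtype.ext hρπ
    rw [this]
    exact (mem_nonunits_iff Q 0).mpr (Or.inl rfl)
  obtain ⟨t₁, ht₁, hI⟩ := hIg π hπ n hmax hπn
  have hcore := unif_core ρ' Q.ord (fun f g hf hg => Q.ord_mul hf hg)
    (fun x => Fermat.Agent.S24.ord_nonneg_of_mem Q (hQ x))
    (algebraMap (OK A K) R π) ((hz _).mpr hρπ) n
    (fun x => by rw [hn, ← hρ', mem_nonunits_iff]) t₁ ht₁ hI
    (by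
      obtain ⟨a, b, ha, hb, hab⟩ := hU
      exact ⟨a, b, fun h => ha ((hz a).mp h), fun h => hb ((hz b).mp h), hab⟩)
  refine ⟨⟨t₁, ht₁, hcore.1.2⟩, ?_⟩
  intro t ht hwt x hx
  refine hcore.2 t ht ?_ hwt x hx
  intro h0
  rw [← hρ', h0, Place.ord_zero] at hwt
  exact zero_ne_one hwt

omit [NeZero N] in
/-- **Surjectivity, finite level.**  In the situation of `unif_fin`, if `F_k = Frac (ρ R)`
(hypothesis `hfrac`), the localisation of `ρ R` at the closed point is the whole valuation ring
of `Q`: every `f ∈ O_Q` is `ρ a / ρ s` with `s ∉ n`. -/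
theorem surj_fin (R : Subalgebra (OK A K) (FK N K)) (hIg : IgusaAt N A K R)
    (π : OK A K) (hπ : Irreducible π)
    (ρ : R →+* LaurentSeries (IsLocalRing.ResidueField A))
    (hρπ : ρ (algebraMap (OK A K) R π) = 0)
    (hρk : ∀ x : R, ρ x ∈ modularFunctionFieldFullC (IsLocalRing.ResidueField A) N)
    (Q : Place (IsLocalRing.ResidueField A)
      (modularFunctionFieldFullC (IsLocalRing.ResidueField A) N))
    (hQ : ∀ x : R, (⟨ρ x, hρk x⟩ : modularFunctionFieldFullC (IsLocalRing.ResidueField A) N) ∈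
      Q.toValuationSubring)
    (n : Ideal R) (hmax : n.IsMaximal)
    (hn : ∀ x : R, x ∈ n ↔
      (⟨ρ x, hρk x⟩ : modularFunctionFieldFullC (IsLocalRing.ResidueField A) N) ∈
        Q.toValuationSubring.nonunits)
    (hfrac : ∀ f : modularFunctionFieldFullC (IsLocalRing.ResidueField A) N,
      ∃ a b : R, ρ b ≠ 0 ∧ (f : LaurentSeries (IsLocalRing.ResidueField A)) * ρ b = ρ a)
    (f : modularFunctionFieldFullC (IsLocalRing.ResidueField A) N)
    (hf : f ∈ Q.toValuationSubring) :
    ∃ a s : R, s ∉ n ∧ (f : LaurentSeries (IsLocalRing.ResidueField A)) * ρ s = ρ a := by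
  by_cases hf0 : f = 0
  · refine ⟨0, 1, fun h => hmax.ne_top ((Ideal.eq_top_iff_one n).mpr h), ?_⟩
    rw [hf0, map_zero]
    exact zero_mul _
  let ρ' : R →+* modularFunctionFieldFullC (IsLocalRing.ResidueField A) N :=
    ρ.codRestrict (modularFunctionFieldFullC (IsLocalRing.ResidueField A) N).toSubring hρk
  have hρ' : ∀ x : R, ρ' x = ⟨ρ x, hρk x⟩ := fun x => rfl
  have hz : ∀ x : R, ρ' x = 0 ↔ ρ x = 0 := by
    intro x
    rw [hρ']
    constructor
    · intro h
      exact congrArg Subtype.val h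
    · intro h
      exact Subtype.ext h
  have hπn : algebraMap (OK A K) R π ∈ n := by
    rw [hn]
    have : (⟨ρ (algebraMap (OK A K) R π), hρk _⟩ :
        modularFunctionFieldFullC (IsLocalRing.ResidueField A) N) = 0 := Subtype.ext hρπ
    rw [this]
    exact (mem_nonunits_iff Q 0).mpr (Or.inl rfl)
  obtain ⟨t₁, ht₁, hI⟩ := hIg π hπ n hmax hπn
  obtain ⟨a, s, hs, has⟩ := surj_core ρ' Q.ord (fun f g hf hg => Q.ord_mul hf hg)
    (fun x => Fermat.Agent.S24.ord_nonneg_of_mem Q (hQ x))
    (algebraMap (OK A K) R π) ((hz _).mpr hρπ) n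
    (fun x => by rw [hn, ← hρ', mem_nonunits_iff]) t₁ ht₁ hI f hf0
    (Fermat.Agent.S24.ord_nonneg_of_mem Q hf)
    (by
      obtain ⟨a, b, hb, hab⟩ := hfrac f
      exact ⟨a, b, fun h => hb ((hz b).mp h), Subtype.ext hab⟩)
  exact ⟨a, s, hs, congrArg Subtype.val has⟩

omit [NeZero N] in
/-- `Frac (ρ R) = F_k` provides the element of order one needed by `unif_fin`. -/
theorem hU_of_frac (R : Subalgebra (OK A K) (FK N K))
    (ρ : R →+* LaurentSeries (IsLocalRing.ResidueField A))
    (hρk : ∀ x : R, ρ x ∈ modularFunctionFieldFullC (IsLocalRing.ResidueField A) N)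
    (Q : Place (IsLocalRing.ResidueField A)
      (modularFunctionFieldFullC (IsLocalRing.ResidueField A) N))
    (hfrac : ∀ f : modularFunctionFieldFullC (IsLocalRing.ResidueField A) N,
      ∃ a b : R, ρ b ≠ 0 ∧ (f : LaurentSeries (IsLocalRing.ResidueField A)) * ρ b = ρ a) :
    ∃ a b : R, ρ a ≠ 0 ∧ ρ b ≠ 0 ∧
      Q.ord (⟨ρ a, hρk a⟩ : modularFunctionFieldFullC (IsLocalRing.ResidueField A) N) =
        Q.ord (⟨ρ b, hρk b⟩ : modularFunctionFieldFullC (IsLocalRing.ResidueField A) N) + 1 := by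
  obtain ⟨τ, hτ⟩ := Fermat.Agent.S24.exists_ord_eq_one Q
  have hτ0 : τ ≠ 0 := by
    intro h
    rw [h, Place.ord_zero] at hτ
    exact zero_ne_one hτ
  obtain ⟨a, b, hb, hab⟩ := hfrac τ
  have hb' : (⟨ρ b, hρk b⟩ : modularFunctionFieldFullC (IsLocalRing.ResidueField A) N) ≠ 0 :=
    fun h => hb (congrArg Subtype.val h)
  have hab' : τ * (⟨ρ b, hρk b⟩ : modularFunctionFieldFullC (IsLocalRing.ResidueField A) N) =
      ⟨ρ a, hρk a⟩ := Subtype.ext hab
  have ha : ρ a ≠ 0 := by
    intro h
    have h0 : τ * (⟨ρ b, hρk b⟩ : modularFunctionFieldFullC (IsLocalRing.ResidueField A) N) = 0 := by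
      rw [hab']
      exact Subtype.ext h
    exact mul_ne_zero hτ0 hb' h0
  refine ⟨a, b, ha, hb, ?_⟩
  rw [← hab', Q.ord_mul hτ0 hb', hτ, add_comm]

end Fin

/-! ### `Frac (ρ R) = F_k` for the two charts -/

section Frac

open ModularCurve AlgebraicCurve HahnSeries Fermat.Agent.S18.Arith Fermat.Agent.S18.ModelPlan
open Fermat.Agent.S18

set_option synthInstance.maxHeartbeats 400000

variable {N : ℕ} [NeZero N] {ℓ : ℕ} [Fact ℓ.Prime] {A : ValuationSubring Qb}
  {K : IntermediateField ℚ Qb}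

omit [NeZero N] [Fact (Nat.Prime ℓ)] in
/-- The fractions of `ρ R` form a subfield of `k((q))` containing `k`; if it contains the
`j(q^d)`, `d ∣ N`, it contains `F_k`. -/
theorem exists_frac_of_gRel (hG : GRelFacts A) (hB : BaseFacts ℓ A K)
    (R : Subalgebra (OK A K) (FK N K))
    (ρ : R →+* LaurentSeries (IsLocalRing.ResidueField A))
    (hρ : ∀ x : R, GRel A ((x : FK N K) : LaurentSeries Qb) (ρ x))
    (hgen : ∀ d : ℕ, d ∣ N → d ≠ 0 →
      ∃ a b : R, ρ b ≠ 0 ∧ S28.jd (IsLocalRing.ResidueField A) d * ρ b = ρ a)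
    (f : LaurentSeries (IsLocalRing.ResidueField A))
    (hf : f ∈ modularFunctionFieldFullC (IsLocalRing.ResidueField A) N) :
    ∃ a b : R, ρ b ≠ 0 ∧ f * ρ b = ρ a := by
  -- the subfield of fractions
  let Fr : Subfield (LaurentSeries (IsLocalRing.ResidueField A)) :=
    { carrier := {f | ∃ a b : R, ρ b ≠ 0 ∧ f * ρ b = ρ a}
      mul_mem' := by
        rintro f g ⟨a, b, hb, hab⟩ ⟨a', b', hb', hab'⟩
        refine ⟨a * a', b * b', ?_, ?_⟩
        · rw [map_mul]
          exact mul_ne_zero hb hb'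
        · rw [map_mul, map_mul, ← hab, ← hab']
          ring
      one_mem' := ⟨1, 1, by rw [map_one]; exact one_ne_zero, by rw [map_one, one_mul]⟩
      add_mem' := by
        rintro f g ⟨a, b, hb, hab⟩ ⟨a', b', hb', hab'⟩
        refine ⟨a * b' + a' * b, b * b', ?_, ?_⟩
        · rw [map_mul]
          exact mul_ne_zero hb hb'
        · rw [map_add, map_mul, map_mul, map_mul, ← hab, ← hab']
          ring
      zero_mem' := ⟨0, 1, by rw [map_one]; exact one_ne_zero, by rw [map_zero, zero_mul]⟩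
      neg_mem' := by
        rintro f ⟨a, b, hb, hab⟩
        exact ⟨-a, b, hb, by rw [map_neg, ← hab, neg_mul]⟩
      inv_mem' := by
        rintro f ⟨a, b, hb, hab⟩
        by_cases hf0 : f = 0
        · refine ⟨0, 1, by rw [map_one]; exact one_ne_zero, ?_⟩
          rw [hf0, inv_zero, map_zero, zero_mul]
        · have ha : ρ a ≠ 0 := by
            rw [← hab]
            exact mul_ne_zero hf0 hb
          refine ⟨b, a, ha, ?_⟩
          rw [← hab, ← mul_assoc, inv_mul_cancel₀ hf0, one_mul] }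
  have hFr : ∀ g, g ∈ Fr ↔ ∃ a b : R, ρ b ≠ 0 ∧ g * ρ b = ρ a := fun g => Iff.rfl
  -- constants
  have hconst : ∀ c : IsLocalRing.ResidueField A,
      algebraMap (IsLocalRing.ResidueField A) (LaurentSeries (IsLocalRing.ResidueField A)) c ∈
        Fr := by
    intro c
    obtain ⟨a, rfl⟩ := IsLocalRing.residue_surjective c
    obtain ⟨x, hx, hax⟩ := hB.res_surj a
    let c' : OK A K := ⟨x, hx⟩
    have h1 : ρ (algebraMap (OK A K) R c') = C (resO A K c') :=
      hG.unique _ _ _ (hρ _) (ModelRed.gRel_const K hG c')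
    refine (hFr _).mpr ⟨algebraMap (OK A K) R c', 1, by rw [map_one]; exact one_ne_zero, ?_⟩
    rw [map_one, mul_one, h1, hax, algebraMap_laurentSeries_eq_single]
    rfl
  let Fr' : IntermediateField (IsLocalRing.ResidueField A)
      (LaurentSeries (IsLocalRing.ResidueField A)) := Subfield.toIntermediateField Fr hconst
  have hle : modularFunctionFieldFullC (IsLocalRing.ResidueField A) N ≤ Fr' := by
    rw [modularFunctionFieldFullC, IntermediateField.adjoin_le_iff]
    rintro g ⟨d, hd, hdN, rfl⟩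
    have hd0 : d ≠ 0 := NeZero.ne d
    obtain ⟨a, b, hb, hab⟩ := hgen d hdN hd0
    rw [S28.jd_eq] at hab
    exact (hFr _).mpr ⟨a, b, hb, hab⟩
  exact (hFr f).mp (hle hf)

/-- The reduction of `j(q^d)` in Gauss-relational form. -/
theorem gRel_jd (hG : GRelFacts A) (d : ℕ) :
    GRel A (S28.jd Qb d) (S28.jd (IsLocalRing.ResidueField A) d) := by
  have h := hG.of_int (S28.jd A d)
  rwa [S28.coeffMap_jd, S28.coeffMap_jd] at h

/-- `F_k = Frac (ρ R0)`. -/
theorem exists_frac_R0 (hG : GRelFacts A) (hB : BaseFacts ℓ A K)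
    (ρ : R0 N ℓ A K →+* LaurentSeries (IsLocalRing.ResidueField A))
    (hρ : ∀ x : R0 N ℓ A K, GRel A ((x : FK N K) : LaurentSeries Qb) (ρ x))
    (f : LaurentSeries (IsLocalRing.ResidueField A))
    (hf : f ∈ modularFunctionFieldFullC (IsLocalRing.ResidueField A) N) :
    ∃ a b : R0 N ℓ A K, ρ b ≠ 0 ∧ f * ρ b = ρ a := by
  refine exists_frac_of_gRel hG hB (R0 N ℓ A K) ρ hρ ?_ f hf
  intro d hd hd0
  refine ⟨⟨_, ModelBasicCore.ratEmb_jd_mem_R0 N ℓ A K hd hd0⟩, 1, ?_, ?_⟩
  · rw [map_one]
    exact one_ne_zero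
  · rw [map_one, mul_one]
    refine hG.unique _ _ _ ?_ (hρ _)
    have h := gRel_jd hG (A := A) d
    rwa [← ModelBasicCore.coe_ratEmb_jd N K hd hd0] at h

/-- `F_k = Frac (ρ Rinf)`. -/
theorem exists_frac_Rinf (hG : GRelFacts A) (hB : BaseFacts ℓ A K)
    (ρ : Rinf N ℓ A K →+* LaurentSeries (IsLocalRing.ResidueField A))
    (hρ : ∀ x : Rinf N ℓ A K, GRel A ((x : FK N K) : LaurentSeries Qb) (ρ x))
    (f : LaurentSeries (IsLocalRing.ResidueField A))
    (hf : f ∈ modularFunctionFieldFullC (IsLocalRing.ResidueField A) N) :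
    ∃ a b : Rinf N ℓ A K, ρ b ≠ 0 ∧ f * ρ b = ρ a := by
  refine exists_frac_of_gRel hG hB (Rinf N ℓ A K) ρ hρ ?_ f hf
  intro d hd hd0
  obtain ⟨m, hm⟩ := ModelBasicCore.glue0 N ℓ A K _ (ModelBasicCore.ratEmb_jd_mem_R0 N ℓ A K hd hd0)
  have hj1 : S28.jd (IsLocalRing.ResidueField A) 1 ≠ 0 := by
    intro h
    have h1 := S28.jd_coeff_neg_self (IsLocalRing.ResidueField A) 1 one_ne_zero
    rw [h] at h1
    simp at h1
  -- `ρ (j⁻¹) = (j̄)⁻¹`
  have hjinv : GRel A (((jK N K)⁻¹ : FK N K) : LaurentSeries Qb)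
      (S28.jd (IsLocalRing.ResidueField A) 1)⁻¹ := by
    have h := hG.inv _ _ (gRel_jd hG (A := A) 1) hj1
    rwa [← ModelBasicCore.coe_jK N K] at h
  let jinv : Rinf N ℓ A K := ⟨(jK N K)⁻¹, ModelBasicCore.jK_inv_mem_Rinf N ℓ A K⟩
  have hρj : ρ jinv = (S28.jd (IsLocalRing.ResidueField A) 1)⁻¹ :=
    hG.unique _ _ _ (hρ jinv) hjinv
  refine ⟨⟨_, hm⟩, jinv ^ m, ?_, ?_⟩
  · rw [map_pow, hρj]
    exact pow_ne_zero _ (inv_ne_zero hj1)
  · rw [map_pow, hρj]
    refine hG.unique _ _ _ ?_ (hρ _)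
    have h1 := gRel_jd hG (A := A) d
    rw [← ModelBasicCore.coe_ratEmb_jd N K hd hd0] at h1
    have h2 := ModelRed.gRel_pow hG hjinv m
    exact hG.mul _ _ _ _ h1 h2

end Frac

/-! ### The package at a point of the special fibre of a chart -/

section Point

open ModularCurve AlgebraicCurve HahnSeries Fermat.Agent.S18.Arith Fermat.Agent.S18.ModelPlan
open Fermat.Agent.S18

set_option synthInstance.maxHeartbeats 400000

variable {N : ℕ} [NeZero N] {ℓ : ℕ} [Fact ℓ.Prime] {A : ValuationSubring Qb}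
  {K : IntermediateField ℚ Qb}

omit [NeZero N] in
set_option maxHeartbeats 1600000 in
/-- **A point of the special fibre of a chart.**  `R` a chart with coordinate `t` over
`O = A ∩ K` (`K` with `BaseFacts`), with the Igusa property, `ρ` its Gauss reduction,
`F_k = Frac (ρ R)`, and `Q` a place of `F_k` at which `ρ t` is regular.  Then
1. `ρ R ⊆ O_Q`;
2. every `f ∈ O_Q` is `ρ a / ρ s` with `ρ s` a unit at `Q`
   (the local ring of the special fibre at the point is the whole valuation ring of `Q`);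
3. the point is `k`-rational: every `y ∈ R` is congruent to a constant `c ∈ O` modulo the
   point. -/
theorem chart_point (hG : GRelFacts A) (hB : BaseFacts ℓ A K)
    (R : Subalgebra (OK A K) (FK N K)) (t : FK N K) (hC : ChartFacts N A K R t)
    (hIg : IgusaAt N A K R)
    (ρ : R →+* LaurentSeries (IsLocalRing.ResidueField A))
    (hρ : ∀ x : R, GRel A ((x : FK N K) : LaurentSeries Qb) (ρ x))
    (hρk : ∀ x : R, ρ x ∈ modularFunctionFieldFullC (IsLocalRing.ResidueField A) N)
    (hfrac : ∀ f : LaurentSeries (IsLocalRing.ResidueField A),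
      f ∈ modularFunctionFieldFullC (IsLocalRing.ResidueField A) N →
      ∃ a b : R, ρ b ≠ 0 ∧ f * ρ b = ρ a)
    (Q : Place (IsLocalRing.ResidueField A)
      (modularFunctionFieldFullC (IsLocalRing.ResidueField A) N))
    (htQ : (⟨ρ ⟨t, hC.t_mem⟩, hρk _⟩ :
      modularFunctionFieldFullC (IsLocalRing.ResidueField A) N) ∈ Q.toValuationSubring) :
    (∀ x : R, (⟨ρ x, hρk x⟩ : modularFunctionFieldFullC (IsLocalRing.ResidueField A) N) ∈
      Q.toValuationSubring) ∧
    (∀ f : modularFunctionFieldFullC (IsLocalRing.ResidueField A) N, f ∈ Q.toValuationSubring →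
      ∃ a s : R, (⟨ρ s, hρk s⟩ : modularFunctionFieldFullC (IsLocalRing.ResidueField A) N) ∉
        Q.toValuationSubring.nonunits ∧
        (f : LaurentSeries (IsLocalRing.ResidueField A)) * ρ s = ρ a) ∧
    (∀ y : R, ∃ c : OK A K,
      (⟨ρ (y - algebraMap (OK A K) R c), hρk _⟩ :
        modularFunctionFieldFullC (IsLocalRing.ResidueField A) N) ∈
          Q.toValuationSubring.nonunits) := by
  have := hB.dvr
  obtain ⟨π, hπ⟩ := IsDiscreteValuationRing.exists_irreducible (OK A K)
  have hconst : ∀ c : OK A K, ρ (algebraMap (OK A K) R c) = C (resO A K c) :=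
    fun c => hG.unique _ _ _ (hρ _) (ModelRed.gRel_const K hG c)
  have hzero : ∀ a ∈ IsLocalRing.maximalIdeal (OK A K), ρ (algebraMap (OK A K) R a) = 0 := by
    intro a ha
    rw [hconst, ModelRed.resO_eq_zero_of_not_isUnit K a
      ((IsLocalRing.mem_maximalIdeal a).mp ha), map_zero]
  let ρ' : R →+* modularFunctionFieldFullC (IsLocalRing.ResidueField A) N :=
    ρ.codRestrict (modularFunctionFieldFullC (IsLocalRing.ResidueField A) N).toSubring hρk
  have hρ' : ∀ x : R, ρ' x = ⟨ρ x, hρk x⟩ := fun x => rfl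
  let tR : R := ⟨t, hC.t_mem⟩
  have hint : ∀ x : R, IsIntegral (Algebra.adjoin (OK A K) {tR}) x :=
    fun x => isIntegral_adjoin_subalgebra R t hC.t_mem x (hC.integral x x.2)
  -- Step 1: `ρ R ⊆ O_Q`
  have hV : ∀ x : R, ρ' x ∈ Q.toValuationSubring := by
    intro x
    refine map_mem_of_isIntegral (O := OK A K) Q.toValuationSubring ρ' ?_ tR htQ x (hint x)
    intro c
    have : ρ' (algebraMap (OK A K) R c) =
        algebraMap (IsLocalRing.ResidueField A)
          (modularFunctionFieldFullC (IsLocalRing.ResidueField A) N) (resO A K c) := by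
      apply Subtype.ext
      show ρ (algebraMap (OK A K) R c) =
        algebraMap (IsLocalRing.ResidueField A) (LaurentSeries (IsLocalRing.ResidueField A))
          (resO A K c)
      rw [hconst, algebraMap_laurentSeries_eq_single]
      rfl
    rw [this]
    exact Q.algebraMap_mem' _
  -- Step 2: the point is maximal
  let ρQ : R →+* Q.toValuationSubring := ρ'.codRestrict Q.toValuationSubring hV
  have hρQ : ∀ x : R, ((ρQ x : Q.toValuationSubring) :
      modularFunctionFieldFullC (IsLocalRing.ResidueField A) N) = ρ' x := fun x => rfl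
  let ψ : R →+* IsLocalRing.ResidueField Q.toValuationSubring :=
    (IsLocalRing.residue Q.toValuationSubring).comp ρQ
  have hρQ0 : ∀ a ∈ IsLocalRing.maximalIdeal (OK A K), ρQ (algebraMap (OK A K) R a) = 0 := by
    intro a ha
    apply Subtype.ext
    apply Subtype.ext
    exact hzero a ha
  have hψO : ∀ a ∈ IsLocalRing.maximalIdeal (OK A K), ψ (algebraMap (OK A K) R a) = 0 := by
    intro a ha
    show IsLocalRing.residue Q.toValuationSubring (ρQ (algebraMap (OK A K) R a)) = 0
    rw [hρQ0 a ha, map_zero]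
  obtain ⟨f₀, hf₀⟩ : ∃ f : modularFunctionFieldFullC (IsLocalRing.ResidueField A) N,
      f ∉ Q.toValuationSubring := by
    by_contra h
    push Not at h
    exact Q.ne_top' (SetLike.ext fun x => ⟨fun _ => ValuationSubring.mem_top x, fun _ => h x⟩)
  obtain ⟨a₀, b₀, hb₀, hab₀⟩ := hfrac f₀ f₀.2
  have hb₀Q : ρQ b₀ ≠ 0 := by
    intro h
    apply hb₀
    have := congrArg (fun z : Q.toValuationSubring =>
      ((z : modularFunctionFieldFullC (IsLocalRing.ResidueField A) N) :
        LaurentSeries (IsLocalRing.ResidueField A))) h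
    exact this
  have hb₀m : ρQ b₀ ∈ IsLocalRing.maximalIdeal Q.toValuationSubring := by
    by_contra hnm
    have hu : IsUnit (ρQ b₀) := by
      by_contra hnu
      exact hnm ((IsLocalRing.mem_maximalIdeal _).mpr hnu)
    obtain ⟨u, hu'⟩ := isUnit_iff_exists_inv.mp hu
    apply hf₀
    have hab' : f₀ * ρ' b₀ = ρ' a₀ := Subtype.ext hab₀
    have hu'' : ρ' b₀ * (u : modularFunctionFieldFullC (IsLocalRing.ResidueField A) N) = 1 := by
      have := congrArg (fun z : Q.toValuationSubring =>
        (z : modularFunctionFieldFullC (IsLocalRing.ResidueField A) N)) hu'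
      exact this
    have : f₀ = ρ' a₀ * (u : modularFunctionFieldFullC (IsLocalRing.ResidueField A) N) := by
      rw [← hab', mul_assoc, hu'', mul_one]
    rw [this]
    exact Q.toValuationSubring.mul_mem _ _ (hV a₀) u.2
  obtain ⟨P, hP, hPI⟩ := exists_poly_of_mem (O := OK A K)
    (IsLocalRing.maximalIdeal Q.toValuationSubring) ρQ hρQ0 tR b₀ (hint b₀) hb₀Q hb₀m
  have hPt : ψ (Polynomial.aeval tR P) = 0 :=
    (IsLocalRing.residue_eq_zero_iff _).mpr hPI
  obtain ⟨hmax, hkpt⟩ := isMaximal_ker_of_integral ψ hψO tR hint P hP hPt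
  have hn : ∀ x : R, x ∈ RingHom.ker ψ ↔
      (⟨ρ x, hρk x⟩ : modularFunctionFieldFullC (IsLocalRing.ResidueField A) N) ∈
        Q.toValuationSubring.nonunits := by
    intro x
    rw [RingHom.mem_ker, ValuationSubring.mem_nonunits_iff_exists_mem_maximalIdeal]
    constructor
    · intro h
      exact ⟨hV x, (IsLocalRing.residue_eq_zero_iff _).mp h⟩
    · rintro ⟨_, h⟩
      exact (IsLocalRing.residue_eq_zero_iff _).mpr h
  refine ⟨hV, ?_, ?_⟩
  · intro f hf
    obtain ⟨a, s, hs, has⟩ := surj_fin R hIg π hπ ρ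
      (hzero π ((IsLocalRing.mem_maximalIdeal π).mpr hπ.not_isUnit)) hρk Q hV (RingHom.ker ψ) hmax hn
      (fun f => hfrac f f.2) f hf
    exact ⟨a, s, fun h => hs ((hn s).mpr h), has⟩
  · intro y
    have := ResOK.isAlgClosed_residueField_OK ℓ A K hB
    obtain ⟨c, hc⟩ := hkpt inferInstance y
    refine ⟨c, (hn _).mp ?_⟩
    rw [RingHom.mem_ker, map_sub, hc, sub_self]

end Point

end Fermat.Agent.S37.PMUnif
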