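/-
S37, block [R0], row R3 (c)+(d), ABSTRACT Dedekind route (helper75; hedge of helper22's
PMPlacesK).  Mathlib + Prelude `Place` + `PMDefs.ValAt` only.

Setting: `E / k` a field extension, `B : Subalgebra k E` a Dedekind domain with fraction
field `E`.

* `exists_place_of_algHom` : if `B` is not a field, every `k`-point `χ : B →ₐ[k] k` is
  "evaluation at" a place `Q` of `E / k`:  `ValAt Q b (χ b)` for all `b ∈ B`;
* `eq_of_forall_valAt`     : two places at which all elements of `B` are regular with equal
  values coincide;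
* `isFractionRing_of_frac` : the fraction-field hypothesis in elementwise form.
-/
import Mathlib
import Fermat.Prelude.Def_AlgebraicCurve_DivisorClassGroup
import Fermat.Agent.S37.PMDefs

set_option autoImplicit false

noncomputable section

namespace Fermat.Agent.S37.PlaceOfPoint

open AlgebraicCurve IsDedekindDomain Fermat.Agent.S37.PM

variable {k E : Type*} [Field k] [Field E] [Algebra k E]

/-- The fraction-field hypothesis in elementwise form. -/
theorem isFractionRing_of_frac (B : Subalgebra k E)
    (hfrac : ∀ f : E, ∃ a b : B, b ≠ 0 ∧ f * (b : E) = (a : E)) : IsFractionRing B E where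
  map_units := by
    rintro ⟨b, hb⟩
    have hb0 : b ≠ 0 := nonZeroDivisors.ne_zero hb
    have : (b : E) ≠ 0 := fun h => hb0 (Subtype.ext h)
    exact this.isUnit
  surj := by
    intro f
    obtain ⟨a, b, hb, h⟩ := hfrac f
    exact ⟨(a, ⟨b, mem_nonZeroDivisors_of_ne_zero hb⟩), h⟩
  exists_of_eq := by
    intro x y h
    exact ⟨1, by rw [Subtype.ext h]⟩

/-- The valuation subring of `E` attached to a height one prime of `B`, as a place of `E / k`. -/
def placeOfPrime (B : Subalgebra k E) [IsDedekindDomain B] [IsFractionRing B E]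
    (v : HeightOneSpectrum B) : Place k E where
  toValuationSubring := HeightOneSpectrum.valuationSubringAtPrime E v
  algebraMap_mem' := by
    intro a
    rw [HeightOneSpectrum.valuationSubringAtPrime_eq_valuationSubring,
      Valuation.mem_valuationSubring_iff]
    exact v.valuation_le_one (algebraMap k B a)
  ne_top' := by
    rw [HeightOneSpectrum.valuationSubringAtPrime_eq_valuationSubring]
    simp only [ne_eq, Valuation.valuationSubring_eq_top_iff, not_not]
    infer_instance
  isPrincipalIdealRing' := by
    have h1 : IsNoetherianRing (HeightOneSpectrum.valuationSubringAtPrime E v) := inferInstance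
    exact ((IsBezout.TFAE (R := HeightOneSpectrum.valuationSubringAtPrime E v)).out 0 1).mp h1

theorem placeOfPrime_toValuationSubring (B : Subalgebra k E) [IsDedekindDomain B]
    [IsFractionRing B E] (v : HeightOneSpectrum B) :
    (placeOfPrime B v).toValuationSubring = (v.valuation E).valuationSubring :=
  HeightOneSpectrum.valuationSubringAtPrime_eq_valuationSubring v

/-- Membership in the maximal ideal of the place of a prime: valuation `< 1`. -/
theorem mem_nonunits_placeOfPrime (B : Subalgebra k E) [IsDedekindDomain B]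
    [IsFractionRing B E] (v : HeightOneSpectrum B) (x : E) :
    x ∈ (placeOfPrime B v).toValuationSubring.nonunits ↔ v.valuation E x < 1 := by
  rw [placeOfPrime_toValuationSubring, ValuationSubring.mem_nonunits_iff]
  exact ((Valuation.isEquiv_iff_val_lt_one).mp
    (Valuation.isEquiv_valuation_valuationSubring (v.valuation E))).symm

/-- Elements of `B` in the prime are in the maximal ideal of its place. -/
theorem coe_mem_nonunits_placeOfPrime (B : Subalgebra k E) [IsDedekindDomain B]
    [IsFractionRing B E] (v : HeightOneSpectrum B) (b : B) :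
    (b : E) ∈ (placeOfPrime B v).toValuationSubring.nonunits ↔ b ∈ v.asIdeal := by
  rw [mem_nonunits_placeOfPrime]
  exact v.valuation_lt_one_iff_mem b

/-- **(R3c), abstract form.**  A `k`-point of a Dedekind domain `B ⊆ E` with fraction field `E`
(not a field) is evaluation at a place of `E / k`. -/
theorem exists_place_of_algHom (B : Subalgebra k E) [IsDedekindDomain B] [IsFractionRing B E]
    (hB : ¬ IsField B) (χ : B →ₐ[k] k) :
    ∃ Q : Place k E, ∀ b : B, ValAt Q (b : E) (χ b) := by
  have hsurj : Function.Surjective χ := fun c => ⟨algebraMap k B c, χ.commutes c⟩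
  have hmax : (RingHom.ker (χ : B →+* k)).IsMaximal :=
    RingHom.ker_isMaximal_of_surjective (χ : B →+* k) hsurj
  have hbot : RingHom.ker (χ : B →+* k) ≠ ⊥ := by
    intro h
    have hinj : Function.Injective (χ : B →+* k) := (RingHom.injective_iff_ker_eq_bot _).mpr h
    apply hB
    exact MulEquiv.isField (Field.toIsField k)
      (RingEquiv.ofBijective (χ : B →+* k) ⟨hinj, hsurj⟩).toMulEquiv
  let v : HeightOneSpectrum B := ⟨RingHom.ker (χ : B →+* k), hmax.isPrime, hbot⟩
  refine ⟨placeOfPrime B v, fun b => ?_⟩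
  have hz : b - algebraMap k B (χ b) ∈ v.asIdeal := by
    show b - algebraMap k B (χ b) ∈ RingHom.ker (χ : B →+* k)
    rw [RingHom.mem_ker]
    show χ (b - algebraMap k B (χ b)) = 0
    rw [map_sub, χ.commutes]
    exact sub_self _
  have h := (coe_mem_nonunits_placeOfPrime B v _).mpr hz
  exact h

/-- Variant of `exists_place_of_algHom` with the fraction-field hypothesis in elementwise
form. -/
theorem exists_place_of_algHom' (B : Subalgebra k E) [IsDedekindDomain B]
    (hfrac : ∀ f : E, ∃ a b : B, b ≠ 0 ∧ f * (b : E) = (a : E))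
    (hB : ¬ IsField B) (χ : B →ₐ[k] k) :
    ∃ Q : Place k E, ∀ b : B, ValAt Q (b : E) (χ b) :=
  haveI := isFractionRing_of_frac B hfrac
  exists_place_of_algHom B hB χ

/-- If `f` has the value `c` at `Q`, then `f` is regular at `Q`. -/
theorem mem_of_valAt {Q : Place k E} {f : E} {c : k} (h : ValAt Q f c) :
    f ∈ Q.toValuationSubring := by
  have h1 : f - algebraMap k E c ∈ Q.toValuationSubring := ValuationSubring.nonunits_subset h
  have h2 := Q.toValuationSubring.add_mem _ _ h1 (Q.algebraMap_mem' c)
  rwa [sub_add_cancel] at h2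

/-- A constant in the maximal ideal of a place is zero. -/
theorem eq_zero_of_algebraMap_mem_nonunits {Q : Place k E} {c : k}
    (h : algebraMap k E c ∈ Q.toValuationSubring.nonunits) : c = 0 := by
  by_contra hc
  rw [ValuationSubring.mem_nonunits_iff_or] at h
  rcases h with h | h
  · exact hc ((map_eq_zero (algebraMap k E)).mp h)
  · apply h
    rw [← map_inv₀]
    exact Q.algebraMap_mem' c⁻¹

/-- If `f` has the value `c` at `Q`, then `f` is in the maximal ideal iff `c = 0`. -/
theorem mem_nonunits_iff_of_valAt {Q : Place k E} {f : E} {c : k} (h : ValAt Q f c) :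
    f ∈ Q.toValuationSubring.nonunits ↔ c = 0 := by
  constructor
  · intro hf
    apply eq_zero_of_algebraMap_mem_nonunits (Q := Q)
    have h' : f - algebraMap k E c ∈ Q.toValuationSubring.nonunits := h
    rw [ValuationSubring.mem_nonunits_iff] at hf h' ⊢
    have e : algebraMap k E c = f - (f - algebraMap k E c) := by ring
    rw [e]
    exact lt_of_le_of_lt (Valuation.map_sub _ _ _) (max_lt hf h')
  · rintro rfl
    have h' : f - algebraMap k E 0 ∈ Q.toValuationSubring.nonunits := h
    rwa [map_zero, sub_zero] at h'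

/-- **(R3d), abstract form.**  Two places of `E / k` at which all elements of the Dedekind
domain `B` (with fraction field `E`) are regular with equal values coincide. -/
theorem eq_of_forall_valAt (B : Subalgebra k E) [IsDedekindDomain B] [IsFractionRing B E]
    (Q Q' : Place k E) (hval : ∀ b : B, ∃ c : k, ValAt Q (b : E) c ∧ ValAt Q' (b : E) c) :
    Q = Q' := by
  have hmem : ∀ b : B, (b : E) ∈ Q.toValuationSubring := fun b => by
    obtain ⟨c, h, -⟩ := hval b
    exact mem_of_valAt h
  have hmem' : ∀ b : B, (b : E) ∈ Q'.toValuationSubring := fun b => by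
    obtain ⟨c, -, h⟩ := hval b
    exact mem_of_valAt h
  have hiff : ∀ b : B, (b : E) ∈ Q.toValuationSubring.nonunits ↔
      (b : E) ∈ Q'.toValuationSubring.nonunits := fun b => by
    obtain ⟨c, h, h'⟩ := hval b
    rw [mem_nonunits_iff_of_valAt h, mem_nonunits_iff_of_valAt h']
  -- the centre of `Q` on `B`
  let f : B →+* Q.toValuationSubring :=
    { toFun := fun b => ⟨(b : E), hmem b⟩
      map_one' := rfl
      map_mul' := fun _ _ => rfl
      map_zero' := rfl
      map_add' := fun _ _ => rfl }
  let 𝔭 : Ideal B := Ideal.comap f (IsLocalRing.maximalIdeal Q.toValuationSubring)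
  have h𝔭 : ∀ b : B, b ∈ 𝔭 ↔ (b : E) ∈ Q.toValuationSubring.nonunits := fun b => by
    rw [ValuationSubring.mem_nonunits_iff_exists_mem_maximalIdeal]
    constructor
    · intro h
      exact ⟨hmem b, h⟩
    · rintro ⟨_, h⟩
      exact h
  have hprime : 𝔭.IsPrime := Ideal.comap_isPrime f _
  -- an element of `B` outside the centre is invertible in both valuation rings
  have hinv : ∀ s : B, s ∉ 𝔭 → (s : E)⁻¹ ∈ Q.toValuationSubring := by
    intro s hs
    have h1 : ¬ (s : E) ∈ Q.toValuationSubring.nonunits := fun h => hs ((h𝔭 s).mpr h)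
    rw [ValuationSubring.mem_nonunits_iff_or, not_or, not_not] at h1
    exact h1.2
  have hinv' : ∀ s : B, s ∉ 𝔭 → (s : E)⁻¹ ∈ Q'.toValuationSubring := by
    intro s hs
    have h1 : ¬ (s : E) ∈ Q'.toValuationSubring.nonunits :=
      fun h => hs ((h𝔭 s).mpr ((hiff s).mpr h))
    rw [ValuationSubring.mem_nonunits_iff_or, not_or, not_not] at h1
    exact h1.2
  have hbot : 𝔭 ≠ ⊥ := by
    intro h
    apply Q.ne_top'
    rw [eq_top_iff]
    intro x _
    obtain ⟨⟨a, ⟨b, hb⟩⟩, hx⟩ := IsLocalization.surj (nonZeroDivisors B) x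
    have hb0 : b ≠ 0 := nonZeroDivisors.ne_zero hb
    have hb𝔭 : b ∉ 𝔭 := by
      rw [h]
      exact hb0
    have hbE : (b : E) ≠ 0 := fun h0 => hb0 (Subtype.ext h0)
    have hx' : x = (a : E) * (b : E)⁻¹ := by
      rw [eq_mul_inv_iff_mul_eq₀ hbE]
      exact hx
    rw [hx']
    exact Q.toValuationSubring.mul_mem _ _ (hmem a) (hinv b hb𝔭)
  let v : HeightOneSpectrum B := ⟨𝔭, hprime, hbot⟩
  have hle : ∀ W : ValuationSubring E, (∀ b : B, (b : E) ∈ W) →
      (∀ s : B, s ∉ 𝔭 → (s : E)⁻¹ ∈ W) →
      HeightOneSpectrum.valuationSubringAtPrime E v ≤ W := by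
    intro W h1 h2 x hx
    rw [HeightOneSpectrum.valuationSubringAtPrime_eq_valuationSubring,
      Valuation.mem_valuationSubring_iff] at hx
    obtain ⟨n, d, hnd⟩ := v.exists_primeCompl_mul_eq_of_integer x hx
    have hd : (d : B) ∉ 𝔭 := d.2
    have hdE : ((d : B) : E) ≠ 0 := by
      intro h0
      apply hd
      have : (d : B) = 0 := Subtype.ext h0
      rw [this]
      exact 𝔭.zero_mem
    have hx' : x = (n : E) * ((d : B) : E)⁻¹ := by
      rw [eq_mul_inv_iff_mul_eq₀ hdE]
      exact hnd
    rw [hx']
    exact W.mul_mem _ _ (h1 n) (h2 d hd)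
  have e1 : HeightOneSpectrum.valuationSubringAtPrime E v = Q.toValuationSubring :=
    ValuationSubring.eq_of_le_of_ne_top _ (hle _ hmem hinv) Q.ne_top'
  have e2 : HeightOneSpectrum.valuationSubringAtPrime E v = Q'.toValuationSubring :=
    ValuationSubring.eq_of_le_of_ne_top _ (hle _ hmem' hinv') Q'.ne_top'
  exact Place.ext (e1.symm.trans e2)

/-- Variant of `eq_of_forall_valAt` with the fraction-field hypothesis in elementwise form. -/
theorem eq_of_forall_valAt' (B : Subalgebra k E) [IsDedekindDomain B]
    (hfrac : ∀ f : E, ∃ a b : B, b ≠ 0 ∧ f * (b : E) = (a : E))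
    (Q Q' : Place k E) (hval : ∀ b : B, ∃ c : k, ValAt Q (b : E) c ∧ ValAt Q' (b : E) c) :
    Q = Q' :=
  haveI := isFractionRing_of_frac B hfrac
  eq_of_forall_valAt B Q Q' hval

/-- **(R3c)+(R3d).**  The place of a `k`-point is unique. -/
theorem existsUnique_place_of_algHom (B : Subalgebra k E) [IsDedekindDomain B]
    [IsFractionRing B E] (hB : ¬ IsField B) (χ : B →ₐ[k] k) :
    ∃! Q : Place k E, ∀ b : B, ValAt Q (b : E) (χ b) := by
  obtain ⟨Q, hQ⟩ := exists_place_of_algHom B hB χ
  refine ⟨Q, hQ, fun Q' hQ' => ?_⟩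
  exact eq_of_forall_valAt B Q' Q (fun b => ⟨χ b, hQ' b, hQ b⟩)

end Fermat.Agent.S37.PlaceOfPoint
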