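/-
S37 block [R0], row R3 (places of the special fibre), B-copy (owner: helper105):
uniqueness of the place with given values on the affine ring `B_t` (R3d), and the
localisation property `O_Q = (B_t)_{𝔪_Q ∩ B_t}` (R3b), by two independent routes:

* separable route (shape of helper22's `PMPlacesK`): `t` transcendental, `F / k(t)` finite
  separable, `B ⊇` the integral closure of `k[t]` in `F`;
* noetherian route (shape of helper9's `SpFibCore`): `B` noetherian, integral over `k[t]`,
  integrally closed in `F`, with `Frac B = F`.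
-/
import Mathlib
import Fermat.Prelude.Def_AlgebraicCurve_DivisorClassGroup
import Fermat.Agent.S24.PlacesDedekind
import Fermat.Agent.S37.PMDefs

set_option autoImplicit false

open AlgebraicCurve IsDedekindDomain IntermediateField
open scoped IntermediateField.algebraAdjoinAdjoin

namespace Fermat.Agent.S37.PlaceUniqB

open Fermat.Agent.S37.PM Fermat.Agent.S24

variable {k F : Type*} [Field k] [Field F] [Algebra k F]

/-! ### Values at a place -/

/-- A nonzero constant is not in the maximal ideal of a valuation subring containing the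
constants. -/
theorem algebraMap_notMem_nonunits (V : ValuationSubring F)
    (hV : ∀ a : k, algebraMap k F a ∈ V) {c : k} (hc : c ≠ 0) :
    algebraMap k F c ∉ V.nonunits := by
  rw [ValuationSubring.mem_nonunits_iff_or, not_or, not_not]
  refine ⟨by simpa using hc, ?_⟩
  rw [← map_inv₀]
  exact hV c⁻¹

/-- A function with a value at `Q` is regular at `Q`. -/
theorem mem_of_valAt {Q : Place k F} {f : F} {c : k} (h : ValAt Q f c) :
    f ∈ Q.toValuationSubring := by
  have h1 : f - algebraMap k F c ∈ Q.toValuationSubring :=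
    ValuationSubring.nonunits_subset h
  have h2 := Q.toValuationSubring.add_mem _ _ h1 (Q.algebraMap_mem' c)
  rwa [sub_add_cancel] at h2

/-- A function with value `c` at `Q` lies in the maximal ideal iff `c = 0`. -/
theorem mem_nonunits_iff_of_valAt {Q : Place k F} {f : F} {c : k} (h : ValAt Q f c) :
    f ∈ Q.toValuationSubring.nonunits ↔ c = 0 := by
  constructor
  · intro hf
    by_contra hc
    apply algebraMap_notMem_nonunits Q.toValuationSubring Q.algebraMap_mem' hc
    have h3 := Q.toValuationSubring.nonunits.sub_mem hf h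
    rwa [sub_sub_cancel] at h3
  · rintro rfl
    have h' : f - algebraMap k F 0 ∈ Q.toValuationSubring.nonunits := h
    rwa [map_zero, sub_zero] at h'

/-- An element regular at `Q` and outside the maximal ideal has its inverse regular at `Q`. -/
theorem inv_mem_of_notMem_nonunits {V : ValuationSubring F} {s : F} (hs : s ∉ V.nonunits) :
    s ≠ 0 ∧ s⁻¹ ∈ V := by
  rw [ValuationSubring.mem_nonunits_iff_or, not_or, not_not] at hs
  exact hs

/-! ### (R3d) from the localisation property, no Dedekind theory -/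

/-- **(R3d), glue form** for a set `S` of functions: if every element of `O_Q` is a fraction
`a / s` of elements of `S` with `s ∉ 𝔪_Q`, and `Q`, `Q'` have the same values on `S`, then
`Q = Q'`. -/
theorem place_eq_of_frac_set (S : Set F) (Q Q' : Place k F)
    (hloc : ∀ d ∈ Q.toValuationSubring, ∃ a ∈ S, ∃ s ∈ S,
      s ∉ Q.toValuationSubring.nonunits ∧ d * s = a)
    (hval : ∀ b ∈ S, ∃ c : k, ValAt Q b c ∧ ValAt Q' b c) : Q = Q' := by
  apply Place.ext
  refine ValuationSubring.eq_of_le_of_ne_top (A := Q.toValuationSubring) ?_ Q'.ne_top'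
  intro d hd
  obtain ⟨a, ha, s, hs, hsQ, hds⟩ := hloc d hd
  obtain ⟨ca, -, hca'⟩ := hval a ha
  obtain ⟨cs, hcs, hcs'⟩ := hval s hs
  have hcs0 : cs ≠ 0 := fun h0 => hsQ ((mem_nonunits_iff_of_valAt hcs).mpr h0)
  have hsQ' : s ∉ Q'.toValuationSubring.nonunits := fun h =>
    hcs0 ((mem_nonunits_iff_of_valAt hcs').mp h)
  obtain ⟨hs0, hsinv⟩ := inv_mem_of_notMem_nonunits hsQ'
  have hd' : d = a * s⁻¹ := by
    rw [← hds, mul_assoc, mul_inv_cancel₀ hs0, mul_one]
  rw [hd']
  exact Q'.toValuationSubring.mul_mem _ _ (mem_of_valAt hca') hsinv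

/-- **(R3d), glue form**: if every element of `O_Q` is a fraction `a / s` of elements of `B`
with `s ∉ 𝔪_Q`, and `Q`, `Q'` have the same values on `B`, then `Q = Q'`. -/
theorem place_eq_of_frac (B : Subalgebra k F) (Q Q' : Place k F)
    (hloc : ∀ d ∈ Q.toValuationSubring, ∃ a ∈ B, ∃ s ∈ B,
      s ∉ Q.toValuationSubring.nonunits ∧ d * s = a)
    (hval : ∀ b ∈ B, ∃ c : k, ValAt Q b c ∧ ValAt Q' b c) : Q = Q' :=
  place_eq_of_frac_set (B : Set F) Q Q' hloc hval

/-! ### Dedekind models -/

section Dedekind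

variable {R : Type*} [CommRing R] [IsDedekindDomain R] [Algebra R F] [IsFractionRing R F]

/-- A valuation subring `V ≠ ⊤` of `F` containing the Dedekind domain `R` (with `Frac R = F`) is
the localisation of `R` at the centre of `V`: every element of `V` is a fraction `n / s` with
`s` a unit of `V`. -/
theorem exists_frac_of_mem_of_dedekind (V : ValuationSubring F) (hV : V ≠ ⊤)
    (hRV : ∀ r : R, algebraMap R F r ∈ V) :
    ∀ d ∈ V, ∃ n s : R, algebraMap R F s ∉ V.nonunits ∧ d * algebraMap R F s = algebraMap R F n := by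
  classical
  let φ : R →+* V := (algebraMap R F).codRestrict V.toSubring hRV
  have hφ : ∀ r : R, ((φ r : V) : F) = algebraMap R F r := fun _ => rfl
  let p : Ideal R := (IsLocalRing.maximalIdeal V).comap φ
  have hp : p.IsPrime := Ideal.comap_isPrime φ _
  have hmem : ∀ s : R, s ∈ p ↔ algebraMap R F s ∈ V.nonunits := by
    intro s
    show φ s ∈ IsLocalRing.maximalIdeal V ↔ _
    rw [ValuationSubring.mem_nonunits_iff_exists_mem_maximalIdeal]
    constructor
    · intro h
      exact ⟨hRV s, h⟩
    · rintro ⟨_, h⟩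
      exact h
  have hunit : ∀ s : R, s ∉ p → (algebraMap R F s)⁻¹ ∈ V := by
    intro s hs
    rw [hmem] at hs
    exact (inv_mem_of_notMem_nonunits hs).2
  have hp0 : p ≠ ⊥ := by
    intro hbot
    apply hV
    rw [eq_top_iff]
    intro x _
    obtain ⟨a, s, hs, rfl⟩ := IsFractionRing.div_surjective (A := R) x
    have hs0 : s ≠ 0 := nonZeroDivisors.ne_zero hs
    have hsp : s ∉ p := by
      rw [hbot]
      simpa using hs0
    rw [div_eq_mul_inv]
    exact V.mul_mem _ _ (hRV a) (hunit s hsp)
  let P : HeightOneSpectrum R := ⟨p, hp, hp0⟩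
  have hle : (P.valuation F).valuationSubring ≤ V := by
    intro x hx
    obtain ⟨n, d, hnd⟩ := P.exists_primeCompl_mul_eq_of_integer x
      ((Valuation.mem_valuationSubring_iff _ _).mp hx)
    have hd : (d : R) ∉ p := d.2
    have hd0 : algebraMap R F (d : R) ≠ 0 := by
      rw [hmem] at hd
      exact (inv_mem_of_notMem_nonunits hd).1
    have hx' : x = algebraMap R F n * (algebraMap R F (d : R))⁻¹ := by
      rw [← hnd, mul_assoc, mul_inv_cancel₀ hd0, mul_one]
    rw [hx']
    exact V.mul_mem _ _ (hRV n) (hunit _ hd)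
  have heq : (P.valuation F).valuationSubring = V := by
    rw [← HeightOneSpectrum.valuationSubringAtPrime_eq_valuationSubring] at hle ⊢
    exact ValuationSubring.eq_of_le_of_ne_top _ hle hV
  intro d hd
  rw [← heq] at hd
  obtain ⟨n, s, hns⟩ := P.exists_primeCompl_mul_eq_of_integer d
    ((Valuation.mem_valuationSubring_iff _ _).mp hd)
  refine ⟨n, (s : R), ?_, hns⟩
  rw [← hmem]
  exact s.2

/-- **(R3d) for a Dedekind model**: two places of `F / k` with the same values on a Dedekind
domain `R` with `Frac R = F` coincide. -/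
theorem place_eq_of_valAt_dedekind (Q Q' : Place k F)
    (hval : ∀ r : R, ∃ c : k, ValAt Q (algebraMap R F r) c ∧ ValAt Q' (algebraMap R F r) c) :
    Q = Q' := by
  refine place_eq_of_frac_set (Set.range (algebraMap R F)) Q Q' ?_ ?_
  · intro d hd
    obtain ⟨n, s, hs, hns⟩ := exists_frac_of_mem_of_dedekind (R := R) Q.toValuationSubring
      Q.ne_top' (fun r => by obtain ⟨c, hc, -⟩ := hval r; exact mem_of_valAt hc) d hd
    exact ⟨_, ⟨n, rfl⟩, _, ⟨s, rfl⟩, hs, hns⟩
  · rintro _ ⟨r, rfl⟩
    exact hval r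

end Dedekind

/-! ### Separable route (shape of `PMPlacesK`) -/

section Separable

variable {t : F}

/-- `k[t]` is a principal ideal ring when `t` is transcendental over `k`. -/
theorem isPrincipalIdealRing_adjoin (ht : Transcendental k t) :
    IsPrincipalIdealRing (↥(Algebra.adjoin k {t})) :=
  IsPrincipalIdealRing.of_surjective
    (Polynomial.algEquivOfTranscendental k t ht).toRingEquiv.toRingHom
    (Polynomial.algEquivOfTranscendental k t ht).surjective

/-- **(R3b), separable route**: for a valuation subring `V ≠ ⊤` of `F` containing the integral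
closure of `k[t]`, every element of `V` is a fraction `x / s` of integral elements with `s` a
unit of `V`. -/
theorem exists_mul_eq_of_isSeparable (ht : Transcendental k t) [FiniteDimensional k⟮t⟯ F]
    [Algebra.IsSeparable k⟮t⟯ F] (V : ValuationSubring F) (hV : V ≠ ⊤)
    (hint : ∀ b : F, IsIntegral ↥(Algebra.adjoin k {t}) b → b ∈ V) {f : F} (hf : f ∈ V) :
    ∃ x s : F, IsIntegral ↥(Algebra.adjoin k {t}) x ∧ IsIntegral ↥(Algebra.adjoin k {t}) s ∧
      s ∉ V.nonunits ∧ f * s = x := by
  have := isPrincipalIdealRing_adjoin ht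
  have hded : IsDedekindDomain (↥(integralClosure (↥(Algebra.adjoin k {t})) F)) :=
    integralClosure.isDedekindDomain (↥(Algebra.adjoin k {t})) k⟮t⟯ F
  have hfr : IsFractionRing (↥(integralClosure (↥(Algebra.adjoin k {t})) F)) F :=
    integralClosure.isFractionRing_of_finite_extension k⟮t⟯ F
  obtain ⟨n, s, hs, hns⟩ := exists_frac_of_mem_of_dedekind
    (R := ↥(integralClosure (↥(Algebra.adjoin k {t})) F)) V hV
    (fun r => hint (r : F) (show IsIntegral ↥(Algebra.adjoin k {t}) (r : F) from r.2)) f hf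
  exact ⟨(n : F), (s : F), (show IsIntegral ↥(Algebra.adjoin k {t}) (n : F) from n.2), (show IsIntegral ↥(Algebra.adjoin k {t}) (s : F) from s.2),
    hs, hns⟩

/-- **(R3d), separable route** (the statement of `PMPlacesK.IsSepCoord.eq_of_forall_valAt` with
the three fields of `IsSepCoord k t` as explicit hypotheses): two places with the same values on
a subalgebra `B` containing the integral closure of `k[t]` coincide. -/
theorem eq_of_forall_valAt (ht : Transcendental k t) [FiniteDimensional k⟮t⟯ F]
    [Algebra.IsSeparable k⟮t⟯ F] (B : Subalgebra k F)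
    (hB : ∀ b : F, IsIntegral ↥(Algebra.adjoin k {t}) b → b ∈ B) (Q Q' : Place k F)
    (hval : ∀ b : ↥B, ∃ c : k, ValAt Q (b : F) c ∧ ValAt Q' (b : F) c) : Q = Q' := by
  refine place_eq_of_frac_set {b : F | IsIntegral ↥(Algebra.adjoin k {t}) b} Q Q' ?_ ?_
  · intro d hd
    obtain ⟨x, s, hx, hs, hsQ, hds⟩ := exists_mul_eq_of_isSeparable ht Q.toValuationSubring
      Q.ne_top' (fun b hb => by
        obtain ⟨c, hc, -⟩ := hval ⟨b, hB b hb⟩
        exact mem_of_valAt hc) hd
    exact ⟨x, hx, s, hs, hsQ, hds⟩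
  · intro b hb
    exact hval ⟨b, hB b hb⟩

end Separable

/-! ### Noetherian route (shape of `SpFibCore`) -/

section Noetherian

variable (B : Subalgebra k F)

/-- `Frac B = F`. -/
theorem isFractionRing_of_frac (hfrac : ∀ y : F, ∃ a ∈ B, ∃ b ∈ B, b ≠ 0 ∧ y * b = a) :
    IsFractionRing ↥B F := by
  apply IsFractionRing.of_field
  intro z
  obtain ⟨a, ha, b, hb, hb0, hab⟩ := hfrac z
  refine ⟨⟨a, ha⟩, ⟨b, hb⟩, ?_⟩
  show z = a / b
  rw [eq_div_iff hb0]
  exact hab

/-- A subalgebra of `F` which is integral over `k[t]` has dimension at most one. -/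
theorem dimensionLEOne_of_integral (t : F) (ht : t ∈ B)
    (hint : ∀ x ∈ B, IsIntegral (Algebra.adjoin k {t}) x) : Ring.DimensionLEOne ↥B := by
  classical
  let tB : ↥B := ⟨t, ht⟩
  let _ : Algebra (Polynomial k) ↥B := (Polynomial.aeval tB).toRingHom.toAlgebra
  have halg : ∀ q : Polynomial k, algebraMap (Polynomial k) ↥B q = Polynomial.aeval tB q :=
    fun _ => rfl
  have : Algebra.IsIntegral (Polynomial k) ↥B := by
    constructor
    intro x
    obtain ⟨p, hpm, hp⟩ := hint x.1 x.2
    let τ : ↥(Algebra.adjoin k {t}) := ⟨t, Algebra.self_mem_adjoin_singleton k t⟩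
    let g : Polynomial k →+* ↥(Algebra.adjoin k {t}) := (Polynomial.aeval τ).toRingHom
    have hg : Function.Surjective g := by
      rintro ⟨s, hs⟩
      rw [Algebra.adjoin_singleton_eq_range_aeval] at hs
      obtain ⟨q, hq⟩ := hs
      refine ⟨q, Subtype.ext ?_⟩
      show ((Polynomial.aeval τ q : ↥(Algebra.adjoin k {t})) : F) = s
      rw [Polynomial.aeval_subalgebra_coe]
      exact hq
    obtain ⟨P, hPp, -, hPm⟩ := Polynomial.lifts_and_natDegree_eq_and_monic
      ((Polynomial.mem_lifts _).mpr (Polynomial.map_surjective g hg p)) hpm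
    refine ⟨P, hPm, ?_⟩
    have hcomp : (B.val : ↥B →+* F).comp (algebraMap (Polynomial k) ↥B) =
        (algebraMap ↥(Algebra.adjoin k {t}) F).comp g := by
      refine Polynomial.ringHom_ext (fun a => ?_) ?_
      · simp [g, halg]
      · simp [g, halg, τ, tB]
    have h1 : (B.val : ↥B →+* F) (P.eval₂ (algebraMap (Polynomial k) ↥B) x) =
        P.eval₂ ((B.val : ↥B →+* F).comp (algebraMap (Polynomial k) ↥B)) (x : F) :=
      Polynomial.hom_eval₂ P _ (B.val : ↥B →+* F) x
    apply Subtype.ext
    show (B.val : ↥B →+* F) (P.eval₂ (algebraMap (Polynomial k) ↥B) x) = 0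
    rw [h1, hcomp, ← Polynomial.eval₂_map, hPp]
    exact hp
  exact Ring.DimensionLEOne.of_isIntegral (Polynomial k) ↥B

/-- A noetherian subalgebra of `F`, integral over `k[t]`, integrally closed in `F`, with
`Frac B = F`, is a Dedekind domain. -/
theorem isDedekindDomain_of_noetherian [IsNoetherianRing B] (t : F) (ht : t ∈ B)
    (hint : ∀ x ∈ B, IsIntegral (Algebra.adjoin k {t}) x)
    (hcl : ∀ y : F, IsIntegral B y → y ∈ B)
    (hfrac : ∀ y : F, ∃ a ∈ B, ∃ b ∈ B, b ≠ 0 ∧ y * b = a) : IsDedekindDomain ↥B := by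
  have := isFractionRing_of_frac B hfrac
  rw [isDedekindDomain_iff (A := ↥B) F]
  refine ⟨inferInstance, inferInstance, dimensionLEOne_of_integral B t ht hint, ?_⟩
  intro x hx
  exact ⟨⟨x, hcl x hx⟩, rfl⟩

/-- **(R3b-abs)** (statement of helper9's `SpFibCore`): for a valuation subring `V ≠ ⊤` of `F`
containing `B`, every element of `V` is a fraction `a / s` of elements of `B` with `s` a unit
of `V`. -/
theorem exists_frac_of_mem_valuationSubring [IsNoetherianRing B] (t : F) (ht : t ∈ B)
    (hint : ∀ x ∈ B, IsIntegral (Algebra.adjoin k {t}) x)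
    (hcl : ∀ y : F, IsIntegral B y → y ∈ B)
    (hfrac : ∀ y : F, ∃ a ∈ B, ∃ b ∈ B, b ≠ 0 ∧ y * b = a) (V : ValuationSubring F)
    (hV : V ≠ ⊤) (hBV : ∀ x ∈ B, x ∈ V) :
    ∀ d ∈ V, ∃ a ∈ B, ∃ s ∈ B, s ∉ V.nonunits ∧ d * s = a := by
  have := isFractionRing_of_frac B hfrac
  have := isDedekindDomain_of_noetherian B t ht hint hcl hfrac
  intro d hd
  obtain ⟨n, s, hs, hns⟩ :=
    exists_frac_of_mem_of_dedekind (R := ↥B) V hV (fun r => hBV r r.2) d hd
  exact ⟨n, n.2, s, s.2, hs, hns⟩

/-- **(R3d-abs), noetherian route**: two places of `F / k` with the same values on `B`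
coincide. -/
theorem place_eq_of_valAt [IsNoetherianRing B] (t : F) (ht : t ∈ B)
    (hint : ∀ x ∈ B, IsIntegral (Algebra.adjoin k {t}) x)
    (hcl : ∀ y : F, IsIntegral B y → y ∈ B)
    (hfrac : ∀ y : F, ∃ a ∈ B, ∃ b ∈ B, b ≠ 0 ∧ y * b = a) (Q Q' : Place k F)
    (hval : ∀ b ∈ B, ∃ c : k, ValAt Q b c ∧ ValAt Q' b c) : Q = Q' :=
  place_eq_of_frac B Q Q'
    (exists_frac_of_mem_valuationSubring B t ht hint hcl hfrac Q.toValuationSubring Q.ne_top'
      (fun x hx => by
        obtain ⟨c, hc, -⟩ := hval x hx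
        exact mem_of_valAt hc)) hval

end Noetherian

end Fermat.Agent.S37.PlaceUniqB
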