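/-
S37 block [R0], rows (R3b-abs)/(R3d-abs), independent hedge copy (helper25, dealt by helper63):
places of a function field are determined by their values on a Dedekind "affine ring".

`k` a field, `F / k` a field extension, `B ⊆ F` a noetherian `k`-subalgebra which is integral over
`k[t]` (`t ∈ B`), integrally closed in `F`, with fraction field `F`.
* `exists_frac_of_mem_valuationSubring`: a valuation subring `V ≠ ⊤` of `F` containing `B` is the
  localisation of `B` at its centre: every `d ∈ V` is `a / s`, `a, s ∈ B`, `s` a unit of `V`;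
* `place_eq_of_valAt`: two places at which all elements of `B` are regular with equal values
  coincide.
-/
import Mathlib
import Fermat.Agent.S37.PMDefs

set_option autoImplicit false

namespace Fermat.Agent.S37.PlaceUniqC

open AlgebraicCurve Fermat.Agent.S37.PM

variable {k F : Type*} [Field k] [Field F] [Algebra k F]

/-- `B` is a Dedekind domain with fraction field `F`. -/
theorem isDedekindDomain_of_integral (B : Subalgebra k F) [IsNoetherianRing B] (t : F)
    (ht : t ∈ B) (hint : ∀ x ∈ B, IsIntegral (Algebra.adjoin k {t}) x)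
    (hcl : ∀ y : F, IsIntegral B y → y ∈ B)
    (hfrac : ∀ y : F, ∃ a ∈ B, ∃ b ∈ B, b ≠ 0 ∧ y * b = a) :
    IsFractionRing ↥B F ∧ IsDedekindDomain ↥B := by
  have hfr : IsFractionRing ↥B F := IsFractionRing.of_field ↥B F (fun z => by
    obtain ⟨a, ha, b, hb, hb0, hab⟩ := hfrac z
    exact ⟨⟨a, ha⟩, ⟨b, hb⟩, by
      show z = a / b
      rw [eq_div_iff hb0, hab]⟩)
  refine ⟨hfr, ?_⟩
  have hle : Algebra.adjoin k {t} ≤ B := Algebra.adjoin_le (Set.singleton_subset_iff.mpr ht)
  letI : Algebra ↥(Algebra.adjoin k {t}) ↥B := (Subalgebra.inclusion hle).toRingHom.toAlgebra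
  haveI : IsScalarTower ↥(Algebra.adjoin k {t}) ↥B F :=
    IsScalarTower.of_algebraMap_eq (fun x => rfl)
  haveI : Algebra.IsIntegral ↥(Algebra.adjoin k {t}) ↥B :=
    ⟨fun x => (isIntegral_algebraMap_iff (B := F) Subtype.val_injective).mp (hint x x.2)⟩
  haveI : IsPrincipalIdealRing ↥(Algebra.adjoin k {t}) := by
    rw [Algebra.adjoin_singleton_eq_range_aeval]
    exact IsPrincipalIdealRing.of_surjective (Polynomial.aeval t).rangeRestrict
      (AlgHom.rangeRestrict_surjective _)
  have hdim : Ring.DimensionLEOne ↥B :=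
    Ring.DimensionLEOne.of_isIntegral ↥(Algebra.adjoin k {t}) ↥B
  exact (isDedekindDomain_iff (A := ↥B) F).mpr ⟨inferInstance, inferInstance, hdim,
    fun {x} hx => ⟨⟨x, hcl x hx⟩, rfl⟩⟩

/-- **(R3b-abs)** A valuation subring `V ≠ ⊤` of `F` containing `B` is the localisation of `B` at
its centre. -/
theorem exists_frac_of_mem_valuationSubring (B : Subalgebra k F) [IsNoetherianRing B] (t : F)
    (ht : t ∈ B) (hint : ∀ x ∈ B, IsIntegral (Algebra.adjoin k {t}) x)
    (hcl : ∀ y : F, IsIntegral B y → y ∈ B)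
    (hfrac : ∀ y : F, ∃ a ∈ B, ∃ b ∈ B, b ≠ 0 ∧ y * b = a) (V : ValuationSubring F)
    (hV : V ≠ ⊤) (hBV : ∀ x ∈ B, x ∈ V) :
    ∀ d ∈ V, ∃ a ∈ B, ∃ s ∈ B, s ∉ V.nonunits ∧ d * s = a := by
  obtain ⟨hfr, hded⟩ := isDedekindDomain_of_integral B t ht hint hcl hfrac
  -- the centre of `V` on `B`
  let f : ↥B →+* ↥V := (B.subtype : ↥B →+* F).codRestrict V.toSubring (fun x => hBV x x.2)
  let p : Ideal ↥B := Ideal.comap f (IsLocalRing.maximalIdeal ↥V)
  have hp_mem : ∀ b : ↥B, b ∈ p ↔ (b : F) ∈ V.nonunits := by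
    intro b
    rw [ValuationSubring.mem_nonunits_iff_exists_mem_maximalIdeal]
    constructor
    · intro h
      exact ⟨hBV b b.2, h⟩
    · rintro ⟨_, h⟩
      exact h
  haveI hpp : p.IsPrime := Ideal.comap_isPrime f _
  have hp0 : p ≠ ⊥ := by
    intro h0
    apply hV
    rw [eq_top_iff]
    intro y _
    obtain ⟨a, ha, b, hb, hb0, hab⟩ := hfrac y
    have hbu : (b : F) ∉ V.nonunits := by
      intro hbn
      have h1 : (⟨b, hb⟩ : ↥B) ∈ p := (hp_mem ⟨b, hb⟩).mpr hbn
      rw [h0, Ideal.mem_bot] at h1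
      exact hb0 (congrArg Subtype.val h1)
    have hvb : V.valuation b = 1 := by
      have h1 : V.valuation b ≤ 1 := (V.valuation_le_one_iff b).mpr (hBV b hb)
      rw [ValuationSubring.mem_nonunits_iff, not_lt] at hbu
      exact le_antisymm h1 hbu
    have hva : V.valuation a ≤ 1 := (V.valuation_le_one_iff a).mpr (hBV a ha)
    rw [← V.valuation_le_one_iff]
    have h2 : V.valuation y * V.valuation b = V.valuation a := by rw [← map_mul, hab]
    rw [hvb, mul_one] at h2
    rw [h2]
    exact hva
  haveI hdvr : IsDiscreteValuationRing (Localization.AtPrime p) :=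
    IsLocalization.AtPrime.isDiscreteValuationRing_of_dedekind_domain ↥B hp0
      (Localization.AtPrime p)
  have hinj : Function.Injective (algebraMap ↥B (Localization.AtPrime p)) :=
    IsLocalization.injective (Localization.AtPrime p) p.primeCompl_le_nonZeroDivisors
  intro d hd
  by_cases hd0 : d = 0
  · refine ⟨0, B.zero_mem, 1, B.one_mem, ?_, by simp [hd0]⟩
    intro h1
    have h2 := (ValuationSubring.mem_nonunits_iff V).mp h1
    simp at h2
  obtain ⟨a, ha, b, hb, hb0, hab⟩ := hfrac d
  have ha0 : a ≠ 0 := by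
    rw [← hab]
    exact mul_ne_zero hd0 hb0
  rcases ValuationRing.dvd_total (algebraMap ↥B (Localization.AtPrime p) ⟨a, ha⟩)
      (algebraMap ↥B (Localization.AtPrime p) ⟨b, hb⟩) with ⟨c', hc'⟩ | ⟨c', hc'⟩
  · obtain ⟨⟨c, s⟩, hcs⟩ := IsLocalization.surj p.primeCompl c'
    have hB : (⟨b, hb⟩ : ↥B) * s = ⟨a, ha⟩ * c := by
      apply hinj
      rw [map_mul, map_mul, hc', mul_assoc, hcs]
    have hF : b * ((s : ↥B) : F) = a * (c : F) := congrArg Subtype.val hB
    have hdc : d * (c : F) = ((s : ↥B) : F) := by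
      have h1 : a * (d * (c : F)) = a * ((s : ↥B) : F) := by
        calc a * (d * (c : F)) = d * (a * (c : F)) := by ring
          _ = d * (b * ((s : ↥B) : F)) := by rw [hF]
          _ = (d * b) * ((s : ↥B) : F) := by ring
          _ = a * ((s : ↥B) : F) := by rw [hab]
      exact mul_left_cancel₀ ha0 h1
    have hsu : ((s : ↥B) : F) ∉ V.nonunits := fun h => s.2 ((hp_mem s).mpr h)
    have hcu : (c : F) ∉ V.nonunits := by
      intro hcn
      apply hsu
      rw [ValuationSubring.mem_nonunits_iff] at hcn ⊢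
      rw [← hdc, map_mul]
      calc V.valuation d * V.valuation (c : F) ≤ 1 * V.valuation (c : F) :=
            mul_le_mul_left ((V.valuation_le_one_iff d).mpr hd) _
        _ = V.valuation (c : F) := one_mul _
        _ < 1 := hcn
    exact ⟨((s : ↥B) : F), (s : ↥B).2, (c : F), c.2, hcu, hdc⟩
  · obtain ⟨⟨c, s⟩, hcs⟩ := IsLocalization.surj p.primeCompl c'
    have hB : (⟨a, ha⟩ : ↥B) * s = ⟨b, hb⟩ * c := by
      apply hinj
      rw [map_mul, map_mul, hc', mul_assoc, hcs]
    have hF : a * ((s : ↥B) : F) = b * (c : F) := congrArg Subtype.val hB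
    have hds : d * ((s : ↥B) : F) = (c : F) := by
      have h1 : b * (d * ((s : ↥B) : F)) = b * (c : F) := by
        calc b * (d * ((s : ↥B) : F)) = (d * b) * ((s : ↥B) : F) := by ring
          _ = a * ((s : ↥B) : F) := by rw [hab]
          _ = b * (c : F) := hF
      exact mul_left_cancel₀ hb0 h1
    exact ⟨(c : F), c.2, ((s : ↥B) : F), (s : ↥B).2, fun h => s.2 ((hp_mem s).mpr h), hds⟩

/-- One inclusion of the valuation rings of two places with equal values on `B`. -/
theorem le_of_valAt (B : Subalgebra k F) [IsNoetherianRing B] (t : F)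
    (ht : t ∈ B) (hint : ∀ x ∈ B, IsIntegral (Algebra.adjoin k {t}) x)
    (hcl : ∀ y : F, IsIntegral B y → y ∈ B)
    (hfrac : ∀ y : F, ∃ a ∈ B, ∃ b ∈ B, b ≠ 0 ∧ y * b = a) (Q Q' : Place k F)
    (hval : ∀ b ∈ B, ∃ c : k, ValAt Q b c ∧ ValAt Q' b c) :
    Q.toValuationSubring ≤ Q'.toValuationSubring := by
  have hmem : ∀ (P : Place k F) (b : F) (c : k), ValAt P b c → b ∈ P.toValuationSubring := by
    intro P b c h
    have h1 : b - algebraMap k F c ∈ P.toValuationSubring := ValuationSubring.nonunits_subset h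
    have h2 : algebraMap k F c ∈ P.toValuationSubring := P.algebraMap_mem' c
    have h3 := add_mem h1 h2
    rwa [sub_add_cancel] at h3
  have hBQ : ∀ x ∈ B, x ∈ Q.toValuationSubring := fun x hx => by
    obtain ⟨c, h, -⟩ := hval x hx
    exact hmem Q x c h
  have hBQ' : ∀ x ∈ B, x ∈ Q'.toValuationSubring := fun x hx => by
    obtain ⟨c, -, h⟩ := hval x hx
    exact hmem Q' x c h
  intro d hd
  obtain ⟨a, ha, s, hs, hsu, hds⟩ := exists_frac_of_mem_valuationSubring B t ht hint hcl hfrac
    Q.toValuationSubring Q.ne_top' hBQ d hd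
  obtain ⟨c, hc, hc'⟩ := hval s hs
  have hc0 : c ≠ 0 := by
    rintro rfl
    apply hsu
    have h1 : s - algebraMap k F 0 ∈ Q.toValuationSubring.nonunits := hc
    rwa [map_zero, sub_zero] at h1
  have hvc : Q'.toValuationSubring.valuation (algebraMap k F c) = 1 := by
    have h1 : Q'.toValuationSubring.valuation (algebraMap k F c) ≤ 1 :=
      (Q'.toValuationSubring.valuation_le_one_iff _).mpr (Q'.algebraMap_mem' c)
    have h2 : Q'.toValuationSubring.valuation (algebraMap k F c⁻¹) ≤ 1 :=
      (Q'.toValuationSubring.valuation_le_one_iff _).mpr (Q'.algebraMap_mem' c⁻¹)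
    have h3 : Q'.toValuationSubring.valuation (algebraMap k F c) *
        Q'.toValuationSubring.valuation (algebraMap k F c⁻¹) = 1 := by
      rw [← map_mul, ← map_mul, mul_inv_cancel₀ hc0, map_one, map_one]
    refine le_antisymm h1 ?_
    calc (1 : Q'.toValuationSubring.ValueGroup)
        = Q'.toValuationSubring.valuation (algebraMap k F c) *
          Q'.toValuationSubring.valuation (algebraMap k F c⁻¹) := h3.symm
      _ ≤ Q'.toValuationSubring.valuation (algebraMap k F c) * 1 := mul_le_mul_right h2 _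
      _ = Q'.toValuationSubring.valuation (algebraMap k F c) := mul_one _
  have hvs : Q'.toValuationSubring.valuation s = 1 := by
    have h1 : Q'.toValuationSubring.valuation (s - algebraMap k F c) < 1 := hc'
    have h2 : s = (s - algebraMap k F c) + algebraMap k F c := by ring
    rw [h2, Valuation.map_add_eq_of_lt_right _ (by rw [hvc]; exact h1), hvc]
  rw [← Q'.toValuationSubring.valuation_le_one_iff]
  have h4 : Q'.toValuationSubring.valuation d * Q'.toValuationSubring.valuation s =
      Q'.toValuationSubring.valuation a := by rw [← map_mul, hds]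
  rw [hvs, mul_one] at h4
  rw [h4]
  exact (Q'.toValuationSubring.valuation_le_one_iff a).mpr (hBQ' a ha)

/-- **(R3d-abs)** Two places at which all elements of `B` are regular with equal values
coincide. -/
theorem place_eq_of_valAt (B : Subalgebra k F) [IsNoetherianRing B] (t : F)
    (ht : t ∈ B) (hint : ∀ x ∈ B, IsIntegral (Algebra.adjoin k {t}) x)
    (hcl : ∀ y : F, IsIntegral B y → y ∈ B)
    (hfrac : ∀ y : F, ∃ a ∈ B, ∃ b ∈ B, b ≠ 0 ∧ y * b = a) (Q Q' : Place k F)
    (hval : ∀ b ∈ B, ∃ c : k, ValAt Q b c ∧ ValAt Q' b c) : Q = Q' :=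
  Place.ext (le_antisymm (le_of_valAt B t ht hint hcl hfrac Q Q' hval)
    (le_of_valAt B t ht hint hcl hfrac Q' Q (fun b hb => by
      obtain ⟨c, h1, h2⟩ := hval b hb
      exact ⟨c, h2, h1⟩)))

end Fermat.Agent.S37.PlaceUniqC
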