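/-
S37 block [R0], row R5 [Dir] (B copy, helper14): the levels `SQK N A Q K` of the local ring
`SQ N A Q` of the `A`-model at a closed point `Q` are contained in `SQ`, and every finite subset
of `SQ` lies in a level `K` (containing a prescribed finite set of constants, with `BaseFacts`
and `ChartFacts`).  Hence the `hdir` field of `Cons.Setting` follows from the `IsLevel`
property of the levels.
-/
import Mathlib
import Fermat.Agent.S37.R0LocDefs
import Fermat.Agent.S37.PMChartA

set_option autoImplicit false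

noncomputable section

namespace Fermat.Agent.S37.R0DirB

open ModularCurve AlgebraicCurve HahnSeries
open Fermat.Agent.S18 Fermat.Agent.S18.Arith
open Fermat.Agent.S37.PM hiding Qb
open Fermat.Agent.S37

set_option synthInstance.maxHeartbeats 400000

section Coord

variable (N : ℕ) (A : ValuationSubring Qb)
  (Q : Place (IsLocalRing.ResidueField A)
    (modularFunctionFieldFullC (IsLocalRing.ResidueField A) N))

/-- The chart coordinate at `Q` is `j` or `j⁻¹`. -/
theorem tQ_eq_or : R0.tQ N A Q = jbar N ∨ R0.tQ N A Q = (jbar N)⁻¹ := by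
  unfold R0.tQ
  split_ifs
  · exact Or.inl rfl
  · exact Or.inr rfl

variable [NeZero N]

/-- The level-`K` coordinate is the chart coordinate (as Laurent series). -/
theorem coe_tQK (K : IntermediateField ℚ Qb) :
    ((R0.tQK N A Q K : FK N K) : LaurentSeries Qb) =
      ((R0.tQ N A Q : modularFunctionFieldBar N) : LaurentSeries Qb) := by
  unfold R0.tQK R0.tQ
  split_ifs
  · exact PMChartA.coe_jK N K
  · exact PMChartA.coe_jK_inv N K

/-- A level is contained in the local ring. -/
theorem SQK_le_SQ (K : IntermediateField ℚ Qb) : R0.SQK N A Q K ≤ R0.SQ N A Q := by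
  rintro f ⟨x, s, hx, hs, ⟨β, hβ, hu⟩, h⟩
  obtain ⟨x', hx', hxx'⟩ := PMChartA.exists_mem_chartA_of_mem_chart N A K (R0.tQ N A Q)
    (R0.tQK N A Q K) (coe_tQK N A Q K) x hx
  obtain ⟨s', hs', hss'⟩ := PMChartA.exists_mem_chartA_of_mem_chart N A K (R0.tQ N A Q)
    (R0.tQK N A Q K) (coe_tQK N A Q K) s hs
  refine ⟨x', s', hx', hs', ⟨β, ?_, hu⟩, ?_⟩
  · show Arith.GRel A (s' : LaurentSeries Qb) (β : LaurentSeries (IsLocalRing.ResidueField A))
    rw [hss']
    exact hβ
  · apply Subtype.ext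
    show (f : LaurentSeries Qb) * (s' : LaurentSeries Qb) = (x' : LaurentSeries Qb)
    rw [hss', hxx']
    exact h

end Coord

section Dir

variable (N : ℕ) [NeZero N] (ℓ : ℕ) [Fact ℓ.Prime] (A : ValuationSubring Qb)
  (Q : Place (IsLocalRing.ResidueField A)
    (modularFunctionFieldFullC (IsLocalRing.ResidueField A) N))

/-- **Row R5 [Dir].**  Every finite subset of `SQ N A Q` lies in a level `SQK N A Q K`, where
`K ⊇ S₀` can be chosen with `BaseFacts` (and then the level chart has `ChartFacts`). -/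
theorem exists_level_SQ (hℓN : ¬ ℓ ∣ N) (hA : A.LiesOverPrime ℓ) (S₀ : Finset Qb)
    (s : Finset (modularFunctionFieldBar N))
    (hs : (↑s : Set (modularFunctionFieldBar N)) ⊆ R0.SQ N A Q) :
    ∃ K : IntermediateField ℚ Qb, (↑S₀ ⊆ (K : Set Qb)) ∧ BaseFacts ℓ A K ∧
      ChartFacts N A K (chart N A K (R0.tQK N A Q K)) (R0.tQK N A Q K) ∧
      (↑s : Set (modularFunctionFieldBar N)) ⊆ R0.SQK N A Q K := by
  classical
  -- numerators and denominators
  have hex : ∀ f : modularFunctionFieldBar N, ∃ x σ : modularFunctionFieldBar N, f ∈ s →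
      x ∈ chartA N A (R0.tQ N A Q) ∧ σ ∈ chartA N A (R0.tQ N A Q) ∧
        (∃ β, R0.Red N A σ β ∧ R0.UnitAt N A Q β) ∧ f * σ = x := by
    intro f
    by_cases hf : f ∈ s
    · obtain ⟨x, σ, hx, hσ, hβ, h⟩ := hs hf
      exact ⟨x, σ, fun _ => ⟨hx, hσ, hβ, h⟩⟩
    · exact ⟨0, 0, fun h => absurd h hf⟩
  choose num den hnd using hex
  obtain ⟨K, tK, hS₀, hbase, htK, -, hchart, hmem⟩ :=
    PMChartA.exists_level_facts N ℓ A hℓN hA (tQ_eq_or N A Q) S₀ (s.image num ∪ s.image den)
      (by
        intro x hx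
        rcases Finset.mem_union.mp hx with hx | hx
        · obtain ⟨f, hf, rfl⟩ := Finset.mem_image.mp hx
          exact (hnd f hf).1
        · obtain ⟨f, hf, rfl⟩ := Finset.mem_image.mp hx
          exact (hnd f hf).2.1)
  have htK' : tK = R0.tQK N A Q K := Subtype.ext (htK.trans (coe_tQK N A Q K).symm)
  subst htK'
  refine ⟨K, hS₀, hbase, hchart, fun f hf => ?_⟩
  obtain ⟨hx, hσ, ⟨β, hβ, hu⟩, h⟩ := hnd f hf
  obtain ⟨hxK, hxmem⟩ := hmem (num f) (Finset.mem_union_left _ (Finset.mem_image_of_mem num hf))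
  obtain ⟨hσK, hσmem⟩ := hmem (den f) (Finset.mem_union_right _ (Finset.mem_image_of_mem den hf))
  refine ⟨⟨_, hxK⟩, ⟨_, hσK⟩, hxmem, hσmem, ⟨β, hβ, hu⟩, ?_⟩
  show (f : LaurentSeries Qb) * (den f : LaurentSeries Qb) = (num f : LaurentSeries Qb)
  rw [← h]
  rfl

/-- The `hdir` field of `Cons.Setting` for `SQ N A Q`, from the `IsLevel` property of the
levels `SQK N A Q K` (row R4 [Level], in hypothesis form: feed `R0Level.isLevel_SQK` with
`hdvr := hB.dvr`, the surjectivity `surj_SQK` and an irreducible `π₀` of `OK A K`). -/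
theorem hdir_of_isLevel (hℓN : ¬ ℓ ∣ N) (hA : A.LiesOverPrime ℓ)
    {ρ : R0.SQ N A Q →+* Q.toValuationSubring} {T : R0.SQ N A Q}
    (hlev : ∀ K : IntermediateField ℚ Qb, BaseFacts ℓ A K →
      ChartFacts N A K (chart N A K (R0.tQK N A Q K)) (R0.tQK N A Q K) →
      ((T : modularFunctionFieldBar N) ∈ R0.SQK N A Q K) →
      ∃ π : A, Cons.IsLevel A (R0.SQ N A Q) ρ T (R0.SQK N A Q K) π)
    (s : Finset (modularFunctionFieldBar N))
    (hs : (↑s : Set (modularFunctionFieldBar N)) ⊆ R0.SQ N A Q) :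
    ∃ (S' : Subring (modularFunctionFieldBar N)) (π : A),
      Cons.IsLevel A (R0.SQ N A Q) ρ T S' π ∧ (↑s : Set (modularFunctionFieldBar N)) ⊆ S' := by
  classical
  obtain ⟨K, -, hbase, hchart, hsub⟩ := exists_level_SQ N ℓ A Q hℓN hA ∅
    (insert (T : modularFunctionFieldBar N) s) (by
      intro f hf
      rcases Finset.mem_insert.mp (Finset.mem_coe.mp hf) with rfl | hf
      · exact T.2
      · exact hs hf)
  obtain ⟨π, hπ⟩ := hlev K hbase hchart (hsub (Finset.mem_coe.mpr (Finset.mem_insert_self _ _)))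
  exact ⟨R0.SQK N A Q K, π, hπ,
    fun f hf => hsub (Finset.mem_coe.mpr (Finset.mem_insert_of_mem (Finset.mem_coe.mp hf)))⟩

end Dir

end Fermat.Agent.S37.R0DirB
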