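/-
S37 block [R0] — R0ClosersB.lean (helper73): the landed rows R5 [Dir] and R6 [Alg] in the EXACT
leaf-`Prop` shapes of `R0Loc.lean`:

* `dirStatement N ℓ : R0.DirStatement N ℓ`   (from `R0DirB.exists_level_SQ`);
* `algStatement N ℓ : R0.AlgStatement N ℓ`   (from `ConsAlgS.halg` and `IsFF1 ℚ̄ F̄`).
-/
import Mathlib
import Fermat.Agent.S37.R0Loc
import Fermat.Agent.S37.R0DirB
import Fermat.Agent.S37.ConsAlgS
import Fermat.Agent.S37.HeckeInputs

set_option autoImplicit false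

noncomputable section

namespace Fermat.Agent.S37.R0ClosersB

open ModularCurve AlgebraicCurve HahnSeries Fermat.Agent.S37.PM Fermat.Agent.S18
open Fermat.Agent.S37.R0 Fermat.Agent.S37

set_option synthInstance.maxHeartbeats 400000

/-- **[Dir]** every finite subset of `SQ N A Q` lies in a level `SQK N A Q K`, `K` with
`BaseFacts`. -/
theorem dirStatement (N ℓ : ℕ) [NeZero N] : R0.DirStatement N ℓ := by
  intro hℓ hℓN A hA Q s hs
  have : Fact ℓ.Prime := ⟨hℓ⟩
  obtain ⟨K, -, hB, -, hsK⟩ := R0DirB.exists_level_SQ N ℓ A Q hℓN hA ∅ s hs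
  exact ⟨K, hB, hsK⟩

/-- **[Alg]** transcendence degree one for `SQ N A Q`. -/
theorem algStatement (N ℓ : ℕ) : R0.AlgStatement N ℓ := by
  intro _ hℓN A _ Q
  have : NeZero N := ⟨fun h => hℓN (h ▸ dvd_zero ℓ)⟩
  exact ConsAlgS.halg (Fermat.Agent.S37.HI.isFF1_modular N) A (SQ N A Q) (const_mem_SQ N A Q)

end Fermat.Agent.S37.R0ClosersB
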