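/-
S37 block [R0], row R7 [Frac] (B-copy; owner: helper106; sub-captain: helper63).

`F̄ = Frac (chartA N A t)` for the chart coordinates `t = j`, `t = j⁻¹`, hence
`F̄ = Frac (SQ N A Q)` for the local ring `SQ N A Q` of the `A`-model at every closed point `Q` of
the special fibre: the hypothesis `hfrac` of the conservation core (`ConsPlace`, `ConsLoc`).

No hypothesis on the residue characteristic: `A` is any valuation subring of `ℚ̄`; the only
modular input is the finiteness of `F̄` over `ℚ̄(j)` (S24), no S18 chart machinery.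
Final statement: `fracStatement : R0.FracStatement N ℓ` (the leaf of `R0Loc.lean`, verbatim).

Proof.  `F̄` is finite over `ℚ̄(j)` (S24), `ℚ̄ = Frac A` and `j = t ^ (± 1)`, so the elements of
`F̄` algebraic over `A[t]` form a subfield containing `ℚ̄(j)`; by transitivity `F̄` is algebraic
over `A[t]`, and an algebraic element has a nonzero multiple `d * f`, `d ∈ A[t]`, which is
integral over `A[t]`, i.e. lies in the chart.
-/
import Mathlib
import Fermat.Agent.S24.AnDefs
import Fermat.Agent.S24.AnDegree
import Fermat.Agent.S37.R0Loc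

set_option autoImplicit false

open IntermediateField

namespace Fermat.Agent.S37.R0FracB

/-! ### The abstract core (Mathlib only) -/

/-- The constants of `L = Frac A` are algebraic over any subring containing the constants of
`A`. -/
theorem isAlgebraic_const {L F : Type*} [Field L] [Field F] [Algebra L F] (A : ValuationSubring L)
    (R : Subring F) (hA : ∀ c : A, algebraMap L F (c : L) ∈ R) (c : L) :
    IsAlgebraic R (algebraMap L F c) := by
  obtain ⟨a, b, -, hab⟩ := IsFractionRing.div_surjective (A := A) c
  have ha : IsAlgebraic R (algebraMap L F (a : L)) :=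
    isAlgebraic_algebraMap (⟨_, hA a⟩ : R)
  have hb : IsAlgebraic R (algebraMap L F (b : L)) :=
    isAlgebraic_algebraMap (⟨_, hA b⟩ : R)
  have hc : algebraMap L F c = algebraMap L F (a : L) * (algebraMap L F (b : L))⁻¹ := by
    rw [← hab, map_div₀, div_eq_mul_inv]
    rfl
  rw [hc]
  exact ha.mul hb.inv

/-- **Abstract algebraicity**: if the field `F` is algebraic over `L⟮j⟯`, `L = Frac A`, then `F`
is algebraic over every subring `R` containing the constants of `A` over which `j` is
algebraic. -/
theorem isAlgebraic_of_subring {L F : Type*} [Field L] [Field F] [Algebra L F]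
    (A : ValuationSubring L) (R : Subring F) (hA : ∀ c : A, algebraMap L F (c : L) ∈ R) (j : F)
    (hj : IsAlgebraic R j) (hF : Algebra.IsAlgebraic L⟮j⟯ F) : Algebra.IsAlgebraic R F := by
  -- the intermediate field of the elements algebraic over `R`
  let M : IntermediateField L F :=
    { carrier := {x | IsAlgebraic R x}
      mul_mem' := fun ha hb => ha.mul hb
      add_mem' := fun ha hb => ha.add hb
      algebraMap_mem' := isAlgebraic_const A R hA
      inv_mem' := fun _ hx => hx.inv }
  have hle : L⟮j⟯ ≤ M := adjoin_simple_le_iff.2 hj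
  -- the ring hom `L⟮j⟯ → algebraicClosure R F`
  let f : L⟮j⟯ →+* Subalgebra.algebraicClosure R F :=
    (algebraMap L⟮j⟯ F).codRestrict (Subalgebra.algebraicClosure R F) fun x => hle x.2
  have hf : Function.Injective f := f.injective
  have hcomp : (algebraMap (Subalgebra.algebraicClosure R F) F).comp f =
      (RingHom.id F).comp (algebraMap L⟮j⟯ F) := RingHom.ext fun x => rfl
  refine ⟨fun x => ?_⟩
  have h1 : IsAlgebraic (Subalgebra.algebraicClosure R F) x :=
    (hF.isAlgebraic x).ringHom_of_comp_eq f (RingHom.id F) hf hcomp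
  exact h1.restrictScalars R

/-- If the field `F` is algebraic over the subring `R`, every element of `F` is the quotient of
an element of the integral closure of `R` by a nonzero element of `R`. -/
theorem exists_frac_integralClosure {F : Type*} [Field F] (R : Subring F)
    (hR : Algebra.IsAlgebraic R F) (f : F) :
    ∃ x y : F, x ∈ integralClosure R F ∧ y ∈ R ∧ y ≠ 0 ∧ f * y = x := by
  obtain ⟨d, hd, hint⟩ := (hR.isAlgebraic f).exists_integral_multiple
  refine ⟨d • f, (d : F), hint, d.2, fun h => hd (Subtype.ext h), ?_⟩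
  rw [mul_comm]
  rfl

/-! ### The charts of the modular function field -/

open ModularCurve AlgebraicCurve HahnSeries Fermat.Agent.S37.PM Fermat.Agent.S37.R0

set_option synthInstance.maxHeartbeats 400000

section Charts

variable (N : ℕ) (A : ValuationSubring Qb)

/-- `A[t] ⊆` the chart with coordinate `t`. -/
theorem fracB_AT_le_chartA (t : modularFunctionFieldBar N) : AT N A t ≤ chartA N A t := by
  intro x hx
  exact (integralClosure (AT N A t) (modularFunctionFieldBar N)).algebraMap_mem ⟨x, hx⟩

/-- The chart coordinate at `Q` is `j` or `j⁻¹`. -/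
theorem fracB_tQ_eq_or (Q : Place (IsLocalRing.ResidueField A)
      (modularFunctionFieldFullC (IsLocalRing.ResidueField A) N)) :
    tQ N A Q = jbar N ∨ tQ N A Q = (jbar N)⁻¹ := by
  unfold tQ
  split_ifs
  · exact Or.inl rfl
  · exact Or.inr rfl

/-- The chart at `Q` is contained in the local ring at `Q`. -/
theorem chartA_le_SQ (Q : Place (IsLocalRing.ResidueField A)
      (modularFunctionFieldFullC (IsLocalRing.ResidueField A) N)) :
    chartA N A (tQ N A Q) ≤ SQ N A Q := fun x hx =>
  ⟨x, 1, hx, Subring.one_mem _, ⟨1, red_one N A, unitAt_one N A Q⟩, mul_one x⟩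

variable [NeZero N]

/-- `F̄` is algebraic over `A[t]`, `t = j` or `t = j⁻¹`. -/
theorem isAlgebraic_AT {t : modularFunctionFieldBar N} (ht : t = jbar N ∨ t = (jbar N)⁻¹) :
    Algebra.IsAlgebraic (AT N A t) (modularFunctionFieldBar N) := by
  have hfd : FiniteDimensional (AlgebraicClosure ℚ)⟮Fermat.Agent.S24.jF N⟯
      (modularFunctionFieldBar N) := Fermat.Agent.S24.finiteDimensional_jF N
  have hF : Algebra.IsAlgebraic (AlgebraicClosure ℚ)⟮Fermat.Agent.S24.jF N⟯
      (modularFunctionFieldBar N) := Algebra.IsAlgebraic.of_finite _ _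
  have hjj : jbar N = Fermat.Agent.S24.jF N := rfl
  refine isAlgebraic_of_subring A (AT N A t) (fun c => ?_) (Fermat.Agent.S24.jF N) ?_ hF
  · exact Subring.subset_closure (Or.inl ⟨c, rfl⟩)
  · have htmem : t ∈ AT N A t := Subring.subset_closure (Or.inr rfl)
    have halg : IsAlgebraic (AT N A t) t := isAlgebraic_algebraMap (⟨t, htmem⟩ : AT N A t)
    rw [← hjj]
    rcases ht with rfl | rfl
    · exact halg
    · have h := halg.inv
      rwa [inv_inv] at h

/-- **`F̄ = Frac (chartA N A t)`**, with denominators in `A[t]`. -/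
theorem exists_frac_chartA {t : modularFunctionFieldBar N} (ht : t = jbar N ∨ t = (jbar N)⁻¹)
    (f : modularFunctionFieldBar N) :
    ∃ x y : modularFunctionFieldBar N, x ∈ chartA N A t ∧ y ∈ AT N A t ∧ y ≠ 0 ∧ f * y = x :=
  exists_frac_integralClosure (AT N A t) (isAlgebraic_AT N A ht) f

/-- **[Frac]** `F̄ = Frac (SQ N A Q)`: the hypothesis `hfrac` of the conservation core for the
local ring of the `A`-model at `Q`. -/
theorem hfrac_SQ (Q : Place (IsLocalRing.ResidueField A)
      (modularFunctionFieldFullC (IsLocalRing.ResidueField A) N))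
    (f : modularFunctionFieldBar N) :
    ∃ x y : SQ N A Q, y ≠ 0 ∧ f * (y : modularFunctionFieldBar N) = x := by
  obtain ⟨x, y, hx, hy, hy0, hxy⟩ := exists_frac_chartA N A (fracB_tQ_eq_or N A Q) f
  exact ⟨⟨x, chartA_le_SQ N A Q hx⟩,
    ⟨y, chartA_le_SQ N A Q (fracB_AT_le_chartA N A _ hy)⟩,
    fun h => hy0 (congrArg Subtype.val h), hxy⟩

end Charts

/-- **[Frac]**, plan form: the leaf `R0.FracStatement N ℓ` of `R0Loc.lean`. -/
theorem fracStatement (N ℓ : ℕ) : FracStatement N ℓ := by
  intro _ hℓN A _ Q
  have : NeZero N := ⟨fun h => hℓN (h ▸ dvd_zero ℓ)⟩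
  exact hfrac_SQ N A Q

end Fermat.Agent.S37.R0FracB
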