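/-
S37 block [R0] — R0FracQ.lean (helper69): the Gauss fraction property at chart level, directly
from the `q`-expansion principle [QExp] of S18 (no `π`-adic stripping needed).

For a good base `(A, K)` and `x ∈ F_K` Gauss-integral with reduction `y ≠ 0`:
`x = a / b` with `a, b` in the chart `R0` (resp. `Rinf`), whose Gauss reductions `ya, yb` are
nonzero and satisfy `y * yb = ya`.  (`b = c(j)`, resp. `c'(j⁻¹)`, for a polynomial over `O` with
nonzero reduction.)  `exists_frac` is the `A`-level form: for an `A`-integral series of `F̄` with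
nonzero reduction there is a good `K` (containing any prescribed finite set of constants) over
which this holds, for both charts.
-/
import Fermat.Agent.S18.QExp
import Fermat.Agent.S18.QExpInf
import Fermat.Agent.S18.GRel
import Fermat.Agent.S18.GRelNF
import Fermat.Agent.S18.ModelBasic
import Fermat.Agent.S18.Base
import Fermat.Agent.S18.DescCoeff

set_option autoImplicit false
set_option linter.unusedSectionVars false

noncomputable section

namespace Fermat.Agent.S37.R0FracQ

open ModularCurve ModularCurve.IgusaScheme HahnSeries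
open Fermat.Agent.S18 Fermat.Agent.S18.Arith Fermat.Agent.S18.ModelPlan Fermat.Agent.S18.QExpDefs

variable (N : ℕ) [NeZero N] (ℓ : ℕ) [Fact ℓ.Prime]
variable (A : ValuationSubring Qb) (K : IntermediateField ℚ Qb)

/-- `x = a / b` with `a, b ∈ R`, with nonzero Gauss reductions `ya`, `yb` and `y * yb = ya`. -/
def FracIn (R : Subalgebra (OK A K) (FK N K)) (x : FK N K)
    (y : LaurentSeries (IsLocalRing.ResidueField A)) : Prop :=
  ∃ a b : FK N K, a ∈ R ∧ b ∈ R ∧ x * b = a ∧
    ∃ ya yb : LaurentSeries (IsLocalRing.ResidueField A),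
      GRel A ((a : FK N K) : LaurentSeries Qb) ya ∧ GRel A ((b : FK N K) : LaurentSeries Qb) yb ∧
      ya ≠ 0 ∧ yb ≠ 0 ∧ y * yb = ya

/-- The coercion of `c(t)`, `t ∈ F_K`, to `ℚ̄((q))`. -/
theorem coe_aeval (t : FK N K) (c : Polynomial (OK A K)) :
    ((Polynomial.aeval t c : FK N K) : LaurentSeries Qb) =
      c.eval₂ (ι A K) ((t : FK N K) : LaurentSeries Qb) := by
  have h : (FK N K).subtype.comp
      (Polynomial.aeval t : Polynomial (OK A K) →ₐ[OK A K] FK N K).toRingHom =
        Polynomial.eval₂RingHom (ι A K) ((t : FK N K) : LaurentSeries Qb) := by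
    apply Polynomial.ringHom_ext
    · intro o
      simp only [RingHom.comp_apply, AlgHom.toRingHom_eq_coe, RingHom.coe_coe, Polynomial.aeval_C,
        Polynomial.coe_eval₂RingHom, Polynomial.eval₂_C]
      rfl
    · simp only [RingHom.comp_apply, AlgHom.toRingHom_eq_coe, RingHom.coe_coe, Polynomial.aeval_X,
        Polynomial.coe_eval₂RingHom, Polynomial.eval₂_X]
      rfl
  exact congrArg (fun f : Polynomial (OK A K) →+* LaurentSeries Qb => f c) h

variable {A K} in
/-- Gauss reduction of a polynomial expression `c(z)` with coefficients in `O`. -/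
theorem gRel_eval₂ (hG : GRelFacts A) {z : LaurentSeries Qb}
    {zbar : LaurentSeries (IsLocalRing.ResidueField A)} (hz : GRel A z zbar)
    (c : Polynomial (OK A K)) : GRel A (c.eval₂ (ι A K) z) (c.eval₂ (ιbar A K) zbar) := by
  induction c using Polynomial.induction_on' with
  | add p q hp hq =>
    rw [Polynomial.eval₂_add, Polynomial.eval₂_add]
    exact hG.add _ _ _ _ hp hq
  | monomial n a =>
    rw [Polynomial.eval₂_monomial, Polynomial.eval₂_monomial]
    exact hG.mul _ _ _ _ (gRel_ι hG a) (gRel_pow hG hz n)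

/-- `c(t) ∈ chart t`. -/
theorem aeval_mem_chart (t : FK N K) (c : Polynomial (OK A K)) :
    Polynomial.aeval t c ∈ chart N A K t := by
  change IsIntegral (Algebra.adjoin (OK A K) {t}) (Polynomial.aeval t c)
  exact isIntegral_algebraMap
    (x := (⟨Polynomial.aeval t c, Polynomial.aeval_mem_adjoin_singleton _ _⟩ :
      Algebra.adjoin (OK A K) {t}))

theorem jqModC_ne_zero (k : Type*) [Field k] : jqModC k ≠ 0 := by
  intro h
  have h1 := Fermat.Agent.S28.BasePair.coeff_eval₂_C_jqModC k (Polynomial.X : Polynomial k)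
  rw [Polynomial.eval₂_X, h, HahnSeries.coeff_zero, Polynomial.leadingCoeff_X] at h1
  exact zero_ne_one h1

/-- `j̄⁻¹` is transcendental over `k`, in the form needed here. -/
theorem eval₂_inv_jqModC_ne_zero (c : Polynomial (OK A K)) (hc : c.map (resO A K) ≠ 0) :
    c.eval₂ (ιbar A K) (jqModC (IsLocalRing.ResidueField A))⁻¹ ≠ 0 := by
  intro h0
  have hj : jqModC (IsLocalRing.ResidueField A) ≠ 0 := jqModC_ne_zero _
  have h1 : c.eval₂ (ιbar A K) (jqModC (IsLocalRing.ResidueField A))⁻¹ =
      (c.map (resO A K)).eval₂ HahnSeries.C (jqModC (IsLocalRing.ResidueField A))⁻¹ := by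
    rw [Polynomial.eval₂_map]
    rfl
  rw [h1] at h0
  set p := c.map (resO A K) with hp
  let _ : Invertible (jqModC (IsLocalRing.ResidueField A))⁻¹ := invertibleOfNonzero (inv_ne_zero hj)
  have h2 := Polynomial.eval₂_reverse_mul_pow
    (HahnSeries.C : IsLocalRing.ResidueField A →+* LaurentSeries (IsLocalRing.ResidueField A))
    (jqModC (IsLocalRing.ResidueField A))⁻¹ p
  rw [invOf_eq_inv, inv_inv, h0] at h2
  have h3 : p.reverse.eval₂ HahnSeries.C (jqModC (IsLocalRing.ResidueField A)) = 0 := by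
    rcases mul_eq_zero.mp h2 with h | h
    · exact h
    · exact absurd h (pow_ne_zero _ (inv_ne_zero hj))
  have h4 := Fermat.Agent.S28.BasePair.coeff_eval₂_C_jqModC (IsLocalRing.ResidueField A) p.reverse
  rw [h3, HahnSeries.coeff_zero] at h4
  have h5 : p.reverse = 0 := Polynomial.leadingCoeff_eq_zero.mp h4.symm
  exact hc (Polynomial.reverse_eq_zero.mp h5)

/-- **Gauss fraction property in the chart `R0`.** -/
theorem frac_R0 (hℓN : ¬ ℓ ∣ N) (hA : A.LiesOverPrime ℓ) (hB : BaseFacts ℓ A K) (x : FK N K)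
    (y : LaurentSeries (IsLocalRing.ResidueField A))
    (hxy : GRel A ((x : FK N K) : LaurentSeries Qb) y) (hy : y ≠ 0) :
    FracIn N A K (R0 N ℓ A K) x y := by
  have hG : GRelFacts A := GRel.gRelStatement A
  obtain ⟨⟨c, hc, hcx⟩, -⟩ := QExp.qExpStatement N ℓ GRel.gRelStatement GRelNF.gRelNFStatement
    (ModelBasic.basicStatement N ℓ) hℓN A hA K hB x y hxy
  have hb : GRel A ((Polynomial.aeval (jK N K) c : FK N K) : LaurentSeries Qb) (evbar A K c) := by
    rw [coe_aeval]
    exact gRel_ev hG c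
  have hb0 : evbar A K c ≠ 0 := fun h => hc ((evbar_eq_zero_iff A K c).mp h)
  refine ⟨Polynomial.aeval (jK N K) c * x, Polynomial.aeval (jK N K) c, hcx,
    aeval_mem_chart N A K (jK N K) c, mul_comm _ _, evbar A K c * y, evbar A K c, ?_, hb,
    mul_ne_zero hb0 hy, hb0, mul_comm _ _⟩
  have h := hG.mul _ _ _ _ hb hxy
  exact h

/-- **Gauss fraction property in the chart `Rinf`.** -/
theorem frac_Rinf (hℓN : ¬ ℓ ∣ N) (hA : A.LiesOverPrime ℓ) (hB : BaseFacts ℓ A K) (x : FK N K)
    (y : LaurentSeries (IsLocalRing.ResidueField A))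
    (hxy : GRel A ((x : FK N K) : LaurentSeries Qb) y) (hy : y ≠ 0) :
    FracIn N A K (Rinf N ℓ A K) x y := by
  have hG : GRelFacts A := GRel.gRelStatement A
  have hbasic := ModelBasic.basicStatement N ℓ A K
  obtain ⟨⟨c, hc, hcx⟩, -⟩ := QExp.qExpStatement N ℓ GRel.gRelStatement GRelNF.gRelNFStatement
    (ModelBasic.basicStatement N ℓ) hℓN A hA K hB x y hxy
  obtain ⟨c', hc', hc'x⟩ := QExpInf.qExp_inf N ℓ A K hbasic.glue0 hbasic.j_ne x c hc hcx
  have hjbar : jqModC (IsLocalRing.ResidueField A) ≠ 0 := jqModC_ne_zero _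
  have hjinv : GRel A (((jK N K)⁻¹ : FK N K) : LaurentSeries Qb)
      (jqModC (IsLocalRing.ResidueField A))⁻¹ := by
    have h := hG.inv _ _ (gRel_jΩ hG) hjbar
    exact h
  have hb : GRel A ((Polynomial.aeval (jK N K)⁻¹ c' : FK N K) : LaurentSeries Qb)
      (c'.eval₂ (ιbar A K) (jqModC (IsLocalRing.ResidueField A))⁻¹) := by
    rw [coe_aeval]
    exact gRel_eval₂ hG hjinv c'
  have hb0 := eval₂_inv_jqModC_ne_zero A K c' hc'
  refine ⟨Polynomial.aeval (jK N K)⁻¹ c' * x, Polynomial.aeval (jK N K)⁻¹ c', hc'x,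
    aeval_mem_chart N A K (jK N K)⁻¹ c', mul_comm _ _, _, _, ?_, hb, mul_ne_zero hb0 hy, hb0,
    mul_comm _ _⟩
  have h := hG.mul _ _ _ _ hb hxy
  exact h

/-- **`A`-level Gauss fraction property**: an `A`-integral series of `F̄` with nonzero reduction is,
over a suitable good base `K` containing any prescribed finite set of constants, a quotient of
chart elements with nonzero reductions — in both charts. -/
theorem exists_frac (hℓN : ¬ ℓ ∣ N) (hA : A.LiesOverPrime ℓ) (y : LaurentSeries A)
    (hy : coeffMap A.subtype y ∈ modularFunctionFieldBar N)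
    (hne : coeffMap (IsLocalRing.residue A) y ≠ 0) (S₀ : Finset Qb) :
    ∃ K : IntermediateField ℚ Qb, (↑S₀ ⊆ (K : Set Qb)) ∧ BaseFacts ℓ A K ∧
      ∃ x : FK N K, ((x : FK N K) : LaurentSeries Qb) = coeffMap A.subtype y ∧
        FracIn N A K (R0 N ℓ A K) x (coeffMap (IsLocalRing.residue A) y) ∧
        FracIn N A K (Rinf N ℓ A K) x (coeffMap (IsLocalRing.residue A) y) := by
  classical
  obtain ⟨S₁, hS₁⟩ := (DescCoeff.descStatement N).1 _ hy
  obtain ⟨K, hK, hB⟩ := Base.baseStatement ℓ A hA (S₀ ∪ S₁)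
  have hK0 : (↑S₀ : Set Qb) ⊆ (K : Set Qb) := fun z hz =>
    hK (by rw [Finset.coe_union]; exact Or.inl hz)
  have hK1 : (↑S₁ : Set Qb) ⊆ (K : Set Qb) := fun z hz =>
    hK (by rw [Finset.coe_union]; exact Or.inr hz)
  have hx : coeffMap A.subtype y ∈ FK N K := hS₁ K hK1
  have hxy : GRel A (((⟨coeffMap A.subtype y, hx⟩ : FK N K) : FK N K) : LaurentSeries Qb)
      (coeffMap (IsLocalRing.residue A) y) := (GRel.gRelStatement A).of_int y
  exact ⟨K, hK0, hB, ⟨coeffMap A.subtype y, hx⟩, rfl,
    frac_R0 N ℓ A K hℓN hA hB _ _ hxy hne, frac_Rinf N ℓ A K hℓN hA hB _ _ hxy hne⟩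

end Fermat.Agent.S37.R0FracQ
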