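/-
S37 block [R0], row R7 [Frac] — R0FracSQ.lean (helper10): the leaf `R0.FracStatement` of
`R0Loc.lean` (`Frac (SQ N A Q) = F̄`), and the Gauss fraction property (`R0.LocalDatum.frac`)
for the local rings `SQ N A Q`, from `R0Frac.lean`.
-/
import Fermat.Agent.S37.R0Frac
import Fermat.Agent.S37.R0Loc

set_option autoImplicit false

noncomputable section

namespace Fermat.Agent.S37.R0FracSQ

open ModularCurve AlgebraicCurve HahnSeries Fermat.Agent.S37.PM Fermat.Agent.S18

set_option synthInstance.maxHeartbeats 400000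

section

variable (N : ℕ) (A : ValuationSubring Qb)
variable (Q : Place (IsLocalRing.ResidueField A)
  (modularFunctionFieldFullC (IsLocalRing.ResidueField A) N))

/-- The chart coordinate at `Q` is `j` or `j⁻¹`. -/
theorem tQ_eq : R0.tQ N A Q = jbar N ∨ R0.tQ N A Q = (jbar N)⁻¹ := by
  unfold R0.tQ
  split_ifs
  · exact Or.inl rfl
  · exact Or.inr rfl

/-- The chart `chartA N A (tQ Q)` is contained in the local ring `SQ N A Q`. -/
theorem chartA_le_SQ : chartA N A (R0.tQ N A Q) ≤ R0.SQ N A Q := fun x hx =>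
  ⟨x, 1, hx, Subring.one_mem _, ⟨1, R0.red_one N A, R0.unitAt_one N A Q⟩, mul_one x⟩

/-- `Frac (SQ N A Q) = F̄`. -/
theorem hfrac_SQ [NeZero N] : R0.HFrac N A Q := fun f =>
  R0Frac.setting_hfrac N A (R0.tQ N A Q) (tQ_eq N A Q) (R0.SQ N A Q) (chartA_le_SQ N A Q) f

end

/-- **[Frac]** (leaf `R0.FracStatement` of `R0Loc.lean`). -/
theorem fracStatement (N ℓ : ℕ) : R0.FracStatement N ℓ := by
  intro _ hℓN A _ Q
  have : NeZero N := ⟨fun h => hℓN (h ▸ dvd_zero ℓ)⟩
  exact hfrac_SQ N A Q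

/-- **The Gauss fraction property for `SQ N A Q`** (the field `frac` of `R0.LocalDatum`, for the
composite `SQ → O_Q ⊆ F_k` of a Gauss-compatible reduction map `ρ`). -/
theorem localDatum_frac_SQ (N : ℕ) [NeZero N] (ℓ : ℕ) [Fact ℓ.Prime] (hℓN : ¬ ℓ ∣ N)
    (A : ValuationSubring Qb) (hA : A.LiesOverPrime ℓ)
    (Q : Place (IsLocalRing.ResidueField A)
      (modularFunctionFieldFullC (IsLocalRing.ResidueField A) N))
    (ρ : R0.SQ N A Q →+* Q.toValuationSubring) (hρ : R0.RedCompat N A Q ρ)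
    (y : LaurentSeries A) (hy : coeffMap A.subtype y ∈ modularFunctionFieldBar N)
    (hyk : coeffMap (IsLocalRing.residue A) y ∈
      modularFunctionFieldFullC (IsLocalRing.ResidueField A) N)
    (hy0 : coeffMap (IsLocalRing.residue A) y ≠ 0) :
    ∃ a b : R0.SQ N A Q, (Q.toValuationSubring.subtype.comp ρ) a ≠ 0 ∧
      (Q.toValuationSubring.subtype.comp ρ) b ≠ 0 ∧
      (⟨coeffMap A.subtype y, hy⟩ : modularFunctionFieldBar N) *
        (b : modularFunctionFieldBar N) = a ∧
      (⟨coeffMap (IsLocalRing.residue A) y, hyk⟩ :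
        modularFunctionFieldFullC (IsLocalRing.ResidueField A) N) *
          (Q.toValuationSubring.subtype.comp ρ) b = (Q.toValuationSubring.subtype.comp ρ) a :=
  R0Frac.localDatum_frac N ℓ hℓN A hA (R0.tQ N A Q) (tQ_eq N A Q) (R0.SQ N A Q)
    (chartA_le_SQ N A Q) (Q.toValuationSubring.subtype.comp ρ) (fun x => hρ x) y hy hyk hy0

end Fermat.Agent.S37.R0FracSQ
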