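/-
S37 block [R0] — R0LocGlueB.lean (helper73): the glue

    `Cons.Setting A S ρ T` + Gauss-compatibility of `ρ` + `hfrac`   ⟹   `R0.LocalDatum N A Q S ρ`

for a subring `S ⊆ F̄` with a reduction map `ρ : S →+* O_Q` into the valuation ring of a place
`Q` of `F_k`.  The `sum` clause is `Cons.Setting.conservation` (with denominator `1`), the `frac`
clause is the `π`-adic stripping `Cons.Setting.exists_const_mul` plus uniqueness of Gauss
reductions.
-/
import Mathlib
import Fermat.Agent.S37.R0LocDefs
import Fermat.Agent.S37.ConsPlace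
import Fermat.Agent.S37.ConsExtra

set_option autoImplicit false

noncomputable section

namespace Fermat.Agent.S37.R0LocGlueB

open ModularCurve AlgebraicCurve HahnSeries Fermat.Agent.S37.PM Fermat.Agent.S18
open Fermat.Agent.S37.R0 Fermat.Agent.S37

set_option synthInstance.maxHeartbeats 400000

variable {N : ℕ} {A : ValuationSubring Qb}
variable {Q : Place (IsLocalRing.ResidueField A)
  (modularFunctionFieldFullC (IsLocalRing.ResidueField A) N)}

/-- The order at `Q` of an element of `O_Q` associated to a power of a uniformizer. -/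
theorem ord_eq_of_associated {k' F' : Type*} [Field k'] [Field F'] [Algebra k' F']
    (Q' : Place k' F') {x π : Q'.toValuationSubring} (hπ : Irreducible π) {m : ℕ}
    (h : Associated x (π ^ m)) : Q'.ord (x : F') = m := by
  obtain ⟨u, hu⟩ := h.symm
  have e : (x : F') = ((u : Q'.toValuationSubring) : F') * ((π : F') ^ (m : ℤ)) := by
    rw [← hu, zpow_natCast]
    push_cast
    ring
  rw [e]
  exact Q'.ord_unit_smul_zpow u hπ (m : ℤ)

set_option maxHeartbeats 3200000 in
/-- **Glue**: a conservation setting whose reduction map is Gauss reduction gives the local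
datum of `R0Plan`. -/
theorem localDatum_of_setting (S : Subring (modularFunctionFieldBar N))
    (ρ : S →+* Q.toValuationSubring) (T : S)
    (hred : ∀ x : S, Red N A (x : modularFunctionFieldBar N)
      ((ρ x : Q.toValuationSubring) :
        modularFunctionFieldFullC (IsLocalRing.ResidueField A) N))
    (hS : Cons.Setting A S ρ T)
    (hfrac : ∀ f : modularFunctionFieldBar N, ∃ x y : S, y ≠ 0 ∧
      f * (y : modularFunctionFieldBar N) = x) :
    R0.LocalDatum N A Q S (Q.toValuationSubring.subtype.comp ρ) := by
  have hρ' : ∀ x : S, (Q.toValuationSubring.subtype.comp ρ) x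
      = ((ρ x : Q.toValuationSubring) :
        modularFunctionFieldFullC (IsLocalRing.ResidueField A) N) := fun _ => rfl
  have hρ0 : ∀ x : S, (Q.toValuationSubring.subtype.comp ρ) x ≠ 0 ↔ ρ x ≠ 0 := by
    intro x
    rw [hρ' x]
    exact ⟨fun h h0 => h (by rw [h0]; rfl), fun h h0 => h (Subtype.ext h0)⟩
  refine ⟨?_, ?_⟩
  · -- conservation
    intro a ha
    have ha' : ρ a ≠ 0 := (hρ0 a).mp ha
    obtain ⟨m, hm⟩ := IsDiscreteValuationRing.associated_pow_irreducible ha' hS.hT
    have h1 : Associated (ρ 1) (ρ T ^ 0) := by rw [map_one, pow_zero]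
    obtain ⟨-, hsum⟩ := hS.conservation hfrac a 1 m 0 hm h1
    rw [hρ' a, ord_eq_of_associated Q hS.hT hm]
    rw [Subring.coe_one, div_one, Nat.cast_zero, sub_zero] at hsum
    exact hsum
  · -- Gauss fractions
    intro y hy hyk hy0
    have hredy : Red N A (⟨coeffMap A.subtype y, hy⟩ : modularFunctionFieldBar N)
        (⟨coeffMap (IsLocalRing.residue A) y, hyk⟩ :
          modularFunctionFieldFullC (IsLocalRing.ResidueField A) N) :=
      (GRel.gRelStatement A).of_int y
    have hyk0 : (⟨coeffMap (IsLocalRing.residue A) y, hyk⟩ :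
        modularFunctionFieldFullC (IsLocalRing.ResidueField A) N) ≠ 0 :=
      fun h0 => hy0 (congrArg Subtype.val h0)
    have hyF0 : (⟨coeffMap A.subtype y, hy⟩ : modularFunctionFieldBar N) ≠ 0 := by
      intro h0
      rw [h0] at hredy
      exact hyk0 (hredy.unique (red_zero N A))
    -- reductions of products
    have key : ∀ a b : S, (⟨coeffMap A.subtype y, hy⟩ : modularFunctionFieldBar N)
          * (b : modularFunctionFieldBar N) = (a : modularFunctionFieldBar N) →
        (⟨coeffMap (IsLocalRing.residue A) y, hyk⟩ :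
          modularFunctionFieldFullC (IsLocalRing.ResidueField A) N)
          * (Q.toValuationSubring.subtype.comp ρ) b = (Q.toValuationSubring.subtype.comp ρ) a := by
      intro a b hab
      have h1 := hredy.mul (hred b)
      rw [hab] at h1
      exact h1.unique (hred a)
    obtain ⟨y₁, y₂, hy₂, hxy⟩ := hfrac ⟨coeffMap A.subtype y, hy⟩
    have hy₂F : (y₂ : modularFunctionFieldBar N) ≠ 0 := fun h0 => hy₂ (Subtype.ext h0)
    have hy₁ : y₁ ≠ 0 := by
      rintro rfl
      rw [Subring.coe_zero] at hxy
      rcases mul_eq_zero.mp hxy with h0 | h0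
      · exact hyF0 h0
      · exact hy₂F h0
    obtain ⟨c₁, a', hc₁, ha', hρa'⟩ := hS.exists_const_mul hy₁
    obtain ⟨c₂, b', hc₂, hb', hρb'⟩ := hS.exists_const_mul hy₂
    have hconst0 : ∀ c : A, c ≠ 0 → ((hS.const c : S) : modularFunctionFieldBar N) ≠ 0 := by
      intro c hc h0
      rw [Cons.Setting.coe_const] at h0
      exact hc (Subtype.ext ((map_eq_zero _).mp h0))
    have hxy' : (⟨coeffMap A.subtype y, hy⟩ : modularFunctionFieldBar N)
        * (((hS.const c₂ : S) : modularFunctionFieldBar N) * (b' : modularFunctionFieldBar N))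
        = ((hS.const c₁ : S) : modularFunctionFieldBar N) * (a' : modularFunctionFieldBar N) := by
      rw [← Subring.coe_mul, ← Subring.coe_mul, ← hb', ← ha']
      exact hxy
    obtain ⟨d, hd | hd⟩ := ValuationRing.cond c₁ c₂
    · -- `c₂ = c₁ * d`
      have e : (⟨coeffMap A.subtype y, hy⟩ : modularFunctionFieldBar N)
          * ((hS.const d * b' : S) : modularFunctionFieldBar N)
          = (a' : modularFunctionFieldBar N) := by
        have h2 : hS.const c₂ = hS.const c₁ * hS.const d := by rw [← map_mul, hd]
        rw [h2, Subring.coe_mul] at hxy'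
        rw [Subring.coe_mul]
        apply mul_left_cancel₀ (hconst0 c₁ hc₁)
        linear_combination hxy'
      have hk := key a' (hS.const d * b') e
      have ha0 : (Q.toValuationSubring.subtype.comp ρ) a' ≠ 0 := (hρ0 a').mpr hρa'
      refine ⟨a', hS.const d * b', ha0, ?_, e, hk⟩
      intro h0
      rw [h0, mul_zero] at hk
      exact ha0 hk.symm
    · -- `c₁ = c₂ * d`
      have e : (⟨coeffMap A.subtype y, hy⟩ : modularFunctionFieldBar N)
          * (b' : modularFunctionFieldBar N)
          = ((hS.const d * a' : S) : modularFunctionFieldBar N) := by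
        have h2 : hS.const c₁ = hS.const c₂ * hS.const d := by rw [← map_mul, hd]
        rw [h2, Subring.coe_mul] at hxy'
        rw [Subring.coe_mul]
        apply mul_left_cancel₀ (hconst0 c₂ hc₂)
        linear_combination hxy'
      have hk := key (hS.const d * a') b' e
      have hb0 : (Q.toValuationSubring.subtype.comp ρ) b' ≠ 0 := (hρ0 b').mpr hρb'
      refine ⟨hS.const d * a', b', ?_, hb0, e, hk⟩
      rw [← hk]
      exact mul_ne_zero hyk0 hb0

end Fermat.Agent.S37.R0LocGlueB
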