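/-
S37 block [R0] — R0LocTopB.lean (helper73): the top glue of the second layer,

    `R0.PointStatement N ℓ` + `R0.PartStatement N ℓ` + `R0.DegKStatement N ℓ`
        ⟹  `R0.LocStatement N ℓ`,

and hence `R0.LocStatement` from the leaves of `R0Loc.lean`
(`RhoStatement`, `SurjStatement`, `NoethStatement`, `LevelStatement`, `DirStatement`,
`AlgStatement`, `FracStatement`, `PartStatement`, `DegKStatement`).
The local datum at `Q` is `R0LocGlueB.localDatum_of_setting` (conservation of number).
-/
import Mathlib
import Fermat.Agent.S37.R0Loc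
import Fermat.Agent.S37.R0LocGlueB

set_option autoImplicit false

noncomputable section

namespace Fermat.Agent.S37.R0LocTopB

open ModularCurve AlgebraicCurve HahnSeries Fermat.Agent.S37.PM Fermat.Agent.S18
open Fermat.Agent.S37.R0 Fermat.Agent.S37

set_option synthInstance.maxHeartbeats 400000

/-- The local datum at `Q` from a point datum. -/
theorem localDatum_of_pointDatum (N : ℕ) (A : ValuationSubring Qb)
    (Q : Place (IsLocalRing.ResidueField A)
      (modularFunctionFieldFullC (IsLocalRing.ResidueField A) N))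
    (ρ : SQ N A Q →+* Q.toValuationSubring) (T : SQ N A Q) (hd : PointDatum N A Q ρ T) :
    R0.LocalDatum N A Q (SQ N A Q) (Q.toValuationSubring.subtype.comp ρ) :=
  R0LocGlueB.localDatum_of_setting (SQ N A Q) ρ T hd.red hd.setting hd.hfrac

/-- **`R0.LocStatement` from the point data, the partition property and `deg = 1`.** -/
theorem locStatement_of_point (N ℓ : ℕ) (hpt : PointStatement N ℓ) (hpart : PartStatement N ℓ)
    (hdeg : R0.DegKStatement N ℓ) : R0.LocStatement N ℓ := by
  intro hℓ hℓN A hA
  choose ρ T hd using hpt hℓ hℓN A hA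
  exact ⟨SQ N A, fun Q => Q.toValuationSubring.subtype.comp (ρ Q),
    fun Q => localDatum_of_pointDatum N A Q (ρ Q) (T Q) (hd Q), hpart hℓ hℓN A hA,
    hdeg hℓ hℓN A hA⟩

/-- **`R0.LocStatement` from the leaves of `R0Loc.lean`.** -/
theorem locStatement_of_leaves (N ℓ : ℕ) [NeZero N] (hrho : RhoStatement N ℓ)
    (hsurj : SurjStatement N ℓ) (hnoeth : NoethStatement N ℓ) (hlevel : LevelStatement N ℓ)
    (hdir : DirStatement N ℓ) (halg : AlgStatement N ℓ) (hfrac : FracStatement N ℓ)
    (hpart : PartStatement N ℓ) (hdeg : R0.DegKStatement N ℓ) : R0.LocStatement N ℓ :=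
  locStatement_of_point N ℓ
    (pointStatement_of_leaves N ℓ hrho hsurj hnoeth hlevel hdir halg hfrac) hpart hdeg

end Fermat.Agent.S37.R0LocTopB
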