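/-
S37 block [R0] — R0MemB.lean (helper94): leaf [R10] of `R0Part.lean`, B-copy.

    P ∈ R0.Pts N A (R0.SQ N A Q)  ↔  R0Part.Reduces N A P Q

for the local rings `SQ N A Q` of `R0LocDefs.lean` (fractions `x / s` of elements of the chart
`chartA N A (tQ Q)` with the reduction of `s` a unit at `Q`).
-/
import Mathlib
import Fermat.Agent.S37.R0Part
import Fermat.Agent.S37.R0LocDefs
import Fermat.Agent.S37.PMChartA

set_option autoImplicit false
set_option linter.unusedSectionVars false

noncomputable section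

namespace Fermat.Agent.S37.R0MemB

open ModularCurve AlgebraicCurve HahnSeries Fermat.Agent.S37.PM Fermat.Agent.S37.PMCover
open Fermat.Agent.S18

set_option synthInstance.maxHeartbeats 400000

/-! ### Generic: units at a place -/

section Generic

variable {K F : Type*} [Field K] [Field F] [Algebra K F]

/-- A function regular at `v` and not in the maximal ideal has valuation one. -/
theorem valuation_eq_one_of_not_mem_nonunits (B : ValuationSubring F) {f : F} (hf : f ∈ B)
    (hn : f ∉ B.nonunits) : B.valuation f = 1 := by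
  have h1 : B.valuation f ≤ 1 := (B.valuation_le_one_iff f).mpr hf
  have h2 : ¬ B.valuation f < 1 := fun h => hn ((ValuationSubring.mem_nonunits_iff B).mpr h)
  exact le_antisymm h1 (not_lt.mp h2)

/-- A unit at `v` does not have the value `0`. -/
theorem valAt_ne_zero_of_valuation_eq_one (v : Place K F) {f : F} {c : K}
    (h : ValAt v f c) (hu : v.toValuationSubring.valuation f = 1) : c ≠ 0 := by
  rintro rfl
  rw [valAt_zero_iff, ValuationSubring.mem_nonunits_iff, hu] at h
  exact lt_irrefl _ h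

/-- A function with a value is nonzero if the value is nonzero. -/
theorem ne_zero_of_valAt (v : Place K F) {f : F} {c : K} (h : ValAt v f c) (hc : c ≠ 0) :
    f ≠ 0 := by
  rintro rfl
  exact hc (valAt_unique v h (valAt_zero v))

/-- The inverse of a nonzero element of the maximal ideal is not in the valuation ring. -/
theorem inv_not_mem_of_mem_nonunits (B : ValuationSubring F) {f : F} (hf0 : f ≠ 0)
    (hf : f ∈ B.nonunits) : f⁻¹ ∉ B := by
  intro h
  have h3 := mul_mem_nonunits h hf
  rw [inv_mul_cancel₀ hf0, ValuationSubring.mem_nonunits_iff, map_one] at h3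
  exact lt_irrefl _ h3

/-- Valuation rings are integrally closed, in hom form: if `ρ ∘ ι` maps `R₀` into the valuation
ring `B` and `x` is a root of a monic polynomial over `R₀`, then `ρ x ∈ B`. -/
theorem mem_of_monic_eval₂_eq_zero {R₀ R : Type*} [CommRing R₀] [CommRing R]
    (B : ValuationSubring F) (ι : R₀ →+* R) (ρ : R →+* F) (hφ : ∀ a : R₀, ρ (ι a) ∈ B)
    (x : R) (p : Polynomial R₀) (hpm : p.Monic) (hpx : p.eval₂ ι x = 0) : ρ x ∈ B := by
  have hφ' : ∀ a : R₀, (ρ.comp ι) a ∈ B.toSubring := hφ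
  have hint : IsIntegral B (ρ x) := by
    refine ⟨p.map ((ρ.comp ι).codRestrict B.toSubring hφ'), hpm.map _, ?_⟩
    rw [Polynomial.eval₂_map]
    have e1 : (algebraMap B F).comp ((ρ.comp ι).codRestrict B.toSubring hφ') = ρ.comp ι :=
      RingHom.ext fun a => rfl
    rw [e1, ← Polynomial.hom_eval₂, hpx, map_zero]
  obtain ⟨y, hy⟩ := (IsIntegrallyClosed.isIntegral_iff (R := B)).mp hint
  rw [← hy]
  exact y.2

end Generic

/-! ### Reductions of constants, of `j` and of `j⁻¹` -/

section Red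

variable (N : ℕ) [NeZero N] (A : ValuationSubring Qb)

/-- The `q`-expansion of `j ∈ F̄`. -/
theorem coe_jbar : ((jbar N : modularFunctionFieldBar N) : LaurentSeries Qb) = jqModC Qb :=
  (PMChartA.coe_jK N ⊥).symm.trans (ModelQFrac.coe_jK N ⊥)

/-- `j` reduces to `j̄`. -/
theorem red_jbar : R0.Red N A (jbar N) (R0.jk N A) := by
  have h := (GRel.gRelStatement A).of_int (jqModC A)
  rw [coeffMap_jqModC, coeffMap_jqModC] at h
  unfold R0.Red
  rw [coe_jbar]
  exact h

theorem jk_ne_zero : R0.jk N A ≠ 0 := by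
  intro h
  have h1 : ((R0.jk N A : modularFunctionFieldFullC (IsLocalRing.ResidueField A) N) :
      LaurentSeries (IsLocalRing.ResidueField A)) = 0 := by rw [h]; rfl
  have h2 := coeff_jqModC_neg_one (IsLocalRing.ResidueField A)
  have h3 : (jqModC (IsLocalRing.ResidueField A)) = 0 := h1
  rw [h3, HahnSeries.coeff_zero] at h2
  exact zero_ne_one h2

/-- `j⁻¹` reduces to `j̄⁻¹`. -/
theorem red_jbar_inv : R0.Red N A (jbar N)⁻¹ (R0.jk N A)⁻¹ := by
  have h := (GRel.gRelStatement A).inv _ _ (red_jbar N A) (fun h0 => jk_ne_zero N A (Subtype.ext h0))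
  exact h

/-- A constant `c ∈ A` reduces to its residue class. -/
theorem red_constA (c : A) :
    R0.Red N A (constA N A c)
      (algebraMap (IsLocalRing.ResidueField A)
        (modularFunctionFieldFullC (IsLocalRing.ResidueField A) N) (IsLocalRing.residue A c)) := by
  have h := (GRel.gRelStatement A).of_int (HahnSeries.single 0 c : LaurentSeries A)
  rw [coeffMap_single, coeffMap_single] at h
  unfold R0.Red
  rw [PMChartA.coe_constA]
  have e : ((algebraMap (IsLocalRing.ResidueField A)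
      (modularFunctionFieldFullC (IsLocalRing.ResidueField A) N) (IsLocalRing.residue A c) :
        modularFunctionFieldFullC (IsLocalRing.ResidueField A) N) :
          LaurentSeries (IsLocalRing.ResidueField A))
      = HahnSeries.single 0 (IsLocalRing.residue A c) :=
    algebraMap_laurentSeries_eq_single (IsLocalRing.ResidueField A) (IsLocalRing.residue A c)
  rw [e]
  exact h

end Red

/-! ### Reductions of chart elements are regular at `Q` -/

section Integral

variable (N : ℕ) [NeZero N] (ℓ : ℕ) [Fact ℓ.Prime] (A : ValuationSubring Qb)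

/-- The subring `A[t]` is contained in the chart. -/
theorem AT_le_chartA (t : modularFunctionFieldBar N) : AT N A t ≤ chartA N A t := by
  intro a ha
  exact (isIntegral_algebraMap (R := AT N A t) (A := modularFunctionFieldBar N)
    (x := (⟨a, ha⟩ : AT N A t)))

theorem t_mem_chartA (t : modularFunctionFieldBar N) : t ∈ chartA N A t :=
  AT_le_chartA N A t (Subring.subset_closure (Or.inr rfl))

theorem constA_mem_chartA (t : modularFunctionFieldBar N) (c : A) :
    constA N A c ∈ chartA N A t :=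
  AT_le_chartA N A t (Subring.subset_closure (Or.inl ⟨c, rfl⟩))

/-- **Reductions of chart elements are regular at `Q`**, as soon as the reduction of the
coordinate is (valuation rings are integrally closed). -/
theorem red_mem_of_mem_chartA (hℓN : ¬ ℓ ∣ N) (hA : A.LiesOverPrime ℓ)
    {t : modularFunctionFieldBar N} (ht : t = jbar N ∨ t = (jbar N)⁻¹)
    (Q : Place (IsLocalRing.ResidueField A)
      (modularFunctionFieldFullC (IsLocalRing.ResidueField A) N))
    {tb : modularFunctionFieldFullC (IsLocalRing.ResidueField A) N}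
    (htb : R0.Red N A t tb) (htbQ : tb ∈ Q.toValuationSubring)
    {x : modularFunctionFieldBar N} (hx : x ∈ chartA N A t)
    {b : modularFunctionFieldFullC (IsLocalRing.ResidueField A) N} (hb : R0.Red N A x b) :
    b ∈ Q.toValuationSubring := by
  classical
  have hG := GRel.gRelStatement A
  obtain ⟨ρ, hρ⟩ := PMChartA.exists_rhoA N ℓ A hℓN hA ht
  have hbρ : b = ρ ⟨x, hx⟩ := Subtype.ext (hG.unique _ _ _ hb (hρ ⟨x, hx⟩))
  -- `ρ` maps `A[t]` into `O_Q`
  have hle : AT N A t ≤ Subring.map (chartA N A t).subtype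
      (Subring.comap ρ Q.toValuationSubring.toSubring) := by
    unfold AT
    rw [Subring.closure_le]
    rintro a (⟨c, rfl⟩ | ha)
    · refine ⟨⟨constA N A c, constA_mem_chartA N A t c⟩, ?_, rfl⟩
      have h1 : ρ ⟨constA N A c, constA_mem_chartA N A t c⟩
          = algebraMap (IsLocalRing.ResidueField A)
            (modularFunctionFieldFullC (IsLocalRing.ResidueField A) N)
              (IsLocalRing.residue A c) :=
        Subtype.ext (hG.unique _ _ _ (hρ _) (red_constA N A c))
      show ρ ⟨constA N A c, constA_mem_chartA N A t c⟩ ∈ Q.toValuationSubring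
      rw [h1]
      exact Q.algebraMap_mem' _
    · rw [Set.mem_singleton_iff] at ha
      subst ha
      refine ⟨⟨a, t_mem_chartA N A a⟩, ?_, rfl⟩
      have h1 : ρ ⟨a, t_mem_chartA N A a⟩ = tb :=
        Subtype.ext (hG.unique _ _ _ (hρ _) htb)
      show ρ ⟨a, t_mem_chartA N A a⟩ ∈ Q.toValuationSubring
      rw [h1]
      exact htbQ
  have hφ : ∀ a : AT N A t,
      ρ (Subring.inclusion (AT_le_chartA N A t) a) ∈ Q.toValuationSubring.toSubring := by
    intro a
    obtain ⟨y, hy, hya⟩ := hle a.2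
    have e : Subring.inclusion (AT_le_chartA N A t) a = y := Subtype.ext hya.symm
    rw [e]
    exact hy
  -- the integral equation of `x`, reduced
  obtain ⟨p, hpm, hpx⟩ := hx
  have e2 : Polynomial.eval₂ (Subring.inclusion (AT_le_chartA N A t))
      (⟨x, ⟨p, hpm, hpx⟩⟩ : chartA N A t) p = 0 := by
    apply Subtype.ext
    have e3 := Polynomial.hom_eval₂ p (Subring.inclusion (AT_le_chartA N A t))
      (chartA N A t).subtype ⟨x, ⟨p, hpm, hpx⟩⟩
    exact e3.trans hpx
  rw [hbρ]
  exact mem_of_monic_eval₂_eq_zero Q.toValuationSubring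
    (Subring.inclusion (AT_le_chartA N A t))
    ρ hφ _ p hpm e2

end Integral

/-! ### The two directions, for a fixed chart -/

section Core

variable (N : ℕ) [NeZero N] (ℓ : ℕ) [Fact ℓ.Prime] (A : ValuationSubring Qb)

/-- A place reducing to `Q` through the chart of `Q` is centred on `SQ N A Q`. -/
theorem mem_pts_of_redTo (hℓN : ¬ ℓ ∣ N) (hA : A.LiesOverPrime ℓ)
    {t : modularFunctionFieldBar N} (ht : t = jbar N ∨ t = (jbar N)⁻¹)
    (Q : Place (IsLocalRing.ResidueField A)
      (modularFunctionFieldFullC (IsLocalRing.ResidueField A) N))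
    (htQ : R0.tQ N A Q = t) (P : Place Qb (modularFunctionFieldBar N))
    (hred : R0Part.RedTo N A t P Q) : P ∈ R0.Pts N A (R0.SQ N A Q) := by
  intro f hf
  obtain ⟨x, s, hx, hs, ⟨β, hβ, hu⟩, hfs⟩ := hf
  rw [htQ] at hx hs
  obtain ⟨bx, hbx, -⟩ := PMChartA.exists_gRel N ℓ A hℓN hA ht hx
  obtain ⟨-, cx, hcx, -⟩ := hred x hx bx hbx
  obtain ⟨hβF, cs, hcs, hcsQ⟩ := hred s hs _ hβ
  have hcs0 : IsLocalRing.residue A cs ≠ 0 :=
    valAt_ne_zero_of_valuation_eq_one Q hcsQ hu
  have hcsu : IsUnit cs := by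
    by_contra hnu
    exact hcs0 ((IsLocalRing.residue_eq_zero_iff cs).mpr
      ((IsLocalRing.mem_maximalIdeal cs).mpr hnu))
  have hcsQb : (cs : Qb) ≠ 0 := by
    intro h0
    have : cs = 0 := Subtype.ext h0
    rw [this] at hcsu
    exact not_isUnit_zero hcsu
  have hs0 : s ≠ 0 := ne_zero_of_valAt P hcs hcsQb
  have hf' : f = x * s⁻¹ := by
    rw [← hfs, mul_assoc, mul_inv_cancel₀ hs0, mul_one]
  refine ⟨cx * ((hcsu.unit⁻¹ : Aˣ) : A), ?_⟩
  have hinv : (((hcsu.unit⁻¹ : Aˣ) : A) : Qb) = (cs : Qb)⁻¹ := by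
    apply eq_inv_of_mul_eq_one_left
    have h1 : ((hcsu.unit⁻¹ : Aˣ) : A) * cs = 1 := by
      have := hcsu.unit.inv_mul
      rwa [IsUnit.unit_spec] at this
    have h2 : ((((hcsu.unit⁻¹ : Aˣ) : A) * cs : A) : Qb) = ((1 : A) : Qb) := by rw [h1]
    exact h2
  have hval : ValAt P f ((cx : Qb) * (cs : Qb)⁻¹) := by
    rw [hf']
    exact valAt_mul P hcx (valAt_inv P hcs hcsQb)
  have e : ((cx * ((hcsu.unit⁻¹ : Aˣ) : A) : A) : Qb) = (cx : Qb) * (cs : Qb)⁻¹ := by
    rw [← hinv]
    rfl
  rw [e]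
  exact hval

/-- A place centred on `SQ N A Q` reduces to `Q` through the chart of `Q`. -/
theorem redTo_of_mem_pts (hℓN : ¬ ℓ ∣ N) (hA : A.LiesOverPrime ℓ)
    {t : modularFunctionFieldBar N} (ht : t = jbar N ∨ t = (jbar N)⁻¹)
    (Q : Place (IsLocalRing.ResidueField A)
      (modularFunctionFieldFullC (IsLocalRing.ResidueField A) N))
    (htQ : R0.tQ N A Q = t)
    {tb : modularFunctionFieldFullC (IsLocalRing.ResidueField A) N}
    (htb : R0.Red N A t tb) (htbQ : tb ∈ Q.toValuationSubring)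
    (P : Place Qb (modularFunctionFieldBar N))
    (hP : P ∈ R0.Pts N A (R0.SQ N A Q)) : R0Part.RedTo N A t P Q := by
  have hG := GRel.gRelStatement A
  intro x hx b hb
  obtain ⟨b', hb', hb'F⟩ := PMChartA.exists_gRel N ℓ A hℓN hA ht hx
  have hbb' : b = b' := hG.unique _ _ _ hb hb'
  subst hbb'
  have hxS : x ∈ R0.SQ N A Q :=
    ⟨x, 1, htQ ▸ hx, htQ ▸ Subring.one_mem _, ⟨1, R0.red_one N A, R0.unitAt_one N A Q⟩,
      mul_one x⟩
  obtain ⟨c, hc⟩ := hP x hxS
  refine ⟨hb'F, c, hc, ?_⟩
  by_contra hnot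
  -- `s = x - c` has unit reduction at `Q`
  set s : modularFunctionFieldBar N := x - constA N A c with hs
  set β : modularFunctionFieldFullC (IsLocalRing.ResidueField A) N :=
    ⟨b, hb'F⟩ - algebraMap (IsLocalRing.ResidueField A)
      (modularFunctionFieldFullC (IsLocalRing.ResidueField A) N) (IsLocalRing.residue A c)
    with hβ
  have hsmem : s ∈ chartA N A t := Subring.sub_mem _ hx (constA_mem_chartA N A t c)
  have hxb : R0.Red N A x ⟨b, hb'F⟩ := hb
  have hsβ : R0.Red N A s β := by
    have h1 := hxb.add (red_constA N A c).neg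
    rw [← sub_eq_add_neg, ← sub_eq_add_neg] at h1
    exact h1
  have hbQ : (⟨b, hb'F⟩ : modularFunctionFieldFullC (IsLocalRing.ResidueField A) N)
      ∈ Q.toValuationSubring :=
    red_mem_of_mem_chartA N ℓ A hℓN hA ht Q htb htbQ hx hxb
  have hβO : β ∈ Q.toValuationSubring :=
    Q.toValuationSubring.sub_mem hbQ (Q.algebraMap_mem' _)
  have hu : R0.UnitAt N A Q β := valuation_eq_one_of_not_mem_nonunits _ hβO hnot
  have hβ0 : β ≠ 0 := by
    intro h0
    unfold R0.UnitAt at hu
    rw [h0, map_zero] at hu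
    exact zero_ne_one hu
  have hs0 : s ≠ 0 := by
    intro h0
    rw [h0] at hsβ
    exact hβ0 (hsβ.unique (R0.red_zero N A))
  have hsinv : s⁻¹ ∈ R0.SQ N A Q :=
    ⟨1, s, htQ ▸ Subring.one_mem _, htQ ▸ hsmem, ⟨β, hsβ, hu⟩, inv_mul_cancel₀ hs0⟩
  obtain ⟨c', hc'⟩ := hP s⁻¹ hsinv
  have h0 : ValAt P s 0 := by
    rw [valAt_zero_iff]
    exact hc
  have h1 := valAt_mul P h0 hc'
  rw [mul_inv_cancel₀ hs0, zero_mul] at h1
  exact one_ne_zero (valAt_unique P (valAt_one P) h1)

end Core

/-! ### The leaf [R10] -/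

/-- **[R10]** the places centred on `SQ N A Q` with values in `A` are exactly the places
reducing to `Q`. -/
theorem memStatement (N ℓ : ℕ) [NeZero N] :
    R0Part.MemStatement N ℓ (fun A Q => R0.SQ N A Q) := by
  intro hℓ hℓN A hA Q P
  have : Fact ℓ.Prime := ⟨hℓ⟩
  have hjk0 := jk_ne_zero N A
  constructor
  · intro hP
    by_cases hj : R0.jk N A ∈ Q.toValuationSubring
    · left
      have htQ : R0.tQ N A Q = jbar N := if_pos hj
      exact redTo_of_mem_pts N ℓ A hℓN hA (Or.inl rfl) Q htQ (red_jbar N A) hj P hP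
    · right
      have htQ : R0.tQ N A Q = (jbar N)⁻¹ := if_neg hj
      have hjinv : (R0.jk N A)⁻¹ ∈ Q.toValuationSubring.nonunits :=
        inv_mem_nonunits_of_not_mem hj
      have hred : R0Part.RedTo N A (jbar N)⁻¹ P Q :=
        redTo_of_mem_pts N ℓ A hℓN hA (Or.inr rfl) Q htQ (red_jbar_inv N A)
          (mem_of_mem_nonunits hjinv) P hP
      refine ⟨?_, hred⟩
      obtain ⟨hbF, c, hc, hcQ⟩ := hred _ (t_mem_chartA N A (jbar N)⁻¹) _ (red_jbar_inv N A)
      refine ⟨c, ?_, hc⟩
      have h0 : ValAt Q (R0.jk N A)⁻¹ 0 := (valAt_zero_iff Q).mpr hjinv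
      have h1 : IsLocalRing.residue A c = 0 := valAt_unique Q hcQ h0
      exact (IsLocalRing.residue_eq_zero_iff c).mp h1
  · rintro (hred | ⟨⟨c, hcm, hc⟩, hred⟩)
    · obtain ⟨hbF, c, hc, hcQ⟩ := hred _ (t_mem_chartA N A (jbar N)) _ (red_jbar N A)
      have hj : R0.jk N A ∈ Q.toValuationSubring := valAt_mem Q hcQ
      have htQ : R0.tQ N A Q = jbar N := if_pos hj
      exact mem_pts_of_redTo N ℓ A hℓN hA (Or.inl rfl) Q htQ P hred
    · obtain ⟨hbF, c', hc', hcQ⟩ := hred _ (t_mem_chartA N A (jbar N)⁻¹) _ (red_jbar_inv N A)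
      have hcc : c' = c := Subtype.ext (valAt_unique P hc' hc)
      rw [hcc, (IsLocalRing.residue_eq_zero_iff c).mpr hcm] at hcQ
      have hjinv : (R0.jk N A)⁻¹ ∈ Q.toValuationSubring.nonunits := (valAt_zero_iff Q).mp hcQ
      have hj : R0.jk N A ∉ Q.toValuationSubring := by
        have h := inv_not_mem_of_mem_nonunits _ (inv_ne_zero hjk0) hjinv
        rwa [inv_inv] at h
      have htQ : R0.tQ N A Q = (jbar N)⁻¹ := if_neg hj
      exact mem_pts_of_redTo N ℓ A hℓN hA (Or.inr rfl) Q htQ P hred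

end Fermat.Agent.S37.R0MemB
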