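/-
S37 block [R0] — R0Surj.lean (helper76): leaf **[Surj]** `R0.SurjStatement N ℓ` of `R0Loc.lean`
(the Gauss reduction `ρ : SQ N A Q → O_Q` maps every level `SQK N A Q K` ONTO `O_Q`), proved
directly from the Igusa property of the charts (`S18.IgusaStmt.igusaStatement`) through
`PMUnif.chart_point` — no normality of the special fibre, no place theory of `F_k`.

* `surj_of_chart`   the chart-level form (coordinate `t = tQK N A Q K`);
* `surj_SQK`        `∀ d : O_Q, ∃ x : SQ N A Q, x ∈ SQK N A Q K ∧ ρ x = d`;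
* `exists_unif_SQK` a uniformizer: `∃ T : SQ N A Q, T ∈ SQK N A Q K ∧ Irreducible (ρ T)`;
* `surjStatement`   `R0.SurjStatement N ℓ`.
-/
import Mathlib
import Fermat.Agent.S37.PMUnif
import Fermat.Agent.S37.R0Loc
import Fermat.Agent.S37.R0DirB
import Fermat.Agent.S18.ModelAll
import Fermat.Agent.S18.IgusaStmt
import Fermat.Agent.S18.DescCoeff
import Fermat.Agent.S18.GRel

set_option autoImplicit false

namespace Fermat.Agent.S37.R0Surj

open ModularCurve AlgebraicCurve HahnSeries Fermat.Agent.S37.PM Fermat.Agent.S18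
open Fermat.Agent.S18.Arith Fermat.Agent.S18.ModelPlan Fermat.Agent.S37

set_option synthInstance.maxHeartbeats 400000

variable (N : ℕ) [NeZero N] (ℓ : ℕ) [Fact ℓ.Prime] (A : ValuationSubring Arith.Qb)
variable (Q : Place (IsLocalRing.ResidueField A)
  (modularFunctionFieldFullC (IsLocalRing.ResidueField A) N))
variable (K : IntermediateField ℚ Arith.Qb)

omit [NeZero N] in
/-- A unit of `O_Q` (element of `O_Q` outside the maximal ideal) is a unit at `Q`. -/
theorem unitAt_of_mem_of_notMem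
    {β : modularFunctionFieldFullC (IsLocalRing.ResidueField A) N}
    (h1 : β ∈ Q.toValuationSubring) (h2 : β ∉ Q.toValuationSubring.nonunits) :
    R0.UnitAt N A Q β := by
  unfold R0.UnitAt
  have hle : Q.toValuationSubring.valuation β ≤ 1 :=
    (ValuationSubring.valuation_le_one_iff _ _).mpr h1
  have hnlt : ¬ Q.toValuationSubring.valuation β < 1 := fun h =>
    h2 ((ValuationSubring.mem_nonunits_iff _).mpr h)
  exact le_antisymm hle (not_lt.mp hnlt)

set_option maxHeartbeats 1600000 in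
/-- **Chart-level surjectivity.**  `t = tQK N A Q K` the chart coordinate at `Q`, with the chart
facts, the Igusa property and `F_k = Frac (ρ_K (chart))`; if the reduction of `t` is regular
at `Q`, every `d ∈ O_Q` is `ρ x` for some `x ∈ SQK N A Q K`. -/
theorem surj_of_chart (hB : BaseFacts ℓ A K) (t : FK N K) (ht : R0.tQK N A Q K = t)
    (hC : ChartFacts N A K (chart N A K t) t) (hIg : IgusaAt N A K (chart N A K t))
    (hfrac : ∀ ρK : chart N A K t →+* LaurentSeries (IsLocalRing.ResidueField A),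
      (∀ x : chart N A K t, GRel A ((x : FK N K) : LaurentSeries Arith.Qb) (ρK x)) →
      ∀ f : LaurentSeries (IsLocalRing.ResidueField A),
        f ∈ modularFunctionFieldFullC (IsLocalRing.ResidueField A) N →
        ∃ a b : chart N A K t, ρK b ≠ 0 ∧ f * ρK b = ρK a)
    (htQ : ∀ (β : LaurentSeries (IsLocalRing.ResidueField A))
      (hβ : β ∈ modularFunctionFieldFullC (IsLocalRing.ResidueField A) N),
      GRel A ((t : FK N K) : LaurentSeries Arith.Qb) β →
      (⟨β, hβ⟩ : modularFunctionFieldFullC (IsLocalRing.ResidueField A) N) ∈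
        Q.toValuationSubring)
    (ρ : R0.SQ N A Q →+* Q.toValuationSubring) (hρ : R0.RedCompat N A Q ρ)
    (d : Q.toValuationSubring) :
    ∃ x : R0.SQ N A Q, (x : modularFunctionFieldBar N) ∈ R0.SQK N A Q K ∧ ρ x = d := by
  have hG := GRel.gRelStatement A
  obtain ⟨ρK, hρK, -, hρKk⟩ := hC.red
  obtain ⟨hV, hsurj, -⟩ := PMUnif.chart_point hG hB (chart N A K t) t hC hIg ρK hρK hρKk
    (hfrac ρK hρK) Q (htQ _ _ (hρK ⟨t, hC.t_mem⟩))
  obtain ⟨a, s, hs, has⟩ := hsurj (d : modularFunctionFieldFullC (IsLocalRing.ResidueField A) N)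
    d.2
  have hdesc : ∀ x : LaurentSeries Arith.Qb, x ∈ FK N K → x ∈ modularFunctionFieldBar N :=
    (DescCoeff.descStatement N).2 K
  -- numerator and denominator as elements of `F̄`
  let aF : modularFunctionFieldBar N := ⟨((a : FK N K) : LaurentSeries Arith.Qb), hdesc _ (a : FK N K).2⟩
  let sF : modularFunctionFieldBar N := ⟨((s : FK N K) : LaurentSeries Arith.Qb), hdesc _ (s : FK N K).2⟩
  have hβs : (⟨ρK s, hρKk s⟩ : modularFunctionFieldFullC (IsLocalRing.ResidueField A) N) ≠ 0 := by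
    intro h0
    apply hs
    rw [h0]
    exact (PMUnif.mem_nonunits_iff Q 0).mpr (Or.inl rfl)
  have hus : R0.UnitAt N A Q ⟨ρK s, hρKk s⟩ := unitAt_of_mem_of_notMem N A Q (hV s) hs
  have hsF0 : sF ≠ 0 := by
    intro h0
    have hs0 : ((s : FK N K) : LaurentSeries Arith.Qb) = 0 := congrArg Subtype.val h0
    have h1 : GRel A ((s : FK N K) : LaurentSeries Arith.Qb) 0 := by
      rw [hs0]
      have h := hG.of_int 0
      rwa [map_zero, map_zero] at h
    have h2 := hG.unique _ _ _ (hρK s) h1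
    exact hβs (Subtype.ext h2)
  -- membership of numerator / denominator in the level
  have hmemK : ∀ x : chart N A K t,
      (⟨((x : FK N K) : LaurentSeries Arith.Qb), hdesc _ (x : FK N K).2⟩ : modularFunctionFieldBar N) ∈
        R0.SQK N A Q K := by
    intro x
    rw [R0.mem_SQK_iff, ht]
    refine ⟨(x : FK N K), 1, x.2, Subalgebra.one_mem _, ⟨1, R0.red_one N A, R0.unitAt_one N A Q⟩, ?_⟩
    push_cast
    rw [mul_one]
  let f : modularFunctionFieldBar N := aF / sF
  have hfK : f ∈ R0.SQK N A Q K := by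
    rw [R0.mem_SQK_iff, ht]
    refine ⟨(a : FK N K), (s : FK N K), a.2, s.2, ⟨⟨ρK s, hρKk s⟩, hρK s, hus⟩, ?_⟩
    have h1 : f * sF = aF := div_mul_cancel₀ aF hsF0
    have h2 := congrArg (fun z : modularFunctionFieldBar N => (z : LaurentSeries Arith.Qb)) h1
    exact h2
  have hle := R0DirB.SQK_le_SQ N A Q K
  have hfS : f ∈ R0.SQ N A Q := hle hfK
  refine ⟨⟨f, hfS⟩, hfK, ?_⟩
  let aS : R0.SQ N A Q := ⟨aF, hle (hmemK a)⟩
  let sS : R0.SQ N A Q := ⟨sF, hle (hmemK s)⟩
  have hmul : (⟨f, hfS⟩ : R0.SQ N A Q) * sS = aS := Subtype.ext (div_mul_cancel₀ aF hsF0)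
  have h1 : ρ ⟨f, hfS⟩ * ρ sS = ρ aS := by rw [← map_mul, hmul]
  have hs' : ((ρ sS : Q.toValuationSubring) :
      modularFunctionFieldFullC (IsLocalRing.ResidueField A) N) = ⟨ρK s, hρKk s⟩ :=
    R0.Red.unique (hρ sS) (hρK s)
  have ha' : ((ρ aS : Q.toValuationSubring) :
      modularFunctionFieldFullC (IsLocalRing.ResidueField A) N) = ⟨ρK a, hρKk a⟩ :=
    R0.Red.unique (hρ aS) (hρK a)
  have h2 : ((ρ ⟨f, hfS⟩ : Q.toValuationSubring) :
      modularFunctionFieldFullC (IsLocalRing.ResidueField A) N) * ⟨ρK s, hρKk s⟩ =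
      ⟨ρK a, hρKk a⟩ := by
    rw [← hs', ← ha']
    exact congrArg Subtype.val h1
  have h3 : (d : modularFunctionFieldFullC (IsLocalRing.ResidueField A) N) * ⟨ρK s, hρKk s⟩ =
      ⟨ρK a, hρKk a⟩ := Subtype.ext has
  apply Subtype.ext
  exact mul_right_cancel₀ hβs (h2.trans h3.symm)

/-- **[Surj] at one level.** -/
theorem surj_SQK (hℓN : ¬ ℓ ∣ N) (hA : A.LiesOverPrime ℓ) (hB : BaseFacts ℓ A K)
    (ρ : R0.SQ N A Q →+* Q.toValuationSubring) (hρ : R0.RedCompat N A Q ρ)
    (d : Q.toValuationSubring) :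
    ∃ x : R0.SQ N A Q, (x : modularFunctionFieldBar N) ∈ R0.SQK N A Q K ∧ ρ x = d := by
  have hG := GRel.gRelStatement A
  have hM := ModelAll.modelStatement N ℓ hℓN A hA K hB
  have hI := IgusaStmt.igusaStatement N ℓ hℓN A hA K hB hM
  have hj1 : S28.jd (IsLocalRing.ResidueField A) 1 ≠ 0 := by
    intro h
    have h1 := S28.jd_coeff_neg_self (IsLocalRing.ResidueField A) 1 one_ne_zero
    rw [h] at h1
    simp at h1
  have hgj : GRel A ((jK N K : FK N K) : LaurentSeries Arith.Qb)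
      (S28.jd (IsLocalRing.ResidueField A) 1) := by
    have h := PMUnif.gRel_jd hG (A := A) 1
    rwa [← ModelBasicCore.coe_jK N K] at h
  by_cases hQ : R0.jk N A ∈ Q.toValuationSubring
  · -- chart `j ≠ ∞`
    have ht : R0.tQK N A Q K = jK N K := by
      unfold R0.tQK
      rw [if_pos hQ]
    refine surj_of_chart N ℓ A Q K hB (jK N K) ht hM.c0 hI.1
      (fun ρK hρK f hf => PMUnif.exists_frac_R0 (N := N) (ℓ := ℓ) hG hB ρK hρK f hf) ?_ ρ hρ d
    intro β hβ hgβ
    have hβeq : β = S28.jd (IsLocalRing.ResidueField A) 1 := hG.unique _ _ _ hgβ hgj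
    have : (⟨β, hβ⟩ : modularFunctionFieldFullC (IsLocalRing.ResidueField A) N) = R0.jk N A := by
      apply Subtype.ext
      show β = jqModC (IsLocalRing.ResidueField A)
      rw [hβeq, S28.jd_one]
    rw [this]
    exact hQ
  · -- chart `j ≠ 0`
    have ht : R0.tQK N A Q K = (jK N K)⁻¹ := by
      unfold R0.tQK
      rw [if_neg hQ]
    refine surj_of_chart N ℓ A Q K hB (jK N K)⁻¹ ht hM.cInf hI.2
      (fun ρK hρK f hf => PMUnif.exists_frac_Rinf (N := N) (ℓ := ℓ) hG hB ρK hρK f hf) ?_ ρ hρ d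
    intro β hβ hgβ
    have hginv : GRel A (((jK N K)⁻¹ : FK N K) : LaurentSeries Arith.Qb)
        (S28.jd (IsLocalRing.ResidueField A) 1)⁻¹ := hG.inv _ _ hgj hj1
    have hβeq : β = (S28.jd (IsLocalRing.ResidueField A) 1)⁻¹ := hG.unique _ _ _ hgβ hginv
    have : (⟨β, hβ⟩ : modularFunctionFieldFullC (IsLocalRing.ResidueField A) N) =
        (R0.jk N A)⁻¹ := by
      apply Subtype.ext
      show β = (jqModC (IsLocalRing.ResidueField A))⁻¹
      rw [hβeq, S28.jd_one]
    rw [this]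
    exact (Q.toValuationSubring.mem_or_inv_mem (R0.jk N A)).resolve_left hQ

/-- **A uniformizer at every level.** -/
theorem exists_unif_SQK (hℓN : ¬ ℓ ∣ N) (hA : A.LiesOverPrime ℓ) (hB : BaseFacts ℓ A K)
    (ρ : R0.SQ N A Q →+* Q.toValuationSubring) (hρ : R0.RedCompat N A Q ρ) :
    ∃ T : R0.SQ N A Q, (T : modularFunctionFieldBar N) ∈ R0.SQK N A Q K ∧ Irreducible (ρ T) := by
  obtain ⟨ϖ, hϖ⟩ := IsDiscreteValuationRing.exists_irreducible Q.toValuationSubring
  obtain ⟨T, hT, hTϖ⟩ := surj_SQK N ℓ A Q K hℓN hA hB ρ hρ ϖ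
  exact ⟨T, hT, hTϖ ▸ hϖ⟩

end Fermat.Agent.S37.R0Surj

namespace Fermat.Agent.S37.R0Surj

open ModularCurve AlgebraicCurve Fermat.Agent.S37

/-- **[Surj]** `R0.SurjStatement N ℓ`. -/
theorem surjStatement (N ℓ : ℕ) [NeZero N] : R0.SurjStatement N ℓ := by
  intro hℓ hℓN A hA Q ρ hρ K hB d
  have : Fact ℓ.Prime := ⟨hℓ⟩
  exact surj_SQK N ℓ A Q K hℓN hA hB ρ hρ d

end Fermat.Agent.S37.R0Surj
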