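/-
S37 block [R0] — R0SurjNor.lean (helper65): the leaf `R0.SurjStatement N ℓ` of `R0Loc.lean`,
closed by the [Nor] route from landed files: `SpFibB.gRel_mem_chart_iff` (R2: the reduction of a
level-`K` chart is the integral closure of `k[t̄]` in `F_k`), `SpFib.exists_chart_frac_of`
(R3b: `O_Q` is a localisation of that integral closure) and the glue
`R0SurjB.surj_of_chart_frac`.
-/
import Mathlib
import Fermat.Agent.S37.R0Loc
import Fermat.Agent.S37.R0SurjB
import Fermat.Agent.S37.SpFib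
import Fermat.Agent.S37.SpFibB

set_option autoImplicit false

namespace Fermat.Agent.S37.R0SurjNor

open ModularCurve AlgebraicCurve HahnSeries
open Fermat.Agent.S18 Fermat.Agent.S18.Arith
open Fermat.Agent.S37.PM hiding Qb
open Fermat.Agent.S37.R0

set_option synthInstance.maxHeartbeats 400000

/-- (R2) in the `∀`-closed form of `SpFib.R2Statement`. -/
theorem r2Statement (N : ℕ) [NeZero N] (ℓ : ℕ) [Fact ℓ.Prime] : SpFib.R2Statement N ℓ :=
  fun hℓN A hA K hB t tb ht b => SpFibB.gRel_mem_chart_iff N ℓ hℓN A hA K hB t tb ht b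

/-- The reduction `ρ : SQ → O_Q` maps every level `SQK` onto `O_Q`. -/
theorem surj_SQK (N : ℕ) [NeZero N] (ℓ : ℕ) [Fact ℓ.Prime] (hℓN : ¬ ℓ ∣ N)
    (A : ValuationSubring Qb) (hA : A.LiesOverPrime ℓ)
    (Q : Place (IsLocalRing.ResidueField A)
      (modularFunctionFieldFullC (IsLocalRing.ResidueField A) N))
    (K : IntermediateField ℚ Qb) (hB : BaseFacts ℓ A K)
    (ρ : SQ N A Q →+* Q.toValuationSubring)
    (hρ : ∀ x : SQ N A Q, Red N A (x : modularFunctionFieldBar N)
      ((ρ x : Q.toValuationSubring) : modularFunctionFieldFullC (IsLocalRing.ResidueField A) N)) :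
    ∀ d : Q.toValuationSubring, ∃ x : SQ N A Q,
      (x : modularFunctionFieldBar N) ∈ SQK N A Q K ∧ ρ x = d := by
  obtain ⟨tb, ht, htQ⟩ := R0SurjB.exists_tb N A Q K
  exact R0SurjB.surj_of_chart_frac N A Q K ρ hρ
    (SpFib.exists_chart_frac_of N A ℓ (r2Statement N ℓ) hℓN hA K hB _ tb ht Q htQ).2

/-- **[Surj]** (exact leaf of `R0Loc.lean`). -/
theorem surjStatement (N ℓ : ℕ) [NeZero N] : R0.SurjStatement N ℓ := by
  intro hℓ hℓN A hA Q ρ hρ K hB
  have : Fact ℓ.Prime := ⟨hℓ⟩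
  exact surj_SQK N ℓ hℓN A hA Q K hB ρ hρ

end Fermat.Agent.S37.R0SurjNor
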