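/-
S37 block [R0] — R0SurjS.lean (helper21): the leaf `R0.SurjStatement N ℓ` of `R0Loc.lean`, by
wiring the landed special-fibre rows:
* `SpFibB.gRel_mem_chart_iff` (R2, helper55): the Gauss reductions of the level-`K` chart are
  exactly the elements of `F_k` integral over `k[t̄]`;
* `SpFib.spFib_localization` (R3b, helper9): `O_Q` is the localisation of that ring at `Q`;
* `R0SurjB.exists_tb`, `R0SurjB.chart_frac_of_spFib`, `R0SurjB.surj_of_chart_frac` (helper19).
-/
import Mathlib
import Fermat.Agent.S37.R0Loc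
import Fermat.Agent.S37.R0SurjB
import Fermat.Agent.S37.SpFib
import Fermat.Agent.S37.SpFibB

set_option autoImplicit false

namespace Fermat.Agent.S37.R0SurjS

open ModularCurve AlgebraicCurve HahnSeries
open Fermat.Agent.S18 Fermat.Agent.S18.Arith Fermat.Agent.S37.R0

set_option synthInstance.maxHeartbeats 400000

/-- **[Surj]**: the reduction maps every level `SQK N A Q K` onto `O_Q`. -/
theorem surjStatement (N ℓ : ℕ) [NeZero N] : R0.SurjStatement N ℓ := by
  intro hℓ hℓN A hA Q ρ hρ K hB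
  have : Fact ℓ.Prime := ⟨hℓ⟩
  obtain ⟨tb, ht, htQ⟩ := R0SurjB.exists_tb N A Q K
  have ht' : tb = jqModC (IsLocalRing.ResidueField A) ∨
      tb = (jqModC (IsLocalRing.ResidueField A))⁻¹ := by
    rcases ht with ⟨-, h⟩ | ⟨-, h⟩
    · exact Or.inl h
    · exact Or.inr h
  have hloc := SpFib.spFib_localization N A ℓ hA tb ht' Q htQ
  have hR2 : ∀ b : LaurentSeries (IsLocalRing.ResidueField A), SpFib.IsSpFib N A tb b →
      ∃ x : FK N K, x ∈ chart N A K (tQK N A Q K) ∧ GRel A (x : LaurentSeries Qb) b :=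
    fun b hb => (SpFibB.gRel_mem_chart_iff N ℓ hℓN A hA K hB (tQK N A Q K) tb ht b).mpr hb
  exact R0SurjB.surj_of_chart_frac N A Q K ρ hρ
    (R0SurjB.chart_frac_of_spFib N A Q K tb hR2 hloc)

end Fermat.Agent.S37.R0SurjS
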