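/-
S37 block [R0], row R9 [Unique] (A-owner helper43; sub-captain helper63) — R0UniqueCore.lean:
the wiring of `R0Part.UniqueStatement` (a place `P` of `F̄ = modularFunctionFieldBar N` reduces to
AT MOST ONE place of `F_k = modularFunctionFieldFullC k N`, `k` the residue field of `A`).

* `ChartSep N A t`  : a place of `F_k` is determined by the values of the Gauss reductions of the
                      elements of the chart `chartA N A t` (rows R2 + R3d);
* `SpFrac N A t`    : the local ring of a place `Q` of `F_k` at which the reduction of `t` is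
                      regular consists of quotients of reductions of chart elements with
                      denominator a unit at `Q` (rows R2 + R3b);
* `chartSep_of_spFrac` : `SpFrac → ChartSep`;
* `eq_of_redTo`     : same chart: `RedTo t P Q → RedTo t P Q' → Q = Q'` from `ChartSep`;
* `not_inCusp_of_redTo` : mixed charts are impossible (`j(P) ∈ A` and `j⁻¹(P) ∈ 𝔪_A`);
* `eq_of_reduces`, `uniqueStatement_of_chartSep` : the leaf from `ChartSep` for `j` and `j⁻¹`.
-/
import Mathlib
import Fermat.Agent.S18.JNot
import Fermat.Agent.S18.GRel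
import Fermat.Agent.S24.TranscJ
import Fermat.Agent.S37.PMCover
import Fermat.Agent.S37.R0Part

set_option autoImplicit false

noncomputable section

namespace Fermat.Agent.S37.R0Unique

open ModularCurve AlgebraicCurve HahnSeries Fermat.Agent.S37.PM Fermat.Agent.S37.PMCover
open Fermat.Agent.S37.R0Part

set_option synthInstance.maxHeartbeats 400000

variable (N : ℕ) (A : ValuationSubring Qb)

/-- **Separation by the chart `t`** (rows R2 + R3d): two places of `F_k` at which the Gauss
reductions of all elements of the chart `chartA N A t` have equal values coincide. -/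
def ChartSep (t : modularFunctionFieldBar N) : Prop :=
  ∀ Q Q' : Place (IsLocalRing.ResidueField A)
      (modularFunctionFieldFullC (IsLocalRing.ResidueField A) N),
    (∀ x ∈ chartA N A t, ∀ (b : LaurentSeries (IsLocalRing.ResidueField A))
        (hb : b ∈ modularFunctionFieldFullC (IsLocalRing.ResidueField A) N),
      Fermat.Agent.S18.Arith.GRel A ((x : modularFunctionFieldBar N) : LaurentSeries Qb) b →
      ∃ c : IsLocalRing.ResidueField A,
        ValAt Q (⟨b, hb⟩ : modularFunctionFieldFullC (IsLocalRing.ResidueField A) N) c ∧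
        ValAt Q' (⟨b, hb⟩ : modularFunctionFieldFullC (IsLocalRing.ResidueField A) N) c) →
    Q = Q'

/-- **Local fractions on the special fibre** (rows R2 + R3b): at a place `Q` of `F_k` at which
the reduction of the coordinate `t` is regular, every function regular at `Q` is a quotient of
Gauss reductions of chart elements, the denominator being a unit at `Q`. -/
def SpFrac (t : modularFunctionFieldBar N) : Prop :=
  ∀ Q : Place (IsLocalRing.ResidueField A)
      (modularFunctionFieldFullC (IsLocalRing.ResidueField A) N),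
    (∀ (b : LaurentSeries (IsLocalRing.ResidueField A))
        (hb : b ∈ modularFunctionFieldFullC (IsLocalRing.ResidueField A) N),
      Fermat.Agent.S18.Arith.GRel A ((t : modularFunctionFieldBar N) : LaurentSeries Qb) b →
      (⟨b, hb⟩ : modularFunctionFieldFullC (IsLocalRing.ResidueField A) N) ∈
        Q.toValuationSubring) →
    ∀ f ∈ Q.toValuationSubring,
      ∃ x₁ ∈ chartA N A t, ∃ x₂ ∈ chartA N A t,
      ∃ (b₁ b₂ : LaurentSeries (IsLocalRing.ResidueField A))
        (h₁ : b₁ ∈ modularFunctionFieldFullC (IsLocalRing.ResidueField A) N)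
        (h₂ : b₂ ∈ modularFunctionFieldFullC (IsLocalRing.ResidueField A) N),
        Fermat.Agent.S18.Arith.GRel A ((x₁ : modularFunctionFieldBar N) : LaurentSeries Qb) b₁ ∧
        Fermat.Agent.S18.Arith.GRel A ((x₂ : modularFunctionFieldBar N) : LaurentSeries Qb) b₂ ∧
        (⟨b₂, h₂⟩ : modularFunctionFieldFullC (IsLocalRing.ResidueField A) N) ∉
          Q.toValuationSubring.nonunits ∧
        f * ⟨b₂, h₂⟩ = ⟨b₁, h₁⟩

variable {N A}

/-- The coordinate lies in its chart. -/
theorem self_mem_chartA (t : modularFunctionFieldBar N) : t ∈ chartA N A t := by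
  have ht : t ∈ AT N A t := Subring.subset_closure (Or.inr rfl)
  exact (integralClosure (AT N A t) (modularFunctionFieldBar N)).algebraMap_mem ⟨t, ht⟩

/-- One inclusion of valuation rings, from the local fraction property. -/
theorem le_of_spFrac {t : modularFunctionFieldBar N} (hfrac : SpFrac N A t)
    {Q Q' : Place (IsLocalRing.ResidueField A)
      (modularFunctionFieldFullC (IsLocalRing.ResidueField A) N)}
    (hval : ∀ x ∈ chartA N A t, ∀ (b : LaurentSeries (IsLocalRing.ResidueField A))
        (hb : b ∈ modularFunctionFieldFullC (IsLocalRing.ResidueField A) N),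
      Fermat.Agent.S18.Arith.GRel A ((x : modularFunctionFieldBar N) : LaurentSeries Qb) b →
      ∃ c : IsLocalRing.ResidueField A,
        ValAt Q (⟨b, hb⟩ : modularFunctionFieldFullC (IsLocalRing.ResidueField A) N) c ∧
        ValAt Q' (⟨b, hb⟩ : modularFunctionFieldFullC (IsLocalRing.ResidueField A) N) c) :
    Q.toValuationSubring ≤ Q'.toValuationSubring := by
  intro f hf
  have hreg : ∀ (b : LaurentSeries (IsLocalRing.ResidueField A))
      (hb : b ∈ modularFunctionFieldFullC (IsLocalRing.ResidueField A) N),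
      Fermat.Agent.S18.Arith.GRel A ((t : modularFunctionFieldBar N) : LaurentSeries Qb) b →
      (⟨b, hb⟩ : modularFunctionFieldFullC (IsLocalRing.ResidueField A) N) ∈
        Q.toValuationSubring := by
    intro b hb hg
    obtain ⟨c, hQ, -⟩ := hval t (self_mem_chartA t) b hb hg
    exact valAt_mem Q hQ
  obtain ⟨x₁, hx₁, x₂, hx₂, b₁, b₂, h₁, h₂, hg₁, hg₂, hb₂, hfb⟩ := hfrac Q hreg f hf
  obtain ⟨c₂, hQ₂, hQ₂'⟩ := hval x₂ hx₂ b₂ h₂ hg₂
  obtain ⟨c₁, -, hQ₁'⟩ := hval x₁ hx₁ b₁ h₁ hg₁
  have hc₂ : c₂ ≠ 0 := by
    intro h0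
    rw [h0] at hQ₂
    exact hb₂ ((valAt_zero_iff Q).1 hQ₂)
  have hinv := valAt_inv Q' hQ₂' hc₂
  have hb₂0 : (⟨b₂, h₂⟩ : modularFunctionFieldFullC (IsLocalRing.ResidueField A) N) ≠ 0 := by
    intro h0
    exact hb₂ (h0 ▸ zero_mem_nonunits Q.toValuationSubring)
  have hf' : f = ⟨b₁, h₁⟩ * (⟨b₂, h₂⟩ : modularFunctionFieldFullC
      (IsLocalRing.ResidueField A) N)⁻¹ := by
    rw [← hfb, mul_assoc, mul_inv_cancel₀ hb₂0, mul_one]
  rw [hf']
  exact Q'.toValuationSubring.mul_mem _ _ (valAt_mem Q' hQ₁') (valAt_mem Q' hinv)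

/-- The local fraction property implies separation. -/
theorem chartSep_of_spFrac {t : modularFunctionFieldBar N} (hfrac : SpFrac N A t) :
    ChartSep N A t := by
  intro Q Q' hval
  refine Place.ext (le_antisymm (le_of_spFrac hfrac hval) (le_of_spFrac hfrac ?_))
  intro x hx b hb hg
  obtain ⟨c, h1, h2⟩ := hval x hx b hb hg
  exact ⟨c, h2, h1⟩

/-- **R9, same chart**: a place of `F̄` reduces to at most one place of `F_k` through the chart
with coordinate `t`. -/
theorem eq_of_redTo {t : modularFunctionFieldBar N} (hsep : ChartSep N A t)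
    {P : Place Qb (modularFunctionFieldBar N)}
    {Q Q' : Place (IsLocalRing.ResidueField A)
      (modularFunctionFieldFullC (IsLocalRing.ResidueField A) N)}
    (h : RedTo N A t P Q) (h' : RedTo N A t P Q') : Q = Q' := by
  refine hsep Q Q' ?_
  intro x hx b hb hg
  obtain ⟨hk, c, hP, hQ⟩ := h x hx b hg
  obtain ⟨hk', c', hP', hQ'⟩ := h' x hx b hg
  have hc : c = c' := Subtype.ext (valAt_unique P hP hP')
  refine ⟨IsLocalRing.residue A c, hQ, ?_⟩
  rw [hc]
  exact hQ'

/-- `j ≠ 0` in `F̄`. -/
theorem jbar_ne_zero : jbar N ≠ 0 := by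
  intro h0
  have htr : Transcendental Qb (jbar N) := Fermat.Agent.S24.transcendental_jF N
  rw [h0] at htr
  exact htr isAlgebraic_zero

/-- **R9, different charts**: a place reducing through the chart `j` is not of cusp type. -/
theorem not_inCusp_of_redTo
    (hj : ∃ b : LaurentSeries (IsLocalRing.ResidueField A),
      Fermat.Agent.S18.Arith.GRel A ((jbar N : modularFunctionFieldBar N) : LaurentSeries Qb) b)
    {P : Place Qb (modularFunctionFieldBar N)}
    {Q : Place (IsLocalRing.ResidueField A)
      (modularFunctionFieldFullC (IsLocalRing.ResidueField A) N)}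
    (h : RedTo N A (jbar N) P Q) : ¬ InCusp N A P := by
  rintro ⟨c', hc', hP'⟩
  obtain ⟨b, hb⟩ := hj
  obtain ⟨hbk, c, hP, -⟩ := h (jbar N) (self_mem_chartA _) b hb
  have hmul := valAt_mul P hP hP'
  rw [mul_inv_cancel₀ jbar_ne_zero] at hmul
  have h1 : ((c : Qb) * (c' : Qb)) = 1 := valAt_unique P hmul (valAt_one P)
  have hu : IsUnit c' := by
    refine IsUnit.of_mul_eq_one c ?_
    apply Subtype.ext
    rw [mul_comm]
    exact h1
  exact hc' hu

/-- `j` has a Gauss reduction (namely `j̄`). -/
theorem exists_gRel_jbar [NeZero N] :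
    ∃ b : LaurentSeries (IsLocalRing.ResidueField A),
      Fermat.Agent.S18.Arith.GRel A ((jbar N : modularFunctionFieldBar N) : LaurentSeries Qb) b :=
  ⟨_, Fermat.Agent.S18.JNot.gRel_jK Fermat.Agent.S18.GRel.gRelStatement N A ⊥⟩

/-- **R9 [Unique]**: a place of `F̄` reduces to at most one place of `F_k`. -/
theorem eq_of_reduces [NeZero N] (hsep0 : ChartSep N A (jbar N))
    (hsepInf : ChartSep N A (jbar N)⁻¹)
    {P : Place Qb (modularFunctionFieldBar N)}
    {Q Q' : Place (IsLocalRing.ResidueField A)
      (modularFunctionFieldFullC (IsLocalRing.ResidueField A) N)}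
    (h : Reduces N A P Q) (h' : Reduces N A P Q') : Q = Q' := by
  rcases h with h | ⟨hc, h⟩
  · rcases h' with h' | ⟨hc', -⟩
    · exact eq_of_redTo hsep0 h h'
    · exact absurd hc' (not_inCusp_of_redTo exists_gRel_jbar h)
  · rcases h' with h' | ⟨-, h'⟩
    · exact absurd hc (not_inCusp_of_redTo exists_gRel_jbar h')
    · exact eq_of_redTo hsepInf h h'

/-- **The leaf `R0Part.UniqueStatement` from separation on the two charts.** -/
theorem uniqueStatement_of_chartSep (N ℓ : ℕ) [NeZero N]
    (hsep : ℓ.Prime → ¬ ℓ ∣ N → ∀ A : ValuationSubring Qb, A.LiesOverPrime ℓ →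
      ChartSep N A (jbar N) ∧ ChartSep N A (jbar N)⁻¹) :
    UniqueStatement N ℓ := by
  intro hℓ hℓN A hA P Q Q' h h'
  exact eq_of_reduces (hsep hℓ hℓN A hA).1 (hsep hℓ hℓN A hA).2 h h'

end Fermat.Agent.S37.R0Unique
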