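/-
S37 block [R0], row R9 [Unique] (A-owner helper43; sub-captain helper63) — R0Unique.lean:
the leaf `R0Part.UniqueStatement N ℓ`, UNCONDITIONALLY:

    a place `P` of `F̄ = modularFunctionFieldBar N` reduces to at most one place of
    `F_k = modularFunctionFieldFullC k N`.

Route: `R0UniqueCore.uniqueStatement_of_chartSep` (wiring) with the separation property
`ChartSep N A t` (`t = j`, `j⁻¹`) obtained from
* R2  (`SpFibB.gRel_mem_chart_iff`, helper55): every element of `F_k` integral over `k[t̄]` is the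
  Gauss reduction of an element of the level-`K` chart (`K` good, from `Base.baseStatement`),
  hence of the `A`-level chart `chartA N A t` (`PMChartA.exists_mem_chartA_of_mem_chart`);
* R3d (`PMPlacesK.IsSepCoord.eq_of_forall_valAt`, helper22): a place of `F_k` is determined by
  the values of the elements of the integral closure of `k[t̄]` in `F_k`.
-/
import Mathlib
import Fermat.Agent.S18.Base
import Fermat.Agent.S37.PMChartA
import Fermat.Agent.S37.PMPlacesK
import Fermat.Agent.S37.SpFib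
import Fermat.Agent.S37.SpFibB
import Fermat.Agent.S37.R0UniqueCore

set_option autoImplicit false

noncomputable section

namespace Fermat.Agent.S37.R0Unique

open ModularCurve AlgebraicCurve HahnSeries Fermat.Agent.S37.PMCover
open Fermat.Agent.S37.R0Part Fermat.Agent.S18 Fermat.Agent.S18.Arith
open Fermat.Agent.S37.PM hiding Qb

set_option synthInstance.maxHeartbeats 400000

/-- **Separation by a chart** from R2 + R3d: `tb` is the reduction of the coordinate `t`
(`(t, tb) = (j, j̄)` or `(j⁻¹, j̄⁻¹)`). -/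
theorem chartSep_of_coord (N : ℕ) [NeZero N] (ℓ : ℕ) [Fact ℓ.Prime] (hℓN : ¬ ℓ ∣ N)
    (A : ValuationSubring Qb) (hA : A.LiesOverPrime ℓ)
    (t : modularFunctionFieldBar N)
    (tb : modularFunctionFieldFullC (IsLocalRing.ResidueField A) N)
    (hsep : PMPlacesK.IsSepCoord (IsLocalRing.ResidueField A) tb)
    (ht : ∀ K : IntermediateField ℚ Qb, ∃ tK : FK N K,
      (tK : LaurentSeries Qb) = (t : LaurentSeries Qb) ∧
      ((tK = jK N K ∧ (tb : LaurentSeries (IsLocalRing.ResidueField A)) =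
          jqModC (IsLocalRing.ResidueField A)) ∨
        (tK = (jK N K)⁻¹ ∧ (tb : LaurentSeries (IsLocalRing.ResidueField A)) =
          (jqModC (IsLocalRing.ResidueField A))⁻¹))) :
    ChartSep N A t := by
  intro Q Q' hval
  obtain ⟨K, -, hB⟩ := Base.baseStatement ℓ A hA ∅
  obtain ⟨tK, htK, htb⟩ := ht K
  refine hsep.eq_of_forall_valAt (SpFib.spFibAlg (IsLocalRing.ResidueField A) N tb)
    (fun b hb => hb) Q Q' ?_
  rintro ⟨b, hb⟩
  have hsp : SpFib.IsSpFib N A (tb : LaurentSeries (IsLocalRing.ResidueField A))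
      (b : LaurentSeries (IsLocalRing.ResidueField A)) :=
    (PMPlacesK.isSpFib_iff N A tb b).2 hb
  obtain ⟨x, hx, hg⟩ := (SpFibB.gRel_mem_chart_iff N ℓ hℓN A hA K hB tK _ htb _).2 hsp
  obtain ⟨x', hx', hxx'⟩ := PMChartA.exists_mem_chartA_of_mem_chart N A K t tK htK x hx
  have hg' : GRel A ((x' : modularFunctionFieldBar N) : LaurentSeries Qb)
      (b : LaurentSeries (IsLocalRing.ResidueField A)) := by
    rw [hxx']
    exact hg
  exact hval x' hx' _ b.2 hg'

/-- **Separation by the chart `j`.** -/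
theorem chartSep_jbar (N : ℕ) [NeZero N] (ℓ : ℕ) [Fact ℓ.Prime] (hℓN : ¬ ℓ ∣ N)
    (A : ValuationSubring Qb) (hA : A.LiesOverPrime ℓ) : ChartSep N A (jbar N) :=
  chartSep_of_coord N ℓ hℓN A hA (jbar N) (R0.jk N A)
    (PMPlacesK.isSepCoord_jk N ℓ Fact.out A hA)
    (fun K => ⟨jK N K, PMChartA.coe_jK N K, Or.inl ⟨rfl, rfl⟩⟩)

/-- **Separation by the chart `j⁻¹`.** -/
theorem chartSep_jbar_inv (N : ℕ) [NeZero N] (ℓ : ℕ) [Fact ℓ.Prime] (hℓN : ¬ ℓ ∣ N)
    (A : ValuationSubring Qb) (hA : A.LiesOverPrime ℓ) : ChartSep N A (jbar N)⁻¹ :=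
  chartSep_of_coord N ℓ hℓN A hA (jbar N)⁻¹ (R0.jk N A)⁻¹
    (PMPlacesK.isSepCoord_jk_inv N ℓ Fact.out A hA)
    (fun K => ⟨(jK N K)⁻¹, PMChartA.coe_jK_inv N K, Or.inr ⟨rfl, rfl⟩⟩)

/-- **[R9] `R0Part.UniqueStatement`**: a place of `F̄` reduces to at most one place of `F_k`. -/
theorem uniqueStatement (N ℓ : ℕ) [NeZero N] : R0Part.UniqueStatement N ℓ :=
  uniqueStatement_of_chartSep N ℓ fun hℓ hℓN A hA =>
    haveI : Fact ℓ.Prime := ⟨hℓ⟩
    ⟨chartSep_jbar N ℓ hℓN A hA, chartSep_jbar_inv N ℓ hℓN A hA⟩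

end Fermat.Agent.S37.R0Unique
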