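/-
S37 block [R0], row R9 [Unique], B-copy of the short route (helper7; A = helper63 `R0UniqueS`):
the reduction point of a place is unique, from the leaves [Rho], [Surj], [Dir] of `R0Loc.lean`
only (no Dedekind theory of the special fibre).

Idea: if `P` reduces to `Q` and to `Q'` through the same chart `t`, then `O_Q ≤ O_Q'`:
every `d ∈ O_Q` is `ρ x` with `x = a / s`, `a, s ∈ chartA t`, the reduction `β` of `s` a unit at
`Q`; the value of `β` at `Q` and at `Q'` is the residue class of `s(P)`, so `β` is a unit at `Q'`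
too, and `d · β` (the reduction of `a`) is regular at `Q'`.  Mixed charts are impossible:
`j(P) ∈ A` and `j⁻¹(P) ∈ 𝔪_A` contradict `j · j⁻¹ = 1`.
-/
import Fermat.Agent.S37.R0Loc
import Fermat.Agent.S37.R0Part
import Fermat.Agent.S37.PMCover
import Fermat.Agent.S37.PMChi

set_option autoImplicit false

noncomputable section

namespace Fermat.Agent.S37.R0UniqueSB

open ModularCurve AlgebraicCurve HahnSeries
open Fermat.Agent.S18 Fermat.Agent.S37.PM Fermat.Agent.S37.R0Part

set_option synthInstance.maxHeartbeats 400000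

section Basic

variable (N : ℕ) (A : ValuationSubring Qb)

/-- The `q`-expansion of `j ∈ F̄`. -/
theorem coe_jbar :
    ((jbar N : modularFunctionFieldBar N) : LaurentSeries Qb) = jqModC Qb := by
  change coeffEmb Qb jq = jqModC Qb
  rw [← jqModC_rat, coeffEmb, coeffMap_jqModC]

theorem jbar_ne_zero : jbar N ≠ 0 := by
  intro h
  have h1 : ((jbar N : modularFunctionFieldBar N) : LaurentSeries Qb) = 0 := by rw [h]; rfl
  rw [coe_jbar] at h1
  exact jqModC_ne_zero_of_nontrivial Qb h1

/-- `j` is Gauss-integral with reduction `j̄`. -/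
theorem gRel_jbar :
    Arith.GRel A ((jbar N : modularFunctionFieldBar N) : LaurentSeries Qb)
      (jqModC (IsLocalRing.ResidueField A)) := by
  have h := (GRel.gRelStatement A).of_int (jqModC A)
  rw [coeffMap_jqModC, coeffMap_jqModC] at h
  rw [coe_jbar]
  exact h

/-- `j⁻¹` is Gauss-integral with reduction `j̄⁻¹`. -/
theorem gRel_jbar_inv :
    Arith.GRel A (((jbar N)⁻¹ : modularFunctionFieldBar N) : LaurentSeries Qb)
      (jqModC (IsLocalRing.ResidueField A))⁻¹ := by
  have h := (GRel.gRelStatement A).inv _ _ (gRel_jbar N A)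
    (jqModC_ne_zero_of_nontrivial (IsLocalRing.ResidueField A))
  rw [IntermediateField.coe_inv]
  exact h

variable {N A}

/-- If `P` reduces to `Q` through the chart `j`, then `j̄` is regular at `Q`. -/
theorem tQ_eq_of_redTo_jbar {P : Place Qb (modularFunctionFieldBar N)}
    {Q : Place (IsLocalRing.ResidueField A)
      (modularFunctionFieldFullC (IsLocalRing.ResidueField A) N)}
    (h : RedTo N A (jbar N) P Q) : R0.tQ N A Q = jbar N := by
  obtain ⟨hb, c, -, hQ⟩ := h (jbar N) (PMChi.t_mem_chartA N A (jbar N)) _ (gRel_jbar N A)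
  have hmem : R0.jk N A ∈ Q.toValuationSubring := PMCover.valAt_mem Q hQ
  unfold R0.tQ
  rw [if_pos hmem]

/-- If `P` reduces to a cusp and to `Q` through the chart `j⁻¹`, then `j̄` is not regular at
`Q`. -/
theorem tQ_eq_of_redTo_inv {P : Place Qb (modularFunctionFieldBar N)}
    {Q : Place (IsLocalRing.ResidueField A)
      (modularFunctionFieldFullC (IsLocalRing.ResidueField A) N)}
    (hc : InCusp N A P) (h : RedTo N A (jbar N)⁻¹ P Q) : R0.tQ N A Q = (jbar N)⁻¹ := by
  obtain ⟨c', hc'm, hc'⟩ := hc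
  obtain ⟨hb, c, hP, hQ⟩ :=
    h (jbar N)⁻¹ (PMChi.t_mem_chartA N A (jbar N)⁻¹) _ (gRel_jbar_inv N A)
  have hcc : c = c' := Subtype.ext (PMCover.valAt_unique P hP hc')
  have hc0 : IsLocalRing.residue A c = 0 := by
    rw [hcc]
    exact (IsLocalRing.residue_eq_zero_iff _).mpr hc'm
  rw [hc0] at hQ
  have hnon := (PMCover.valAt_zero_iff Q).mp hQ
  have hjk : R0.jk N A ∉ Q.toValuationSubring := by
    intro hjk
    have h1 := PMCover.mul_mem_nonunits hjk hnon
    have h2 : R0.jk N A * (⟨(jqModC (IsLocalRing.ResidueField A))⁻¹, hb⟩ :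
        modularFunctionFieldFullC (IsLocalRing.ResidueField A) N) = 1 :=
      Subtype.ext (mul_inv_cancel₀ (jqModC_ne_zero_of_nontrivial (IsLocalRing.ResidueField A)))
    rw [h2, ValuationSubring.mem_nonunits_iff, map_one] at h1
    exact lt_irrefl _ h1
  unfold R0.tQ
  rw [if_neg hjk]

/-- Mixed charts are impossible. -/
theorem false_of_redTo_jbar_of_inCusp {P : Place Qb (modularFunctionFieldBar N)}
    {Q : Place (IsLocalRing.ResidueField A)
      (modularFunctionFieldFullC (IsLocalRing.ResidueField A) N)}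
    (h : RedTo N A (jbar N) P Q) (hc : InCusp N A P) : False := by
  obtain ⟨c', hc'm, hc'⟩ := hc
  obtain ⟨-, c, hP, -⟩ := h (jbar N) (PMChi.t_mem_chartA N A (jbar N)) _ (gRel_jbar N A)
  have h1 := PMCover.valAt_mul P hP hc'
  rw [mul_inv_cancel₀ (jbar_ne_zero N)] at h1
  have h2 : (c : Qb) * (c' : Qb) = 1 := PMCover.valAt_unique P h1 (PMCover.valAt_one P)
  have h3 : c' * c = 1 := Subtype.ext (by rw [mul_comm]; exact h2)
  have h4 : IsUnit c' := IsUnit.of_mul_eq_one c h3
  exact (IsLocalRing.mem_maximalIdeal c').mp hc'm h4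

end Basic

section Main

variable {N ℓ : ℕ} [NeZero N]

/-- Key step: if `P` reduces to `Q` and to `Q'` through the chart `t = tQ Q`, then
`O_Q ≤ O_Q'`. -/
theorem le_of_redTo (hrho : R0.RhoStatement N ℓ) (hsurj : R0.SurjStatement N ℓ)
    (hdir : R0.DirStatement N ℓ) (hℓ : ℓ.Prime) (hℓN : ¬ ℓ ∣ N) {A : ValuationSubring Qb}
    (hA : A.LiesOverPrime ℓ) {P : Place Qb (modularFunctionFieldBar N)}
    {Q Q' : Place (IsLocalRing.ResidueField A)
      (modularFunctionFieldFullC (IsLocalRing.ResidueField A) N)}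
    {t : modularFunctionFieldBar N} (htQ : R0.tQ N A Q = t)
    (h : RedTo N A t P Q) (h' : RedTo N A t P Q') :
    Q.toValuationSubring ≤ Q'.toValuationSubring := by
  obtain ⟨ρ, hρ⟩ := hrho hℓ hℓN A hA Q
  obtain ⟨K, hK, -⟩ := hdir hℓ hℓN A hA Q ∅ (by simp)
  intro d hd
  obtain ⟨x, -, hx⟩ := hsurj hℓ hℓN A hA Q ρ hρ K hK ⟨d, hd⟩
  obtain ⟨a, s, ha, hs, ⟨β, hsβ, hβu⟩, hxs⟩ := x.2
  rw [htQ] at ha hs
  have hxd : R0.Red N A (x : modularFunctionFieldBar N) d := by
    have h1 := hρ x
    rw [hx] at h1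
    exact h1
  have haβ : R0.Red N A a (d * β) := by
    rw [← hxs]
    exact hxd.mul hsβ
  -- the values of `s` at `P`, of `β` at `Q` and at `Q'`
  obtain ⟨hb1, c1, hP1, hQ1⟩ := h s hs _ hsβ
  obtain ⟨hb2, c2, hP2, hQ2⟩ := h' s hs _ hsβ
  have hc12 : c2 = c1 := Subtype.ext (PMCover.valAt_unique P hP2 hP1)
  rw [hc12] at hQ2
  have hres : IsLocalRing.residue A c1 ≠ 0 := by
    intro h0
    rw [h0] at hQ1
    have hnon := (PMCover.valAt_zero_iff Q).mp hQ1
    rw [ValuationSubring.mem_nonunits_iff] at hnon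
    have hβ1 : Q.toValuationSubring.valuation β = 1 := hβu
    rw [show (⟨(β : LaurentSeries (IsLocalRing.ResidueField A)), hb1⟩ :
      modularFunctionFieldFullC (IsLocalRing.ResidueField A) N) = β from rfl, hβ1] at hnon
    exact lt_irrefl _ hnon
  have hβinv : (β : modularFunctionFieldFullC (IsLocalRing.ResidueField A) N)⁻¹ ∈
      Q'.toValuationSubring := PMCover.valAt_mem Q' (PMCover.valAt_inv Q' hQ2 hres)
  -- `d * β` is regular at `Q'`
  obtain ⟨hb3, c3, -, hQ3⟩ := h' a ha _ haβ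
  have hdβ : d * β ∈ Q'.toValuationSubring := PMCover.valAt_mem Q' hQ3
  have hβ0 : (β : modularFunctionFieldFullC (IsLocalRing.ResidueField A) N) ≠ 0 := by
    intro h0
    have hβ1 : Q.toValuationSubring.valuation β = 1 := hβu
    rw [h0, map_zero] at hβ1
    exact zero_ne_one hβ1
  have hd' : d = d * β * β⁻¹ := by
    rw [mul_assoc, mul_inv_cancel₀ hβ0, mul_one]
  rw [hd']
  exact Q'.toValuationSubring.mul_mem _ _ hdβ hβinv

/-- **[R9]** uniqueness of the reduction point, from [Rho], [Surj], [Dir]. -/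
theorem uniqueStatement_of_leaves (N ℓ : ℕ) [NeZero N] (hrho : R0.RhoStatement N ℓ)
    (hsurj : R0.SurjStatement N ℓ) (hdir : R0.DirStatement N ℓ) :
    R0Part.UniqueStatement N ℓ := by
  intro hℓ hℓN A hA P Q Q' h h'
  apply Place.ext
  rcases h with h | ⟨hc, h⟩ <;> rcases h' with h' | ⟨hc', h'⟩
  · exact le_antisymm
      (le_of_redTo hrho hsurj hdir hℓ hℓN hA (tQ_eq_of_redTo_jbar h) h h')
      (le_of_redTo hrho hsurj hdir hℓ hℓN hA (tQ_eq_of_redTo_jbar h') h' h)
  · exact (false_of_redTo_jbar_of_inCusp h hc').elim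
  · exact (false_of_redTo_jbar_of_inCusp h' hc).elim
  · exact le_antisymm
      (le_of_redTo hrho hsurj hdir hℓ hℓN hA (tQ_eq_of_redTo_inv hc h) h h')
      (le_of_redTo hrho hsurj hdir hℓ hℓN hA (tQ_eq_of_redTo_inv hc' h') h' h)

end Main

end Fermat.Agent.S37.R0UniqueSB
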