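import Mathlib
import Fermat.Agent.S18.ArithPlan
import Fermat.Agent.S18.DescCoeff

/-!
# S37 team library: the `const` input of R4 [Level] at finite level `K`

OWNER: helper132 (sub-helper of helper19).

A nonzero constant `c ∈ A` which is a quotient of two elements of `F_K` lies in `K`, hence in
`O_K = A ∩ K`, so `c = unit * π ^ m` with the unit coming from `O_K`.
-/

set_option autoImplicit false

namespace Fermat.Agent.S37.R4Const

open Fermat.Agent.S18.Arith

/-- The inclusion `O_K = A ∩ K → A` as a ring hom. -/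
noncomputable def incOA (A : ValuationSubring Qb) (K : IntermediateField ℚ Qb) : OK A K →+* A where
  toFun x := ⟨incO A K x, x.2⟩
  map_one' := Subtype.ext (map_one (incO A K))
  map_mul' x y := Subtype.ext (map_mul (incO A K) x y)
  map_zero' := Subtype.ext (map_zero (incO A K))
  map_add' x y := Subtype.ext (map_add (incO A K) x y)

theorem coe_incOA (A : ValuationSubring Qb) (K : IntermediateField ℚ Qb) (x : OK A K) :
    ((incOA A K x : A) : Qb) = incO A K x := rfl

/-- A constant which is a quotient of two elements of `F_K` lies in `K`. -/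
theorem const_mem_K (N : ℕ) (K : IntermediateField ℚ Qb) (c : Qb) (a s : FK N K) (hs : s ≠ 0)
    (h : (HahnSeries.C c : LaurentSeries Qb) * (s : LaurentSeries Qb) = (a : LaurentSeries Qb)) :
    c ∈ K := by
  have hs' : (s : LaurentSeries Qb) ≠ 0 := fun h0 => hs (Subtype.ext h0)
  have hC : (HahnSeries.C c : LaurentSeries Qb) = ((a / s : FK N K) : LaurentSeries Qb) := by
    rw [Subfield.coe_div, eq_div_iff hs']
    exact h
  have hmem : (HahnSeries.C c : LaurentSeries Qb) ∈ FK N K := by
    rw [hC]
    exact (a / s).2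
  have := Fermat.Agent.S18.DescCoeff.coeffStatement N K _ hmem 0
  simpa using this

theorem const_eq_unit_mul_pow (N : ℕ) [NeZero N] (A : ValuationSubring Qb)
    (K : IntermediateField ℚ Qb) [IsDiscreteValuationRing (OK A K)] (π : OK A K)
    (hπ : Irreducible π) (c : A) (hc : c ≠ 0) (a s : FK N K) (hs : s ≠ 0)
    (h : (HahnSeries.C (c : Qb) : LaurentSeries Qb) * (s : LaurentSeries Qb)
      = (a : LaurentSeries Qb)) :
    ∃ (m : ℕ) (u : A) (u' : OK A K), IsUnit u ∧ IsUnit u' ∧ incO A K u' = (u : Qb) ∧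
      c = u * (⟨incO A K π, π.2⟩ : A) ^ m := by
  have hcK : (c : Qb) ∈ K := const_mem_K N K (c : Qb) a s hs h
  obtain ⟨c', hcc'⟩ : ∃ c' : OK A K, incOA A K c' = c := ⟨⟨⟨(c : Qb), hcK⟩, c.2⟩, rfl⟩
  have hc' : c' ≠ 0 := by
    intro h0
    apply hc
    rw [← hcc', h0, map_zero]
  obtain ⟨m, u, hu⟩ := IsDiscreteValuationRing.eq_unit_mul_pow_irreducible hc' hπ
  refine ⟨m, incOA A K (u : OK A K), (u : OK A K), u.isUnit.map (incOA A K), u.isUnit, rfl, ?_⟩
  rw [← hcc', hu, map_mul, map_pow]
  rfl

end Fermat.Agent.S37.R4Const
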