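/-
S37 block [R0], leaf (2) RAT/UNIQ, B-copy (helper94).

* (RAT)  a place `P` of `F̄ = ℚ̄·F_ℚ` is fixed by every `σ ∈ Gal(ℚ̄/ℚ)` fixing a suitable finite
  set of constants; a place fixed by `Gal(ℚ̄/K)` takes values in `K` on `F_K`.
* (UNIQ) a `K`-rational place `v` of `F_K` has exactly one extension `P` to `F̄`, with
  `ord_P (Σ c_j x_j) = min_j ord_v x_j` for `K`-linearly independent constants `c_j`
  (in particular `e = 1`).
* the combined consumer form `exists_finset_rational`.
-/
import Mathlib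
import Fermat.Agent.S37.PMCover
import Fermat.Agent.S18.DictInst
import Fermat.Agent.S18.Dict

set_option autoImplicit false
set_option linter.unusedSectionVars false

noncomputable section

namespace Fermat.Agent.S37.RatUniqB

open ModularCurve AlgebraicCurve HahnSeries Fermat.Agent.S37.PM Fermat.Agent.S37.PMCover
open Fermat.Agent.S24

/-! ### Generic lemmas on places -/

section Generic

variable {K F : Type*} [Field K] [Field F] [Algebra K F]

/-- For `f ≠ 0`: `f` is a non-unit of the valuation ring iff it has positive order. -/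
theorem mem_nonunits_iff_ord_pos (v : Place K F) {f : F} (hf : f ≠ 0) :
    f ∈ v.toValuationSubring.nonunits ↔ 0 < v.ord f := by
  constructor
  · intro h
    by_contra hle
    have h1 : 0 ≤ v.ord f⁻¹ := by rw [v.ord_inv]; omega
    have h2 : f⁻¹ ∈ v.toValuationSubring := mem_of_ord_nonneg v h1
    have h3 := mul_mem_nonunits h2 h
    rw [inv_mul_cancel₀ hf] at h3
    rw [ValuationSubring.mem_nonunits_iff, map_one] at h3
    exact lt_irrefl _ h3
  · intro h
    have h1 : f⁻¹ ∉ v.toValuationSubring := by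
      intro h2
      have h3 := ord_nonneg_of_mem v h2
      rw [v.ord_inv] at h3
      omega
    have h4 := inv_mem_nonunits_of_not_mem h1
    rwa [inv_inv] at h4

/-- Non-units are `0` or of positive order. -/
theorem mem_nonunits_iff_eq_zero_or (v : Place K F) (f : F) :
    f ∈ v.toValuationSubring.nonunits ↔ f = 0 ∨ 0 < v.ord f := by
  rcases eq_or_ne f 0 with rfl | hf
  · exact ⟨fun _ => Or.inl rfl, fun _ => zero_mem_nonunits _⟩
  · rw [mem_nonunits_iff_ord_pos v hf]
    exact ⟨Or.inr, fun h => h.resolve_left hf⟩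

/-- A function with a nonzero value has order `0`. -/
theorem ord_eq_zero_of_valAt (v : Place K F) {f : F} {c : K} (h : ValAt v f c) (hc : c ≠ 0) :
    f ≠ 0 ∧ v.ord f = 0 := by
  have hnot : f ∉ v.toValuationSubring.nonunits := by
    intro hf
    have h1 : f + -(f - algebraMap K F c) ∈ v.toValuationSubring.nonunits :=
      add_mem_nonunits hf (neg_mem_nonunits h)
    rw [← sub_eq_add_neg, sub_sub_cancel] at h1
    exact algebraMap_not_mem_nonunits v hc h1
  have hf0 : f ≠ 0 := by
    rintro rfl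
    exact hnot (zero_mem_nonunits _)
  refine ⟨hf0, ?_⟩
  have h1 := ord_nonneg_of_mem v (valAt_mem v h)
  have h2 : ¬ 0 < v.ord f := fun h3 => hnot ((mem_nonunits_iff_ord_pos v hf0).mpr h3)
  omega

/-- A function of order `0` has no value `0`. -/
theorem valAt_ne_zero_of_ord_eq_zero (v : Place K F) {f : F} {c : K} (h : ValAt v f c)
    (hf : f ≠ 0) (hord : v.ord f = 0) : c ≠ 0 := by
  rintro rfl
  rw [valAt_zero_iff, mem_nonunits_iff_ord_pos v hf] at h
  omega

/-- Values of finite sums. -/
theorem valAt_sum (v : Place K F) {ι : Type*} (s : Finset ι) (f : ι → F) (c : ι → K)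
    (h : ∀ j ∈ s, ValAt v (f j) (c j)) : ValAt v (∑ j ∈ s, f j) (∑ j ∈ s, c j) := by
  classical
  induction s using Finset.induction_on with
  | empty => simpa using valAt_zero v
  | insert a s ha ih =>
    rw [Finset.sum_insert ha, Finset.sum_insert ha]
    exact valAt_add v (h a (Finset.mem_insert_self a s))
      (ih fun j hj => h j (Finset.mem_insert_of_mem hj))

/-- Two distinct places are separated by a function: a non-unit at `v` which is not a
non-unit at `w`. -/
theorem exists_mem_nonunits_not_mem (v w : Place K F) (h : w ≠ v) :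
    ∃ g : F, g ∈ v.toValuationSubring.nonunits ∧ g ∉ w.toValuationSubring.nonunits := by
  have h1 : ¬ ∀ f : F, 0 ≤ w.ord f → 0 ≤ v.ord f := fun h2 => h (place_ext_of_ord w v h2)
  push Not at h1
  obtain ⟨f, hf1, hf2⟩ := h1
  have hf0 : f ≠ 0 := by
    rintro rfl
    simp at hf2
  refine ⟨f⁻¹, ?_, ?_⟩
  · rw [mem_nonunits_iff_ord_pos v (inv_ne_zero hf0), v.ord_inv]
    omega
  · rw [mem_nonunits_iff_ord_pos w (inv_ne_zero hf0), w.ord_inv]
    omega

end Generic

/-! ### The abstract uniqueness statement -/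

section Abstract

variable {K L F F' : Type*} [Field K] [Field L] [Field F] [Field F'] [Algebra K L] [Algebra K F]
  [Algebra L F']

theorem mem_nonunits_iff_inv_not_mem (B : ValuationSubring F) {x : F} (hx : x ≠ 0) :
    x ∈ B.nonunits ↔ x⁻¹ ∉ B := by
  constructor
  · intro h h2
    have h3 := mul_mem_nonunits h2 h
    rw [inv_mul_cancel₀ hx, ValuationSubring.mem_nonunits_iff, map_one] at h3
    exact lt_irrefl _ h3
  · intro h
    have h4 := inv_mem_nonunits_of_not_mem h
    rwa [inv_inv] at h4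

variable (i : F →+* F') (P : Place L F') (v : Place K F)

/-- If `P` restricts to `v` along `i`, the maximal ideals correspond. -/
theorem map_mem_nonunits_iff
    (hvP : ∀ x, x ∈ v.toValuationSubring ↔ i x ∈ P.toValuationSubring) {x : F} :
    x ∈ v.toValuationSubring.nonunits ↔ i x ∈ P.toValuationSubring.nonunits := by
  rcases eq_or_ne x 0 with rfl | hx
  · rw [map_zero]
    exact ⟨fun _ => zero_mem_nonunits _, fun _ => zero_mem_nonunits _⟩
  · have hix : i x ≠ 0 := (map_ne_zero i).mpr hx
    rw [mem_nonunits_iff_inv_not_mem _ hx, mem_nonunits_iff_inv_not_mem _ hix, hvP, map_inv₀]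

/-- If `P` restricts to `v` along `i`, values correspond. -/
theorem valAt_map_iff
    (hi : ∀ c : K, i (algebraMap K F c) = algebraMap L F' (algebraMap K L c))
    (hvP : ∀ x, x ∈ v.toValuationSubring ↔ i x ∈ P.toValuationSubring) {x : F} {c : K} :
    ValAt v x c ↔ ValAt P (i x) (algebraMap K L c) := by
  unfold ValAt
  rw [map_mem_nonunits_iff i P v hvP, map_sub, hi]

/-- If `P` restricts to `v`, then `ord_P ∘ i = e · ord_v` with `e = ord_P (i π)`. -/
theorem ord_map_eq_mul
    (hvP : ∀ x, x ∈ v.toValuationSubring ↔ i x ∈ P.toValuationSubring)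
    {π : F} (hπ : v.ord π = 1) (x : F) : P.ord (i x) = v.ord x * P.ord (i π) := by
  rcases eq_or_ne x 0 with rfl | hx
  · simp
  have hπ0 : π ≠ 0 := by
    rintro rfl
    simp at hπ
  have hiπ : i π ≠ 0 := (map_ne_zero i).mpr hπ0
  set y : F := x * π ^ (-(v.ord x)) with hy
  have hy0 : y ≠ 0 := mul_ne_zero hx (zpow_ne_zero _ hπ0)
  have hordy : v.ord y = 0 := by
    rw [hy, v.ord_mul hx (zpow_ne_zero _ hπ0), v.ord_zpow, hπ]
    ring
  have h1 : y ∈ v.toValuationSubring := mem_of_ord_nonneg v (by omega)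
  have h2 : y⁻¹ ∈ v.toValuationSubring := mem_of_ord_nonneg v (by rw [v.ord_inv]; omega)
  have h3 := ord_nonneg_of_mem P ((hvP y).mp h1)
  have h4 := ord_nonneg_of_mem P ((hvP y⁻¹).mp h2)
  rw [map_inv₀, P.ord_inv] at h4
  have hordiy : P.ord (i y) = 0 := by omega
  have hiy0 : i y ≠ 0 := (map_ne_zero i).mpr hy0
  have hx' : i x = i y * (i π) ^ (v.ord x) := by
    rw [hy, map_mul, map_zpow₀, mul_assoc, ← zpow_add₀ hiπ, neg_add_cancel, zpow_zero, mul_one]
  rw [hx', P.ord_mul hiy0 (zpow_ne_zero _ hiπ), hordiy, P.ord_zpow, zero_add]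

/-- **Key computation.**  If `P` restricts to the `K`-rational place `v`, then for
`K`-linearly independent constants `c_j` and `x_j ∈ F` with `m = min_j ord_v x_j`:
`Σ c_j x_j ≠ 0` and `ord_P (Σ c_j x_j) = m · ord_P π`. -/
theorem ord_sum_eq_mul
    (hi : ∀ c : K, i (algebraMap K F c) = algebraMap L F' (algebraMap K L c))
    (hvP : ∀ x, x ∈ v.toValuationSubring ↔ i x ∈ P.toValuationSubring)
    (hrat : ∀ x ∈ v.toValuationSubring, ∃ c : K, ValAt v x c)
    {ι : Type*} (s : Finset ι) (c : ι → L) (x : ι → F) (m : ℤ) (hc : LinearIndependent K c)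
    (hm : ∀ j ∈ s, x j ≠ 0 → m ≤ v.ord (x j)) (hex : ∃ j ∈ s, x j ≠ 0 ∧ v.ord (x j) = m)
    {π : F} (hπ : v.ord π = 1) :
    (∑ j ∈ s, algebraMap L F' (c j) * i (x j)) ≠ 0 ∧
      P.ord (∑ j ∈ s, algebraMap L F' (c j) * i (x j)) = m * P.ord (i π) := by
  have hπ0 : π ≠ 0 := by
    rintro rfl
    simp at hπ
  have hiπ : i π ≠ 0 := (map_ne_zero i).mpr hπ0
  have hx' : ∀ j ∈ s, x j * π ^ (-m) ∈ v.toValuationSubring := by
    intro j hj
    rcases eq_or_ne (x j) 0 with h0 | h0
    · rw [h0, zero_mul]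
      exact zero_mem _
    · apply mem_of_ord_nonneg v
      rw [v.ord_mul h0 (zpow_ne_zero _ hπ0), v.ord_zpow, hπ]
      have := hm j hj h0
      omega
  choose! a ha using fun j (hj : j ∈ s) => hrat _ (hx' j hj)
  obtain ⟨j0, hj0, hxj0, hordj0⟩ := hex
  have ha0 : a j0 ≠ 0 :=
    valAt_ne_zero_of_ord_eq_zero v (ha j0 hj0) (mul_ne_zero hxj0 (zpow_ne_zero _ hπ0))
      (by rw [v.ord_mul hxj0 (zpow_ne_zero _ hπ0), v.ord_zpow, hπ, hordj0]; ring)
  set u : F' := ∑ j ∈ s, algebraMap L F' (c j) * i (x j * π ^ (-m)) with hu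
  have hval : ValAt P u (∑ j ∈ s, c j * algebraMap K L (a j)) := by
    apply valAt_sum
    intro j hj
    exact valAt_mul P (valAt_algebraMap P (c j)) ((valAt_map_iff i P v hi hvP).mp (ha j hj))
  have hne : (∑ j ∈ s, c j * algebraMap K L (a j)) ≠ 0 := by
    intro h0
    have h1 : ∑ j ∈ s, a j • c j = 0 := by
      rw [← h0]
      refine Finset.sum_congr rfl fun j _ => ?_
      rw [Algebra.smul_def, mul_comm]
    exact ha0 (linearIndependent_iff'.mp hc s a h1 j0 hj0)
  obtain ⟨hu0, hordu⟩ := ord_eq_zero_of_valAt P hval hne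
  have hsum : ∑ j ∈ s, algebraMap L F' (c j) * i (x j) = u * (i π) ^ m := by
    rw [hu, Finset.sum_mul]
    refine Finset.sum_congr rfl fun j _ => ?_
    rw [map_mul, map_zpow₀, mul_assoc, mul_assoc, ← zpow_add₀ hiπ, neg_add_cancel, zpow_zero,
      mul_one]
  rw [hsum]
  refine ⟨mul_ne_zero hu0 (zpow_ne_zero _ hiπ), ?_⟩
  rw [P.ord_mul hu0 (zpow_ne_zero _ hiπ), hordu, P.ord_zpow, zero_add]

/-- The minimum of the orders of the nonzero members of a finite family. -/
theorem exists_min_ord {ι : Type*} (s : Finset ι) (x : ι → F) (h : ∃ j ∈ s, x j ≠ 0) :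
    ∃ m : ℤ, (∀ j ∈ s, x j ≠ 0 → m ≤ v.ord (x j)) ∧ ∃ j ∈ s, x j ≠ 0 ∧ v.ord (x j) = m := by
  classical
  have hne : (s.filter fun j => x j ≠ 0).Nonempty := by
    obtain ⟨j, hj, hxj⟩ := h
    exact ⟨j, Finset.mem_filter.mpr ⟨hj, hxj⟩⟩
  obtain ⟨j0, hj0, hmin⟩ := Finset.exists_min_image _ (fun j => v.ord (x j)) hne
  rw [Finset.mem_filter] at hj0
  exact ⟨v.ord (x j0), fun j hj hxj => hmin j (Finset.mem_filter.mpr ⟨hj, hxj⟩),
    j0, hj0.1, hj0.2, rfl⟩

variable {ι : Type*} (b : ι → L)

/-- If `F' = L · i(F)` (spanned by a `K`-linearly independent family of constants), the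
ramification index of an extension `P` of a `K`-rational place `v` is one. -/
theorem ord_map_uniformizer
    (hi : ∀ c : K, i (algebraMap K F c) = algebraMap L F' (algebraMap K L c))
    (hvP : ∀ x, x ∈ v.toValuationSubring ↔ i x ∈ P.toValuationSubring)
    (hrat : ∀ x ∈ v.toValuationSubring, ∃ c : K, ValAt v x c)
    (hb : LinearIndependent K b)
    (hspan : ∀ f : F', ∃ (s : Finset ι) (x : ι → F), f = ∑ j ∈ s, algebraMap L F' (b j) * i (x j))
    {π : F} (hπ : v.ord π = 1) : P.ord (i π) = 1 := by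
  obtain ⟨f, hf⟩ := exists_ord_eq_one P
  obtain ⟨s, x, rfl⟩ := hspan f
  have hex : ∃ j ∈ s, x j ≠ 0 := by
    by_contra hcon
    push Not at hcon
    have h0 : ∑ j ∈ s, algebraMap L F' (b j) * i (x j) = 0 :=
      Finset.sum_eq_zero fun j hj => by rw [hcon j hj, map_zero, mul_zero]
    rw [h0] at hf
    simp at hf
  obtain ⟨m, hm, hex'⟩ := exists_min_ord v s x hex
  obtain ⟨-, h2⟩ := ord_sum_eq_mul i P v hi hvP hrat s b x m hb hm hex' hπ
  rw [hf] at h2
  have h3 : 0 ≤ P.ord (i π) :=
    ord_nonneg_of_mem P ((hvP π).mp (mem_of_ord_nonneg v (by omega)))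
  exact Int.eq_one_of_mul_eq_one_left h3 h2.symm

/-- An extension `P` of a `K`-rational place `v` has `ord_P ∘ i = ord_v`. -/
theorem ord_map_eq
    (hi : ∀ c : K, i (algebraMap K F c) = algebraMap L F' (algebraMap K L c))
    (hvP : ∀ x, x ∈ v.toValuationSubring ↔ i x ∈ P.toValuationSubring)
    (hrat : ∀ x ∈ v.toValuationSubring, ∃ c : K, ValAt v x c)
    (hb : LinearIndependent K b)
    (hspan : ∀ f : F', ∃ (s : Finset ι) (x : ι → F), f = ∑ j ∈ s, algebraMap L F' (b j) * i (x j))
    (x : F) : P.ord (i x) = v.ord x := by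
  obtain ⟨π, hπ⟩ := exists_ord_eq_one v
  rw [ord_map_eq_mul i P v hvP hπ x, ord_map_uniformizer i P v b hi hvP hrat hb hspan hπ, mul_one]

/-- **(UNIQ), order formula**: `ord_P (Σ c_j x_j) = min_j ord_v x_j`. -/
theorem ord_sum_eq
    (hi : ∀ c : K, i (algebraMap K F c) = algebraMap L F' (algebraMap K L c))
    (hvP : ∀ x, x ∈ v.toValuationSubring ↔ i x ∈ P.toValuationSubring)
    (hrat : ∀ x ∈ v.toValuationSubring, ∃ c : K, ValAt v x c)
    (hb : LinearIndependent K b)
    (hspan : ∀ f : F', ∃ (s : Finset ι) (x : ι → F), f = ∑ j ∈ s, algebraMap L F' (b j) * i (x j))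
    {κ : Type*} (s : Finset κ) (c : κ → L) (x : κ → F) (m : ℤ) (hc : LinearIndependent K c)
    (hm : ∀ j ∈ s, x j ≠ 0 → m ≤ v.ord (x j)) (hex : ∃ j ∈ s, x j ≠ 0 ∧ v.ord (x j) = m) :
    (∑ j ∈ s, algebraMap L F' (c j) * i (x j)) ≠ 0 ∧
      P.ord (∑ j ∈ s, algebraMap L F' (c j) * i (x j)) = m := by
  obtain ⟨π, hπ⟩ := exists_ord_eq_one v
  obtain ⟨h1, h2⟩ := ord_sum_eq_mul i P v hi hvP hrat s c x m hc hm hex hπ
  refine ⟨h1, ?_⟩
  rw [h2, ord_map_uniformizer i P v b hi hvP hrat hb hspan hπ, mul_one]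

/-- **(UNIQ), uniqueness**: a `K`-rational place has at most one extension. -/
theorem place_eq_of_rational (P' : Place L F')
    (hi : ∀ c : K, i (algebraMap K F c) = algebraMap L F' (algebraMap K L c))
    (hvP : ∀ x, x ∈ v.toValuationSubring ↔ i x ∈ P.toValuationSubring)
    (hvP' : ∀ x, x ∈ v.toValuationSubring ↔ i x ∈ P'.toValuationSubring)
    (hrat : ∀ x ∈ v.toValuationSubring, ∃ c : K, ValAt v x c)
    (hb : LinearIndependent K b)
    (hspan : ∀ f : F', ∃ (s : Finset ι) (x : ι → F), f = ∑ j ∈ s, algebraMap L F' (b j) * i (x j)) :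
    P = P' := by
  apply place_ext_of_ord
  intro f hf
  obtain ⟨s, x, rfl⟩ := hspan f
  by_cases hex : ∃ j ∈ s, x j ≠ 0
  · obtain ⟨m, hm, hex'⟩ := exists_min_ord v s x hex
    rw [(ord_sum_eq i P v b hi hvP hrat hb hspan s b x m hb hm hex').2] at hf
    rw [(ord_sum_eq i P' v b hi hvP' hrat hb hspan s b x m hb hm hex').2]
    exact hf
  · push Not at hex
    have h0 : ∑ j ∈ s, algebraMap L F' (b j) * i (x j) = 0 :=
      Finset.sum_eq_zero fun j hj => by rw [hex j hj, map_zero, mul_zero]
    rw [h0]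
    simp

end Abstract

/-! ### Galois action and values -/

section Semilinear

variable {K F : Type*} [Field K] [Field F] [Algebra K F]

/-- The Galois action is compatible with maximal ideals. -/
theorem smul_mem_nonunits (g : SemilinearAut K F) (v : Place K F) {f : F}
    (h : f ∈ v.toValuationSubring.nonunits) : g • f ∈ (g • v).toValuationSubring.nonunits := by
  rw [mem_nonunits_iff_eq_zero_or] at h ⊢
  rcases h with rfl | h
  · left
    exact smul_zero g
  · right
    rwa [SemilinearAut.ord_smul]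

/-- The Galois action is compatible with values. -/
theorem valAt_smul (g : SemilinearAut K F) (v : Place K F) {f : F} {c : K} (h : ValAt v f c) :
    ValAt (g • v) (g • f) (SemilinearAut.baseAut g c) := by
  unfold ValAt at h ⊢
  rw [← SemilinearAut.smul_algebraMap, ← smul_sub]
  exact smul_mem_nonunits g v h

end Semilinear

/-! ### The modular function fields `F_K ⊆ F̄` -/

section Modular

set_option synthInstance.maxHeartbeats 400000

open Fermat.Agent.S18

variable (N : ℕ) (K : IntermediateField ℚ Qb)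

/-- The inclusion `F_K → F̄` on constants. -/
theorem incl_algebraMap (c : K) :
    DictInst.incl N K (algebraMap K (Arith.FK N K) c)
      = algebraMap Qb (modularFunctionFieldBar N) (algebraMap K Qb c) :=
  RingHom.congr_fun (DictInst.incl_comp_algebraMap N K) c

/-- **(R0)** an automorphism of `ℚ̄` fixing `K` fixes `F_K` pointwise. -/
theorem smul_incl (σ : Qb ≃ₐ[ℚ] Qb) (hσ : ∀ c : K, σ (c : Qb) = c) (x : Arith.FK N K) :
    arithmeticGalois (modularFunctionFieldFull N) σ • DictInst.incl N K x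
      = DictInst.incl N K x := by
  apply Subtype.ext
  rw [coe_arithmeticGalois_smul, DictInst.coe_incl]
  obtain ⟨y, hy⟩ := DescCoeff.FK_le_fieldRange N K x.2
  rw [← hy, coeffMap_coeffMap]
  exact coeffMap_congr (RingHom.ext fun c => hσ c) _

/-- **(U0)** `F̄ = ℚ̄ · F_K`: every element of `F̄` is a finite sum `Σ b_j x_j` with `x_j ∈ F_K`
and `b_j` members of a `K`-basis of `ℚ̄` (no fractions). -/
theorem exists_sum_eq {ι : Type*} (b : Module.Basis ι K Qb) (f : modularFunctionFieldBar N) :
    ∃ (s : Finset ι) (x : ι → Arith.FK N K),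
      f = ∑ j ∈ s, algebraMap Qb (modularFunctionFieldBar N) (b j) * DictInst.incl N K (x j) := by
  classical
  letI : Algebra (Arith.FK N K) (modularFunctionFieldBar N) := (DictInst.incl N K).toAlgebra
  have hint : ∀ z ∈ Set.range (algebraMap Qb (modularFunctionFieldBar N)),
      IsIntegral (Arith.FK N K) z := by
    rintro _ ⟨c, rfl⟩
    obtain ⟨p, hp0, hp⟩ := DictInst.halg N K c
    refine IsAlgebraic.isIntegral ⟨p.map (algebraMap K (Arith.FK N K)),
      (Polynomial.map_ne_zero_iff (algebraMap K (Arith.FK N K)).injective).mpr hp0, ?_⟩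
    rw [Polynomial.aeval_def, Polynomial.eval₂_map]
    exact hp
  have halgA := Algebra.IsIntegral.adjoin hint
  have hinv : ∀ z ∈ Algebra.adjoin (Arith.FK N K)
      (Set.range (algebraMap Qb (modularFunctionFieldBar N))),
      z⁻¹ ∈ Algebra.adjoin (Arith.FK N K)
        (Set.range (algebraMap Qb (modularFunctionFieldBar N))) := by
    intro z hz
    have h1 : IsIntegral (Arith.FK N K) z :=
      (halgA.isIntegral ⟨z, hz⟩).map
        (Algebra.adjoin (Arith.FK N K)
          (Set.range (algebraMap Qb (modularFunctionFieldBar N)))).val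
    exact Subalgebra.inv_mem_of_algebraic _ (x := ⟨z, hz⟩) h1.isAlgebraic
  have htop : ∀ f : modularFunctionFieldBar N, f ∈ Algebra.adjoin (Arith.FK N K)
      (Set.range (algebraMap Qb (modularFunctionFieldBar N))) := by
    intro f
    obtain ⟨S, hS⟩ := DictInst.hgen N K f
    let T : Subfield (modularFunctionFieldBar N) :=
      { (Algebra.adjoin (Arith.FK N K)
          (Set.range (algebraMap Qb (modularFunctionFieldBar N)))).toSubring with
        inv_mem' := hinv }
    have hle : Subfield.closure (Set.range (DictInst.incl N K) ∪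
        (algebraMap Qb (modularFunctionFieldBar N)) '' (S : Set Qb)) ≤ T := by
      rw [Subfield.closure_le]
      rintro z (⟨x, rfl⟩ | ⟨c, -, rfl⟩)
      · exact Subalgebra.algebraMap_mem _ x
      · exact Algebra.subset_adjoin ⟨c, rfl⟩
    exact hle hS
  have hspan1 : ∀ f : modularFunctionFieldBar N,
      f ∈ Submodule.span (Arith.FK N K)
        (Set.range (algebraMap Qb (modularFunctionFieldBar N))) := by
    intro f
    have h1 := htop f
    rw [← Subalgebra.mem_toSubmodule, Algebra.adjoin_eq_span] at h1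
    have h2 : (Submonoid.closure (Set.range (algebraMap Qb (modularFunctionFieldBar N))) :
        Set (modularFunctionFieldBar N))
        = Set.range (algebraMap Qb (modularFunctionFieldBar N)) := by
      have h3 : Set.range (algebraMap Qb (modularFunctionFieldBar N))
          = ((MonoidHom.mrange ((algebraMap Qb (modularFunctionFieldBar N) :
              Qb →+* modularFunctionFieldBar N) : Qb →* modularFunctionFieldBar N) :
                Submonoid (modularFunctionFieldBar N)) : Set (modularFunctionFieldBar N)) := rfl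
      rw [h3, Submonoid.closure_eq]
    rwa [h2] at h1
  have hspan2 : Submodule.span (Arith.FK N K)
      (Set.range (algebraMap Qb (modularFunctionFieldBar N)))
      ≤ Submodule.span (Arith.FK N K)
        (Set.range fun j => algebraMap Qb (modularFunctionFieldBar N) (b j)) := by
    rw [Submodule.span_le]
    rintro _ ⟨c, rfl⟩
    have hc : c = ∑ j ∈ (b.repr c).support, (b.repr c j) • b j := by
      conv_lhs => rw [← b.linearCombination_repr c]
      rfl
    rw [hc, map_sum]
    refine Submodule.sum_mem _ fun j _ => ?_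
    have h4 : algebraMap Qb (modularFunctionFieldBar N) ((b.repr c j) • b j)
        = (algebraMap K (Arith.FK N K) (b.repr c j)) •
            algebraMap Qb (modularFunctionFieldBar N) (b j) := by
      rw [Algebra.smul_def, map_mul, Algebra.smul_def]
      congr 1
      exact (incl_algebraMap N K _).symm
    rw [h4]
    exact Submodule.smul_mem _ _ (Submodule.subset_span ⟨j, rfl⟩)
  obtain ⟨l, hl⟩ := Finsupp.mem_span_range_iff_exists_finsupp.mp (hspan2 (hspan1 f))
  refine ⟨l.support, l, ?_⟩
  rw [← hl, Finsupp.sum]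
  refine Finset.sum_congr rfl fun j _ => ?_
  rw [Algebra.smul_def, mul_comm]
  rfl

end Modular

end Fermat.Agent.S37.RatUniqB
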