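/-
S37 block [R0], row (R2e) — RedInt.lean (helper52): the reductions of the elements of an
`A`-level chart are integral over `k[t̄]`, hence regular at the places `Q` of `F_k` at which the
reduced coordinate `t̄` is regular.

Notation: `F̄ = modularFunctionFieldBar N`, `k = ResidueField A`,
`F_k = modularFunctionFieldFullC k N`, `t ∈ {j, j⁻¹}`, `t̄ ∈ {j̄, j̄⁻¹}`.

* `red_jbar`, `red_jbar_inv`, `red_tb`   : the Gauss reduction of the coordinate `t` is `t̄`;
* `exists_red_mem_adjoin`                : every element of `A[t]` has a reduction in `k[t̄]`;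
* `isIntegral_of_red`                    : the reduction of `x ∈ chartA N A t` is integral over
                                           `k[t̄]`;
* `isIntegral_redRange`, `tb_mem_redRange` : the same for the reduced chart ring
                                           `PMChi.redRange N A t`;
* `tbQ`, `red_tQ`, `tbQ_mem`             : the reduced coordinate at `Q` and its regularity at `Q`;
* `red_mem_valuationSubring`             : the reduction of `x ∈ chartA N A (tQ Q)` lies in `O_Q`.
-/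
import Mathlib
import Fermat.Agent.S37.R0LocDefs
import Fermat.Agent.S37.PMChartA
import Fermat.Agent.S37.PMChi
import Fermat.Agent.S18.QExpDefs

set_option autoImplicit false

noncomputable section

namespace Fermat.Agent.S37.RedInt

open ModularCurve AlgebraicCurve HahnSeries
open Fermat.Agent.S18 Fermat.Agent.S37.PM

set_option synthInstance.maxHeartbeats 400000

section Coord

variable (N : ℕ) (A : ValuationSubring Qb)

/-- The Gauss reduction of `j` is `j̄`. -/
theorem red_jbar : R0.Red N A (jbar N) (R0.jk N A) :=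
  QExpDefs.gRel_jΩ (GRel.gRelStatement A)

/-- The Gauss reduction of `j⁻¹` is `j̄⁻¹`. -/
theorem red_jbar_inv : R0.Red N A (jbar N)⁻¹ (R0.jk N A)⁻¹ := by
  have h := (GRel.gRelStatement A).inv _ _ (red_jbar N A)
    (jqModC_ne_zero_of_nontrivial (IsLocalRing.ResidueField A))
  exact h

/-- The Gauss reduction of the coordinate `t` is `t̄`. -/
theorem red_tb {t : modularFunctionFieldBar N}
    {tb : modularFunctionFieldFullC (IsLocalRing.ResidueField A) N}
    (ht : (t = jbar N ∧ tb = R0.jk N A) ∨ (t = (jbar N)⁻¹ ∧ tb = (R0.jk N A)⁻¹)) :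
    R0.Red N A t tb := by
  rcases ht with ⟨rfl, rfl⟩ | ⟨rfl, rfl⟩
  · exact red_jbar N A
  · exact red_jbar_inv N A

/-- Every element of `A[t]` has a Gauss reduction in `k[t̄]`. -/
theorem exists_red_mem_adjoin {t : modularFunctionFieldBar N}
    {tb : modularFunctionFieldFullC (IsLocalRing.ResidueField A) N} (ht : R0.Red N A t tb)
    (y : modularFunctionFieldBar N) (hy : y ∈ AT N A t) :
    ∃ b ∈ Algebra.adjoin (IsLocalRing.ResidueField A) {tb}, R0.Red N A y b := by
  unfold AT at hy
  induction hy using Subring.closure_induction with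
  | mem x hx =>
    rcases hx with ⟨c, rfl⟩ | hx
    · exact ⟨_, Subalgebra.algebraMap_mem _ _, PMChi.red_constA N A c⟩
    · rw [Set.mem_singleton_iff] at hx
      subst hx
      exact ⟨tb, Algebra.subset_adjoin rfl, ht⟩
  | zero => exact ⟨0, Subalgebra.zero_mem _, R0.red_zero N A⟩
  | one => exact ⟨1, Subalgebra.one_mem _, R0.red_one N A⟩
  | add x y _ _ hx hy =>
    obtain ⟨b, hb, hxb⟩ := hx
    obtain ⟨b', hb', hyb⟩ := hy
    exact ⟨b + b', Subalgebra.add_mem _ hb hb', hxb.add hyb⟩
  | neg x _ hx =>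
    obtain ⟨b, hb, hxb⟩ := hx
    exact ⟨-b, Subalgebra.neg_mem _ hb, hxb.neg⟩
  | mul x y _ _ hx hy =>
    obtain ⟨b, hb, hxb⟩ := hx
    obtain ⟨b', hb', hyb⟩ := hy
    exact ⟨b * b', Subalgebra.mul_mem _ hb hb', hxb.mul hyb⟩

end Coord

section Integral

variable (N : ℕ) [NeZero N] (ℓ : ℕ) [Fact ℓ.Prime] (A : ValuationSubring Qb)

/-- **(R2e)** The Gauss reduction of an element of the chart `chartA N A t` is integral over
`k[t̄]`. -/
theorem isIntegral_of_red (hℓN : ¬ ℓ ∣ N) (hA : A.LiesOverPrime ℓ)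
    {t : modularFunctionFieldBar N}
    {tb : modularFunctionFieldFullC (IsLocalRing.ResidueField A) N}
    (ht : (t = jbar N ∧ tb = R0.jk N A) ∨ (t = (jbar N)⁻¹ ∧ tb = (R0.jk N A)⁻¹))
    {x : modularFunctionFieldBar N} (hx : x ∈ chartA N A t)
    {b : modularFunctionFieldFullC (IsLocalRing.ResidueField A) N} (hb : R0.Red N A x b) :
    IsIntegral ↥(Algebra.adjoin (IsLocalRing.ResidueField A) {tb}) b := by
  classical
  have ht' : t = jbar N ∨ t = (jbar N)⁻¹ := by
    rcases ht with ⟨h, -⟩ | ⟨h, -⟩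
    · exact Or.inl h
    · exact Or.inr h
  have htb : R0.Red N A t tb := red_tb N A ht
  obtain ⟨ρ, hρ⟩ := PMChartA.exists_rhoA N ℓ A hℓN hA ht'
  have hρ' : ∀ z : ↥(chartA N A t), R0.Red N A (z : modularFunctionFieldBar N) (ρ z) := hρ
  -- the inclusion `A[t] → chart`
  let incl : ↥(AT N A t) →+* ↥(chartA N A t) := Subring.inclusion (PMChi.AT_le_chartA N A t)
  -- `ρ` maps `A[t]` into `k[t̄]`
  have hmem : ∀ a : ↥(AT N A t),
      ρ (incl a) ∈ Algebra.adjoin (IsLocalRing.ResidueField A) {tb} := by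
    intro a
    obtain ⟨b', hb', hab'⟩ := exists_red_mem_adjoin N A htb (a : modularFunctionFieldBar N) a.2
    have h1 : ρ (incl a) = b' := (hρ' (incl a)).unique hab'
    rw [h1]
    exact hb'
  let φ : ↥(AT N A t) →+* ↥(Algebra.adjoin (IsLocalRing.ResidueField A) {tb}) :=
    (ρ.comp incl).codRestrict (Algebra.adjoin (IsLocalRing.ResidueField A) {tb}) hmem
  have hx' : IsIntegral (AT N A t) x := hx
  obtain ⟨p, hp, hpx⟩ := hx'
  refine ⟨p.map φ, hp.map _, ?_⟩
  rw [Polynomial.eval₂_map]
  have e1 : (algebraMap ↥(Algebra.adjoin (IsLocalRing.ResidueField A) {tb})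
      ↥(modularFunctionFieldFullC (IsLocalRing.ResidueField A) N)).comp φ = ρ.comp incl := by
    ext a
    rfl
  have e2 : Polynomial.eval₂ incl (⟨x, hx⟩ : ↥(chartA N A t)) p = 0 := by
    apply Subtype.ext
    have e3 := Polynomial.hom_eval₂ p incl (chartA N A t).subtype ⟨x, hx⟩
    exact e3.trans hpx
  have e4 : ρ ⟨x, hx⟩ = b := (hρ' ⟨x, hx⟩).unique hb
  rw [e1, ← e4, ← Polynomial.hom_eval₂, e2, map_zero]

/-- The reduced chart ring is integral over `k[t̄]`. -/
theorem isIntegral_redRange (hℓN : ¬ ℓ ∣ N) (hA : A.LiesOverPrime ℓ)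
    {t : modularFunctionFieldBar N}
    {tb : modularFunctionFieldFullC (IsLocalRing.ResidueField A) N}
    (ht : (t = jbar N ∧ tb = R0.jk N A) ∨ (t = (jbar N)⁻¹ ∧ tb = (R0.jk N A)⁻¹)) :
    ∀ b ∈ PMChi.redRange N A t,
      IsIntegral ↥(Algebra.adjoin (IsLocalRing.ResidueField A) {tb}) b := by
  rintro b ⟨x, hx, hb⟩
  exact isIntegral_of_red N ℓ A hℓN hA ht hx hb

omit [NeZero N] in
/-- The reduced coordinate lies in the reduced chart ring. -/
theorem tb_mem_redRange {t : modularFunctionFieldBar N}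
    {tb : modularFunctionFieldFullC (IsLocalRing.ResidueField A) N}
    (ht : (t = jbar N ∧ tb = R0.jk N A) ∨ (t = (jbar N)⁻¹ ∧ tb = (R0.jk N A)⁻¹)) :
    tb ∈ PMChi.redRange N A t :=
  ⟨t, PMChi.t_mem_chartA N A t, red_tb N A ht⟩

end Integral

section AtQ

variable (N : ℕ) (A : ValuationSubring Qb)
variable (Q : Place (IsLocalRing.ResidueField A)
  (modularFunctionFieldFullC (IsLocalRing.ResidueField A) N))

open Classical in
/-- The reduced chart coordinate at `Q`: `j̄` if `j̄` is regular at `Q`, and `j̄⁻¹` otherwise. -/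
def tbQ : modularFunctionFieldFullC (IsLocalRing.ResidueField A) N :=
  if R0.jk N A ∈ Q.toValuationSubring then R0.jk N A else (R0.jk N A)⁻¹

/-- The pair `(tQ, tbQ)` is `(j, j̄)` or `(j⁻¹, j̄⁻¹)`. -/
theorem tQ_tbQ : (R0.tQ N A Q = jbar N ∧ tbQ N A Q = R0.jk N A) ∨
    (R0.tQ N A Q = (jbar N)⁻¹ ∧ tbQ N A Q = (R0.jk N A)⁻¹) := by
  unfold R0.tQ tbQ
  by_cases h : R0.jk N A ∈ Q.toValuationSubring
  · left
    rw [if_pos h, if_pos h]
    exact ⟨rfl, rfl⟩
  · right
    rw [if_neg h, if_neg h]
    exact ⟨rfl, rfl⟩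

/-- The reduction of the chart coordinate at `Q` is the reduced coordinate at `Q`. -/
theorem red_tQ : R0.Red N A (R0.tQ N A Q) (tbQ N A Q) := red_tb N A (tQ_tbQ N A Q)

/-- The reduced coordinate at `Q` is regular at `Q`. -/
theorem tbQ_mem : tbQ N A Q ∈ Q.toValuationSubring := by
  unfold tbQ
  by_cases h : R0.jk N A ∈ Q.toValuationSubring
  · rw [if_pos h]
    exact h
  · rw [if_neg h]
    exact (Q.toValuationSubring.mem_or_inv_mem (R0.jk N A)).resolve_left h

/-- `k[t̄_Q] ⊆ O_Q`. -/
theorem adjoin_tbQ_le :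
    (Algebra.adjoin (IsLocalRing.ResidueField A) {tbQ N A Q}).toSubring ≤
      Q.toValuationSubring.toSubring := by
  intro y hy
  change y ∈ Algebra.adjoin (IsLocalRing.ResidueField A) {tbQ N A Q} at hy
  induction hy using Algebra.adjoin_induction with
  | mem z hz =>
    rw [Set.mem_singleton_iff] at hz
    subst hz
    exact tbQ_mem N A Q
  | algebraMap r => exact Q.algebraMap_mem' r
  | add a b _ _ ha hb => exact Subring.add_mem _ ha hb
  | mul a b _ _ ha hb => exact Subring.mul_mem _ ha hb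

/-- An element of `F_k` integral over `k[t̄_Q]` is regular at `Q`. -/
theorem mem_of_isIntegral_adjoin_tbQ
    {b : modularFunctionFieldFullC (IsLocalRing.ResidueField A) N}
    (hb : IsIntegral ↥(Algebra.adjoin (IsLocalRing.ResidueField A) {tbQ N A Q}) b) :
    b ∈ Q.toValuationSubring := by
  have h1 : IsIntegral Q.toValuationSubring.toSubring b := by
    obtain ⟨p, hp, hpx⟩ := hb
    refine ⟨p.map (Subring.inclusion (adjoin_tbQ_le N A Q)), hp.map _, ?_⟩
    rw [Polynomial.eval₂_map]
    exact hpx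
  have h2 : IsIntegral Q.toValuationSubring b := h1
  obtain ⟨y, hy⟩ := (IsIntegrallyClosed.isIntegral_iff (R := Q.toValuationSubring)).mp h2
  rw [← hy]
  exact y.2

end AtQ

section AtQ'

variable (N : ℕ) [NeZero N] (ℓ : ℕ) [Fact ℓ.Prime] (A : ValuationSubring Qb)

/-- **(R2e) at `Q`.**  The Gauss reduction of an element of the chart `chartA N A (tQ Q)` is
regular at `Q`. -/
theorem red_mem_valuationSubring (hℓN : ¬ ℓ ∣ N) (hA : A.LiesOverPrime ℓ)
    (Q : Place (IsLocalRing.ResidueField A)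
      (modularFunctionFieldFullC (IsLocalRing.ResidueField A) N))
    {x : modularFunctionFieldBar N} (hx : x ∈ chartA N A (R0.tQ N A Q))
    {b : modularFunctionFieldFullC (IsLocalRing.ResidueField A) N} (hb : R0.Red N A x b) :
    b ∈ Q.toValuationSubring :=
  mem_of_isIntegral_adjoin_tbQ N A Q
    (isIntegral_of_red N ℓ A hℓN hA (tQ_tbQ N A Q) hx hb)

end AtQ'

end Fermat.Agent.S37.RedInt
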