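/-
S37 block [R0], rows R2/R3b → R9 — SpFibChartA.lean (helper9).

From the statement of row R2 (`SpFib.R2Statement`: for every good `K` the Gauss reductions of
the level-`K` chart are exactly the integral closure `B_t̄` of `k[t̄]` in `F_k`) to the inputs of
row R9 [Unique] (`R0UniqueCore.lean`, helper43):

* `spFrac_of_R2`   : `R0Unique.SpFrac N A t` for `t = j`, `j⁻¹`
                     (every function regular at a place `Q` of `F_k` is a quotient of Gauss
                     reductions of elements of the `A`-level chart, denominator a unit at `Q`);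
* `chartSep_of_R2` : `R0Unique.ChartSep N A t` for `t = j`, `j⁻¹`;
* `uniqueStatement_of_R2` : the leaf `R0Part.UniqueStatement N ℓ`.
-/
import Mathlib
import Fermat.Agent.S18.Base
import Fermat.Agent.S37.PMChartA
import Fermat.Agent.S37.R0Mem
import Fermat.Agent.S37.R0UniqueCore
import Fermat.Agent.S37.SpFib
import Fermat.Agent.S37.SpFibB

set_option autoImplicit false

noncomputable section

namespace Fermat.Agent.S37.SpFibChartA

open ModularCurve AlgebraicCurve HahnSeries Fermat.Agent.S37.PM Fermat.Agent.S18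
  Fermat.Agent.S18.Arith

set_option synthInstance.maxHeartbeats 400000

variable (N : ℕ) [NeZero N] (ℓ : ℕ) [Fact ℓ.Prime]

/-- **`SpFrac` for one chart**, from R2. -/
theorem spFrac_of_R2_aux (hR2 : SpFib.R2Statement N ℓ) (hℓN : ¬ ℓ ∣ N)
    (A : ValuationSubring PM.Qb) (hA : A.LiesOverPrime ℓ)
    (t : modularFunctionFieldBar N) (tb : LaurentSeries (IsLocalRing.ResidueField A))
    (htb : GRel A ((t : modularFunctionFieldBar N) : LaurentSeries PM.Qb) tb)
    (htbF : tb ∈ modularFunctionFieldFullC (IsLocalRing.ResidueField A) N)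
    (hcase : ∀ K : IntermediateField ℚ PM.Qb, ∃ tK : FK N K,
      (tK : LaurentSeries PM.Qb) = (t : LaurentSeries PM.Qb) ∧
      ((tK = jK N K ∧ tb = jqModC (IsLocalRing.ResidueField A)) ∨
        (tK = (jK N K)⁻¹ ∧ tb = (jqModC (IsLocalRing.ResidueField A))⁻¹))) :
    R0Unique.SpFrac N A t := by
  intro Q hreg f hf
  obtain ⟨K, -, hB⟩ := Base.baseStatement ℓ A hA ∅
  obtain ⟨tK, htK, hcase'⟩ := hcase K
  have htQ : ∃ h : tb ∈ modularFunctionFieldFullC (IsLocalRing.ResidueField A) N,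
      (⟨tb, h⟩ : modularFunctionFieldFullC (IsLocalRing.ResidueField A) N) ∈
        Q.toValuationSubring := ⟨htbF, hreg tb htbF htb⟩
  obtain ⟨-, h2⟩ := SpFib.exists_chart_frac_of N A ℓ hR2 hℓN hA K hB tK tb hcase' Q htQ
  obtain ⟨x, y, a, s, hx, hy, hxa, hys, -, hsu, hfs⟩ := h2 f hf
  obtain ⟨x₁, hx₁, hx₁e⟩ := PMChartA.exists_mem_chartA_of_mem_chart N A K t tK htK x hx
  obtain ⟨x₂, hx₂, hx₂e⟩ := PMChartA.exists_mem_chartA_of_mem_chart N A K t tK htK y hy
  refine ⟨x₁, hx₁, x₂, hx₂, (a : LaurentSeries (IsLocalRing.ResidueField A)),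
    (s : LaurentSeries (IsLocalRing.ResidueField A)), a.2, s.2, ?_, ?_, hsu, hfs⟩
  · rw [hx₁e]
    exact hxa
  · rw [hx₂e]
    exact hys

/-- **`SpFrac` for the two charts**, from R2. -/
theorem spFrac_of_R2 (hR2 : SpFib.R2Statement N ℓ) (hℓN : ¬ ℓ ∣ N)
    (A : ValuationSubring PM.Qb) (hA : A.LiesOverPrime ℓ) :
    R0Unique.SpFrac N A (jbar N) ∧ R0Unique.SpFrac N A (jbar N)⁻¹ := by
  constructor
  · refine spFrac_of_R2_aux N ℓ hR2 hℓN A hA (jbar N) (jqModC (IsLocalRing.ResidueField A))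
      (Fermat.Agent.S37.R0Mem.red_jbar N A) (jqModC_mem_full _ N) fun K => ?_
    exact ⟨jK N K, PMChartA.coe_jK N K, Or.inl ⟨rfl, rfl⟩⟩
  · refine spFrac_of_R2_aux N ℓ hR2 hℓN A hA (jbar N)⁻¹
      (jqModC (IsLocalRing.ResidueField A))⁻¹ ?_ ?_ fun K => ?_
    · have h := Fermat.Agent.S37.R0Mem.red_jbar_inv N A
      unfold Fermat.Agent.S37.R0.Red at h
      rw [IntermediateField.coe_inv] at h
      exact h
    · exact (modularFunctionFieldFullC (IsLocalRing.ResidueField A) N).inv_mem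
        (jqModC_mem_full _ N)
    · exact ⟨(jK N K)⁻¹, PMChartA.coe_jK_inv N K, Or.inr ⟨rfl, rfl⟩⟩

/-- **`ChartSep` for the two charts**, from R2. -/
theorem chartSep_of_R2 (hR2 : SpFib.R2Statement N ℓ) (hℓN : ¬ ℓ ∣ N)
    (A : ValuationSubring PM.Qb) (hA : A.LiesOverPrime ℓ) :
    R0Unique.ChartSep N A (jbar N) ∧ R0Unique.ChartSep N A (jbar N)⁻¹ :=
  ⟨R0Unique.chartSep_of_spFrac (spFrac_of_R2 N ℓ hR2 hℓN A hA).1,
    R0Unique.chartSep_of_spFrac (spFrac_of_R2 N ℓ hR2 hℓN A hA).2⟩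

/-- **Row R2** (helper55, `SpFibB.gRel_mem_chart_iff`) in `Prop` form. -/
theorem r2Statement : SpFib.R2Statement N ℓ :=
  fun hℓN A hA K hB t tb ht b => SpFibB.gRel_mem_chart_iff N ℓ hℓN A hA K hB t tb ht b

/-- **R3b (chart form)**, unconditional (#1699 `exists_chart_frac`): every `d ∈ O_Q` is
`ρ(x) / ρ(y)` with `x, y` in the level-`K` chart and `ρ(y)` a unit at `Q`, for every good `K`. -/
theorem exists_chart_frac (hℓN : ¬ ℓ ∣ N) (A : ValuationSubring PM.Qb)
    (hA : A.LiesOverPrime ℓ) (K : IntermediateField ℚ PM.Qb)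
    (hB : BaseFacts ℓ A K) (t : FK N K) (tb : LaurentSeries (IsLocalRing.ResidueField A))
    (ht : (t = jK N K ∧ tb = jqModC (IsLocalRing.ResidueField A)) ∨
      (t = (jK N K)⁻¹ ∧ tb = (jqModC (IsLocalRing.ResidueField A))⁻¹))
    (Q : Place (IsLocalRing.ResidueField A)
      (modularFunctionFieldFullC (IsLocalRing.ResidueField A) N))
    (htQ : ∃ h : tb ∈ modularFunctionFieldFullC (IsLocalRing.ResidueField A) N,
      (⟨tb, h⟩ : modularFunctionFieldFullC (IsLocalRing.ResidueField A) N) ∈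
        Q.toValuationSubring) :
    (∀ x : FK N K, x ∈ chart N A K t → ∀ b, GRel A (x : LaurentSeries PM.Qb) b →
      ∃ hb : b ∈ modularFunctionFieldFullC (IsLocalRing.ResidueField A) N,
        (⟨b, hb⟩ : modularFunctionFieldFullC (IsLocalRing.ResidueField A) N) ∈
          Q.toValuationSubring) ∧
    ∀ d ∈ Q.toValuationSubring, ∃ (x y : FK N K)
      (a s : modularFunctionFieldFullC (IsLocalRing.ResidueField A) N),
      x ∈ chart N A K t ∧ y ∈ chart N A K t ∧
      GRel A (x : LaurentSeries PM.Qb) (a : LaurentSeries (IsLocalRing.ResidueField A)) ∧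
      GRel A (y : LaurentSeries PM.Qb) (s : LaurentSeries (IsLocalRing.ResidueField A)) ∧
      s ∈ Q.toValuationSubring ∧ s ∉ Q.toValuationSubring.nonunits ∧ d * s = a :=
  SpFib.exists_chart_frac_of N A ℓ (r2Statement N ℓ) hℓN hA K hB t tb ht Q htQ

/-- `SpFrac` for the two charts, unconditional. -/
theorem spFrac (hℓN : ¬ ℓ ∣ N) (A : ValuationSubring PM.Qb) (hA : A.LiesOverPrime ℓ) :
    R0Unique.SpFrac N A (jbar N) ∧ R0Unique.SpFrac N A (jbar N)⁻¹ :=
  spFrac_of_R2 N ℓ (r2Statement N ℓ) hℓN A hA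

/-- `ChartSep` for the two charts, unconditional. -/
theorem chartSep (hℓN : ¬ ℓ ∣ N) (A : ValuationSubring PM.Qb) (hA : A.LiesOverPrime ℓ) :
    R0Unique.ChartSep N A (jbar N) ∧ R0Unique.ChartSep N A (jbar N)⁻¹ :=
  chartSep_of_R2 N ℓ (r2Statement N ℓ) hℓN A hA

end Fermat.Agent.S37.SpFibChartA

namespace Fermat.Agent.S37.SpFibChartA

open Fermat.Agent.S37.PM

/-- **R9 [Unique] from R2.** -/
theorem uniqueStatement_of_R2 (N ℓ : ℕ) [NeZero N]
    (hR2 : ∀ [Fact ℓ.Prime], SpFib.R2Statement N ℓ) : R0Part.UniqueStatement N ℓ := by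
  refine R0Unique.uniqueStatement_of_chartSep N ℓ fun hℓ hℓN A hA => ?_
  have : Fact ℓ.Prime := ⟨hℓ⟩
  exact chartSep_of_R2 N ℓ hR2 hℓN A hA

/-- **R9 [Unique]**, unconditional: a place of `F̄` reduces to at most one place of `F_k`. -/
theorem uniqueStatement_of_spFib (N ℓ : ℕ) [NeZero N] : R0Part.UniqueStatement N ℓ :=
  uniqueStatement_of_R2 N ℓ (fun {_} => r2Statement N ℓ)

end Fermat.Agent.S37.SpFibChartA
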