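/-
S37 — ValDet.lean (helper3): "values determine a finite multiset of points".

If `k` is an infinite field, `B` a commutative `k`-algebra and `s`, `t` two finite multisets of
`k`-algebra homomorphisms `B → k` ("points") such that every `b : B` has the same product of
values on `s` and on `t`, then `s = t`.

Used for the Eichler–Shimura congruence at divisor level: an effective divisor on the reduced
curve is determined by the products of the values of all regular functions on it.
-/
import Mathlib

set_option autoImplicit false

namespace Fermat.Agent.S37.ValDet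

open Polynomial

/-- Two multisets with the same image under a map injective on their members are equal. -/
theorem eq_of_map_eq_of_injOn {α β : Type*} (f : α → β) (s t : Multiset α)
    (hf : ∀ a ∈ s + t, ∀ b ∈ s + t, f a = f b → a = b)
    (h : s.map f = t.map f) : s = t := by
  classical
  have key : ∀ (s t : Multiset α), (∀ a ∈ s + t, ∀ b ∈ s + t, f a = f b → a = b) →
      s.map f = t.map f → ∀ a ∈ s, a ∈ t := by
    intro s t hf h a ha
    have h1 : f a ∈ t.map f := by
      rw [← h]
      exact Multiset.mem_map_of_mem f ha
    obtain ⟨b, hb, hab⟩ := Multiset.mem_map.mp h1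
    have : b = a := hf b (Multiset.mem_add.mpr (Or.inr hb)) a (Multiset.mem_add.mpr (Or.inl ha)) hab
    exact this ▸ hb
  have hst : ∀ a ∈ s, a ∈ t := key s t hf h
  have hts : ∀ a ∈ t, a ∈ s := key t s (fun a ha b hb => hf a (by rwa [add_comm]) b
    (by rwa [add_comm])) h.symm
  ext a
  by_cases ha : a ∈ s
  · have hat := hst a ha
    have e1 : (s.map f).count (f a) = s.count a :=
      Multiset.count_map_eq_count f s
        (fun x hx y hy hxy => hf x (Multiset.mem_add.mpr (Or.inl hx)) y
          (Multiset.mem_add.mpr (Or.inl hy)) hxy) a ha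
    have e2 : (t.map f).count (f a) = t.count a :=
      Multiset.count_map_eq_count f t
        (fun x hx y hy hxy => hf x (Multiset.mem_add.mpr (Or.inr hx)) y
          (Multiset.mem_add.mpr (Or.inr hy)) hxy) a hat
    rw [← e1, ← e2, h]
  · have hat : a ∉ t := fun h' => ha (hts a h')
    rw [Multiset.count_eq_zero_of_notMem ha, Multiset.count_eq_zero_of_notMem hat]

variable {k B : Type*} [Field k] [Infinite k] [CommRing B] [Algebra k B]

/-- Finitely many points of `B` are separated by a single element of `B`. -/
theorem exists_separating (S : Finset (B →ₐ[k] k)) :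
    ∃ g : B, ∀ χ ∈ S, ∀ χ' ∈ S, χ g = χ' g → χ = χ' := by
  classical
  let ι := {p : (B →ₐ[k] k) × (B →ₐ[k] k) // p.1 ∈ S ∧ p.2 ∈ S ∧ p.1 ≠ p.2}
  have : Finite ι :=
    Finite.of_injective (fun p : ι => ((⟨p.1.1, p.2.1⟩, ⟨p.1.2, p.2.2.1⟩) : S × S))
      (fun p q hpq => by
        have h1 := congrArg (fun x : S × S => (x.1 : B →ₐ[k] k)) hpq
        have h2 := congrArg (fun x : S × S => (x.2 : B →ₐ[k] k)) hpq
        exact Subtype.ext (Prod.ext h1 h2))
  let f : ι → Module.Dual k B := fun p => p.1.1.toLinearMap - p.1.2.toLinearMap
  have hf : ∀ i, ∃ x, f i x ≠ 0 := by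
    intro p
    by_contra hcon
    push Not at hcon
    apply p.2.2.2
    apply AlgHom.ext
    intro x
    have := hcon x
    simpa [f, sub_eq_zero] using this
  obtain ⟨g, hg⟩ := Module.Dual.exists_forall_ne_zero_of_forall_exists f hf
  refine ⟨g, fun χ hχ χ' hχ' h => ?_⟩
  by_contra hne
  have := hg ⟨(χ, χ'), hχ, hχ', hne⟩
  apply this
  simp [f, h]

/-- **Values determine a multiset of points.** -/
theorem multiset_eq_of_prod_eq (s t : Multiset (B →ₐ[k] k))
    (h : ∀ b : B, (s.map fun χ => χ b).prod = (t.map fun χ => χ b).prod) : s = t := by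
  classical
  obtain ⟨g, hg⟩ := exists_separating (k := k) (B := B) (s + t).toFinset
  have hpoly : ((s.map fun χ => χ g).map fun a => X - C a).prod
      = ((t.map fun χ => χ g).map fun a => X - C a).prod := by
    apply Polynomial.funext
    intro c
    rw [eval_multiset_prod, eval_multiset_prod, Multiset.map_map, Multiset.map_map,
      Multiset.map_map, Multiset.map_map]
    have h1 := h (algebraMap k B c - g)
    have e : ∀ u : Multiset (B →ₐ[k] k),
        u.map (fun χ => χ (algebraMap k B c - g))
          = u.map ((fun p => eval c p) ∘ (fun a => X - C a) ∘ fun χ => χ g) := by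
      intro u
      refine Multiset.map_congr rfl fun χ _ => ?_
      simp [map_sub]
    rw [e s, e t] at h1
    exact h1
  have hroots : (s.map fun χ => χ g) = (t.map fun χ => χ g) := by
    have h1 := congrArg Polynomial.roots hpoly
    rwa [roots_multiset_prod_X_sub_C, roots_multiset_prod_X_sub_C] at h1
  refine eq_of_map_eq_of_injOn (fun χ => χ g) s t (fun a ha b hb hab => ?_) hroots
  exact hg a (Multiset.mem_toFinset.mpr ha) b (Multiset.mem_toFinset.mpr hb) hab

end Fermat.Agent.S37.ValDet
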